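import Mathlib
import Fermat.Agent.TW.LG.MatchTower

/-!
# TW / [C] C/Sigma, step (b): the matrix representation of a commuting action (helper21)

`M` an `𝒪`-module with an action of a commutative `𝒪`-algebra `T` and an `𝒪`-algebra map
`ψ : A → End_𝒪 M` commuting with `T`, such that `M` is free over `A` (through `ψ`) on `b : J → M`
(stated on the `𝒪`-level: the family `ψ (e k) (b j)` is an `𝒪`-basis, `e : K → A` spanning `A`).
Then `T` acts through matrices over `A`:

* `twc_sg_act` : `act : T →ₐ[𝒪] Matrix J J A` with `x • b j = ∑ i, ψ (act x i j) (b i)`,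
  uniqueness of coordinates, uniqueness of the matrix, and the coordinates of an element of
  `ψ(I) M` lie in `I`.
-/

set_option autoImplicit false
set_option linter.unusedSectionVars false
set_option linter.style.haveILetI false

namespace Fermat.Agent.TW

open Finset

section SigmaAct

variable {𝒪 A T M J K : Type*} [CommRing 𝒪] [CommRing A] [Algebra 𝒪 A] [CommRing T] [Algebra 𝒪 T]
  [AddCommGroup M] [Module 𝒪 M] [Module T M] [IsScalarTower 𝒪 T M] [Fintype J] [DecidableEq J]
  [Fintype K]

/-- the submodule `ψ(I) M`. -/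
def twc_sg_sub (ψ : A →ₐ[𝒪] Module.End 𝒪 M) (I : Ideal A) : Submodule 𝒪 M :=
  Submodule.span 𝒪 {y : M | ∃ a ∈ I, ∃ m : M, y = ψ a m}

/-- **the matrix representation.** -/
theorem twc_sg_act (ψ : A →ₐ[𝒪] Module.End 𝒪 M)
    (hcomm : ∀ (a : A) (x : T) (m : M), ψ a (x • m) = x • ψ a m)
    (e : K → A) (hspanA : ∀ a : A, ∃ c : K → 𝒪, a = ∑ k, c k • e k)
    (b : J → M)
    (hli : LinearIndependent 𝒪 (fun kj : K × J => ψ (e kj.1) (b kj.2)))
    (hspan : ⊤ ≤ Submodule.span 𝒪 (Set.range fun kj : K × J => ψ (e kj.1) (b kj.2))) :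
    ∃ act : T →ₐ[𝒪] Matrix J J A,
      (∀ (x : T) (j : J), x • b j = ∑ i, ψ (act x i j) (b i)) ∧
      (∀ a : J → A, ∑ i, ψ (a i) (b i) = 0 → a = 0) ∧
      (∀ m : M, ∃ a : J → A, m = ∑ i, ψ (a i) (b i)) ∧
      (∀ (x : T) (C : Matrix J J A), (∀ j, x • b j = ∑ i, ψ (C i j) (b i)) → act x = C) ∧
      (∀ (I : Ideal A) (a : J → A), ∑ i, ψ (a i) (b i) ∈ twc_sg_sub ψ I → ∀ i, a i ∈ I) := by
  classical
  letI modA : Module A M := Module.compHom M (ψ : A →+* Module.End 𝒪 M)
  have hsmul : ∀ (a : A) (m : M), a • m = ψ a m := fun a m => rfl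
  haveI : IsScalarTower 𝒪 A M := ⟨fun c a m => by
    rw [hsmul, hsmul, map_smul, LinearMap.smul_apply]⟩
  haveI : SMulCommClass T A M := ⟨fun x a m => by
    rw [hsmul, hsmul, hcomm]⟩
  haveI : SMulCommClass A T M := ⟨fun a x m => by
    rw [hsmul, hsmul, hcomm]⟩
  -- the `A`-basis
  have hli' : LinearIndependent 𝒪 (fun kj : K × J => e kj.1 • b kj.2) := hli
  have hspan' : ⊤ ≤ Submodule.span 𝒪 (Set.range fun kj : K × J => e kj.1 • b kj.2) := hspan
  set Bs : Module.Basis J A M := twlg_towerBasis e hspanA b hli' hspan' with hBs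
  have hBsj : ∀ j, Bs j = b j := fun j => twlg_towerBasis_apply e hspanA b hli' hspan' j
  -- the action of `T` by `A`-linear endomorphisms
  let f : T →+* Module.End A M :=
    { toFun := fun x =>
        { toFun := fun m => x • m
          map_add' := smul_add x
          map_smul' := fun a m => by
            simp only [RingHom.id_apply]
            exact smul_comm x a m }
      map_one' := by ext m; simp
      map_mul' := fun x y => by ext m; simp [mul_smul]
      map_zero' := by ext m; simp
      map_add' := fun x y => by ext m; simp [add_smul] }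
  have hf : ∀ x m, f x m = x • m := fun x m => rfl
  let actR : T →+* Matrix J J A :=
    ((LinearMap.toMatrixAlgEquiv Bs : Module.End A M ≃ₐ[A] Matrix J J A) :
      Module.End A M →+* Matrix J J A).comp f
  have hactR : ∀ x i j, actR x i j = Bs.repr (x • b j) i := by
    intro x i j
    show LinearMap.toMatrixAlgEquiv Bs (f x) i j = _
    rw [LinearMap.toMatrixAlgEquiv_apply, hf, hBsj]
  have hcommutes : ∀ c : 𝒪, actR (algebraMap 𝒪 T c) = algebraMap 𝒪 (Matrix J J A) c := by
    intro c
    ext i j
    rw [hactR, algebraMap_smul, Matrix.algebraMap_matrix_apply]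
    rw [← algebraMap_smul A c (b j), map_smul, ← hBsj j, Bs.repr_self]
    by_cases hij : i = j
    · subst hij
      simp [Algebra.algebraMap_eq_smul_one]
    · rw [if_neg hij]
      simp [Finsupp.single_apply, Ne.symm hij, hij]
  let act : T →ₐ[𝒪] Matrix J J A := { actR with commutes' := hcommutes }
  have hact : ∀ x i j, act x i j = Bs.repr (x • b j) i := hactR
  have hsum : ∀ a : J → A, ∑ i, ψ (a i) (b i) = ∑ i, a i • Bs i := by
    intro a
    refine Finset.sum_congr rfl fun i _ => ?_
    rw [hBsj, hsmul]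
  have huniq : ∀ a : J → A, ∑ i, ψ (a i) (b i) = 0 → a = 0 := by
    intro a ha
    rw [hsum] at ha
    funext i
    exact Fintype.linearIndependent_iff.1 Bs.linearIndependent a ha i
  have hrepr : ∀ m : M, m = ∑ i, ψ (Bs.repr m i) (b i) := by
    intro m
    rw [hsum]
    exact (Bs.sum_repr m).symm
  have h1 : ∀ (x : T) (j : J), x • b j = ∑ i, ψ (act x i j) (b i) := by
    intro x j
    rw [hrepr (x • b j)]
    refine Finset.sum_congr rfl fun i _ => ?_
    rw [hact]
  refine ⟨act, h1, huniq, fun m => ⟨fun i => Bs.repr m i, hrepr m⟩, ?_, ?_⟩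
  · intro x C hC
    ext i j
    have h2 : ∑ i, ψ ((fun i => act x i j - C i j) i) (b i) = 0 := by
      simp only [map_sub, LinearMap.sub_apply, Finset.sum_sub_distrib]
      rw [← h1 x j, ← hC j, sub_self]
    have h3 := congrFun (huniq _ h2) i
    exact sub_eq_zero.1 h3
  · intro I a ha
    -- every element of `ψ(I) M` has coordinates in `I`
    have key : ∀ m ∈ twc_sg_sub ψ I, ∀ i, Bs.repr m i ∈ I := by
      intro m hm
      refine Submodule.span_induction ?_ ?_ ?_ ?_ hm
      · rintro _ ⟨a', ha', m', rfl⟩ i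
        rw [← hsmul, map_smul, Finsupp.smul_apply, smul_eq_mul]
        exact I.mul_mem_right _ ha'
      · intro i
        simp
      · intro x y _ _ hx hy i
        rw [map_add, Finsupp.add_apply]
        exact I.add_mem (hx i) (hy i)
      · intro c x _ hx i
        rw [← algebraMap_smul A c x, map_smul, Finsupp.smul_apply, smul_eq_mul]
        exact I.mul_mem_left _ (hx i)
    intro i
    have h2 := key _ ha i
    rw [hsum, Bs.repr_sum_self] at h2
    exact h2

end SigmaAct

end Fermat.Agent.TW
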