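import Mathlib
import Fermat.Agent.S56.Asm.Fin
import Fermat.Agent.S56.LocQ.Main

/-!
# Project TW (S43), block [C] DEF, cell C/Core (prefix `twc_`)

The Taylor–Wiles count of `S56/Asm/Fin.lean` (`s56a_core`) with a finite set `Th` of **hard
primes**: primes `ℓ ≠ p` at which the framed residual representation `rb` is SCALAR on the
decomposition group `D_ℓ` (so `B¹(D_ℓ, ad⁰) = 0`, `h⁰(D_ℓ, ad⁰) = 3`).  At the hard primes the local
condition is the STRICT one: the cocycle of the deformation vanishes on `D_ℓ` (this is the relative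
tangent space over the local lifting rings at the hard primes).

* `twc_finrank_inv_of_scalar` : `rb` scalar on `D` ⟹ `3 ≤ dim_k H⁰(D, ad⁰)`.
* `twc_card_mul_le` : the cardinality form of the count.
* `twc_core` : ∃ `r`, `3 |Th| ≤ r`, and for every `n` Taylor–Wiles primes `qv : Fin r → ℕ` of level
  `n` and a finite `W ⊆ H¹(G_ℚ, ad⁰ rb)` with `|W| · |k|^(3|Th|) ≤ |k|^r` containing the class of
  every framed deformation to `k[ε]` of the enlarged type whose cocycle vanishes on `D_ℓ`, `ℓ ∈ Th`.
-/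

set_option autoImplicit false
set_option linter.unusedSectionVars false
set_option linter.style.haveILetI false

open Polynomial IsLocalRing CategoryTheory Module groupCohomology ExtCitation
open Fermat.Agent.S53 Fermat.Agent.S56

namespace Fermat.Agent.TW

noncomputable section

local notation "GQ" => (AlgebraicClosure ℚ ≃ₐ[ℚ] AlgebraicClosure ℚ)

section inv

variable {k : Type} [Field k]

/-- the trace-zero `2 × 2` matrices have dimension `3`. -/
theorem twc_finrank_ker_trace :
    finrank k (LinearMap.ker (Matrix.traceLinearMap (Fin 2) k k)) = 3 := by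
  have hsurj : Function.Surjective (Matrix.traceLinearMap (Fin 2) k k) := by
    intro a
    refine ⟨Matrix.of ![![a, 0], ![0, 0]], ?_⟩
    simp [Matrix.trace_fin_two]
  have h := LinearMap.finrank_range_add_finrank_ker (Matrix.traceLinearMap (Fin 2) k k)
  rw [LinearMap.range_eq_top.mpr hsurj, finrank_top, Module.finrank_self,
    Module.finrank_matrix] at h
  simp at h
  omega

/-- if `rb` is scalar on `D` then `H⁰(D, ad⁰ rb)` is the space of all trace-zero matrices. -/
theorem twc_finrank_inv_of_scalar (rb : FramedResidual k) (D : Subgroup GQ)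
    (hscal : ∀ σ ∈ D, ∃ a : k, rb σ = Matrix.scalar (Fin 2) a) :
    3 ≤ finrank k (s56a_inv rb D) := by
  have hle : LinearMap.ker (Matrix.traceLinearMap (Fin 2) k k) ≤ s56a_inv rb D := by
    intro m hm
    refine ⟨by simpa using hm, fun σ hσ => ?_⟩
    obtain ⟨a, ha⟩ := hscal σ hσ
    rw [ha]
    exact (Matrix.scalar_commute a (fun r => Commute.all a r) m).eq
  calc 3 = finrank k (LinearMap.ker (Matrix.traceLinearMap (Fin 2) k k)) :=
        twc_finrank_ker_trace.symm
    _ ≤ finrank k (s56a_inv rb D) := Submodule.finrank_mono hle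

end inv

/-- the cardinality form of the count with hard primes. -/
theorem twc_card_mul_le (p : ℕ) [Fact p.Prime] {k : Type} [Field k] [Finite k]
    [Algebra (ZMod p) k] {V : Type} [AddCommGroup V] [Module (ZMod p) V]
    (W : Submodule (ZMod p) V) [FiniteDimensional (ZMod p) W] (n t : ℕ)
    (h : Module.finrank (ZMod p) W + 3 * t * Module.finrank (ZMod p) k ≤
      n * Module.finrank (ZMod p) k) :
    Nat.card W * Nat.card k ^ (3 * t) ≤ Nat.card k ^ n := by
  rw [Module.natCard_eq_pow_finrank (K := ZMod p) (V := W),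
    Module.natCard_eq_pow_finrank (K := ZMod p) (V := k), ← pow_mul, ← pow_mul, ← pow_add]
  refine Nat.pow_le_pow_right Nat.card_pos ?_
  calc finrank (ZMod p) ↥W + finrank (ZMod p) k * (3 * t)
      = finrank (ZMod p) ↥W + 3 * t * finrank (ZMod p) k := by ring
    _ ≤ n * finrank (ZMod p) k := h
    _ = finrank (ZMod p) k * n := by ring

/-- the arithmetic of the count with hard primes. -/
theorem twc_arith (A a b c x y z d r e : ℕ) (h : A + a + b + c ≤ x + y + z) (hz : z = 0)
    (hx : x + e ≤ a + d) (hb : d ≤ b) (hy : y ≤ c + r * d) : A + e ≤ r * d := by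
  subst hz
  omega

section core

variable (p : ℕ) [Fact p.Prime] {k : Type} [Field k] [Finite k] [Algebra (ZMod p) k]

/-- **C/Core: the Taylor–Wiles count with hard primes.** -/
theorem twc_core (hGW : s56gw_Main_stmt) (hCls : s56a_Cls_stmt) (hQ : s56a_LocQ_stmt)
    (hTWl : s56a_LocTW_stmt) (hCheb : s56a_Cheb_stmt) (hM : s56a_M_stmt)
    (hp2 : p ≠ 2) (rb : FramedResidual k) (hyp : s56a_Hyp p rb.toResidualGaloisRep)
    (Pp : FramedRep (DualNumber k) → Prop)
    (hPp : s56a_LocShape rb ((padicPlace p).decompositionSubgroup ℚ)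
      (fun r => r.toGaloisRepAdic.DetIsCyclotomic p ∧ Pp r) 1)
    (S Smin : Finset ℕ) (hpSmin : p ∈ Smin) (hSmin : Smin ⊆ S)
    (hmin : ∀ q : ℕ, q.Prime → q ≠ p →
      (q ∈ Smin ↔ ¬ rb.toResidualGaloisRep.IsUnramifiedAt q))
    (Th : Finset Nat.Primes) (hThS : ∀ ℓ ∈ Th, (ℓ : ℕ) ∈ S) (hThmin : ∀ ℓ ∈ Th, (ℓ : ℕ) ∉ Smin)
    (hscal : ∀ ℓ ∈ Th, ∀ σ ∈ (primeLocalPlace ℓ).decompositionSubgroup ℚ,
      ∃ a : k, rb σ = Matrix.scalar (Fin 2) a) :
    ∃ r : ℕ, ∀ n : ℕ, ∃ qv : Fin r → ℕ, Function.Injective qv ∧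
      (∀ i, (qv i).Prime ∧ qv i ∉ S ∧ p ^ (n + 1) ∣ qv i - 1) ∧
      (∀ i, ∀ P : ValuationSubring (AlgebraicClosure ℚ), P.LiesOverPrime (qv i) →
        ∀ φ : GQ, P.IsFrobeniusAt φ (qv i) → ∃ α β : k, α ≠ β ∧
          LinearMap.charpoly (rb.toResidualGaloisRep.ρ φ) = (X - C α) * (X - C β)) ∧
      3 * Th.card ≤ r ∧
      ∃ W : Submodule (ZMod p) (H1 (s56a_ad p rb)), Finite W ∧
        Nat.card W * Nat.card k ^ (3 * Th.card) ≤ Nat.card k ^ r ∧
        ∀ (r' : FramedRep (DualNumber k)) (hc : s56t_IsCoc rb.toMonoidHom (s56t_coc r')),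
          (∀ σ, s56t_bar r' σ = rb σ) → r'.toGaloisRepAdic.DetIsCyclotomic p → Pp r' →
          (∀ q : ℕ, q.Prime → q ∉ Smin ∪ Th.image (fun ℓ : Nat.Primes => (ℓ : ℕ)) ∪ Finset.univ.image qv →
            r'.toGaloisRepAdic.IsUnramifiedAt q) →
          (∀ q ∈ Smin, q.Prime → q ≠ p → r'.toGaloisRepAdic.IsUnipotentOnInertiaAt q) →
          (∀ ℓ ∈ Th, ∀ σ ∈ (primeLocalPlace ℓ).decompositionSubgroup ℚ, s56t_coc r' σ = 0) →
          s56t_cls p (s56t_coc r') hc ∈ W := by
  classical
  obtain ⟨L, hL1, hL2, hL3, hL4, hL5, hL6, hL7, hL8⟩ := hCls p k rb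
  obtain ⟨hMfd, hMsm, hMni, hMni', hMur⟩ := hM p hp2 k rb hyp
  haveI := hMfd
  have h2ne : (2 : k) ≠ 0 := by
    haveI : CharP k p := charP_of_injective_algebraMap (algebraMap (ZMod p) k).injective p
    intro h
    have h2 : ((2 : ℕ) : k) = 0 := by exact_mod_cast h
    have hdvd := (CharP.cast_eq_zero_iff k p 2).mp h2
    exact hp2 ((Nat.prime_dvd_prime_iff_eq (Fact.out : p.Prime) Nat.prime_two).mp hdvd)
  -- `Smin` as a set of primes, and the enlarged set
  let Sm0 : Finset Nat.Primes := Smin.subtype Nat.Prime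
  have hmemSm0 : ∀ q : Nat.Primes, q ∈ Sm0 ↔ (q : ℕ) ∈ Smin := fun q => Finset.mem_subtype
  let Sm : Finset Nat.Primes := Sm0 ∪ Th
  have hdisj0 : Disjoint Sm0 Th := by
    rw [Finset.disjoint_left]
    intro q hq hqT
    exact hThmin q hqT ((hmemSm0 q).mp hq)
  have hpSm0 : pPrime p ∈ Sm0 := (hmemSm0 _).mpr hpSmin
  have hpSm : pPrime p ∈ Sm := Finset.mem_union_left _ hpSm0
  have hpTh : pPrime p ∉ Th := fun h => hThmin _ h hpSmin
  have hur : ∀ q : Nat.Primes, q ∉ Sm → rb.toResidualGaloisRep.IsUnramifiedAt (q : ℕ) := by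
    intro q hq
    by_contra h
    have hq0 : q ∉ Sm0 := fun h' => hq (Finset.mem_union_left _ h')
    have hqp : (q : ℕ) ≠ p := fun h' => hq0 ((hmemSm0 q).mpr (h' ▸ hpSmin))
    exact hq0 ((hmemSm0 q).mpr ((hmin q q.2 hqp).mpr h))
  have hMur' := hMur Sm hur
  -- the local subspaces
  have hloc : ∀ q : Nat.Primes, ∃ Cq : Submodule k (GQ → Matrix (Fin 2) (Fin 2) k), q ∈ Sm →
      (∀ r' : FramedRep (DualNumber k), (∀ σ, s56t_bar r' σ = rb σ) →
        r'.toGaloisRepAdic.DetIsCyclotomic p → (q = pPrime p → Pp r') →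
        (q ∈ Sm0 → q ≠ pPrime p → r'.toGaloisRepAdic.IsUnipotentOnInertiaAt (q : ℕ)) →
        (q ∈ Th → ∀ σ ∈ (primeLocalPlace q).decompositionSubgroup ℚ, s56t_coc r' σ = 0) →
        s56t_coc r' ∈ Cq) ∧
      FiniteDimensional k (↥Cq ⧸
        (s56a_cobOn rb ((primeLocalPlace q).decompositionSubgroup ℚ)).comap Cq.subtype) ∧
      finrank k (↥Cq ⧸
        (s56a_cobOn rb ((primeLocalPlace q).decompositionSubgroup ℚ)).comap Cq.subtype) +
          (if q ∈ Th then 3 else 0) ≤
        finrank k (s56a_inv rb ((primeLocalPlace q).decompositionSubgroup ℚ)) +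
          (if q = pPrime p then 1 else 0) := by
    intro q
    by_cases hqT : q ∈ Th
    · -- a hard prime: the cochains vanishing on `D_q`
      have hqp : q ≠ pPrime p := fun h => hpTh (h ▸ hqT)
      refine ⟨s56q_vanOn ((primeLocalPlace q).decompositionSubgroup ℚ), fun _ => ?_⟩
      have hsub : Subsingleton
          (↥(s56q_vanOn (k := k) ((primeLocalPlace q).decompositionSubgroup ℚ)) ⧸
            (s56a_cobOn rb ((primeLocalPlace q).decompositionSubgroup ℚ)).comap
              (s56q_vanOn (k := k) ((primeLocalPlace q).decompositionSubgroup ℚ)).subtype) := by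
        rw [Submodule.Quotient.subsingleton_iff, eq_top_iff]
        intro c _
        exact s56q_vanOn_le_cobOn (rb := rb) _ c.2
      refine ⟨fun r' _ _ _ _ hvan => hvan hqT, inferInstance, ?_⟩
      rw [if_pos hqT, if_neg hqp, Module.finrank_zero_of_subsingleton, zero_add, add_zero]
      exact twc_finrank_inv_of_scalar rb _ (hscal q hqT)
    · by_cases hq : q ∈ Sm0
      · by_cases hqp : q = pPrime p
        · subst hqp
          obtain ⟨C0, h1, h2, h3⟩ := hPp
          refine ⟨C0, fun _ => ⟨fun r' hb hd hpp _ _ => h1 r' hb ⟨hd, hpp rfl⟩, h2, ?_⟩⟩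
          rw [if_pos rfl, if_neg hqT, add_zero]
          exact h3
        · haveI : Fact (q : ℕ).Prime := ⟨q.2⟩
          have hne : (q : ℕ) ≠ p := fun h => hqp (Subtype.ext h)
          have hram : ¬ rb.toResidualGaloisRep.IsUnramifiedAt (q : ℕ) :=
            (hmin q q.2 hne).mp ((hmemSm0 q).mp hq)
          obtain ⟨C0, h1, h2, h3⟩ := hQ p hp2 k rb (q : ℕ) hne hram
          refine ⟨C0, fun _ => ⟨fun r' hb hd _ hu _ => h1 r' hb ⟨hd, hu hq hqp⟩, h2, ?_⟩⟩
          rw [if_neg hqp, if_neg hqT, add_zero]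
          exact h3
      · refine ⟨⊥, fun h => ?_⟩
        rcases Finset.mem_union.mp h with h | h
        · exact absurd h hq
        · exact absurd h hqT
  choose Cq hCq using hloc
  -- the local conditions and the dual Selmer group
  let L' : s56gw_Cond (s56a_ad p rb) := fun q => L q (Cq q)
  have hLle : ∀ q ∈ Sm, L' q ≤ s56gw_cH1 (s56a_ad p rb) q := fun q _ => hL2 q (Cq q)
  obtain ⟨D, hD1, hD2, hD3⟩ := hGW p hp2 Sm hpSm (s56a_ad p rb) hMsm hMur' hMni hMni' L' hLle
  haveI := hD2
  have hdpos : 0 < finrank (ZMod p) k := Module.finrank_pos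
  -- the statement at level `n`, with the inequality in `finrank` form
  have key : ∀ n : ℕ, ∃ qv : Fin (finrank (ZMod p) D) → ℕ, Function.Injective qv ∧
      (∀ i, (qv i).Prime ∧ qv i ∉ S ∧ p ^ (n + 1) ∣ qv i - 1) ∧
      (∀ i, ∀ P : ValuationSubring (AlgebraicClosure ℚ), P.LiesOverPrime (qv i) →
        ∀ φ : GQ, P.IsFrobeniusAt φ (qv i) → ∃ α β : k, α ≠ β ∧
          LinearMap.charpoly (rb.toResidualGaloisRep.ρ φ) = (X - C α) * (X - C β)) ∧
      ∃ W : Submodule (ZMod p) (H1 (s56a_ad p rb)), ∃ _ : FiniteDimensional (ZMod p) W,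
        finrank (ZMod p) W + 3 * Th.card * finrank (ZMod p) k ≤
          finrank (ZMod p) D * finrank (ZMod p) k ∧
        ∀ (r' : FramedRep (DualNumber k)) (hc : s56t_IsCoc rb.toMonoidHom (s56t_coc r')),
          (∀ σ, s56t_bar r' σ = rb σ) → r'.toGaloisRepAdic.DetIsCyclotomic p → Pp r' →
          (∀ q : ℕ, q.Prime → q ∉ Smin ∪ Th.image (fun ℓ : Nat.Primes => (ℓ : ℕ)) ∪ Finset.univ.image qv →
            r'.toGaloisRepAdic.IsUnramifiedAt q) →
          (∀ q ∈ Smin, q.Prime → q ≠ p → r'.toGaloisRepAdic.IsUnipotentOnInertiaAt q) →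
          (∀ ℓ ∈ Th, ∀ σ ∈ (primeLocalPlace ℓ).decompositionSubgroup ℚ, s56t_coc r' σ = 0) →
          s56t_cls p (s56t_coc r') hc ∈ W := by
    intro n
    obtain ⟨qv, hqinj, hq1, hq2, hq3⟩ := hCheb p hp2 k rb hyp Sm hpSm hur D hD1 hD2 n S
    have hinj : Function.Injective (fun i => ((qv i : Nat.Primes) : ℕ)) :=
      fun i j h => hqinj (Subtype.ext h)
    refine ⟨fun i => ((qv i : Nat.Primes) : ℕ), hinj,
      fun i => ⟨(qv i).2, (hq1 i).1, (hq1 i).2⟩, hq2, ?_⟩
    -- the Taylor–Wiles set
    let T : Finset Nat.Primes := Finset.univ.image qv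
    have hmemT : ∀ q : Nat.Primes, q ∈ T ↔ ∃ i, qv i = q := fun q => by
      simp only [T, Finset.mem_image, Finset.mem_univ, true_and]
    have hTS : ∀ q ∈ T, (q : ℕ) ∉ S := by
      intro q hq
      obtain ⟨i, rfl⟩ := (hmemT q).mp hq
      exact (hq1 i).1
    have hSmS : ∀ q ∈ Sm, (q : ℕ) ∈ S := by
      intro q hq
      rcases Finset.mem_union.mp hq with h | h
      · exact hSmin ((hmemSm0 q).mp h)
      · exact hThS q h
    have hdisj : Disjoint Sm T := by
      rw [Finset.disjoint_left]
      intro q hqS hqT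
      exact hTS q hqT (hSmS q hqS)
    obtain ⟨hfd, hineq⟩ := hD3 T hdisj
    haveI := hfd
    refine ⟨s56gw_Sel Sm T (s56a_ad p rb) L', hfd, ?_, ?_⟩
    · -- the count
      have hkilled : s56gw_killed T (s56gw_dual (s56a_ad p rb)) D = ⊥ := by
        rw [eq_bot_iff]
        intro y hy
        rw [s56gw_killed, Submodule.mem_inf] at hy
        refine (Submodule.mem_bot _).mpr (hq3 y hy.1 fun i => ?_)
        have h1 := hy.2
        simp only [Submodule.mem_iInf, LinearMap.mem_ker] at h1
        exact h1 (qv i) ((hmemT _).mpr ⟨i, rfl⟩)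
      refine twc_arith _ _ _ _ _ _ _ _ _ _ hineq (by rw [hkilled, finrank_bot]) ?_
        (hL6 h2ne (hL7 hp2 hyp)) ?_
      · -- the local conditions at `Sm`
        have hTh_sum : ∑ q ∈ Sm, (if q ∈ Th then 3 * finrank (ZMod p) k else 0) =
            3 * Th.card * finrank (ZMod p) k := by
          rw [← Finset.sum_filter]
          have hfil : Sm.filter (fun q => q ∈ Th) = Th := by
            ext q
            simp only [Finset.mem_filter, Sm, Finset.mem_union]
            tauto
          rw [hfil, Finset.sum_const, smul_eq_mul]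
          ring
        calc ∑ q ∈ Sm, finrank (ZMod p) (L' q) + 3 * Th.card * finrank (ZMod p) k
            = ∑ q ∈ Sm, (finrank (ZMod p) (L' q) +
                (if q ∈ Th then 3 * finrank (ZMod p) k else 0)) := by
              rw [Finset.sum_add_distrib, hTh_sum]
          _ ≤ ∑ q ∈ Sm, (finrank (ZMod p) k *
                finrank k (s56a_inv rb ((primeLocalPlace q).decompositionSubgroup ℚ)) +
                (if q = pPrime p then finrank (ZMod p) k else 0)) := by
              refine Finset.sum_le_sum fun q hq => ?_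
              obtain ⟨-, h2, h3⟩ := hCq q hq
              have h4 := (hL3 q (Cq q) h2).2
              have h5 := Nat.mul_le_mul_left (finrank (ZMod p) k) h3
              rw [Nat.mul_add, Nat.mul_add] at h5
              split_ifs at h5 ⊢ <;> simp at h5 ⊢ <;> nlinarith
          _ = ∑ q ∈ Sm, finrank (ZMod p) k *
                finrank k (s56a_inv rb ((primeLocalPlace q).decompositionSubgroup ℚ)) +
                finrank (ZMod p) k := by
              rw [Finset.sum_add_distrib, Finset.sum_ite_eq' Sm (pPrime p), if_pos hpSm]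
          _ ≤ ∑ q ∈ Sm, finrank (ZMod p) (s56gw_res (s56a_ad p rb) q).ρ.invariants +
                finrank (ZMod p) k :=
              Nat.add_le_add_right (Finset.sum_le_sum fun q _ => hL4 q) _
      · -- the Taylor–Wiles primes
        have hcard : T.card = finrank (ZMod p) D := by
          rw [Finset.card_image_of_injective _ hqinj, Finset.card_univ, Fintype.card_fin]
        calc ∑ q ∈ T, finrank (ZMod p) (s56gw_cH1 (s56a_ad p rb) q)
            ≤ ∑ q ∈ T, (finrank (ZMod p) (s56gw_res (s56a_ad p rb) q).ρ.invariants +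
                finrank (ZMod p) k) := by
              refine Finset.sum_le_sum fun q hq => ?_
              obtain ⟨i, rfl⟩ := (hmemT q).mp hq
              have hqS : qv i ∉ Sm := fun h => (hq1 i).1 (hSmS _ h)
              have hqp : ((qv i : Nat.Primes) : ℕ) ≠ p := fun h =>
                (hq1 i).1 (hSmin (h ▸ hpSmin))
              have hdvd : p ∣ ((qv i : Nat.Primes) : ℕ) - 1 :=
                (dvd_pow_self p (Nat.succ_ne_zero n)).trans (hq1 i).2
              have h1 := (hTWl p (s56a_ad p rb) hMsm (qv i) hqp hdvd (hMur' (qv i) hqS)).2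
              obtain ⟨hlo, φ, hφD, hφF⟩ := hL8 (qv i)
              have h2 := hL5 (qv i) φ hφD (hq2 i _ hlo φ hφF)
              omega
          _ = ∑ q ∈ T, finrank (ZMod p) (s56gw_res (s56a_ad p rb) q).ρ.invariants +
                finrank (ZMod p) D * finrank (ZMod p) k := by
              rw [Finset.sum_add_distrib, Finset.sum_const, hcard, smul_eq_mul]
    · -- membership of the deformation classes
      intro r' hc hbar hdet hPp' hunr hunip hvan
      rw [s56gw_Sel, Submodule.mem_inf]
      constructor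
      · refine s56t_framed_cls_mem p r' hbar hc.2 (Sm ∪ T) fun q hq A hA g hg => ?_
        have hq' : (q : ℕ) ∉ Smin ∪ Th.image (fun ℓ : Nat.Primes => (ℓ : ℕ)) ∪
            Finset.univ.image (fun i => ((qv i : Nat.Primes) : ℕ)) := by
          intro h
          rw [Finset.mem_union, Finset.mem_union] at h
          rcases h with (h | h) | h
          · exact hq (Finset.mem_union_left _ (Finset.mem_union_left _ ((hmemSm0 q).mpr h)))
          · obtain ⟨ℓ, hℓ, hℓq⟩ := Finset.mem_image.mp h
            have hℓq' : ℓ = q := Subtype.ext hℓq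
            exact hq (Finset.mem_union_left _ (Finset.mem_union_right _ (hℓq' ▸ hℓ)))
          · obtain ⟨i, -, hi⟩ := Finset.mem_image.mp h
            exact hq (Finset.mem_union_right _ ((hmemT q).mpr ⟨i, Subtype.ext hi⟩))
        exact (s56t_unram r' (hunr q q.2 hq') A hA g hg).1
      · simp only [Submodule.mem_iInf, Submodule.mem_comap]
        intro q hq
        have hZ : s56t_coc r' ∈ s56a_Z rb := by
          obtain ⟨L0, hL0, h0⟩ := s56t_coc_level r'
          exact ⟨hc.2, hc.1, L0, hL0, fun σ s hs => (h0 σ s hs).1⟩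
        refine hL1 q (Cq q) (s56t_coc r') hc
          ((hCq q hq).1 r' hbar hdet (fun _ => hPp') ?_ (fun hqT => hvan q hqT)) hZ
        intro hq0 hqp
        have hne : (q : ℕ) ≠ p := fun h => hqp (Subtype.ext h)
        exact hunip q ((hmemSm0 q).mp hq0) q.2 hne
  refine ⟨finrank (ZMod p) D, fun n => ?_⟩
  obtain ⟨qv, h1, h2, h3, W, hWfd, hWle, hWmem⟩ := key n
  haveI := hWfd
  refine ⟨qv, h1, h2, h3, ?_, W, Module.finite_of_finite (ZMod p), ?_, hWmem⟩
  · by_contra hlt
    rw [not_le] at hlt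
    have : finrank (ZMod p) D * finrank (ZMod p) k < 3 * Th.card * finrank (ZMod p) k :=
      Nat.mul_lt_mul_of_pos_right hlt hdpos
    omega
  · exact twc_card_mul_le p W _ _ hWle

end core

end

end Fermat.Agent.TW
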