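import Mathlib
import Fermat.Agent.TW.Def.Core
import Fermat.Prelude.Def_GaloisRep_Flat
import Fermat.Prelude.Def_ExtCitation_KummerBridge

/-!
# Project TW (S43), block [C] DEF: vocabulary and seams (prefix `twc_`)

DESIGN (finding #4576): NO universal deformation rings.  The rings acting on the Taylor–Wiles
modules are the Hecke (trace) algebras themselves; the interface is a **Hecke pair**
`twc_HPair 𝒪 rb`: a complete noetherian local `𝒪`-algebra `T` with residue field `k`, a framed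
representation `r` over `T` lifting the fixed framed residual representation `rb`, such that
`𝒪`-algebra maps `T → k[ε]` are determined by the traces of `r`.

* `twc_IsType p Smin Th Q ρ` : the conditions away from the hard primes (cyclotomic determinant,
  flat at `p`, unramified outside `Smin ∪ Th ∪ Q`, unipotent inertia at `Smin ∖ {p}`).
* `twc_HasType ρ ℓ ψ` : inertial type at a hard prime `ℓ`: `charpoly ρ(σ) = (X - ψ σ)(X - (ψ σ)⁻¹)`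
  for `σ` in every inertia group above `ℓ`, `ψ : G_ℚ →* 𝒪ˣ` a GLOBAL character (`ψ = 1`: the
  unipotent system; `ψ = χ₀ ∘ cycloChar ℓ`: the `χ`-system).
* `twc_TameData p Th` : the tame generators at the hard primes (`φ_ℓ` Frobenius, `σ_ℓ` inertia)
  with their two properties for finite-level homomorphisms which are `p`-groups on inertia.
* `twc_TameGen_stmt` : cell C/TameGen.
* `twc_LocTriv` : an `𝒪`-algebra map `T → k[ε]` kills the local coordinates at the hard primes.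
* `twc_Count_stmt`, `twc_Present_stmt` : cells C/Count, C/Present.
-/

set_option autoImplicit false
set_option linter.unusedSectionVars false
set_option linter.style.haveILetI false

open Polynomial IsLocalRing ExtCitation
open Fermat.Agent.S53 Fermat.Agent.S56

namespace Fermat.Agent.TW

noncomputable section

local notation "GQ" => (AlgebraicClosure ℚ ≃ₐ[ℚ] AlgebraicClosure ℚ)
local notation "Qbar" => AlgebraicClosure ℚ

/-- the conditions of level `Q` away from the hard primes `Th`. -/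
def twc_IsType (p : ℕ) (Smin : Finset ℕ) (Th : Finset Nat.Primes) (Q : Finset ℕ)
    {A : Type} [CommRing A] [IsLocalRing A] (ρ : GaloisRepAdic A) : Prop :=
  ρ.DetIsCyclotomic p ∧ ρ.IsFlatAt p ∧
  (∀ q : ℕ, q.Prime → q ∉ Smin ∪ Th.image (fun ℓ : Nat.Primes => (ℓ : ℕ)) ∪ Q →
    ρ.IsUnramifiedAt q) ∧
  (∀ q ∈ Smin, q.Prime → q ≠ p → ρ.IsUnipotentOnInertiaAt q)

/-- the inertial type `ψ ⊕ ψ⁻¹` at the prime `ℓ` (`ψ = 1`: unipotent inertia). -/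
def twc_HasType {𝒪 : Type} [CommRing 𝒪] {A : Type} [CommRing A] [IsLocalRing A] [Algebra 𝒪 A]
    (ρ : GaloisRepAdic A) (ℓ : ℕ) (ψ : GQ →* 𝒪ˣ) : Prop :=
  ∀ P : ValuationSubring Qbar, P.LiesOverPrime ℓ → ∀ σ ∈ P.inertiaSubgroupIn ℚ,
    LinearMap.charpoly (ρ.ρ σ) =
      (X - C (algebraMap 𝒪 A (ψ σ : 𝒪))) * (X - C (algebraMap 𝒪 A ((ψ σ)⁻¹ : 𝒪ˣ)))

theorem twc_hasType_one_iff {𝒪 : Type} [CommRing 𝒪] {A : Type} [CommRing A] [IsLocalRing A]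
    [Algebra 𝒪 A] (ρ : GaloisRepAdic A) (ℓ : ℕ) :
    twc_HasType (𝒪 := 𝒪) ρ ℓ 1 ↔ ρ.IsUnipotentOnInertiaAt ℓ := by
  unfold twc_HasType GaloisRepAdic.IsUnipotentOnInertiaAt
  simp [pow_two]

/-- the character `χ₀ ∘ cycloChar ℓ` of `G_ℚ`. -/
def twc_psi {𝒪 : Type} [CommRing 𝒪] (ℓ : ℕ) [Fact ℓ.Prime] (χ₀ : (ZMod ℓ)ˣ →* 𝒪ˣ) : GQ →* 𝒪ˣ :=
  χ₀.comp (cycloChar ℓ)

/-- A **Hecke pair** over `𝒪` lifting the framed residual representation `rb`. -/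
structure twc_HPair (𝒪 : Type) [CommRing 𝒪] [IsLocalRing 𝒪]
    (rb : FramedResidual (ResidueField 𝒪)) : Type 1 where
  /-- the Hecke (trace) algebra -/
  T : Type
  [instCommRing : CommRing T]
  [instIsLocalRing : IsLocalRing T]
  [instIsNoetherianRing : IsNoetherianRing T]
  [instIsAdicComplete : IsAdicComplete (maximalIdeal T) T]
  [instAlgebra : Algebra 𝒪 T]
  [instIsLocalHom : IsLocalHom (algebraMap 𝒪 T)]
  residue_surjective : Function.Surjective (residue T ∘ algebraMap 𝒪 T)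
  /-- the framed representation -/
  r : FramedRep T
  lift : r.IsLiftOf rb (ResidueField.map (algebraMap 𝒪 T))
  /-- `T` is generated by the traces of `r` (tangent form) -/
  gen : letI := S53.dualNumberAlgebra 𝒪
    ∀ φ φ' : T →ₐ[𝒪] DualNumber (ResidueField 𝒪),
      (∀ σ : GQ, φ (Matrix.trace (r σ)) = φ' (Matrix.trace (r σ))) → φ = φ'

attribute [instance] twc_HPair.instCommRing twc_HPair.instIsLocalRing
  twc_HPair.instIsNoetherianRing twc_HPair.instIsAdicComplete twc_HPair.instAlgebra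
  twc_HPair.instIsLocalHom

/-- The tame generators at the hard primes. -/
structure twc_TameData (p : ℕ) (Th : Finset Nat.Primes) where
  /-- a Frobenius element at `ℓ` -/
  gφ : Nat.Primes → GQ
  /-- a generator of the pro-`p` tame inertia at `ℓ` -/
  gσ : Nat.Primes → GQ
  φ_mem : ∀ ℓ ∈ Th, gφ ℓ ∈ (primeLocalPlace ℓ).decompositionSubgroup ℚ
  φ_frob : ∀ ℓ ∈ Th, (primeLocalPlace ℓ).IsFrobeniusAt (gφ ℓ) (ℓ : ℕ)
  σ_mem : ∀ ℓ ∈ Th, gσ ℓ ∈ (primeLocalPlace ℓ).inertiaSubgroupIn ℚ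
  /-- the tame relation, for finite-level homomorphisms which are `p`-groups on inertia -/
  rel : ∀ ℓ ∈ Th, ∀ (M : Type) [Monoid M] (f : GQ →* M),
    (∃ L : IntermediateField ℚ Qbar, FiniteDimensional ℚ L ∧
      ∀ s : GQ, (∀ x ∈ L, s x = x) → f s = 1) →
    (∀ τ ∈ (primeLocalPlace ℓ).inertiaSubgroupIn ℚ, ∃ n : ℕ, f τ ^ p ^ n = 1) →
    f (gφ ℓ) * f (gσ ℓ) = f (gσ ℓ) ^ (ℓ : ℕ) * f (gφ ℓ)
  /-- generation of the image of the decomposition group -/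
  gen : ∀ ℓ ∈ Th, ∀ (M : Type) [Monoid M] (f : GQ →* M),
    (∃ L : IntermediateField ℚ Qbar, FiniteDimensional ℚ L ∧
      ∀ s : GQ, (∀ x ∈ L, s x = x) → f s = 1) →
    (∀ τ ∈ (primeLocalPlace ℓ).inertiaSubgroupIn ℚ, ∃ n : ℕ, f τ ^ p ^ n = 1) →
    ∀ τ ∈ (primeLocalPlace ℓ).decompositionSubgroup ℚ,
      f τ ∈ Submonoid.closure ({f (gφ ℓ), f (gφ ℓ)⁻¹, f (gσ ℓ)} : Set M)
  /-- `σ_ℓ` is not a `p`-th power in `(ℤ/ℓ)ˣ` under the mod `ℓ` cyclotomic character -/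
  σ_cyclo : ∀ ℓ ∈ Th, ∀ (hℓ : Fact (ℓ : ℕ).Prime) (u : (ZMod (ℓ : ℕ))ˣ),
    cycloChar (ℓ : ℕ) (gσ ℓ) ≠ u ^ p

/-- **C/TameGen**: tame generators exist at every finite set of primes `ℓ ≡ 1 mod p`. -/
def twc_TameGen_stmt : Prop :=
  ∀ (p : ℕ) [Fact p.Prime] (Th : Finset Nat.Primes),
    (∀ ℓ ∈ Th, (ℓ : ℕ) ≠ p ∧ p ∣ (ℓ : ℕ) - 1) → Nonempty (twc_TameData p Th)

section loc

variable {𝒪 : Type} [CommRing 𝒪] [IsLocalRing 𝒪] {rb : FramedResidual (ResidueField 𝒪)}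

attribute [local instance] S53.dualNumberAlgebra

/-- an `𝒪`-algebra map `T → k[ε]` kills the local coordinates at the hard primes: it sends
`r(σ_ℓ)` to `1` and `r(φ_ℓ)` to the constant scalar matrix `a ℓ`. -/
def twc_LocTriv {p : ℕ} {Th : Finset Nat.Primes} (td : twc_TameData p Th) (a : Nat.Primes → 𝒪)
    (H : twc_HPair 𝒪 rb) (φ : H.T →ₐ[𝒪] DualNumber (ResidueField 𝒪)) : Prop :=
  ∀ ℓ ∈ Th, (H.r (td.gσ ℓ)).map φ = 1 ∧
    (H.r (td.gφ ℓ)).map φ =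
      Matrix.scalar (Fin 2) (algebraMap 𝒪 (DualNumber (ResidueField 𝒪)) (a ℓ))

end loc

section stmts

/-- **C/Count**: the Taylor–Wiles primes of `twc_core_flat` and, for every Hecke pair of the
enlarged type, the count of the `𝒪`-algebra maps `T → k[ε]` killing the local coordinates. -/
def twc_Count_stmt : Prop :=
  ∀ (𝒪 : Type) [CommRing 𝒪] [IsDomain 𝒪] [IsDiscreteValuationRing 𝒪]
    [IsAdicComplete (maximalIdeal 𝒪) 𝒪] [Finite (ResidueField 𝒪)]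
    (p : ℕ) [Fact p.Prime], p ≠ 2 → (p : 𝒪) ∈ maximalIdeal 𝒪 →
    ∀ (rb : FramedResidual (ResidueField 𝒪)), s56a_Hyp p rb.toResidualGaloisRep →
    ∀ (S Smin : Finset ℕ), p ∈ Smin → Smin ⊆ S →
    (∀ q : ℕ, q.Prime → q ≠ p → (q ∈ Smin ↔ ¬ rb.toResidualGaloisRep.IsUnramifiedAt q)) →
    ∀ (Th : Finset Nat.Primes), (∀ ℓ ∈ Th, (ℓ : ℕ) ∈ S) → (∀ ℓ ∈ Th, (ℓ : ℕ) ∉ Smin) →
    (∀ ℓ ∈ Th, p ∣ (ℓ : ℕ) - 1) →
    ∀ (a : Nat.Primes → 𝒪),
    (∀ ℓ ∈ Th, ∀ σ ∈ (primeLocalPlace ℓ).decompositionSubgroup ℚ,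
      ∃ c : ResidueField 𝒪, rb σ = Matrix.scalar (Fin 2) c) →
    ∀ (td : twc_TameData p Th),
    (∀ ℓ ∈ Th, rb (td.gφ ℓ) = Matrix.scalar (Fin 2) (residue 𝒪 (a ℓ))) →
    ∃ r : ℕ, 3 * Th.card ≤ r ∧ ∀ n : ℕ, ∃ qv : Fin r → ℕ, Function.Injective qv ∧
      (∀ i, (qv i).Prime ∧ qv i ∉ S ∧ p ^ (n + 1) ∣ qv i - 1) ∧
      (∀ i, ∀ P : ValuationSubring Qbar, P.LiesOverPrime (qv i) →
        ∀ φ : GQ, P.IsFrobeniusAt φ (qv i) → ∃ α β : ResidueField 𝒪, α ≠ β ∧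
          LinearMap.charpoly (rb.toResidualGaloisRep.ρ φ) = (X - C α) * (X - C β)) ∧
      ∀ (H : twc_HPair 𝒪 rb),
        twc_IsType p Smin Th (Finset.univ.image qv) H.r.toGaloisRepAdic →
        letI := S53.dualNumberAlgebra 𝒪
        ∀ F : Finset (H.T →ₐ[𝒪] DualNumber (ResidueField 𝒪)),
          (∀ φ ∈ F, twc_LocTriv td a H φ) →
          F.card * Nat.card (ResidueField 𝒪) ^ (3 * Th.card) ≤ Nat.card (ResidueField 𝒪) ^ r

/-- **C/Present**: the same Taylor–Wiles primes and, for every Hecke pair of the enlarged type, a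
SURJECTION from the power series ring in the `8 |Th|` local coordinates and `r - 3 |Th|` free
variables, with prescribed values on the local coordinates:
`X (ℓ, 0, i, j) ↦ (r(σ_ℓ) - 1) i j`, `X (ℓ, 1, i, j) ↦ (r(φ_ℓ) - a ℓ) i j`. -/
def twc_Present_stmt : Prop :=
  ∀ (𝒪 : Type) [CommRing 𝒪] [IsDomain 𝒪] [IsDiscreteValuationRing 𝒪]
    [IsAdicComplete (maximalIdeal 𝒪) 𝒪] [Finite (ResidueField 𝒪)]
    (p : ℕ) [Fact p.Prime], p ≠ 2 → (p : 𝒪) ∈ maximalIdeal 𝒪 →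
    ∀ (rb : FramedResidual (ResidueField 𝒪)), s56a_Hyp p rb.toResidualGaloisRep →
    ∀ (S Smin : Finset ℕ), p ∈ Smin → Smin ⊆ S →
    (∀ q : ℕ, q.Prime → q ≠ p → (q ∈ Smin ↔ ¬ rb.toResidualGaloisRep.IsUnramifiedAt q)) →
    ∀ (Th : Finset Nat.Primes), (∀ ℓ ∈ Th, (ℓ : ℕ) ∈ S) → (∀ ℓ ∈ Th, (ℓ : ℕ) ∉ Smin) →
    (∀ ℓ ∈ Th, p ∣ (ℓ : ℕ) - 1) →
    ∀ (a : Nat.Primes → 𝒪),
    (∀ ℓ ∈ Th, ∀ σ ∈ (primeLocalPlace ℓ).decompositionSubgroup ℚ,
      ∃ c : ResidueField 𝒪, rb σ = Matrix.scalar (Fin 2) c) →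
    ∀ (td : twc_TameData p Th),
    (∀ ℓ ∈ Th, rb (td.gφ ℓ) = Matrix.scalar (Fin 2) (residue 𝒪 (a ℓ))) →
    ∃ r : ℕ, 3 * Th.card ≤ r ∧ ∀ n : ℕ, ∃ qv : Fin r → ℕ, Function.Injective qv ∧
      (∀ i, (qv i).Prime ∧ qv i ∉ S ∧ p ^ (n + 1) ∣ qv i - 1) ∧
      (∀ i, ∀ P : ValuationSubring Qbar, P.LiesOverPrime (qv i) →
        ∀ φ : GQ, P.IsFrobeniusAt φ (qv i) → ∃ α β : ResidueField 𝒪, α ≠ β ∧
          LinearMap.charpoly (rb.toResidualGaloisRep.ρ φ) = (X - C α) * (X - C β)) ∧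
      ∀ (H : twc_HPair 𝒪 rb),
        twc_IsType p Smin Th (Finset.univ.image qv) H.r.toGaloisRepAdic →
        ∃ γ : MvPowerSeries ((↥Th × Fin 2 × Fin 2 × Fin 2) ⊕ Fin (r - 3 * Th.card)) 𝒪 →ₐ[𝒪] H.T,
          Function.Surjective γ ∧
          (∀ (ℓ : ↥Th) (i j : Fin 2),
            γ (MvPowerSeries.X (Sum.inl (ℓ, 0, i, j))) = (H.r (td.gσ ℓ) - 1) i j) ∧
          (∀ (ℓ : ↥Th) (i j : Fin 2),
            γ (MvPowerSeries.X (Sum.inl (ℓ, 1, i, j))) =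
              (H.r (td.gφ ℓ) - Matrix.scalar (Fin 2) (algebraMap 𝒪 H.T (a ℓ))) i j)

end stmts

end

end Fermat.Agent.TW
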