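import Fermat.Agent.TW.Aut.SeamsLG
import Fermat.Agent.TW.Def.Seams
import Fermat.Agent.TW.Top.CoreSeam2

/-!
# Project ONE MACHINE: the [A] → [C] seam (helper21)

What the final assembly C/Sigma + C/Level consumes from block [A] (local–global compatibility),
stated on ONE big system `Bg : twe_Big L Th` of block [E] (`TW/Aut/Seams.lean`, `SeamsLG.lean`):

* `twc_chiSub χ Mb` : the `𝒪`-submodule spanned by `of (1, δ) • m - χ δ • m`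
  (`M^χ = Mb ⧸ twc_chiSub χ Mb`; `χ = 1`: LITERALLY the set of `twe_Big.c1_ker`);
* `twc_ALG Bg χ gσ` **(A-TW) + (A-X)**: Galois diamonds `u_t ∈ T''` (`t ∈ Q`), `u_t ≡ 1`,
  `u_t ^ |Δ_t| = 1` on `Mb`, with the SAME augmentation submodule as the Hecke diamonds
  `δ_t` on the BIG module `Mb` (so on every quotient `M¹`, `M^χ`); and for every framing `r` of
  `H''.ρ` and every hard prime `ℓ`: the entries of `∑_{k<p} r(σ_ℓ)^k` kill `M^χ`.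
* `twc_A4_stmt` : the statement block [A] proves.
-/

set_option autoImplicit false
set_option linter.unusedSectionVars false

open Polynomial CuspForm IsLocalRing
open Fermat.Agent.S53 Fermat.Agent.S56

namespace Fermat.Agent.TW

noncomputable section

local notation "GQ" => (AlgebraicClosure ℚ ≃ₐ[ℚ] AlgebraicClosure ℚ)
local notation "Qbar" => AlgebraicClosure ℚ

/-- the `χ`-augmentation submodule of a module over `𝒪[G × H]`. -/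
def twc_chiSub {𝒪 : Type} [CommRing 𝒪] {G H : Type} [Monoid G] [Monoid H]
    {Mb : Type} [AddCommGroup Mb] [Module 𝒪 Mb] [Module (MonoidAlgebra 𝒪 (G × H)) Mb]
    (χ : H →* 𝒪ˣ) : Submodule 𝒪 Mb :=
  Submodule.span 𝒪 {x : Mb | ∃ (δ : H) (m : Mb),
    x = MonoidAlgebra.of 𝒪 (G × H) (1, δ) • m - ((χ δ : 𝒪ˣ) : 𝒪) • m}

section ALG

variable {𝒪 : Type} [CommRing 𝒪] [IsDomain 𝒪] [IsDiscreteValuationRing 𝒪]
  [IsAdicComplete (maximalIdeal 𝒪) 𝒪]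
  {N : ℕ} [NeZero N] {S : Finset ℕ} {θ : heckeAlgebra N 2 (↑S : Set ℕ) →+* ResidueField 𝒪}
  {B : twe_Base 𝒪 N S θ} {p : ℕ} {Q : Finset ℕ} [NeZero (twe_Nbal N Q ∅)]
  {L : twe_Level B p Q} {Th : Finset ℕ} [NeZero (twe_Nbal N Q Th)]

/-- **(A-TW) + (A-X)** for one big system. -/
def twc_ALG (Bg : twe_Big L Th) (χ : twe_Delta p Th →* 𝒪ˣ) (gσ : Nat.Primes → GQ) : Prop :=
  (∃ u : ∀ t : ℕ, t ∈ Q → Bg.T'',
    (∀ t ht, u t ht - 1 ∈ maximalIdeal Bg.T'') ∧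
    (∀ t ht (m : Bg.Mb), u t ht ^ twe_ord p t • m = m) ∧
    (∀ t ht (m : Bg.Mb), ∃ m' : Bg.Mb, (u t ht - 1) • m = Bg.diaQ t ht m' - m') ∧
    (∀ t ht (m : Bg.Mb), ∃ m' : Bg.Mb, Bg.diaQ t ht m - m = (u t ht - 1) • m')) ∧
  (∀ r : FramedRep Bg.T'', Bg.H''.ρ.IsEquiv r.toGaloisRepAdic →
    ∀ ℓ : Nat.Primes, (ℓ : ℕ) ∈ Th → ∀ (i j : Fin 2) (m : Bg.Mb),
      (∑ k ∈ Finset.range p, r (gσ ℓ) ^ k) i j • m ∈ twc_chiSub (G := twe_Delta p Q) (Mb := Bg.Mb) χ)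

end ALG

/-- **the [A] → [C] seam**: (A-TW) + (A-X) for every big system of block [E] with the [E] → [A]
clauses, at Taylor–Wiles primes with distinct Frobenius eigenvalues IN `ResidueField 𝒪` and hard
primes where `ρ̄` is unramified with scalar Frobenius; `χ` of exact order `p` at every hard
prime. -/
def twc_A4_stmt : Prop :=
  ∀ (p : ℕ) [Fact p.Prime], 5 ≤ p →
  ∀ (𝒪 : Type) [CommRing 𝒪] [IsDomain 𝒪] [IsDiscreteValuationRing 𝒪]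
    [IsAdicComplete (maximalIdeal 𝒪) 𝒪] [Finite (ResidueField 𝒪)] [CharZero 𝒪],
    (p : 𝒪) ∈ maximalIdeal 𝒪 →
  ∀ (ζ : 𝒪), IsPrimitiveRoot ζ p →
  ∀ (N : ℕ) [NeZero N], Squarefree N → ¬ p ∣ N →
  ∀ (S : Finset ℕ), p ∈ S → (∀ ℓ : ℕ, ℓ.Prime → ℓ ∣ N → ℓ ∈ S) →
  ∀ (θ : heckeAlgebra N 2 (↑S : Set ℕ) →+* ResidueField 𝒪)
    (ρbar : ResidualGaloisRep (ResidueField 𝒪)),
    twt_Compat θ ρbar → ρbar.IsAbsolutelyIrreducible →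
    (∀ ℓ : ℕ, ℓ.Prime → ℓ ≠ 2 → ℓ ≠ p → ρbar.IsUnramifiedAt ℓ) →
  ∀ (B : twe_Base 𝒪 N S θ) (Q : Finset ℕ) [NeZero (twe_Nbal N Q ∅)],
    (∀ t ∈ Q, t ∉ S) → twe_IsTWSet θ p Q →
    (∀ t ∈ Q, ∀ P : ValuationSubring Qbar, P.LiesOverPrime t → ∀ φ : GQ, P.IsFrobeniusAt φ t →
      ∃ α β : ResidueField 𝒪, α ≠ β ∧ LinearMap.charpoly (ρbar.ρ φ) = (X - C α) * (X - C β)) →
  ∀ (L : twe_Level B p Q), L.IsLG →
  ∀ (ThP : Finset Nat.Primes),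
    (∀ ℓ ∈ ThP, (ℓ : ℕ) ∣ N ∧ (ℓ : ℕ) ≠ 2 ∧ (ℓ : ℕ) % p = 1 ∧ twt_FrobScalar ρbar ℓ) →
  ∀ (td : twc_TameData p ThP)
    [NeZero (twe_Nbal N Q (ThP.image fun ℓ : Nat.Primes => (ℓ : ℕ)))]
    (Bg : twe_Big L (ThP.image fun ℓ : Nat.Primes => (ℓ : ℕ))), Bg.IsLG →
  ∀ (χ : twe_Delta p (ThP.image fun ℓ : Nat.Primes => (ℓ : ℕ)) →* 𝒪ˣ),
    (∀ (ℓ : ℕ) (hℓ : ℓ ∈ ThP.image fun ℓ : Nat.Primes => (ℓ : ℕ)),
      IsPrimitiveRoot ((χ (twe_gen p _ ℓ hℓ) : 𝒪ˣ) : 𝒪) p) →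
    twc_ALG Bg χ td.gσ

end

end Fermat.Agent.TW
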