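/-
Project ONE MACHINE (S43), block [C], cell [Act] (b), abstract part (helper26; prefix `twc_am_`).

`Mb` a module over `T2` with an `𝒪`-algebra map `ψ : 𝒪[G × H] → End_𝒪 Mb` commuting with `T2`, free
over `𝒪[G × H]` (through `ψ`) on `b : J → Mb`; `c1 : Mb → M` a surjection onto a `T1`-module,
equivariant along `π1 : T2 → T1`, whose kernel is the `H`-augmentation submodule for `ψ`.  Then

* `ψ` descends to `ψ₁ : 𝒪[G] → End_𝒪 M` (`twc_am_psi1`), commuting with `T1` as soon as the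
  generators of `G` act through elements of `T2`;
* `M` is free over `𝒪[G]` (through `ψ₁`) on `c1 ∘ b` (`twc_am_li`, `twc_am_span`);
* `twc_am_two` : matrix representations `actBig : T2 → M_J(𝒪[G × H])`, `act1 : T1 → M_J(𝒪[G])` with
  `act1 (π1 x) = (actBig x).map ev_1`, and the augmentation of `act1` computed by a coinvariant map.
-/
import Mathlib
import Fermat.Agent.TW.Def.SigmaAct
import Fermat.Agent.TW.Aut.ChiAbs

set_option autoImplicit false
set_option linter.unusedSectionVars false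
set_option linter.unusedVariables false

namespace Fermat.Agent.TW

open MonoidAlgebra

noncomputable section

/-! ### Descent of an endomorphism along a surjection -/

section desc

variable {𝒪 Mb M : Type*} [CommRing 𝒪] [AddCommGroup Mb] [Module 𝒪 Mb] [AddCommGroup M]
  [Module 𝒪 M]

/-- the endomorphism of `M` induced by an endomorphism of `Mb` preserving `ker c1`. -/
def twc_am_desc (c1 : Mb →ₗ[𝒪] M) (hc1 : Function.Surjective c1) (f : Module.End 𝒪 Mb)
    (hf : ∀ x, c1 x = 0 → c1 (f x) = 0) : Module.End 𝒪 M :=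
  ((LinearMap.ker c1).liftQ (c1 ∘ₗ f) (fun x hx => hf x hx)) ∘ₗ
    ((LinearMap.quotKerEquivOfSurjective c1 hc1).symm : M →ₗ[𝒪] (Mb ⧸ LinearMap.ker c1))

theorem twc_am_desc_apply (c1 : Mb →ₗ[𝒪] M) (hc1 : Function.Surjective c1)
    (f : Module.End 𝒪 Mb) (hf : ∀ x, c1 x = 0 → c1 (f x) = 0) (m : Mb) :
    twc_am_desc c1 hc1 f hf (c1 m) = c1 (f m) := by
  have h1 : (LinearMap.quotKerEquivOfSurjective c1 hc1).symm (c1 m) =
      Submodule.Quotient.mk m := by
    apply (LinearMap.quotKerEquivOfSurjective c1 hc1).injective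
    rw [LinearEquiv.apply_symm_apply]
    rfl
  rw [twc_am_desc, LinearMap.comp_apply, LinearEquiv.coe_coe, h1]
  rfl

/-- two endomorphisms of `M` which agree on the image of a surjection are equal. -/
theorem twc_am_ext (c1 : Mb →ₗ[𝒪] M) (hc1 : Function.Surjective c1) {f g : Module.End 𝒪 M}
    (h : ∀ m, f (c1 m) = g (c1 m)) : f = g := by
  apply LinearMap.ext
  intro y
  obtain ⟨m, rfl⟩ := hc1 y
  exact h m

end desc

/-! ### The descended structure -/

section psi1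

variable {𝒪 : Type*} [CommRing 𝒪] {G H : Type*} [CommGroup G] [CommGroup H]
  {Mb M : Type*} [AddCommGroup Mb] [Module 𝒪 Mb] [AddCommGroup M] [Module 𝒪 M]
  (c1 : Mb →ₗ[𝒪] M) (hc1 : Function.Surjective c1)
  (ψ : MonoidAlgebra 𝒪 (G × H) →ₐ[𝒪] Module.End 𝒪 Mb)
  (hker : LinearMap.ker c1 = Submodule.span 𝒪
    {x : Mb | ∃ (η : H) (m : Mb), x = ψ (of 𝒪 (G × H) (1, η)) m - m})

include hker in
/-- every `ψ a` preserves `ker c1`. -/
theorem twc_am_pres (a : MonoidAlgebra 𝒪 (G × H)) (x : Mb) (hx : c1 x = 0) :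
    c1 (ψ a x) = 0 := by
  have hx' : x ∈ LinearMap.ker c1 := hx
  rw [hker] at hx'
  have : ψ a x ∈ LinearMap.ker c1 := by
    rw [hker]
    refine Submodule.span_induction ?_ ?_ ?_ ?_ hx'
    · rintro _ ⟨η, m, rfl⟩
      refine Submodule.subset_span ⟨η, ψ a m, ?_⟩
      rw [map_sub]
      congr 1
      have h1 := LinearMap.congr_fun (congrArg ψ (mul_comm a (of 𝒪 (G × H) (1, η)))) m
      rw [map_mul, map_mul, Module.End.mul_apply, Module.End.mul_apply] at h1
      exact h1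
    · rw [map_zero]; exact Submodule.zero_mem _
    · intro y z _ _ hy hz
      rw [map_add]; exact Submodule.add_mem _ hy hz
    · intro r y _ hy
      rw [map_smul]; exact Submodule.smul_mem _ r hy
  exact this

/-- the descended structure `ψ̄ : 𝒪[G × H] → End_𝒪 M`. -/
def twc_am_psibar : MonoidAlgebra 𝒪 (G × H) →ₐ[𝒪] Module.End 𝒪 M where
  toFun a := twc_am_desc c1 hc1 (ψ a) (twc_am_pres c1 ψ hker a)
  map_one' := by
    refine twc_am_ext c1 hc1 fun m => ?_
    rw [twc_am_desc_apply, map_one, Module.End.one_apply, Module.End.one_apply]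
  map_mul' a a' := by
    refine twc_am_ext c1 hc1 fun m => ?_
    rw [twc_am_desc_apply, map_mul, Module.End.mul_apply, Module.End.mul_apply,
      twc_am_desc_apply, twc_am_desc_apply]
  map_zero' := by
    refine twc_am_ext c1 hc1 fun m => ?_
    rw [twc_am_desc_apply, map_zero, LinearMap.zero_apply, LinearMap.zero_apply, map_zero]
  map_add' a a' := by
    refine twc_am_ext c1 hc1 fun m => ?_
    rw [twc_am_desc_apply, map_add, LinearMap.add_apply, LinearMap.add_apply, map_add,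
      twc_am_desc_apply, twc_am_desc_apply]
  commutes' r := by
    refine twc_am_ext c1 hc1 fun m => ?_
    rw [twc_am_desc_apply, AlgHom.commutes, Module.algebraMap_end_apply,
      Module.algebraMap_end_apply, map_smul]

theorem twc_am_psibar_apply (a : MonoidAlgebra 𝒪 (G × H)) (m : Mb) :
    twc_am_psibar c1 hc1 ψ hker a (c1 m) = c1 (ψ a m) :=
  twc_am_desc_apply c1 hc1 (ψ a) (twc_am_pres c1 ψ hker a) m

/-- `ψ̄` kills the kernel of `ev_1`. -/
theorem twc_am_psibar_ker (a : MonoidAlgebra 𝒪 (G × H))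
    (ha : twe_chi_ev (G := G) (1 : H →* 𝒪ˣ) a = 0) : twc_am_psibar c1 hc1 ψ hker a = 0 := by
  have ha' : a ∈ RingHom.ker (twe_chi_ev (G := G) (1 : H →* 𝒪ˣ)) := ha
  rw [twe_chi_ker_ev] at ha'
  have hle : Ideal.span (Set.range (twe_chi_gen (G := G) (1 : H →* 𝒪ˣ))) ≤
      RingHom.ker (twc_am_psibar c1 hc1 ψ hker : MonoidAlgebra 𝒪 (G × H) →+* Module.End 𝒪 M) := by
    rw [Ideal.span_le]
    rintro _ ⟨η, rfl⟩
    rw [SetLike.mem_coe, RingHom.mem_ker]
    refine twc_am_ext c1 hc1 fun m => ?_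
    rw [RingHom.coe_coe, twc_am_psibar_apply, LinearMap.zero_apply, twe_chi_gen, map_sub,
      LinearMap.sub_apply, MonoidHom.one_apply, Units.val_one, map_one, map_one,
      Module.End.one_apply]
    have h1 : ψ (of 𝒪 (G × H) (1, η)) m - m ∈ LinearMap.ker c1 := by
      rw [hker]; exact Submodule.subset_span ⟨η, m, rfl⟩
    exact h1
  exact hle ha'

/-- the descended structure `ψ₁ : 𝒪[G] → End_𝒪 M`. -/
def twc_am_psi1 : MonoidAlgebra 𝒪 G →ₐ[𝒪] Module.End 𝒪 M :=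
  (twc_am_psibar c1 hc1 ψ hker).comp (twe_chi_sec (H := H))

theorem twc_am_psi1_apply (a : MonoidAlgebra 𝒪 G) (m : Mb) :
    twc_am_psi1 c1 hc1 ψ hker a (c1 m) = c1 (ψ (twe_chi_sec a) m) :=
  twc_am_psibar_apply c1 hc1 ψ hker _ m

/-- `ψ₁ (ev_1 a) ∘ c1 = c1 ∘ ψ a`. -/
theorem twc_am_psi1_ev (a : MonoidAlgebra 𝒪 (G × H)) (m : Mb) :
    twc_am_psi1 c1 hc1 ψ hker (twe_chi_ev (1 : H →* 𝒪ˣ) a) (c1 m) = c1 (ψ a m) := by
  have h1 : twc_am_psibar c1 hc1 ψ hker (a - twe_chi_sec (twe_chi_ev (1 : H →* 𝒪ˣ) a)) = 0 := by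
    apply twc_am_psibar_ker
    rw [map_sub, twe_chi_ev_sec, sub_self]
  rw [map_sub, sub_eq_zero] at h1
  rw [← twc_am_psibar_apply c1 hc1 ψ hker a m, h1]
  rfl

end psi1

/-! ### Monoid algebra of a finite group: coordinates -/

section coords

variable {𝒪 : Type*} [CommRing 𝒪] {G : Type*} [Group G] [Fintype G]

theorem twc_am_sum_of (a : MonoidAlgebra 𝒪 G) : a = ∑ δ : G, a.coeff δ • of 𝒪 G δ := by
  classical
  conv_lhs => rw [← sum_coeff_single a]
  rw [Finsupp.sum_fintype _ _ (fun _ => by simp)]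
  refine Finset.sum_congr rfl fun δ _ => ?_
  rw [of_apply, smul_single, smul_eq_mul, mul_one]

theorem twc_am_sum_of_apply (k : G → 𝒪) (δ' : G) :
    (∑ δ : G, k δ • of 𝒪 G δ).coeff δ' = k δ' := by
  classical
  rw [coeff_sum, Finsupp.finsetSum_apply]
  simp only [of_apply, smul_single, smul_eq_mul, mul_one, coeff_single]
  rw [Finset.sum_eq_single δ']
  · exact Finsupp.single_eq_same
  · intro δ _ hne
    exact Finsupp.single_eq_of_ne hne.symm
  · intro h; exact absurd (Finset.mem_univ _) h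

end coords

/-! ### The two matrix representations -/

section two

variable {𝒪 : Type*} [CommRing 𝒪] {G H : Type*} [CommGroup G] [CommGroup H] [Fintype G]
  [Fintype H]
  {T2 T1 Mb M J : Type*} [CommRing T2] [Algebra 𝒪 T2] [CommRing T1] [Algebra 𝒪 T1]
  [AddCommGroup Mb] [Module 𝒪 Mb] [Module T2 Mb] [IsScalarTower 𝒪 T2 Mb]
  [AddCommGroup M] [Module 𝒪 M] [Module T1 M] [IsScalarTower 𝒪 T1 M]
  [Fintype J] [DecidableEq J]
  (π1 : T2 →ₐ[𝒪] T1) (c1 : Mb →ₗ[𝒪] M) (hc1 : Function.Surjective c1)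
  (hc1T : ∀ (x : T2) (m : Mb), c1 (x • m) = π1 x • c1 m)
  (ψ : MonoidAlgebra 𝒪 (G × H) →ₐ[𝒪] Module.End 𝒪 Mb)
  (hker : LinearMap.ker c1 = Submodule.span 𝒪
    {x : Mb | ∃ (η : H) (m : Mb), x = ψ (of 𝒪 (G × H) (1, η)) m - m})
  {ι : Type*} (g : ι → G) (hg : Submonoid.closure (Set.range g) = ⊤) (u : ι → T2)
  (hu : ∀ i (m : Mb), ψ (of 𝒪 (G × H) (g i, 1)) m = u i • m)

include hc1T hu in
theorem twc_am_psi1_gen (i : ι) (y : M) :
    twc_am_psi1 c1 hc1 ψ hker (of 𝒪 G (g i)) y = π1 (u i) • y := by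
  obtain ⟨m, rfl⟩ := hc1 y
  rw [twc_am_psi1_apply, twe_chi_sec_of, hu, hc1T]

include hc1T hu hg in
/-- `ψ₁` commutes with `T1`. -/
theorem twc_am_psi1_comm (a : MonoidAlgebra 𝒪 G) (y : T1) (m : M) :
    twc_am_psi1 c1 hc1 ψ hker a (y • m) = y • twc_am_psi1 c1 hc1 ψ hker a m := by
  have hof : ∀ δ : G, ∀ (y : T1) (m : M), twc_am_psi1 c1 hc1 ψ hker (of 𝒪 G δ) (y • m) =
      y • twc_am_psi1 c1 hc1 ψ hker (of 𝒪 G δ) m := by
    intro δ
    have hδ : δ ∈ Submonoid.closure (Set.range g) := by rw [hg]; exact Submonoid.mem_top δ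
    refine Submonoid.closure_induction (motive := fun δ _ => ∀ (y : T1) (m : M),
      twc_am_psi1 c1 hc1 ψ hker (of 𝒪 G δ) (y • m) =
        y • twc_am_psi1 c1 hc1 ψ hker (of 𝒪 G δ) m) ?_ ?_ ?_ hδ
    · rintro _ ⟨i, rfl⟩ y m
      rw [twc_am_psi1_gen π1 c1 hc1 hc1T ψ hker g u hu, twc_am_psi1_gen π1 c1 hc1 hc1T ψ hker g u hu,
        smul_comm]
    · intro y m
      rw [map_one, map_one, Module.End.one_apply, Module.End.one_apply]
    · intro δ δ' _ _ h1 h2 y m
      rw [map_mul, map_mul, Module.End.mul_apply, Module.End.mul_apply, h2, h1]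
  induction a using MonoidAlgebra.induction_on with
  | of δ => exact hof δ y m
  | add a a' h1 h2 => rw [map_add, LinearMap.add_apply, LinearMap.add_apply, h1, h2, smul_add]
  | smul r a h1 =>
    have h2 : twc_am_psi1 c1 hc1 ψ hker (r • a) = r • twc_am_psi1 c1 hc1 ψ hker a :=
      map_smul _ r a
    rw [h2, LinearMap.smul_apply, LinearMap.smul_apply, h1, smul_comm]

variable (hcomm : ∀ (a : MonoidAlgebra 𝒪 (G × H)) (x : T2) (m : Mb), ψ a (x • m) = x • ψ a m)
  (b : J → Mb)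
  (hli : LinearIndependent 𝒪 (fun kj : (G × H) × J => ψ (of 𝒪 (G × H) kj.1) (b kj.2)))
  (hspan : ⊤ ≤ Submodule.span 𝒪
    (Set.range fun kj : (G × H) × J => ψ (of 𝒪 (G × H) kj.1) (b kj.2)))

include hker in
/-- `ker c1 ⊆ ψ(ker ev_1) Mb`. -/
theorem twc_am_ker_le :
    LinearMap.ker c1 ≤ twc_sg_sub ψ (RingHom.ker (twe_chi_ev (G := G) (1 : H →* 𝒪ˣ))) := by
  rw [hker, Submodule.span_le]
  rintro _ ⟨η, m, rfl⟩
  refine Submodule.subset_span ⟨of 𝒪 (G × H) (1, η) - 1, ?_, m, ?_⟩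
  · rw [RingHom.mem_ker, map_sub, map_one, twe_chi_ev_of', MonoidHom.one_apply, Units.val_one,
      one_smul, map_one, sub_self]
  · rw [map_sub, map_one, LinearMap.sub_apply, Module.End.one_apply]

include hc1T hg hu hcomm hli hspan in
/-- **the two matrix representations.** -/
theorem twc_am_two :
    ∃ (actBig : T2 →ₐ[𝒪] Matrix J J (MonoidAlgebra 𝒪 (G × H)))
      (act1 : T1 →ₐ[𝒪] Matrix J J (MonoidAlgebra 𝒪 G)),
      (∀ (x : T2) (j : J), x • b j = ∑ i, ψ (actBig x i j) (b i)) ∧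
      (∀ (x : T2) (C : Matrix J J (MonoidAlgebra 𝒪 (G × H))),
        (∀ j, x • b j = ∑ i, ψ (C i j) (b i)) → actBig x = C) ∧
      (∀ (I : Ideal (MonoidAlgebra 𝒪 (G × H))) (a : J → MonoidAlgebra 𝒪 (G × H)),
        ∑ i, ψ (a i) (b i) ∈ twc_sg_sub ψ I → ∀ i, a i ∈ I) ∧
      (∀ (y : T1) (j : J),
        y • c1 (b j) = ∑ i, twc_am_psi1 c1 hc1 ψ hker (act1 y i j) (c1 (b i))) ∧
      (∀ (y : T1) (C : Matrix J J (MonoidAlgebra 𝒪 G)),
        (∀ j, y • c1 (b j) = ∑ i, twc_am_psi1 c1 hc1 ψ hker (C i j) (c1 (b i))) → act1 y = C) ∧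
      (∀ x : T2, act1 (π1 x) = (actBig x).map (twe_chi_ev (1 : H →* 𝒪ˣ))) := by
  classical
  have hspanA : ∀ a : MonoidAlgebra 𝒪 (G × H), ∃ c : G × H → 𝒪,
      a = ∑ k, c k • of 𝒪 (G × H) k := fun a => ⟨fun k => a.coeff k, twc_am_sum_of a⟩
  obtain ⟨actBig, hB1, hB2, hB3, hB4, hB5⟩ :=
    twc_sg_act (T := T2) ψ hcomm (of 𝒪 (G × H)) hspanA b hli hspan
  -- the descended family is a basis
  have hspanA1 : ∀ a : MonoidAlgebra 𝒪 G, ∃ c : G → 𝒪, a = ∑ k, c k • of 𝒪 G k :=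
    fun a => ⟨fun k => a.coeff k, twc_am_sum_of a⟩
  have hli1 : LinearIndependent 𝒪 (fun kj : G × J =>
      twc_am_psi1 c1 hc1 ψ hker (of 𝒪 G kj.1) (c1 (b kj.2))) := by
    rw [Fintype.linearIndependent_iff]
    intro k hk
    -- `a j := ∑ δ, k (δ, j) • of δ`
    set a : J → MonoidAlgebra 𝒪 G := fun j => ∑ δ : G, k (δ, j) • of 𝒪 G δ with ha
    have h1 : ∑ j, twc_am_psi1 c1 hc1 ψ hker (a j) (c1 (b j)) = 0 := by
      rw [← hk, Fintype.sum_prod_type, Finset.sum_comm]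
      refine Finset.sum_congr rfl fun j _ => ?_
      rw [ha, map_sum, LinearMap.sum_apply]
      refine Finset.sum_congr rfl fun δ _ => ?_
      rw [map_smul, LinearMap.smul_apply]
    have h2 : c1 (∑ j, ψ (twe_chi_sec (a j)) (b j)) = 0 := by
      rw [map_sum, ← h1]
      refine Finset.sum_congr rfl fun j _ => ?_
      rw [twc_am_psi1_apply]
    have h3 := hB5 _ _ (twc_am_ker_le c1 ψ hker h2)
    intro kj
    obtain ⟨δ, j⟩ := kj
    have h4 : a j = 0 := by
      have := h3 j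
      rw [RingHom.mem_ker, twe_chi_ev_sec] at this
      exact this
    have h5 := twc_am_sum_of_apply (fun δ => k (δ, j)) δ
    have h6 : a j = ∑ δ : G, k (δ, j) • of 𝒪 G δ := rfl
    rw [← h6, h4] at h5
    rw [← h5]
    rfl
  have hspan1 : ⊤ ≤ Submodule.span 𝒪 (Set.range fun kj : G × J =>
      twc_am_psi1 c1 hc1 ψ hker (of 𝒪 G kj.1) (c1 (b kj.2))) := by
    rintro y -
    obtain ⟨m, rfl⟩ := hc1 y
    obtain ⟨a, rfl⟩ := hB3 m
    rw [map_sum]
    refine Submodule.sum_mem _ fun j _ => ?_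
    rw [← twc_am_psi1_ev c1 hc1 ψ hker]
    set a' := twe_chi_ev (1 : H →* 𝒪ˣ) (a j) with ha'
    rw [twc_am_sum_of a', map_sum, LinearMap.sum_apply]
    refine Submodule.sum_mem _ fun δ _ => ?_
    rw [map_smul, LinearMap.smul_apply]
    exact Submodule.smul_mem _ _ (Submodule.subset_span ⟨(δ, j), rfl⟩)
  obtain ⟨act1, hA1, hA2, hA3, hA4, hA5⟩ :=
    twc_sg_act (T := T1) (twc_am_psi1 c1 hc1 ψ hker)
      (fun a y m => twc_am_psi1_comm π1 c1 hc1 hc1T ψ hker g hg u hu a y m)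
      (of 𝒪 G) hspanA1 (fun j => c1 (b j)) hli1 hspan1
  refine ⟨actBig, act1, hB1, hB4, hB5, hA1, hA4, fun x => ?_⟩
  apply hA4
  intro j
  rw [← hc1T, hB1 x j, map_sum]
  refine Finset.sum_congr rfl fun i _ => ?_
  rw [Matrix.map_apply, twc_am_psi1_ev]

/-- the augmentation `𝒪[G] → 𝒪`. -/
def twc_am_aug (𝒪 G : Type*) [CommRing 𝒪] [CommGroup G] : MonoidAlgebra 𝒪 G →ₐ[𝒪] 𝒪 :=
  MonoidAlgebra.lift 𝒪 𝒪 G (1 : G →* 𝒪)

theorem twc_am_aug_of (δ : G) : twc_am_aug 𝒪 G (of 𝒪 G δ) = 1 := by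
  rw [twc_am_aug, lift_of, MonoidHom.one_apply]

include hc1T hg hu in
/-- **the augmentation of `act1`**, computed by a coinvariant map `c'` which is normalised on the
basis and kills the Galois augmentation submodule. -/
theorem twc_am_aug_act (act1 : T1 → Matrix J J (MonoidAlgebra 𝒪 G))
    (hA1 : ∀ (y : T1) (j : J),
      y • c1 (b j) = ∑ i, twc_am_psi1 c1 hc1 ψ hker (act1 y i j) (c1 (b i)))
    (c' : M →ₗ[𝒪] (J → 𝒪)) (hc'b : ∀ j, c' (c1 (b j)) = Pi.single j 1)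
    (j0 : T1 → Matrix J J 𝒪) (hc'T : ∀ (y : T1) (m : M), c' (y • m) = (j0 y).mulVec (c' m))
    (hc'u : ∀ i (m : M), c' (π1 (u i) • m) = c' m) (y : T1) (i j : J) :
    twc_am_aug 𝒪 G (act1 y i j) = j0 y i j := by
  classical
  have h1 : ∀ (δ : G) (m : M), c' (twc_am_psi1 c1 hc1 ψ hker (of 𝒪 G δ) m) = c' m := by
    intro δ
    have hδ : δ ∈ Submonoid.closure (Set.range g) := by rw [hg]; exact Submonoid.mem_top δ
    refine Submonoid.closure_induction (motive := fun δ _ => ∀ m : M,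
      c' (twc_am_psi1 c1 hc1 ψ hker (of 𝒪 G δ) m) = c' m) ?_ ?_ ?_ hδ
    · rintro _ ⟨i, rfl⟩ m
      rw [twc_am_psi1_gen π1 c1 hc1 hc1T ψ hker g u hu, hc'u]
    · intro m
      rw [map_one, map_one, Module.End.one_apply]
    · intro δ δ' _ _ h1 h2 m
      rw [map_mul, map_mul, Module.End.mul_apply, h1, h2]
  have h2 : ∀ (a : MonoidAlgebra 𝒪 G) (m : M),
      c' (twc_am_psi1 c1 hc1 ψ hker a m) = twc_am_aug 𝒪 G a • c' m := by
    intro a m
    induction a using MonoidAlgebra.induction_on with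
    | of δ => rw [h1, twc_am_aug_of, one_smul]
    | add a a' h3 h4 => rw [map_add, LinearMap.add_apply, map_add, h3, h4, map_add, add_smul]
    | smul r a h3 =>
      have h5 : twc_am_psi1 c1 hc1 ψ hker (r • a) = r • twc_am_psi1 c1 hc1 ψ hker a :=
        map_smul _ r a
      rw [h5, LinearMap.smul_apply, map_smul, h3, map_smul, smul_assoc]
  have h3 := congrArg c' (hA1 y j)
  rw [hc'T, hc'b, map_sum] at h3
  have h4 := congrFun h3 i
  rw [Finset.sum_apply] at h4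
  simp only [h2, hc'b, Pi.smul_apply, Pi.single_apply, smul_eq_mul, mul_ite, mul_one, mul_zero,
    Finset.sum_ite_eq, Finset.mem_univ, if_true] at h4
  rw [← h4]
  simp [Matrix.mulVec, dotProduct, Pi.single_apply]

end two

end

end Fermat.Agent.TW
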