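import Fermat.Agent.TW.Def.SeamA
import Fermat.Agent.TW.Patch.SRing
import Fermat.Agent.TW.Patch.Defs

/-!
# Project ONE MACHINE: C/Sigma, the seam of the cell [Act] (helper21)

* `twc_j B r` : the FIXED (independent of the level) action of `T_∅` on
  `M_∅^{2^r} = (S ⧸ 𝔞)^{d}`, `d = B.d * 2 ^ r`: block diagonal, `2 ^ r` copies of `B.j`,
  index `Fin B.d × Fin (2 ^ r) ≃ Fin (B.d * 2 ^ r)` by `finProdFinEquiv`.
* `twc_Act_stmt` **[Act]**: for a big system `Bg` with Galois diamonds `u_t ∈ T''` matching the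
  Hecke diamonds on `Bg.Mb` (first half of `twc_ALG`), and the level `𝔟 = twds_b 𝒪 r (p ^ m)`:
  matrix actions `act1 : T' → M_d(S ⧸ 𝔟)`, `actχ : T'' → M_d(S ⧸ 𝔟)` (on `M¹_m`, `M^χ_m`, in bases
  induced by ONE basis of `Bg.Mb` for the Galois structure), congruent modulo `λ` through `π1`,
  with `u_{t_i} ↦ scalar (1 + y_i)`, reducing modulo `𝔞` to `twc_j B r ∘ π0`, and such that `actχ`
  kills everything that kills `M^χ`.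
-/

set_option autoImplicit false
set_option linter.unusedSectionVars false

open Polynomial CuspForm IsLocalRing

namespace Fermat.Agent.TW

noncomputable section

section j

variable {𝒪 : Type} [CommRing 𝒪] [IsDomain 𝒪] [IsDiscreteValuationRing 𝒪]
  [IsAdicComplete (maximalIdeal 𝒪) 𝒪]
  {N : ℕ} [NeZero N] {S : Finset ℕ} {θ : heckeAlgebra N 2 (↑S : Set ℕ) →+* ResidueField 𝒪}

/-- the fixed action of `T_∅` on `M_∅^{2^r}`, over `S ⧸ 𝔞 = 𝒪`. -/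
def twc_j (B : twe_Base 𝒪 N S θ) (r : ℕ) :
    B.T →+* Matrix (Fin (B.d * 2 ^ r)) (Fin (B.d * 2 ^ r))
      (MvPowerSeries (Fin r) 𝒪 ⧸ twds_a 𝒪 r) :=
  ((Matrix.reindexAlgEquiv 𝒪 (MvPowerSeries (Fin r) 𝒪 ⧸ twds_a 𝒪 r)
      (finProdFinEquiv : Fin B.d × Fin (2 ^ r) ≃ Fin (B.d * 2 ^ r))) :
    Matrix (Fin B.d × Fin (2 ^ r)) (Fin B.d × Fin (2 ^ r))
      (MvPowerSeries (Fin r) 𝒪 ⧸ twds_a 𝒪 r) →+* _).comp
  ((Matrix.blockDiagonalRingHom (Fin B.d) (Fin (2 ^ r))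
      (MvPowerSeries (Fin r) 𝒪 ⧸ twds_a 𝒪 r)).comp
    (Pi.ringHom fun _ : Fin (2 ^ r) =>
      ((algebraMap 𝒪 (MvPowerSeries (Fin r) 𝒪 ⧸ twds_a 𝒪 r)).mapMatrix).comp
        (B.j : B.T →+* Matrix (Fin B.d) (Fin B.d) 𝒪)))

theorem twc_j_apply (B : twe_Base 𝒪 N S θ) (r : ℕ) (x : B.T) (a a' : Fin B.d)
    (i i' : Fin (2 ^ r)) :
    twc_j B r x (finProdFinEquiv (a, i)) (finProdFinEquiv (a', i')) =
      if i = i' then algebraMap 𝒪 (MvPowerSeries (Fin r) 𝒪 ⧸ twds_a 𝒪 r) (B.j x a a') else 0 := by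
  simp only [twc_j, RingHom.comp_apply, RingHom.coe_coe, Matrix.reindexAlgEquiv_apply,
    Matrix.reindex_apply, Matrix.submatrix_apply, Equiv.symm_apply_apply,
    Matrix.blockDiagonalRingHom_apply, Matrix.blockDiagonal_apply]
  rfl

end j

/-- **[Act]**: the matrix actions of the two systems at level `m`. -/
def twc_Act_stmt : Prop :=
  ∀ (𝒪 : Type) [CommRing 𝒪] [IsDomain 𝒪] [IsDiscreteValuationRing 𝒪]
    [IsAdicComplete (maximalIdeal 𝒪) 𝒪] (lam : 𝒪) (p : ℕ) [Fact p.Prime],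
    (p : 𝒪) ∈ maximalIdeal 𝒪 →
  ∀ (N : ℕ) [NeZero N] (S : Finset ℕ) (θ : heckeAlgebra N 2 (↑S : Set ℕ) →+* ResidueField 𝒪)
    (B : twe_Base 𝒪 N S θ) (Q : Finset ℕ) [NeZero (twe_Nbal N Q ∅)] (L : twe_Level B p Q)
    (Th : Finset ℕ) [NeZero (twe_Nbal N Q Th)] (Bg : twe_Big L Th)
    (r : ℕ) (qv : Fin r → ℕ) (hqv : ∀ i, qv i ∈ Q),
    Function.Injective qv → (∀ t ∈ Q, ∃ i, qv i = t) →
  ∀ (m : ℕ), (∀ i, p ^ m ∣ twe_ord p (qv i)) →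
  ∀ (u : ∀ t : ℕ, t ∈ Q → Bg.T''),
    (∀ t ht (x : Bg.Mb), u t ht ^ twe_ord p t • x = x) →
    (∀ t ht (x : Bg.Mb), ∃ x' : Bg.Mb, (u t ht - 1) • x = Bg.diaQ t ht x' - x') →
    (∀ t ht (x : Bg.Mb), ∃ x' : Bg.Mb, Bg.diaQ t ht x - x = (u t ht - 1) • x') →
  ∀ (χ : twe_Delta p Th →* 𝒪ˣ), (∀ δ, ((χ δ : 𝒪ˣ) : 𝒪) - 1 ∈ Ideal.span {lam}) →
    ∃ (act1 : L.T' →ₐ[𝒪] Matrix (Fin (B.d * 2 ^ r)) (Fin (B.d * 2 ^ r))
          (MvPowerSeries (Fin r) 𝒪 ⧸ twds_b 𝒪 r (p ^ m)))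
      (actχ : Bg.T'' →ₐ[𝒪] Matrix (Fin (B.d * 2 ^ r)) (Fin (B.d * 2 ^ r))
          (MvPowerSeries (Fin r) 𝒪 ⧸ twds_b 𝒪 r (p ^ m))),
      (∀ x : Bg.T'', twd_MatCong
        (Ideal.span {Ideal.Quotient.mk (twds_b 𝒪 r (p ^ m))
          (algebraMap 𝒪 (MvPowerSeries (Fin r) 𝒪) lam)}) (act1 (Bg.π1 x)) (actχ x)) ∧
      (∀ i, act1 (Bg.π1 (u (qv i) (hqv i))) = Matrix.scalar (Fin (B.d * 2 ^ r))
        (Ideal.Quotient.mk (twds_b 𝒪 r (p ^ m)) (1 + MvPowerSeries.X i))) ∧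
      (∀ i, actχ (u (qv i) (hqv i)) = Matrix.scalar (Fin (B.d * 2 ^ r))
        (Ideal.Quotient.mk (twds_b 𝒪 r (p ^ m)) (1 + MvPowerSeries.X i))) ∧
      (∀ x : L.T', (act1 x).map (Ideal.Quotient.factor (twds_b_le_a r (p ^ m))) =
        twc_j B r (L.π0 x)) ∧
      (∀ x : Bg.T'', (∀ y : Bg.Mb, x • y ∈ twc_chiSub (G := twe_Delta p Q) (Mb := Bg.Mb) χ) →
        actχ x = 0)

end

end Fermat.Agent.TW
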