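/-
Project ONE MACHINE (S43), block [C], cell [Act] (b) (helper26; prefix `twc_am_`).

`twc_am_Mix` : the conclusion of the cell (a) [Sigma/Mix] (the Galois structure
`ψ : 𝒪[Δ_Q × Δ_Th] → End_𝒪 Mb` with a normalised basis `b`);
`twc_am_act` : `twc_am_Mix` for all data ⟹ `twc_Act_stmt`.
-/
import Mathlib
import Fermat.Agent.TW.Def.SigmaActAbs
import Fermat.Agent.TW.Def.SigmaSeam
import Fermat.Agent.TW.Aut.ChiBridge
import Fermat.Agent.TW.LG.MatchSeam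

set_option autoImplicit false
set_option linter.unusedSectionVars false
set_option linter.unusedVariables false

open Polynomial CuspForm IsLocalRing MonoidAlgebra

namespace Fermat.Agent.TW

noncomputable section

/-! ### The evaluation `𝒪[Δ_Q] → S ⧸ 𝔟` -/

section evm

/-- `a ↦ y ^ a.val` on `ℤ/n`, for `y ^ n = 1`. -/
def twc_am_powHom {R : Type*} [CommMonoid R] (n : ℕ) [NeZero n] (y : R) (hy : y ^ n = 1) :
    Multiplicative (ZMod n) →* R where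
  toFun a := y ^ (Multiplicative.toAdd a).val
  map_one' := by simp
  map_mul' a b := by
    rw [toAdd_mul, ZMod.val_add, ← pow_add]
    exact (pow_eq_pow_mod _ hy).symm

theorem twc_am_powHom_one {R : Type*} [CommMonoid R] (n : ℕ) [NeZero n] (y : R)
    (hy : y ^ n = 1) : twc_am_powHom n y hy (Multiplicative.ofAdd 1) = y := by
  show y ^ (1 : ZMod n).val = y
  rw [ZMod.val_one_eq_one_mod, ← pow_eq_pow_mod _ hy, pow_one]

theorem twc_am_powHom_zero {R : Type*} [CommMonoid R] (n : ℕ) [NeZero n] (y : R)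
    (hy : y ^ n = 1) : twc_am_powHom n y hy (Multiplicative.ofAdd 0) = 1 := by
  show y ^ (0 : ZMod n).val = 1
  rw [ZMod.val_zero, pow_zero]

variable {R : Type*} [CommMonoid R] (p : ℕ) (Q : Finset ℕ) {r : ℕ} (qv : Fin r → ℕ)
  (hqv : ∀ i, qv i ∈ Q) (y : Fin r → R) (hy : ∀ i, y i ^ twe_ord p (qv i) = 1)

/-- the character `Δ_Q → R`, `δ ↦ ∏ i, y i ^ (δ (qv i)).val`. -/
def twc_am_phi : twe_Delta p Q →* R :=
  ∏ i : Fin r, (twc_am_powHom (twe_ord p (qv i)) (y i) (hy i)).comp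
    (AddMonoidHom.toMultiplicative
      (Pi.evalAddMonoidHom (fun t : ↥Q => ZMod (twe_ord p (t : ℕ))) ⟨qv i, hqv i⟩))

theorem twc_am_phi_gen (hinj : Function.Injective qv) (i : Fin r) :
    twc_am_phi p Q qv hqv y hy (twe_gen p Q (qv i) (hqv i)) = y i := by
  classical
  rw [twc_am_phi, MonoidHom.finsetProd_apply, Finset.prod_eq_single i]
  · rw [MonoidHom.comp_apply]
    have h1 : AddMonoidHom.toMultiplicative
        (Pi.evalAddMonoidHom (fun t : ↥Q => ZMod (twe_ord p (t : ℕ))) ⟨qv i, hqv i⟩)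
        (twe_gen p Q (qv i) (hqv i)) = Multiplicative.ofAdd 1 := by
      show Multiplicative.ofAdd ((Pi.single (⟨qv i, hqv i⟩ : ↥Q) (1 : ZMod _) :
        ∀ t : ↥Q, ZMod (twe_ord p (t : ℕ))) ⟨qv i, hqv i⟩) = _
      rw [Pi.single_eq_same]
    rw [h1, twc_am_powHom_one]
  · intro i' _ hne
    rw [MonoidHom.comp_apply]
    have h1 : AddMonoidHom.toMultiplicative
        (Pi.evalAddMonoidHom (fun t : ↥Q => ZMod (twe_ord p (t : ℕ))) ⟨qv i', hqv i'⟩)
        (twe_gen p Q (qv i) (hqv i)) = Multiplicative.ofAdd 0 := by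
      show Multiplicative.ofAdd ((Pi.single (⟨qv i, hqv i⟩ : ↥Q) (1 : ZMod _) :
        ∀ t : ↥Q, ZMod (twe_ord p (t : ℕ))) ⟨qv i', hqv i'⟩) = _
      rw [Pi.single_eq_of_ne]
      intro h
      exact hne (hinj (congrArg Subtype.val h))
    rw [h1, twc_am_powHom_zero]
  · intro h; exact absurd (Finset.mem_univ _) h

theorem twc_am_phi_map_eq_one {R' F : Type*} [CommMonoid R'] [FunLike F R R']
    [MonoidHomClass F R R'] (f : F)
    (hf : ∀ i, f (y i) = 1) (δ : twe_Delta p Q) : f (twc_am_phi p Q qv hqv y hy δ) = 1 := by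
  rw [twc_am_phi, MonoidHom.finsetProd_apply, map_prod]
  refine Finset.prod_eq_one fun i _ => ?_
  rw [MonoidHom.comp_apply]
  show f (y i ^ _) = 1
  rw [map_pow, hf i, one_pow]

end evm

section evm2

variable (𝒪 : Type) [CommRing 𝒪] (p : ℕ) (Q : Finset ℕ) {r : ℕ} (qv : Fin r → ℕ)
  (hqv : ∀ i, qv i ∈ Q) (m : ℕ) (hm : ∀ i, p ^ m ∣ twe_ord p (qv i))

include hm in
theorem twc_am_y_pow (i : Fin r) :
    (Ideal.Quotient.mk (twds_b 𝒪 r (p ^ m)) (1 + MvPowerSeries.X i)) ^ twe_ord p (qv i) = 1 := by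
  obtain ⟨k, hk⟩ := hm i
  have h1 : (Ideal.Quotient.mk (twds_b 𝒪 r (p ^ m)) ((1 + MvPowerSeries.X i) ^ p ^ m)) = 1 := by
    rw [← sub_eq_zero, ← map_one (Ideal.Quotient.mk (twds_b 𝒪 r (p ^ m))), ← map_sub,
      Ideal.Quotient.eq_zero_iff_mem]
    exact Ideal.subset_span ⟨i, rfl⟩
  rw [hk, pow_mul, ← map_pow, h1, one_pow]

/-- the evaluation `𝒪[Δ_Q] → S ⧸ 𝔟`, `δ_{qv i} ↦ 1 + y_i`. -/
def twc_am_evm : MonoidAlgebra 𝒪 (twe_Delta p Q) →ₐ[𝒪]
    (MvPowerSeries (Fin r) 𝒪 ⧸ twds_b 𝒪 r (p ^ m)) :=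
  MonoidAlgebra.lift 𝒪 (MvPowerSeries (Fin r) 𝒪 ⧸ twds_b 𝒪 r (p ^ m)) (twe_Delta p Q)
    (twc_am_phi p Q qv hqv
      (fun i => Ideal.Quotient.mk (twds_b 𝒪 r (p ^ m)) (1 + MvPowerSeries.X i))
      (twc_am_y_pow 𝒪 p qv m hm))

theorem twc_am_evm_gen (hinj : Function.Injective qv) (i : Fin r) :
    twc_am_evm 𝒪 p Q qv hqv m hm (of 𝒪 (twe_Delta p Q) (twe_gen p Q (qv i) (hqv i))) =
      Ideal.Quotient.mk (twds_b 𝒪 r (p ^ m)) (1 + MvPowerSeries.X i) := by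
  rw [twc_am_evm, lift_of, twc_am_phi_gen p Q qv hqv _ _ hinj i]

theorem twc_am_evm_factor (z : MonoidAlgebra 𝒪 (twe_Delta p Q)) :
    Ideal.Quotient.factor (twds_b_le_a r (p ^ m)) (twc_am_evm 𝒪 p Q qv hqv m hm z) =
      algebraMap 𝒪 (MvPowerSeries (Fin r) 𝒪 ⧸ twds_a 𝒪 r) (twc_am_aug 𝒪 (twe_Delta p Q) z) := by
  have hfy : ∀ i : Fin r, Ideal.Quotient.factorₐ 𝒪 (twds_b_le_a (O := 𝒪) r (p ^ m))
        (Ideal.Quotient.mk (twds_b 𝒪 r (p ^ m)) (1 + MvPowerSeries.X i)) = 1 := by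
    intro i
    rw [Ideal.Quotient.factorₐ_apply, Ideal.Quotient.factor_mk, ← sub_eq_zero,
      ← map_one (Ideal.Quotient.mk (twds_a 𝒪 r)), ← map_sub,
      Ideal.Quotient.eq_zero_iff_mem, twds_mem_a]
    simp
  have hfac : ∀ z : MonoidAlgebra 𝒪 (twe_Delta p Q),
      (Ideal.Quotient.factorₐ 𝒪 (twds_b_le_a r (p ^ m))).comp (twc_am_evm 𝒪 p Q qv hqv m hm) z =
        (Algebra.ofId 𝒪 (MvPowerSeries (Fin r) 𝒪 ⧸ twds_a 𝒪 r)).comp
          (twc_am_aug 𝒪 (twe_Delta p Q)) z := by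
    intro z
    induction z using MonoidAlgebra.induction_on with
    | of δ =>
      rw [AlgHom.comp_apply, AlgHom.comp_apply, twc_am_aug_of, map_one, twc_am_evm, lift_of]
      exact twc_am_phi_map_eq_one p Q qv hqv _ _
        (Ideal.Quotient.factorₐ 𝒪 (twds_b_le_a (O := 𝒪) r (p ^ m))) hfy δ
    | add z z' h1 h2 => rw [map_add, map_add, h1, h2]
    | smul c z h1 => rw [map_smul, map_smul, h1]
  exact hfac z

end evm2

section mix

variable {𝒪 : Type} [CommRing 𝒪] [IsDomain 𝒪] [IsDiscreteValuationRing 𝒪]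
  [IsAdicComplete (maximalIdeal 𝒪) 𝒪]
  {N : ℕ} [NeZero N] {S : Finset ℕ} {θ : heckeAlgebra N 2 (↑S : Set ℕ) →+* ResidueField 𝒪}
  {B : twe_Base 𝒪 N S θ} {p : ℕ} {Q : Finset ℕ} [NeZero (twe_Nbal N Q ∅)]
  {L : twe_Level B p Q} {Th : Finset ℕ} [NeZero (twe_Nbal N Q Th)]

/-- **the conclusion of (a) [Sigma/Mix]**: the Galois structure on `Bg.Mb` with a basis which is
normalised in the coinvariants `M_∅^{2^r}`. -/
def twc_am_Mix (Bg : twe_Big L Th) (r : ℕ) (u : ∀ t : ℕ, t ∈ Q → Bg.T'') : Prop :=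
  ∃ (ψ : MonoidAlgebra 𝒪 (twe_Delta p Q × twe_Delta p Th) →ₐ[𝒪] Module.End 𝒪 Bg.Mb)
    (b : Fin B.d × Fin (2 ^ r) → Bg.Mb),
    (∀ t ht (x : Bg.Mb),
      ψ (of 𝒪 (twe_Delta p Q × twe_Delta p Th) (twe_gen p Q t ht, 1)) x = u t ht • x) ∧
    (∀ (η : twe_Delta p Th) (x : Bg.Mb),
      ψ (of 𝒪 (twe_Delta p Q × twe_Delta p Th) (1, η)) x =
        of 𝒪 (twe_Delta p Q × twe_Delta p Th) (1, η) • x) ∧
    (∀ (a : MonoidAlgebra 𝒪 (twe_Delta p Q × twe_Delta p Th)) (y : Bg.T'') (x : Bg.Mb),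
      ψ a (y • x) = y • ψ a x) ∧
    LinearIndependent 𝒪 (fun kj : (twe_Delta p Q × twe_Delta p Th) × (Fin B.d × Fin (2 ^ r)) =>
      ψ (of 𝒪 (twe_Delta p Q × twe_Delta p Th) kj.1) (b kj.2)) ∧
    ⊤ ≤ Submodule.span 𝒪 (Set.range
      fun kj : (twe_Delta p Q × twe_Delta p Th) × (Fin B.d × Fin (2 ^ r)) =>
        ψ (of 𝒪 (twe_Delta p Q × twe_Delta p Th) kj.1) (b kj.2)) ∧
    (∀ (a : Fin B.d) (i : Fin (2 ^ r)) (i' : Fin (2 ^ Q.card)), (i' : ℕ) = (i : ℕ) →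
      L.c (Bg.c1 (b (a, i))) = Pi.single i' (Pi.single a 1))

/-- generation of `Δ_Q` by the chosen generators. -/
theorem twc_am_closure_gen (p : ℕ) (Q : Finset ℕ) :
    Submonoid.closure (Set.range fun t : ↥Q => twe_gen p Q (t : ℕ) t.2) = ⊤ := by
  classical
  rw [eq_top_iff]
  intro δ _
  obtain ⟨k, rfl⟩ := (twlg_expEquiv (fun t : ↥Q => twe_ord p (t : ℕ))).surjective δ
  rw [← twlg_prod_gen]
  refine Submonoid.prod_mem _ fun t _ => Submonoid.pow_mem _ (Submonoid.subset_closure ?_) _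
  exact ⟨t, rfl⟩

/-- reindexing a scalar matrix. -/
theorem twc_am_reindex_scalar {R A : Type*} [CommSemiring R] [Semiring A] [Algebra R A]
    {m n : Type*} [Fintype m] [Fintype n] [DecidableEq m] [DecidableEq n] (e : m ≃ n) (a : A) :
    (Matrix.reindexAlgEquiv R A e).toAlgHom (Matrix.scalar m a) = Matrix.scalar n a := by
  ext i j
  simp [Matrix.coe_reindexAlgEquiv, Matrix.reindex_apply, Matrix.submatrix_apply,
    Matrix.scalar_apply, Matrix.diagonal_apply]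

/-- entries of a reindexed matrix. -/
theorem twc_am_reindex_apply {R A : Type*} [CommSemiring R] [Semiring A] [Algebra R A]
    {m n : Type*} [Fintype m] [Fintype n] [DecidableEq m] [DecidableEq n] (e : m ≃ n)
    (M : Matrix m m A) (i j : m) :
    (Matrix.reindexAlgEquiv R A e).toAlgHom M (e i) (e j) = M i j := by
  simp [Matrix.coe_reindexAlgEquiv, Matrix.reindex_apply, Matrix.submatrix_apply]

/-- **the core of [Act]**: the two matrix representations over the group algebras. -/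
theorem twc_am_core (Bg : twe_Big L Th) (u : ∀ t : ℕ, t ∈ Q → Bg.T'')
    (hu2 : ∀ t ht (x : Bg.Mb), ∃ x' : Bg.Mb, (u t ht - 1) • x = Bg.diaQ t ht x' - x')
    (hMix : twc_am_Mix Bg Q.card u) :
    ∃ (actBig : Bg.T'' →ₐ[𝒪] Matrix (Fin B.d × Fin (2 ^ Q.card)) (Fin B.d × Fin (2 ^ Q.card))
          (MonoidAlgebra 𝒪 (twe_Delta p Q × twe_Delta p Th)))
      (act1₀ : L.T' →ₐ[𝒪] Matrix (Fin B.d × Fin (2 ^ Q.card)) (Fin B.d × Fin (2 ^ Q.card))
          (MonoidAlgebra 𝒪 (twe_Delta p Q))),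
      (∀ x : Bg.T'', act1₀ (Bg.π1 x) =
        (actBig x).map (twe_chi_ev (1 : twe_Delta p Th →* 𝒪ˣ))) ∧
      (∀ t (ht : t ∈ Q), actBig (u t ht) = Matrix.scalar (Fin B.d × Fin (2 ^ Q.card))
        (of 𝒪 (twe_Delta p Q × twe_Delta p Th) (twe_gen p Q t ht, 1))) ∧
      (∀ (y : L.T') (a a' : Fin B.d) (i i' : Fin (2 ^ Q.card)),
        twc_am_aug 𝒪 (twe_Delta p Q) (act1₀ y (a, i) (a', i')) =
          if i = i' then B.j (L.π0 y) a a' else 0) ∧
      (∀ (χ : twe_Delta p Th →* 𝒪ˣ) (x : Bg.T''),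
        (∀ y : Bg.Mb, x • y ∈ twc_chiSub (G := twe_Delta p Q) (Mb := Bg.Mb) χ) →
        ∀ i j, twe_chi_ev χ (actBig x i j) = 0) := by
  classical
  obtain ⟨ψ, b, hψu, hψH, hψT, hli, hspan, hcb⟩ := hMix
  -- the kernel of `c1` in `ψ`-form
  have hker : LinearMap.ker Bg.c1 = Submodule.span 𝒪
      {x : Bg.Mb | ∃ (η : twe_Delta p Th) (m : Bg.Mb),
        x = ψ (of 𝒪 (twe_Delta p Q × twe_Delta p Th) (1, η)) m - m} := by
    rw [Bg.c1_ker]
    congr 1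
    ext x
    constructor
    · rintro ⟨η, m, rfl⟩
      exact ⟨η, m, by rw [hψH]⟩
    · rintro ⟨η, m, rfl⟩
      exact ⟨η, m, by rw [hψH]⟩
  obtain ⟨actBig, act1₀, hB1, hB4, hB5, hA1, hA4, hπ⟩ :=
    twc_am_two (G := twe_Delta p Q) (H := twe_Delta p Th) Bg.π1 Bg.c1 Bg.c1_surjective
      Bg.c1_hecke ψ hker
      (fun t : ↥Q => twe_gen p Q (t : ℕ) t.2) (twc_am_closure_gen p Q)
      (fun t : ↥Q => u (t : ℕ) t.2) (fun t x => hψu (t : ℕ) t.2 x) hψT b hli hspan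
  refine ⟨actBig, act1₀, hπ, ?_, ?_, ?_⟩
  · -- `actBig (u_t) = scalar (of (gen_t, 1))`
    intro t ht
    apply hB4
    intro j
    rw [Finset.sum_eq_single j]
    · rw [Matrix.scalar_apply, Matrix.diagonal_apply_eq, hψu]
    · intro i _ hne
      rw [Matrix.scalar_apply, Matrix.diagonal_apply_ne _ hne, map_zero, LinearMap.zero_apply]
    · intro h; exact absurd (Finset.mem_univ _) h
  · -- the augmentation
    -- the coinvariant map
    let c' : L.M →ₗ[𝒪] (Fin B.d × Fin (2 ^ Q.card) → 𝒪) :=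
      LinearMap.pi fun ai => (LinearMap.proj ai.1).comp ((LinearMap.proj ai.2).comp L.c)
    have hc' : ∀ (x : L.M) (ai : Fin B.d × Fin (2 ^ Q.card)), c' x ai = L.c x ai.2 ai.1 :=
      fun x ai => rfl
    let j0 : L.T' → Matrix (Fin B.d × Fin (2 ^ Q.card)) (Fin B.d × Fin (2 ^ Q.card)) 𝒪 :=
      fun y => Matrix.of fun ai ai' => if ai.2 = ai'.2 then B.j (L.π0 y) ai.1 ai'.1 else 0
    have hc'b : ∀ j, c' (Bg.c1 (b j)) = Pi.single j 1 := by
      rintro ⟨a, i⟩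
      funext ⟨a', i'⟩
      rw [hc', hcb a i i rfl]
      simp only [Pi.single_apply, Prod.mk.injEq]
      by_cases hi : i' = i
      · by_cases ha : a' = a
        · simp [hi, ha]
        · simp [hi, ha]
      · simp [hi]
    have hc'T : ∀ (y : L.T') (x : L.M), c' (y • x) = (j0 y).mulVec (c' x) := by
      intro y x
      funext ⟨a, i⟩
      rw [hc', L.c_hecke]
      simp only [Matrix.mulVec, dotProduct, j0, Matrix.of_apply, hc']
      rw [Fintype.sum_prod_type]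
      refine Finset.sum_congr rfl fun a' _ => ?_
      rw [Finset.sum_eq_single i]
      · rw [if_pos rfl]
      · intro i' _ hne
        rw [if_neg (Ne.symm hne), zero_mul]
      · intro h; exact absurd (Finset.mem_univ _) h
    have hc'u : ∀ (t : ↥Q) (x : L.M), c' (Bg.π1 (u (t : ℕ) t.2) • x) = c' x := by
      intro t x
      obtain ⟨x0, rfl⟩ := Bg.c1_surjective x
      obtain ⟨x', hx'⟩ := hu2 (t : ℕ) t.2 x0
      have h1 : Bg.π1 (u (t : ℕ) t.2) • Bg.c1 x0 - Bg.c1 x0 ∈ LinearMap.ker L.c := by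
        have h2 : Bg.π1 (u (t : ℕ) t.2) • Bg.c1 x0 - Bg.c1 x0 =
            of 𝒪 (twe_Delta p Q) (twe_gen p Q (t : ℕ) t.2) • Bg.c1 x' - Bg.c1 x' := by
          rw [← Bg.c1_hecke, ← map_sub, ← Bg.c1_diamond, ← map_sub]
          congr 1
          rw [sub_smul, one_smul] at hx'
          exact hx'
        rw [h2, L.c_ker]
        exact Submodule.subset_span ⟨_, _, rfl⟩
      have h3 : L.c (Bg.π1 (u (t : ℕ) t.2) • Bg.c1 x0) = L.c (Bg.c1 x0) := by
        rw [LinearMap.mem_ker, map_sub, sub_eq_zero] at h1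
        exact h1
      funext ai
      rw [hc', hc', h3]
    have haug := twc_am_aug_act (G := twe_Delta p Q) (H := twe_Delta p Th) Bg.π1 Bg.c1
      Bg.c1_surjective Bg.c1_hecke ψ hker
      (fun t : ↥Q => twe_gen p Q (t : ℕ) t.2) (twc_am_closure_gen p Q)
      (fun t : ↥Q => u (t : ℕ) t.2) (fun t x => hψu (t : ℕ) t.2 x) b (fun y => act1₀ y) hA1 c' hc'b
      j0 hc'T hc'u
    intro y a a' i i'
    rw [haug y (a, i) (a', i')]
    rfl
  · -- coordinates in `ker ev_χ`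
    intro χ x hx
    have hsub : twc_chiSub (G := twe_Delta p Q) (Mb := Bg.Mb) χ ≤
        twc_sg_sub ψ (RingHom.ker (twe_chi_ev (G := twe_Delta p Q) χ)) := by
      rw [twc_chiSub, Submodule.span_le]
      rintro _ ⟨δ, x', rfl⟩
      refine Submodule.subset_span ⟨twe_chi_gen χ δ, twe_chi_ev_gen χ δ, x', ?_⟩
      rw [twe_chi_gen, map_sub, AlgHom.commutes, LinearMap.sub_apply, hψH,
        Module.algebraMap_end_apply]
    intro i j
    have h1 := hB5 _ (fun i => actBig x i j) (by rw [← hB1 x j]; exact hsub (hx (b j))) i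
    exact h1

/-- **[Act] from [Sigma/Mix]**, for one system. -/
theorem twc_am_act_of_mix (lam : 𝒪) (Bg : twe_Big L Th)
    (r : ℕ) (qv : Fin r → ℕ) (hqv : ∀ i, qv i ∈ Q) (hinj : Function.Injective qv)
    (hr : Q.card = r)
    (m : ℕ) (hm : ∀ i, p ^ m ∣ twe_ord p (qv i))
    (u : ∀ t : ℕ, t ∈ Q → Bg.T'')
    (hu2 : ∀ t ht (x : Bg.Mb), ∃ x' : Bg.Mb, (u t ht - 1) • x = Bg.diaQ t ht x' - x')
    (χ : twe_Delta p Th →* 𝒪ˣ) (hχ : ∀ δ, ((χ δ : 𝒪ˣ) : 𝒪) - 1 ∈ Ideal.span {lam})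
    (hMix : twc_am_Mix Bg r u) :
    ∃ (act1 : L.T' →ₐ[𝒪] Matrix (Fin (B.d * 2 ^ r)) (Fin (B.d * 2 ^ r))
          (MvPowerSeries (Fin r) 𝒪 ⧸ twds_b 𝒪 r (p ^ m)))
      (actχ : Bg.T'' →ₐ[𝒪] Matrix (Fin (B.d * 2 ^ r)) (Fin (B.d * 2 ^ r))
          (MvPowerSeries (Fin r) 𝒪 ⧸ twds_b 𝒪 r (p ^ m))),
      (∀ x : Bg.T'', twd_MatCong
        (Ideal.span {Ideal.Quotient.mk (twds_b 𝒪 r (p ^ m))
          (algebraMap 𝒪 (MvPowerSeries (Fin r) 𝒪) lam)}) (act1 (Bg.π1 x)) (actχ x)) ∧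
      (∀ i, act1 (Bg.π1 (u (qv i) (hqv i))) = Matrix.scalar (Fin (B.d * 2 ^ r))
        (Ideal.Quotient.mk (twds_b 𝒪 r (p ^ m)) (1 + MvPowerSeries.X i))) ∧
      (∀ i, actχ (u (qv i) (hqv i)) = Matrix.scalar (Fin (B.d * 2 ^ r))
        (Ideal.Quotient.mk (twds_b 𝒪 r (p ^ m)) (1 + MvPowerSeries.X i))) ∧
      (∀ x : L.T', (act1 x).map (Ideal.Quotient.factor (twds_b_le_a r (p ^ m))) =
        twc_j B r (L.π0 x)) ∧
      (∀ x : Bg.T'', (∀ y : Bg.Mb, x • y ∈ twc_chiSub (G := twe_Delta p Q) (Mb := Bg.Mb) χ) →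
        actχ x = 0) := by
  classical
  subst hr
  obtain ⟨actBig, act1₀, hπ, hBu, haug, hχker⟩ := twc_am_core Bg u hu2 hMix
  -- the evaluation `ev_m`, as an opaque object
  obtain ⟨evm, hevm_gen, hevm_fac⟩ : ∃ evm : MonoidAlgebra 𝒪 (twe_Delta p Q) →ₐ[𝒪]
      (MvPowerSeries (Fin Q.card) 𝒪 ⧸ twds_b 𝒪 Q.card (p ^ m)),
      (∀ i : Fin Q.card, evm (of 𝒪 (twe_Delta p Q) (twe_gen p Q (qv i) (hqv i))) =
        Ideal.Quotient.mk (twds_b 𝒪 Q.card (p ^ m)) (1 + MvPowerSeries.X i)) ∧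
      (∀ z, Ideal.Quotient.factor (twds_b_le_a Q.card (p ^ m)) (evm z) =
        algebraMap 𝒪 (MvPowerSeries (Fin Q.card) 𝒪 ⧸ twds_a 𝒪 Q.card)
          (twc_am_aug 𝒪 (twe_Delta p Q) z)) :=
    ⟨twc_am_evm 𝒪 p Q qv hqv m hm, twc_am_evm_gen 𝒪 p Q qv hqv m hm hinj,
      twc_am_evm_factor 𝒪 p Q qv hqv m hm⟩
  -- the reindexing, as an opaque object
  obtain ⟨re, hre_apply, hre_scalar⟩ : ∃ re :
      Matrix (Fin B.d × Fin (2 ^ Q.card)) (Fin B.d × Fin (2 ^ Q.card))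
        (MvPowerSeries (Fin Q.card) 𝒪 ⧸ twds_b 𝒪 Q.card (p ^ m)) →ₐ[𝒪]
      Matrix (Fin (B.d * 2 ^ Q.card)) (Fin (B.d * 2 ^ Q.card))
        (MvPowerSeries (Fin Q.card) 𝒪 ⧸ twds_b 𝒪 Q.card (p ^ m)),
      (∀ M i j, re M (finProdFinEquiv i) (finProdFinEquiv j) = M i j) ∧
      (∀ a, re (Matrix.scalar (Fin B.d × Fin (2 ^ Q.card)) a) =
        Matrix.scalar (Fin (B.d * 2 ^ Q.card)) a) :=
    ⟨(Matrix.reindexAlgEquiv 𝒪 _ finProdFinEquiv).toAlgHom,
      fun M i j => twc_am_reindex_apply _ M i j, fun a => twc_am_reindex_scalar _ a⟩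
  refine ⟨re.comp (evm.mapMatrix.comp act1₀),
    re.comp (((evm.comp (twe_chi_ev χ)).mapMatrix).comp actBig), ?_, ?_, ?_, ?_, ?_⟩
  · -- (1) congruence
    intro x i j
    obtain ⟨i, rfl⟩ := finProdFinEquiv.surjective i
    obtain ⟨j, rfl⟩ := finProdFinEquiv.surjective j
    rw [AlgHom.comp_apply, AlgHom.comp_apply, AlgHom.comp_apply, AlgHom.comp_apply, hre_apply,
      hre_apply, AlgHom.mapMatrix_apply, AlgHom.mapMatrix_apply, Matrix.map_apply,
      Matrix.map_apply, AlgHom.comp_apply, hπ, Matrix.map_apply, ← map_sub]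
    have h1 := twe_chi_ev_congr (G := twe_Delta p Q) (1 : twe_Delta p Th →* 𝒪ˣ) χ lam (fun δ => by
      rw [MonoidHom.one_apply, Units.val_one, ← neg_sub]
      exact neg_mem (hχ δ)) (actBig x i j)
    obtain ⟨z, hz⟩ := Ideal.mem_span_singleton'.1 h1
    rw [← hz, map_mul, AlgHom.commutes]
    apply Ideal.mul_mem_left
    exact Ideal.subset_span rfl
  · -- (2a)
    intro i
    rw [AlgHom.comp_apply, AlgHom.comp_apply, hπ, hBu]
    have h2 : evm.mapMatrix ((Matrix.scalar (Fin B.d × Fin (2 ^ Q.card))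
        (of 𝒪 (twe_Delta p Q × twe_Delta p Th) (twe_gen p Q (qv i) (hqv i), 1))).map
          (twe_chi_ev (1 : twe_Delta p Th →* 𝒪ˣ))) =
        Matrix.scalar (Fin B.d × Fin (2 ^ Q.card))
          (Ideal.Quotient.mk (twds_b 𝒪 Q.card (p ^ m)) (1 + MvPowerSeries.X i)) := by
      ext k l
      rw [AlgHom.mapMatrix_apply, Matrix.map_apply, Matrix.map_apply, Matrix.scalar_apply,
        Matrix.scalar_apply, Matrix.diagonal_apply, Matrix.diagonal_apply]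
      split_ifs
      · rw [twe_chi_ev_of', MonoidHom.one_apply, Units.val_one, one_smul]
        exact hevm_gen i
      · rw [map_zero, map_zero]
    rw [h2]
    exact hre_scalar _
  · -- (2b)
    intro i
    rw [AlgHom.comp_apply, AlgHom.comp_apply, hBu]
    have h2 : (evm.comp (twe_chi_ev χ)).mapMatrix (Matrix.scalar (Fin B.d × Fin (2 ^ Q.card))
        (of 𝒪 (twe_Delta p Q × twe_Delta p Th) (twe_gen p Q (qv i) (hqv i), 1))) =
        Matrix.scalar (Fin B.d × Fin (2 ^ Q.card))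
          (Ideal.Quotient.mk (twds_b 𝒪 Q.card (p ^ m)) (1 + MvPowerSeries.X i)) := by
      ext k l
      rw [AlgHom.mapMatrix_apply, Matrix.map_apply, Matrix.scalar_apply, Matrix.scalar_apply,
        Matrix.diagonal_apply, Matrix.diagonal_apply]
      split_ifs
      · rw [AlgHom.comp_apply, twe_chi_ev_of', map_one, Units.val_one, one_smul]
        exact hevm_gen i
      · rw [map_zero]
    rw [h2]
    exact hre_scalar _
  · -- (3) reduction modulo `𝔞`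
    intro y
    ext i j
    obtain ⟨⟨a, i₀⟩, rfl⟩ := finProdFinEquiv.surjective i
    obtain ⟨⟨a', i₀'⟩, rfl⟩ := finProdFinEquiv.surjective j
    rw [Matrix.map_apply, AlgHom.comp_apply, AlgHom.comp_apply, hre_apply,
      AlgHom.mapMatrix_apply, Matrix.map_apply, twc_j_apply, hevm_fac, haug]
    split_ifs
    · rfl
    · rw [map_zero]
  · -- (4)
    intro x hx
    ext i j
    obtain ⟨i, rfl⟩ := finProdFinEquiv.surjective i
    obtain ⟨j, rfl⟩ := finProdFinEquiv.surjective j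
    rw [AlgHom.comp_apply, AlgHom.comp_apply, hre_apply, AlgHom.mapMatrix_apply,
      Matrix.map_apply, AlgHom.comp_apply, hχker χ x hx i j, map_zero, Matrix.zero_apply]

end mix

/-- **(a) [Sigma/Mix]** as a statement: under the hypotheses of `twc_Act_stmt` on `u`. -/
def twc_am_Mix_stmt : Prop :=
  ∀ (𝒪 : Type) [CommRing 𝒪] [IsDomain 𝒪] [IsDiscreteValuationRing 𝒪]
    [IsAdicComplete (maximalIdeal 𝒪) 𝒪] (p : ℕ) [Fact p.Prime],
    (p : 𝒪) ∈ maximalIdeal 𝒪 →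
  ∀ (N : ℕ) [NeZero N] (S : Finset ℕ) (θ : heckeAlgebra N 2 (↑S : Set ℕ) →+* ResidueField 𝒪)
    (B : twe_Base 𝒪 N S θ) (Q : Finset ℕ) [NeZero (twe_Nbal N Q ∅)] (L : twe_Level B p Q)
    (Th : Finset ℕ) [NeZero (twe_Nbal N Q Th)] (Bg : twe_Big L Th)
    (r : ℕ), Q.card = r →
  ∀ (u : ∀ t : ℕ, t ∈ Q → Bg.T''),
    (∀ t ht (x : Bg.Mb), u t ht ^ twe_ord p t • x = x) →
    (∀ t ht (x : Bg.Mb), ∃ x' : Bg.Mb, (u t ht - 1) • x = Bg.diaQ t ht x' - x') →
    (∀ t ht (x : Bg.Mb), ∃ x' : Bg.Mb, Bg.diaQ t ht x - x = (u t ht - 1) • x') →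
    twc_am_Mix Bg r u

/-- **[Act]** (`twc_Act_stmt`, as stated in `SigmaSeam.lean`) from (a) [Sigma/Mix]. -/
theorem twc_am_act (hMix : twc_am_Mix_stmt) : twc_Act_stmt := by
  intro 𝒪 _ _ _ _ lam p _ hp𝒪 N _ S θ B Q _ L Th _ Bg r qv hqv hinj hsurj m hm u hu1 hu2 hu3 χ hχ
  have hr : Q.card = r := by
    have hQ : Q = Finset.univ.image qv := by
      ext t
      constructor
      · intro ht
        obtain ⟨i, rfl⟩ := hsurj t ht
        exact Finset.mem_image_of_mem _ (Finset.mem_univ _)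
      · intro ht
        obtain ⟨i, _, rfl⟩ := Finset.mem_image.1 ht
        exact hqv i
    rw [hQ, Finset.card_image_of_injective _ hinj, Finset.card_univ, Fintype.card_fin]
  exact twc_am_act_of_mix lam Bg r qv hqv hinj hr m hm u hu2 χ hχ
    (hMix 𝒪 p hp𝒪 N S θ B Q L Th Bg r hr u hu1 hu2 hu3)

end

end Fermat.Agent.TW
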