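import Mathlib
import Fermat.Agent.TW.LG.MatchSeam
import Fermat.Agent.TW.LG.MatchCoinv
import Fermat.Agent.TW.Def.SeamA
import Fermat.Agent.TW.Aut.ChiBridge

/-!
# Project ONE MACHINE, C/Sigma (a) [Sigma/Mix] (helper18)

The MIXED group-algebra structure on the big Taylor–Wiles module: `𝒪[Δ_Q × Δ_Th]` acting through
the GALOIS diamonds `u_t ∈ T''` at the Taylor–Wiles primes `t ∈ Q` and through the HECKE diamonds
at the hard primes `ℓ ∈ Th`:

* `twc_sm_mon P u δ = ∏ i, u i ^ δ i`;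
* `twc_sm_hom`, `twc_sm_psi : 𝒪[G × H] →ₐ[𝒪] End_𝒪 M`, `of (δ, η) ↦ (∏ i, u i ^ δ i) ∘ (of (1, η) • ·)`
  (well defined because `u i ^ P i = 1` on `M`);
* `twc_sm_psi_comm_U`, `twc_sm_psi_comm_A` : `ψ` commutes with the Hecke algebra and with the
  original group-algebra action;
* `twc_sm_basis` : if `(of g • b j)` is an `𝒪`-basis of `M` (i.e. `b` is an `𝒪[G × H]`-basis for the
  Hecke structure), then `(ψ (of g) (b j))` is an `𝒪`-basis of `M`;
* `twc_sm_coord` : hence every `m` is UNIQUELY `∑ j, ψ (c j) (b j)`, `c : J → 𝒪[G × H]`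
  (`b` is a basis for the mixed structure);
* `twc_sm_big` : the instance for `Bg : twe_Big L Th` and the `u` of `twc_ALG`.
-/

set_option autoImplicit false

namespace Fermat.Agent.TW

open Finset

noncomputable section

section Two

variable {O 𝒜 𝒰 M : Type*} [CommRing O] [CommRing 𝒜] [CommRing 𝒰] [Algebra O 𝒜] [Algebra O 𝒰]
  [AddCommGroup M] [Module O M] [Module 𝒜 M] [Module 𝒰 M] [IsScalarTower O 𝒜 M]
  [IsScalarTower O 𝒰 M] [SMulCommClass 𝒰 𝒜 M]

open scoped IsMulCommutative in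
/-- **basis transfer, two-ring form**: `twlg_basis_transfer` when the `a i` and the `u i` live in
two commutative rings with commuting actions. -/
theorem twc_sm_transfer_two (p : ℕ) [hp : Fact p.Prime] {ι J : Type*} [Fintype ι] [Finite J]
    [Module.Finite O M] (hpJ : (p : O) ∈ Ideal.jacobson (⊥ : Ideal O))
    (a : ι → 𝒜) (u : ι → 𝒰) (n : ι → ℕ)
    (hun : ∀ i (m : M), u i ^ p ^ n i • m = m)
    (hxy : ∀ i (m : M), ∃ m', (a i - 1) • m = (u i - 1) • m') (b : J → M)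
    (hli : LinearIndependent O (fun kj : (∀ i, Fin (p ^ n i)) × J =>
      (∏ i, a i ^ (kj.1 i : ℕ)) • b kj.2))
    (hspan : ⊤ ≤ Submodule.span O (Set.range fun kj : (∀ i, Fin (p ^ n i)) × J =>
      (∏ i, a i ^ (kj.1 i : ℕ)) • b kj.2)) :
    LinearIndependent O (fun kj : (∀ i, Fin (p ^ n i)) × J =>
      (∏ i, u i ^ (kj.1 i : ℕ)) • b kj.2) ∧
    ⊤ ≤ Submodule.span O (Set.range fun kj : (∀ i, Fin (p ^ n i)) × J =>
      (∏ i, u i ^ (kj.1 i : ℕ)) • b kj.2) := by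
  classical
  have hcomm := twlg_two_comm (O := O) (𝒜 := 𝒜) (𝒰 := 𝒰) (M := M)
  haveI := Algebra.isMulCommutative_adjoin O hcomm
  let φa : 𝒜 →ₐ[O] Algebra.adjoin O (twlg_two_set O 𝒜 𝒰 M) :=
    (Algebra.lsmul O O M : 𝒜 →ₐ[O] Module.End O M).codRestrict _
      (fun x => Algebra.subset_adjoin (Or.inl ⟨x, rfl⟩))
  let φu : 𝒰 →ₐ[O] Algebra.adjoin O (twlg_two_set O 𝒜 𝒰 M) :=
    (Algebra.lsmul O O M : 𝒰 →ₐ[O] Module.End O M).codRestrict _
      (fun x => Algebra.subset_adjoin (Or.inr ⟨x, rfl⟩))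
  have hφa : ∀ (x : 𝒜) (m : M), φa x • m = x • m := fun x m => rfl
  have hφu : ∀ (x : 𝒰) (m : M), φu x • m = x • m := fun x m => rfl
  have ea1 : ∀ i (m : M), (φa (a i) - 1) • m = (a i - 1) • m := by
    intro i m
    rw [← hφa (a i - 1) m, map_sub, map_one]
  have eu1 : ∀ i (m : M), (φu (u i) - 1) • m = (u i - 1) • m := by
    intro i m
    rw [← hφu (u i - 1) m, map_sub, map_one]
  have eup : ∀ i (k : ℕ) (m : M), φu (u i) ^ k • m = u i ^ k • m := by
    intro i k m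
    rw [← hφu (u i ^ k) m, map_pow]
  have eaprod : ∀ (k : ι → ℕ) (m : M), (∏ i, φa (a i) ^ k i) • m = (∏ i, a i ^ k i) • m := by
    intro k m
    rw [← hφa (∏ i, a i ^ k i) m, map_prod]
    simp only [map_pow]
  have euprod : ∀ (k : ι → ℕ) (m : M), (∏ i, φu (u i) ^ k i) • m = (∏ i, u i ^ k i) • m := by
    intro k m
    rw [← hφu (∏ i, u i ^ k i) m, map_prod]
    simp only [map_pow]
  have hN : ∀ i (m : M), u i ^ p ^ (∑ i, n i) • m = m := by
    intro i m
    have e : p ^ (∑ i, n i) = p ^ n i * p ^ (∑ j ∈ Finset.univ.erase i, n j) := by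
      rw [← pow_add, Finset.add_sum_erase _ _ (Finset.mem_univ i)]
    rw [e, pow_mul]
    exact twlg_pow_smul_eq _ (hun i) _ m
  obtain ⟨k3, k4⟩ := twlg_basis_transfer (O := O)
    (𝒜 := Algebra.adjoin O (twlg_two_set O 𝒜 𝒰 M)) (M := M) p hpJ
    (fun i => φa (a i)) (fun i => φu (u i)) n (∑ i, n i)
    (fun i m => by rw [eup]; exact hun i m) (fun i m => by rw [eup]; exact hN i m)
    (fun i m => by
      obtain ⟨m', h⟩ := hxy i m
      exact ⟨m', by rw [eu1, ea1]; exact h⟩)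
    b (by simpa only [eaprod] using hli) (by simpa only [eaprod] using hspan)
  exact ⟨by simpa only [euprod] using k3, by simpa only [euprod] using k4⟩

end Two

section Mix

variable {O 𝒰 M : Type*} [CommRing O] [CommRing 𝒰] [Algebra O 𝒰] [AddCommGroup M] [Module O M]
  [Module 𝒰 M] [IsScalarTower O 𝒰 M]
variable {ι : Type*} [Fintype ι] [DecidableEq ι] (P : ι → ℕ) [∀ i, NeZero (P i)]
variable {H : Type*} [CommMonoid H]

/-- the monomial `∏ i, u i ^ δ i` (exponents = the canonical representatives `< P i`). -/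
def twc_sm_mon (u : ι → 𝒰) (δ : Multiplicative (∀ i, ZMod (P i))) : 𝒰 :=
  ∏ i, u i ^ (Multiplicative.toAdd δ i).val

theorem twc_sm_mon_eq (u : ι → 𝒰) (δ : Multiplicative (∀ i, ZMod (P i))) :
    twc_sm_mon P u δ = twlg_mon u (fun i => (Multiplicative.toAdd δ i).val) := rfl

theorem twc_sm_mon_one (u : ι → 𝒰) : twc_sm_mon P u 1 = 1 := by
  simp [twc_sm_mon]

theorem twc_sm_mon_expEquiv (u : ι → 𝒰) (k : ∀ i, Fin (P i)) :
    twc_sm_mon P u (twlg_expEquiv P k) = ∏ i, u i ^ (k i : ℕ) := by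
  unfold twc_sm_mon
  refine Finset.prod_congr rfl fun i _ => ?_
  congr 1
  simp only [twlg_expEquiv, Equiv.coe_fn_mk, toAdd_ofAdd]
  exact ZMod.val_natCast_of_lt (k i).isLt

theorem twc_sm_mon_mul (u : ι → 𝒰) (hu : ∀ i (m : M), u i ^ P i • m = m)
    (δ δ' : Multiplicative (∀ i, ZMod (P i))) (m : M) :
    twc_sm_mon P u (δ * δ') • m = twc_sm_mon P u δ • twc_sm_mon P u δ' • m := by
  rw [smul_smul, twc_sm_mon_eq, twc_sm_mon_eq, twc_sm_mon_eq]
  have e : twlg_mon u (fun i => (Multiplicative.toAdd δ i).val) *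
      twlg_mon u (fun i => (Multiplicative.toAdd δ' i).val) =
      twlg_mon u (fun i => (Multiplicative.toAdd δ i).val + (Multiplicative.toAdd δ' i).val) := by
    unfold twlg_mon
    rw [← Finset.prod_mul_distrib]
    exact Finset.prod_congr rfl fun i _ => (pow_add _ _ _).symm
  rw [e, twlg_mon_mod u P hu (fun i => (Multiplicative.toAdd δ i).val +
    (Multiplicative.toAdd δ' i).val) m]
  congr 2
  funext i
  simp only [toAdd_mul, Pi.add_apply]
  exact ZMod.val_add _ _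

theorem twc_sm_mon_gen (u : ι → 𝒰) (hu : ∀ i (m : M), u i ^ P i • m = m) (i : ι) (m : M) :
    twc_sm_mon P u (twlg_gen P i) • m = u i • m := by
  rw [twc_sm_mon_eq]
  have e : u i • m = twlg_mon u (fun j => if j = i then 1 else 0) • m := by
    unfold twlg_mon
    rw [Fintype.prod_eq_single i]
    · simp
    · intro j hj
      simp [hj]
  rw [e, twlg_mon_mod u P hu (fun j => if j = i then 1 else 0) m]
  congr 2
  funext j
  simp only [twlg_gen, toAdd_ofAdd]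
  by_cases h : j = i
  · subst h
    simp only [Pi.single_eq_same, if_true]
    exact ZMod.val_one_eq_one_mod _
  · rw [Pi.single_eq_of_ne h, if_neg h, ZMod.val_zero, Nat.zero_mod]

variable [Module (MonoidAlgebra O (Multiplicative (∀ i, ZMod (P i)) × H)) M]
  [IsScalarTower O (MonoidAlgebra O (Multiplicative (∀ i, ZMod (P i)) × H)) M]
  [SMulCommClass 𝒰 (MonoidAlgebra O (Multiplicative (∀ i, ZMod (P i)) × H)) M]

/-- `(δ, η) ↦ (∏ i, u i ^ δ i) ∘ (of (1, η) • ·)` as a monoid homomorphism into `End_O M`. -/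
def twc_sm_hom (u : ι → 𝒰) (hu : ∀ i (m : M), u i ^ P i • m = m) :
    Multiplicative (∀ i, ZMod (P i)) × H →* Module.End O M where
  toFun g := (Algebra.lsmul O O M : 𝒰 →ₐ[O] Module.End O M) (twc_sm_mon P u g.1) *
    (Algebra.lsmul O O M :
      MonoidAlgebra O (Multiplicative (∀ i, ZMod (P i)) × H) →ₐ[O] Module.End O M)
      (MonoidAlgebra.of O (Multiplicative (∀ i, ZMod (P i)) × H) (1, g.2))
  map_one' := by
    ext m
    simp only [Prod.fst_one, Prod.snd_one, twc_sm_mon_one, map_one, mul_one, Module.End.one_apply]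
    rw [← Prod.one_eq_mk, map_one, map_one]
    simp
  map_mul' := by
    rintro ⟨δ, η⟩ ⟨δ', η'⟩
    ext m
    simp only [Prod.mk_mul_mk, Module.End.mul_apply, Algebra.lsmul_coe]
    have e : MonoidAlgebra.of O (Multiplicative (∀ i, ZMod (P i)) × H) (1, η * η') =
        MonoidAlgebra.of O (Multiplicative (∀ i, ZMod (P i)) × H) (1, η) *
          MonoidAlgebra.of O (Multiplicative (∀ i, ZMod (P i)) × H) (1, η') := by
      rw [← map_mul, Prod.mk_mul_mk, one_mul]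
    rw [e, mul_smul, twc_sm_mon_mul P u hu,
      smul_comm (twc_sm_mon P u δ') (MonoidAlgebra.of O _ (1, η))]

theorem twc_sm_hom_apply (u : ι → 𝒰) (hu : ∀ i (m : M), u i ^ P i • m = m)
    (g : Multiplicative (∀ i, ZMod (P i)) × H) (m : M) :
    twc_sm_hom (O := O) P u hu g m = twc_sm_mon P u g.1 •
      MonoidAlgebra.of O (Multiplicative (∀ i, ZMod (P i)) × H) (1, g.2) • m := rfl

/-- **the mixed structure** `ψ : O[G × H] →ₐ[O] End_O M`. -/
def twc_sm_psi (u : ι → 𝒰) (hu : ∀ i (m : M), u i ^ P i • m = m) :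
    MonoidAlgebra O (Multiplicative (∀ i, ZMod (P i)) × H) →ₐ[O] Module.End O M :=
  MonoidAlgebra.lift O (Module.End O M) (Multiplicative (∀ i, ZMod (P i)) × H) (twc_sm_hom P u hu)

theorem twc_sm_psi_of (u : ι → 𝒰) (hu : ∀ i (m : M), u i ^ P i • m = m)
    (g : Multiplicative (∀ i, ZMod (P i)) × H) (m : M) :
    twc_sm_psi P u hu (MonoidAlgebra.of O _ g) m = twc_sm_mon P u g.1 •
      MonoidAlgebra.of O (Multiplicative (∀ i, ZMod (P i)) × H) (1, g.2) • m := by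
  rw [twc_sm_psi, MonoidAlgebra.lift_of, twc_sm_hom_apply]

/-- `ψ (of (δ_i, 1)) = u i`. -/
theorem twc_sm_psi_gen (u : ι → 𝒰) (hu : ∀ i (m : M), u i ^ P i • m = m) (i : ι) (m : M) :
    twc_sm_psi P u hu (MonoidAlgebra.of O (Multiplicative (∀ i, ZMod (P i)) × H)
      (twlg_gen P i, 1)) m = u i • m := by
  rw [twc_sm_psi_of, ← Prod.one_eq_mk, map_one, one_smul, twc_sm_mon_gen P u hu]

/-- `ψ (of (1, η)) = of (1, η)`. -/
theorem twc_sm_psi_snd (u : ι → 𝒰) (hu : ∀ i (m : M), u i ^ P i • m = m) (η : H) (m : M) :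
    twc_sm_psi P u hu (MonoidAlgebra.of O (Multiplicative (∀ i, ZMod (P i)) × H) (1, η)) m =
      MonoidAlgebra.of O (Multiplicative (∀ i, ZMod (P i)) × H) (1, η) • m := by
  rw [twc_sm_psi_of, twc_sm_mon_one, one_smul]

/-- `ψ` commutes with the Hecke algebra `𝒰`. -/
theorem twc_sm_psi_comm_U (u : ι → 𝒰) (hu : ∀ i (m : M), u i ^ P i • m = m)
    (x : MonoidAlgebra O (Multiplicative (∀ i, ZMod (P i)) × H)) (t : 𝒰) (m : M) :
    twc_sm_psi P u hu x (t • m) = t • twc_sm_psi P u hu x m := by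
  induction x using MonoidAlgebra.induction_on with
  | of g =>
    rw [twc_sm_psi_of, twc_sm_psi_of, ← smul_comm t (MonoidAlgebra.of O _ (1, g.2)) m,
      smul_comm (twc_sm_mon P u g.1) t]
  | add x y hx hy => rw [map_add, LinearMap.add_apply, LinearMap.add_apply, hx, hy, smul_add]
  | smul r x hx =>
    have e : twc_sm_psi P u hu (r • x) = r • twc_sm_psi P u hu x := map_smul _ r x
    rw [e, LinearMap.smul_apply, LinearMap.smul_apply, hx, smul_comm]

/-- `ψ` commutes with the original (Hecke-diamond) group-algebra action. -/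
theorem twc_sm_psi_comm_A (u : ι → 𝒰) (hu : ∀ i (m : M), u i ^ P i • m = m)
    (x y : MonoidAlgebra O (Multiplicative (∀ i, ZMod (P i)) × H)) (m : M) :
    twc_sm_psi P u hu x (y • m) = y • twc_sm_psi P u hu x m := by
  induction x using MonoidAlgebra.induction_on with
  | of g =>
    rw [twc_sm_psi_of, twc_sm_psi_of, smul_comm (MonoidAlgebra.of O _ (1, g.2)) y m,
      smul_comm (twc_sm_mon P u g.1) y]
  | add x x' hx hx' => rw [map_add, LinearMap.add_apply, LinearMap.add_apply, hx, hx', smul_add]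
  | smul r x hx =>
    have e : twc_sm_psi P u hu (r • x) = r • twc_sm_psi P u hu x := map_smul _ r x
    rw [e, LinearMap.smul_apply, LinearMap.smul_apply, hx, smul_comm]

/-- `of (δ, 1)`, `δ = ∏ δ_i ^ k_i`, as the monomial in the `of (δ_i, 1)`. -/
theorem twc_sm_prod_gen (k : ∀ i, Fin (P i)) :
    ∏ i, MonoidAlgebra.of O (Multiplicative (∀ i, ZMod (P i)) × H) (twlg_gen P i, 1) ^ (k i : ℕ) =
      MonoidAlgebra.of O (Multiplicative (∀ i, ZMod (P i)) × H) (twlg_expEquiv P k, 1) := by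
  rw [← twlg_prod_gen]
  have h := map_prod ((MonoidAlgebra.of O (Multiplicative (∀ i, ZMod (P i)) × H)).comp
    (MonoidHom.inl (Multiplicative (∀ i, ZMod (P i))) H))
    (fun i => twlg_gen P i ^ (k i : ℕ)) Finset.univ
  simp only [MonoidHom.comp_apply, MonoidHom.inl_apply, map_pow] at h
  rw [h]

/-- the reindexing `(k, (η, j)) ↦ ((δ^k, η), j)`. -/
def twc_sm_reindex (J : Type*) :
    (∀ i, Fin (P i)) × (H × J) ≃ (Multiplicative (∀ i, ZMod (P i)) × H) × J :=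
  (Equiv.prodCongr (twlg_expEquiv P) (Equiv.refl (H × J))).trans
    (Equiv.prodAssoc (Multiplicative (∀ i, ZMod (P i))) H J).symm

/-- **[Sigma/Mix], the basis**: if the Hecke-diamond translates `of g • b j` of a family `b` are an
`O`-basis of `M` (`b` is an `O[G × H]`-basis of `M`), so are the mixed translates
`ψ (of g) (b j)`, provided `(δ_i - 1) M ⊆ (u i - 1) M`. -/
theorem twc_sm_basis (p : ℕ) [hp : Fact p.Prime] (n : ι → ℕ) (hP : ∀ i, P i = p ^ n i)
    {J : Type*} [Finite J] [Finite H] [Module.Finite O M]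
    (hpJ : (p : O) ∈ Ideal.jacobson (⊥ : Ideal O))
    (u : ι → 𝒰) (hu : ∀ i (m : M), u i ^ P i • m = m)
    (hxy : ∀ i (m : M), ∃ m',
      (MonoidAlgebra.of O (Multiplicative (∀ i, ZMod (P i)) × H) (twlg_gen P i, 1) - 1) • m =
        (u i - 1) • m')
    (b : J → M)
    (hli : LinearIndependent O (fun gj : (Multiplicative (∀ i, ZMod (P i)) × H) × J =>
      MonoidAlgebra.of O (Multiplicative (∀ i, ZMod (P i)) × H) gj.1 • b gj.2))
    (hspan : ⊤ ≤ Submodule.span O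
      (Set.range fun gj : (Multiplicative (∀ i, ZMod (P i)) × H) × J =>
        MonoidAlgebra.of O (Multiplicative (∀ i, ZMod (P i)) × H) gj.1 • b gj.2)) :
    LinearIndependent O (fun gj : (Multiplicative (∀ i, ZMod (P i)) × H) × J =>
      twc_sm_psi P u hu (MonoidAlgebra.of O _ gj.1) (b gj.2)) ∧
    ⊤ ≤ Submodule.span O (Set.range fun gj : (Multiplicative (∀ i, ZMod (P i)) × H) × J =>
      twc_sm_psi P u hu (MonoidAlgebra.of O _ gj.1) (b gj.2)) := by
  classical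
  obtain rfl : P = fun i => p ^ n i := funext hP
  set e := twc_sm_reindex (H := H) (fun i => p ^ n i) J with he
  set b' : H × J → M := fun ηj =>
    MonoidAlgebra.of O (Multiplicative (∀ i, ZMod (p ^ n i)) × H) (1, ηj.1) • b ηj.2 with hb'
  have hfamA : (fun kj : (∀ i, Fin (p ^ n i)) × (H × J) =>
      (∏ i, MonoidAlgebra.of O (Multiplicative (∀ i, ZMod (p ^ n i)) × H)
        (twlg_gen (fun i => p ^ n i) i, 1) ^ (kj.1 i : ℕ)) • b' kj.2) =
      (fun gj : (Multiplicative (∀ i, ZMod (p ^ n i)) × H) × J =>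
        MonoidAlgebra.of O (Multiplicative (∀ i, ZMod (p ^ n i)) × H) gj.1 • b gj.2) ∘ e := by
    funext kj
    obtain ⟨k, η, j⟩ := kj
    simp only [Function.comp_apply, he, twc_sm_reindex, Equiv.trans_apply, Equiv.prodCongr_apply,
      Prod.map_apply, Equiv.refl_apply, Equiv.prodAssoc_symm_apply, hb']
    rw [twc_sm_prod_gen, smul_smul, ← map_mul, Prod.mk_mul_mk, mul_one, one_mul]
  have hfamU : (fun kj : (∀ i, Fin (p ^ n i)) × (H × J) =>
      (∏ i, u i ^ (kj.1 i : ℕ)) • b' kj.2) =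
      (fun gj : (Multiplicative (∀ i, ZMod (p ^ n i)) × H) × J =>
        twc_sm_psi (fun i => p ^ n i) u hu (MonoidAlgebra.of O _ gj.1) (b gj.2)) ∘ e := by
    funext kj
    obtain ⟨k, η, j⟩ := kj
    simp only [Function.comp_apply, he, twc_sm_reindex, Equiv.trans_apply, Equiv.prodCongr_apply,
      Prod.map_apply, Equiv.refl_apply, Equiv.prodAssoc_symm_apply, hb']
    rw [twc_sm_psi_of, twc_sm_mon_expEquiv]
  have hliA : LinearIndependent O (fun kj : (∀ i, Fin (p ^ n i)) × (H × J) =>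
      (∏ i, MonoidAlgebra.of O (Multiplicative (∀ i, ZMod (p ^ n i)) × H)
        (twlg_gen (fun i => p ^ n i) i, 1) ^ (kj.1 i : ℕ)) • b' kj.2) := by
    rw [hfamA]
    exact hli.comp _ e.injective
  have hspanA : ⊤ ≤ Submodule.span O (Set.range fun kj : (∀ i, Fin (p ^ n i)) × (H × J) =>
      (∏ i, MonoidAlgebra.of O (Multiplicative (∀ i, ZMod (p ^ n i)) × H)
        (twlg_gen (fun i => p ^ n i) i, 1) ^ (kj.1 i : ℕ)) • b' kj.2) := by
    rw [hfamA, e.surjective.range_comp]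
    exact hspan
  obtain ⟨k3, k4⟩ := twc_sm_transfer_two (O := O)
    (𝒜 := MonoidAlgebra O (Multiplicative (∀ i, ZMod (p ^ n i)) × H)) (𝒰 := 𝒰) (M := M) p hpJ
    (fun i => MonoidAlgebra.of O (Multiplicative (∀ i, ZMod (p ^ n i)) × H)
      (twlg_gen (fun i => p ^ n i) i, 1)) u n hu hxy b' hliA hspanA
  rw [hfamU] at k3 k4
  refine ⟨(linearIndependent_equiv e).1 k3, ?_⟩
  rwa [e.surjective.range_comp] at k4

end Mix

section Coinv

variable {O : Type*} [CommRing O]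
variable {ι ι' : Type*} [Fintype ι] [DecidableEq ι] [Fintype ι'] [DecidableEq ι']
  (P : ι → ℕ) [∀ i, NeZero (P i)] (P' : ι' → ℕ) [∀ i, NeZero (P' i)]

/-- monomials in the generators, through any monoid homomorphism. -/
theorem twc_sm_prod_gen_hom {X : Type*} [CommMonoid X]
    (f : Multiplicative (∀ i, ZMod (P i)) →* X) (k : ∀ i, Fin (P i)) :
    ∏ i, f (twlg_gen P i) ^ (k i : ℕ) = f (twlg_expEquiv P k) := by
  rw [← twlg_prod_gen, map_prod]
  simp only [map_pow]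

/-- the generators of `𝒪[G × H]`, `G = ∏ ℤ/P i`, `H = ∏ ℤ/P' i'`, indexed by `ι ⊕ ι'`. -/
def twc_sm_gens : ι ⊕ ι' →
    MonoidAlgebra O (Multiplicative (∀ i, ZMod (P i)) × Multiplicative (∀ i, ZMod (P' i))) :=
  Sum.elim
    (fun i => MonoidAlgebra.of O
      (Multiplicative (∀ i, ZMod (P i)) × Multiplicative (∀ i, ZMod (P' i))) (twlg_gen P i, 1))
    (fun i' => MonoidAlgebra.of O
      (Multiplicative (∀ i, ZMod (P i)) × Multiplicative (∀ i, ZMod (P' i))) (1, twlg_gen P' i'))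

/-- exponent vectors on `ι ⊕ ι'` `↦` elements of `G × H`. -/
def twc_sm_expEquiv2 : (∀ s : ι ⊕ ι', Fin (Sum.elim P P' s)) ≃
    Multiplicative (∀ i, ZMod (P i)) × Multiplicative (∀ i, ZMod (P' i)) :=
  (Equiv.sumPiEquivProdPi (fun s : ι ⊕ ι' => Fin (Sum.elim P P' s))).trans
    (Equiv.prodCongr (twlg_expEquiv P) (twlg_expEquiv P'))

theorem twc_sm_expEquiv2_apply (k : ∀ s : ι ⊕ ι', Fin (Sum.elim P P' s)) :
    twc_sm_expEquiv2 P P' k =
      (twlg_expEquiv P (fun i => k (Sum.inl i)), twlg_expEquiv P' (fun i' => k (Sum.inr i'))) :=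
  rfl

theorem twc_sm_prod_gens (k : ∀ s : ι ⊕ ι', Fin (Sum.elim P P' s)) :
    ∏ s, twc_sm_gens (O := O) P P' s ^ (k s : ℕ) =
      MonoidAlgebra.of O
        (Multiplicative (∀ i, ZMod (P i)) × Multiplicative (∀ i, ZMod (P' i)))
        (twc_sm_expEquiv2 P P' k) := by
  rw [Fintype.prod_sum_type, twc_sm_expEquiv2_apply]
  simp only [twc_sm_gens, Sum.elim_inl, Sum.elim_inr]
  have h1 := twc_sm_prod_gen_hom P
    ((MonoidAlgebra.of O
      (Multiplicative (∀ i, ZMod (P i)) × Multiplicative (∀ i, ZMod (P' i)))).comp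
      (MonoidHom.inl (Multiplicative (∀ i, ZMod (P i))) (Multiplicative (∀ i, ZMod (P' i)))))
    (fun i => k (Sum.inl i))
  have h2 := twc_sm_prod_gen_hom P'
    ((MonoidAlgebra.of O
      (Multiplicative (∀ i, ZMod (P i)) × Multiplicative (∀ i, ZMod (P' i)))).comp
      (MonoidHom.inr (Multiplicative (∀ i, ZMod (P i))) (Multiplicative (∀ i, ZMod (P' i)))))
    (fun i' => k (Sum.inr i'))
  simp only [MonoidHom.comp_apply, MonoidHom.inl_apply, MonoidHom.inr_apply] at h1 h2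
  rw [h1, h2, ← map_mul, Prod.mk_mul_mk, mul_one, one_mul]

variable {M : Type*} [AddCommGroup M] [Module O M]
  [Module (MonoidAlgebra O
    (Multiplicative (∀ i, ZMod (P i)) × Multiplicative (∀ i, ZMod (P' i)))) M]
  [IsScalarTower O (MonoidAlgebra O
    (Multiplicative (∀ i, ZMod (P i)) × Multiplicative (∀ i, ZMod (P' i)))) M]

/-- the total augmentation submodule of an `𝒪[G × H]`-module is generated by the chosen
generators. -/
theorem twc_sm_aug_eq :
    Submodule.span O {x : M | ∃ (g : Multiplicative (∀ i, ZMod (P i)) ×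
        Multiplicative (∀ i, ZMod (P' i))) (m : M), x = MonoidAlgebra.of O _ g • m - m} =
    twlg_augSub O (M := M) (twc_sm_gens (O := O) P P') := by
  apply le_antisymm
  · rw [Submodule.span_le]
    rintro _ ⟨g, m, rfl⟩
    have h1 := twlg_prod_sub_one_mem (O := O) (M := M) (twc_sm_gens (O := O) P P')
      (fun s => (((twc_sm_expEquiv2 P P').symm g) s : ℕ)) Finset.univ m
    rw [twc_sm_prod_gens, Equiv.apply_symm_apply, sub_smul, one_smul] at h1
    exact h1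
  · unfold twlg_augSub
    refine iSup_le fun s => ?_
    rintro _ ⟨m, rfl⟩
    rw [twlg_mulO_apply, sub_smul, one_smul]
    rcases s with i | i'
    · exact Submodule.subset_span ⟨(twlg_gen P i, 1), m, rfl⟩
    · exact Submodule.subset_span ⟨(1, twlg_gen P' i'), m, rfl⟩

/-- the Hecke-diamond translates of an `𝒪[G × H]`-basis are an `𝒪`-basis. -/
theorem twc_sm_of_basis {J : Type*}
    (B : Module.Basis J (MonoidAlgebra O
      (Multiplicative (∀ i, ZMod (P i)) × Multiplicative (∀ i, ZMod (P' i)))) M) :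
    LinearIndependent O (fun gj : (Multiplicative (∀ i, ZMod (P i)) ×
        Multiplicative (∀ i, ZMod (P' i))) × J => MonoidAlgebra.of O _ gj.1 • B gj.2) ∧
    ⊤ ≤ Submodule.span O (Set.range fun gj : (Multiplicative (∀ i, ZMod (P i)) ×
        Multiplicative (∀ i, ZMod (P' i))) × J => MonoidAlgebra.of O _ gj.1 • B gj.2) := by
  set Bt := (MonoidAlgebra.basis (Multiplicative (∀ i, ZMod (P i)) ×
    Multiplicative (∀ i, ZMod (P' i))) O).smulTower B with hBt
  have hfam : (fun gj : (Multiplicative (∀ i, ZMod (P i)) ×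
        Multiplicative (∀ i, ZMod (P' i))) × J => MonoidAlgebra.of O _ gj.1 • B gj.2) = Bt := by
    funext gj
    simp only [hBt, Module.Basis.smulTower_apply, MonoidAlgebra.basis_apply,
      MonoidAlgebra.of_apply]
  rw [hfam]
  exact ⟨Bt.linearIndependent, Bt.span_eq.ge⟩

omit [∀ i, NeZero (P i)] [∀ i, NeZero (P' i)] in
/-- the reindexing `(k, j) ↦ (∏ δ_s ^ k_s, j)` for exponent vectors written with `p ^ n s`. -/
def twc_sm_E (p : ℕ) (n : ι → ℕ) (n' : ι' → ℕ) [∀ i, NeZero (p ^ n i)] [∀ i, NeZero (p ^ n' i)]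
    (J' : Type*) : (∀ s : ι ⊕ ι', Fin (p ^ Sum.elim n n' s)) × J' ≃
      (Multiplicative (∀ i, ZMod (p ^ n i)) × Multiplicative (∀ i, ZMod (p ^ n' i))) × J' :=
  Equiv.prodCongr
    ((Equiv.piCongrRight (fun s : ι ⊕ ι' => finCongr
      (show p ^ Sum.elim n n' s = Sum.elim (fun i => p ^ n i) (fun i => p ^ n' i) s by
        rcases s with i | i' <;> rfl))).trans
      (twc_sm_expEquiv2 (fun i => p ^ n i) (fun i => p ^ n' i))) (Equiv.refl J')

omit [∀ i, NeZero (P i)] [∀ i, NeZero (P' i)]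
  [Module (MonoidAlgebra O
    (Multiplicative (∀ i, ZMod (P i)) × Multiplicative (∀ i, ZMod (P' i)))) M]
  [IsScalarTower O (MonoidAlgebra O
    (Multiplicative (∀ i, ZMod (P i)) × Multiplicative (∀ i, ZMod (P' i)))) M] in
theorem twc_sm_fam (p : ℕ) (n : ι → ℕ) (n' : ι' → ℕ) [∀ i, NeZero (p ^ n i)]
    [∀ i, NeZero (p ^ n' i)]
    [Module (MonoidAlgebra O
      (Multiplicative (∀ i, ZMod (p ^ n i)) × Multiplicative (∀ i, ZMod (p ^ n' i)))) M]
    {J' : Type*} (b' : J' → M) :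
    (fun kj : (∀ s : ι ⊕ ι', Fin (p ^ Sum.elim n n' s)) × J' =>
      (∏ s, twc_sm_gens (O := O) (fun i => p ^ n i) (fun i => p ^ n' i) s ^ (kj.1 s : ℕ)) •
        b' kj.2) =
    (fun gj : (Multiplicative (∀ i, ZMod (p ^ n i)) ×
      Multiplicative (∀ i, ZMod (p ^ n' i))) × J' => MonoidAlgebra.of O _ gj.1 • b' gj.2) ∘
      twc_sm_E p n n' J' := by
  funext kj
  obtain ⟨k, j⟩ := kj
  simp only [Function.comp_apply, twc_sm_E, Equiv.prodCongr_apply, Prod.map_apply,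
    Equiv.refl_apply, Equiv.trans_apply]
  rw [← twc_sm_prod_gens]
  simp

/-- **[Sigma/Coinv]**: `M` finite free over `𝒪[G × H]`, `c : M → C` with kernel the total
augmentation submodule; then ANY family `b` lifting an `𝒪`-basis of `range c` is an
`𝒪[G × H]`-basis of `M` (in the form: its translates are an `𝒪`-basis). -/
theorem twc_sm_coinv (p : ℕ) [hp : Fact p.Prime] (n : ι → ℕ) (n' : ι' → ℕ)
    (hP : ∀ i, P i = p ^ n i) (hP' : ∀ i, P' i = p ^ n' i)
    [Module.Finite (MonoidAlgebra O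
      (Multiplicative (∀ i, ZMod (P i)) × Multiplicative (∀ i, ZMod (P' i)))) M]
    [Module.Free (MonoidAlgebra O
      (Multiplicative (∀ i, ZMod (P i)) × Multiplicative (∀ i, ZMod (P' i)))) M]
    (hpJ : (p : O) ∈ Ideal.jacobson (⊥ : Ideal O))
    {C : Type*} [AddCommGroup C] [Module O C] (c : M →ₗ[O] C)
    (hker : LinearMap.ker c = Submodule.span O
      {x : M | ∃ (g : Multiplicative (∀ i, ZMod (P i)) ×
        Multiplicative (∀ i, ZMod (P' i))) (m : M), x = MonoidAlgebra.of O _ g • m - m})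
    {J : Type*} [Finite J] (b : J → M) (hbli : LinearIndependent O (c ∘ b))
    (hbspan : LinearMap.range c ≤ Submodule.span O (Set.range (c ∘ b))) :
    LinearIndependent O (fun gj : (Multiplicative (∀ i, ZMod (P i)) ×
        Multiplicative (∀ i, ZMod (P' i))) × J => MonoidAlgebra.of O _ gj.1 • b gj.2) ∧
    ⊤ ≤ Submodule.span O (Set.range fun gj : (Multiplicative (∀ i, ZMod (P i)) ×
        Multiplicative (∀ i, ZMod (P' i))) × J => MonoidAlgebra.of O _ gj.1 • b gj.2) := by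
  classical
  obtain rfl : P = fun i => p ^ n i := funext hP
  obtain rfl : P' = fun i => p ^ n' i := funext hP'
  set B := Module.Free.chooseBasis (MonoidAlgebra O
    (Multiplicative (∀ i, ZMod (p ^ n i)) × Multiplicative (∀ i, ZMod (p ^ n' i)))) M with hB
  have hfin : Fintype (Module.Free.ChooseBasisIndex (MonoidAlgebra O
      (Multiplicative (∀ i, ZMod (p ^ n i)) × Multiplicative (∀ i, ZMod (p ^ n' i)))) M) :=
    Module.Free.ChooseBasisIndex.fintype _ _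
  obtain ⟨hli₀, hspan₀⟩ := twc_sm_of_basis (O := O) (fun i => p ^ n i) (fun i => p ^ n' i) B
  have : Module.Finite O M :=
    Module.Finite.of_basis
      ((MonoidAlgebra.basis (Multiplicative (∀ i, ZMod (p ^ n i)) ×
        Multiplicative (∀ i, ZMod (p ^ n' i))) O).smulTower B)
  have ha : ∀ (s : ι ⊕ ι') (m : M),
      twc_sm_gens (O := O) (fun i => p ^ n i) (fun i => p ^ n' i) s ^ p ^ Sum.elim n n' s • m =
        m := by
    rintro (i | i') m
    · simp only [twc_sm_gens, Sum.elim_inl]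
      rw [← map_pow, Prod.pow_mk, one_pow, twlg_gen_pow (fun i => p ^ n i) i, ← Prod.one_eq_mk,
        map_one, one_smul]
    · simp only [twc_sm_gens, Sum.elim_inr]
      rw [← map_pow, Prod.pow_mk, one_pow, twlg_gen_pow (fun i => p ^ n' i) i', ← Prod.one_eq_mk,
        map_one, one_smul]
  rw [twc_sm_aug_eq (O := O) (M := M) (fun i => p ^ n i) (fun i => p ^ n' i)] at hker
  have hli₀' := hli₀.comp _ (twc_sm_E p n n' _).injective
  have hspan₀' := hspan₀
  rw [← (twc_sm_E p n n' _).surjective.range_comp] at hspan₀'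
  rw [← twc_sm_fam (O := O) p n n' (⇑B)] at hli₀' hspan₀'
  obtain ⟨k3, k4⟩ := twlg_basis_of_coinv (O := O) (M := M) p hpJ
    (twc_sm_gens (O := O) (fun i => p ^ n i) (fun i => p ^ n' i)) (Sum.elim n n') ha
    (⇑B) hli₀' hspan₀' c hker b hbli hbspan
  rw [twc_sm_fam (O := O) p n n' b] at k3 k4
  refine ⟨(linearIndependent_equiv (twc_sm_E p n n' J)).1 k3, ?_⟩
  rwa [(twc_sm_E p n n' J).surjective.range_comp] at k4

end Coinv

section KerComp

variable {O : Type*} [CommRing O] {G H : Type*} [Monoid G] [Monoid H]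
  {M M1 C : Type*} [AddCommGroup M] [Module O M] [Module (MonoidAlgebra O (G × H)) M]
  [AddCommGroup M1] [Module O M1] [Module (MonoidAlgebra O G) M1]
  [AddCommGroup C] [Module O C]

/-- the kernel of the composite of the two coinvariant maps `M^{big} → M¹ → M_∅^{2^r}` is the
total augmentation submodule. -/
theorem twc_sm_ker_comp (c1 : M →ₗ[O] M1) (hc1s : Function.Surjective c1)
    (hc1k : LinearMap.ker c1 = Submodule.span O
      {x : M | ∃ (η : H) (m : M), x = MonoidAlgebra.of O (G × H) (1, η) • m - m})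
    (hc1d : ∀ (δ : G) (m : M), c1 (MonoidAlgebra.of O (G × H) (δ, 1) • m) =
      MonoidAlgebra.of O G δ • c1 m)
    (c : M1 →ₗ[O] C)
    (hck : LinearMap.ker c = Submodule.span O
      {x : M1 | ∃ (δ : G) (m : M1), x = MonoidAlgebra.of O G δ • m - m}) :
    LinearMap.ker (c ∘ₗ c1) = Submodule.span O
      {x : M | ∃ (g : G × H) (m : M), x = MonoidAlgebra.of O (G × H) g • m - m} := by
  have hη : ∀ (η : H) (m : M), c1 (MonoidAlgebra.of O (G × H) (1, η) • m) = c1 m := by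
    intro η m
    have h : MonoidAlgebra.of O (G × H) (1, η) • m - m ∈ LinearMap.ker c1 := by
      rw [hc1k]
      exact Submodule.subset_span ⟨η, m, rfl⟩
    rw [LinearMap.mem_ker, map_sub, sub_eq_zero] at h
    exact h
  apply le_antisymm
  · intro x hx
    rw [LinearMap.mem_ker, LinearMap.comp_apply, ← LinearMap.mem_ker, hck] at hx
    -- `c1 x` lies in the image of the span of the `of (δ, 1) • m - m`
    have h1 : Submodule.span O {x : M1 | ∃ (δ : G) (m : M1), x = MonoidAlgebra.of O G δ • m - m} ≤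
        Submodule.map c1 (Submodule.span O
          {x : M | ∃ (δ : G) (m : M), x = MonoidAlgebra.of O (G × H) (δ, 1) • m - m}) := by
      rw [Submodule.span_le]
      rintro _ ⟨δ, m1, rfl⟩
      obtain ⟨m, rfl⟩ := hc1s m1
      refine ⟨MonoidAlgebra.of O (G × H) (δ, 1) • m - m, Submodule.subset_span ⟨δ, m, rfl⟩, ?_⟩
      rw [map_sub, hc1d]
    obtain ⟨y, hy, hyx⟩ := h1 hx
    have h2 : x - y ∈ LinearMap.ker c1 := by
      rw [LinearMap.mem_ker, map_sub, hyx, sub_self]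
    rw [hc1k] at h2
    have e : x = y + (x - y) := by abel
    rw [e]
    refine Submodule.add_mem _ ?_ ?_
    · refine Submodule.span_mono ?_ hy
      rintro _ ⟨δ, m, rfl⟩
      exact ⟨(δ, 1), m, rfl⟩
    · refine Submodule.span_mono ?_ h2
      rintro _ ⟨η, m, rfl⟩
      exact ⟨(1, η), m, rfl⟩
  · rw [Submodule.span_le]
    rintro _ ⟨⟨δ, η⟩, m, rfl⟩
    rw [SetLike.mem_coe, LinearMap.mem_ker, LinearMap.comp_apply, ← LinearMap.mem_ker, hck]
    have e : MonoidAlgebra.of O (G × H) (δ, η) = MonoidAlgebra.of O (G × H) (δ, 1) *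
        MonoidAlgebra.of O (G × H) (1, η) := by
      rw [← map_mul, Prod.mk_mul_mk, mul_one, one_mul]
    rw [map_sub, e, mul_smul, hc1d, hη]
    exact Submodule.subset_span ⟨δ, c1 m, rfl⟩

end KerComp

section Big

open IsLocalRing CuspForm

variable {𝒪 : Type} [CommRing 𝒪] [IsDomain 𝒪] [IsDiscreteValuationRing 𝒪]
  [IsAdicComplete (maximalIdeal 𝒪) 𝒪]
  {N : ℕ} [NeZero N] {S : Finset ℕ} {θ : heckeAlgebra N 2 (↑S : Set ℕ) →+* ResidueField 𝒪}
  {B : twe_Base 𝒪 N S θ} {p : ℕ} {Q : Finset ℕ} [NeZero (twe_Nbal N Q ∅)]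
  {L : twe_Level B p Q} {Th : Finset ℕ} [NeZero (twe_Nbal N Q Th)]

/-- **the mixed structure on the big module**: `of (δ, η) ↦ (∏_t u_t ^ δ_t) ∘ (of (1, η) • ·)`. -/
def twc_sm_bigPsi (Bg : twe_Big L Th) (u : ∀ t : ℕ, t ∈ Q → Bg.T'')
    (hu : ∀ t ht (x : Bg.Mb), u t ht ^ twe_ord p t • x = x) :
    MonoidAlgebra 𝒪 (twe_Delta p Q × twe_Delta p Th) →ₐ[𝒪] Module.End 𝒪 Bg.Mb :=
  twc_sm_psi (O := 𝒪) (𝒰 := Bg.T'') (M := Bg.Mb) (H := twe_Delta p Th)
    (fun t : ↥Q => twe_ord p (t : ℕ)) (fun t : ↥Q => u t t.2) (fun t x => hu t t.2 x)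

theorem twc_sm_bigPsi_gen (Bg : twe_Big L Th) (u : ∀ t : ℕ, t ∈ Q → Bg.T'')
    (hu : ∀ t ht (x : Bg.Mb), u t ht ^ twe_ord p t • x = x) (t : ℕ) (ht : t ∈ Q) (x : Bg.Mb) :
    twc_sm_bigPsi Bg u hu
      (MonoidAlgebra.of 𝒪 (twe_Delta p Q × twe_Delta p Th) (twe_gen p Q t ht, 1)) x =
      u t ht • x :=
  twc_sm_psi_gen (O := 𝒪) (𝒰 := Bg.T'') (M := Bg.Mb) (H := twe_Delta p Th)
    (fun t : ↥Q => twe_ord p (t : ℕ)) (fun t : ↥Q => u t t.2) (fun t x => hu t t.2 x) ⟨t, ht⟩ x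

theorem twc_sm_bigPsi_snd (Bg : twe_Big L Th) (u : ∀ t : ℕ, t ∈ Q → Bg.T'')
    (hu : ∀ t ht (x : Bg.Mb), u t ht ^ twe_ord p t • x = x) (η : twe_Delta p Th) (x : Bg.Mb) :
    twc_sm_bigPsi Bg u hu (MonoidAlgebra.of 𝒪 (twe_Delta p Q × twe_Delta p Th) (1, η)) x =
      MonoidAlgebra.of 𝒪 (twe_Delta p Q × twe_Delta p Th) (1, η) • x :=
  twc_sm_psi_snd (O := 𝒪) (𝒰 := Bg.T'') (M := Bg.Mb) (H := twe_Delta p Th)
    (fun t : ↥Q => twe_ord p (t : ℕ)) (fun t : ↥Q => u t t.2) (fun t x => hu t t.2 x) η x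

theorem twc_sm_bigPsi_comm_T (Bg : twe_Big L Th) (u : ∀ t : ℕ, t ∈ Q → Bg.T'')
    (hu : ∀ t ht (x : Bg.Mb), u t ht ^ twe_ord p t • x = x)
    (a : MonoidAlgebra 𝒪 (twe_Delta p Q × twe_Delta p Th)) (x : Bg.T'') (m : Bg.Mb) :
    twc_sm_bigPsi Bg u hu a (x • m) = x • twc_sm_bigPsi Bg u hu a m :=
  twc_sm_psi_comm_U (O := 𝒪) (𝒰 := Bg.T'') (M := Bg.Mb) (H := twe_Delta p Th)
    (fun t : ↥Q => twe_ord p (t : ℕ)) (fun t : ↥Q => u t t.2) (fun t x => hu t t.2 x) a x m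

theorem twc_sm_bigPsi_comm_A (Bg : twe_Big L Th) (u : ∀ t : ℕ, t ∈ Q → Bg.T'')
    (hu : ∀ t ht (x : Bg.Mb), u t ht ^ twe_ord p t • x = x)
    (a a' : MonoidAlgebra 𝒪 (twe_Delta p Q × twe_Delta p Th)) (m : Bg.Mb) :
    twc_sm_bigPsi Bg u hu a (a' • m) = a' • twc_sm_bigPsi Bg u hu a m :=
  twc_sm_psi_comm_A (O := 𝒪) (𝒰 := Bg.T'') (M := Bg.Mb) (H := twe_Delta p Th)
    (fun t : ↥Q => twe_ord p (t : ℕ)) (fun t : ↥Q => u t t.2) (fun t x => hu t t.2 x) a a' m

/-- the kernel of `M^{big} → M¹ → M_∅^{2^r}` is the total augmentation submodule. -/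
theorem twc_sm_big_ker (Bg : twe_Big L Th) :
    LinearMap.ker (L.c ∘ₗ Bg.c1) = Submodule.span 𝒪
      {x : Bg.Mb | ∃ (g : twe_Delta p Q × twe_Delta p Th) (m : Bg.Mb),
        x = MonoidAlgebra.of 𝒪 (twe_Delta p Q × twe_Delta p Th) g • m - m} :=
  twc_sm_ker_comp (O := 𝒪) (G := twe_Delta p Q) (H := twe_Delta p Th) Bg.c1 Bg.c1_surjective
    Bg.c1_ker Bg.c1_diamond L.c L.c_ker

/-- **[Sigma/Mix] + [Sigma/Coinv] for a big system, any adapted family `b`**: if `b : J → Mb`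
lifts an `𝒪`-basis of `M_∅^{2^r}` through `c ∘ c1`, then both the Hecke translates `of g • b j` and
the mixed translates `ψ (of g) (b j)` are `𝒪`-bases of `Mb`. -/
theorem twc_sm_big_basis [hp : Fact p.Prime] (hp𝒪 : (p : 𝒪) ∈ maximalIdeal 𝒪)
    (Bg : twe_Big L Th) (u : ∀ t : ℕ, t ∈ Q → Bg.T'')
    (hu : ∀ t ht (x : Bg.Mb), u t ht ^ twe_ord p t • x = x)
    (hδu : ∀ t ht (x : Bg.Mb), ∃ x' : Bg.Mb, Bg.diaQ t ht x - x = (u t ht - 1) • x')
    {J : Type*} [Finite J] (b : J → Bg.Mb)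
    (hbli : LinearIndependent 𝒪 (fun j => L.c (Bg.c1 (b j))))
    (hbspan : ⊤ ≤ Submodule.span 𝒪 (Set.range fun j => L.c (Bg.c1 (b j)))) :
    (LinearIndependent 𝒪 (fun gj : (twe_Delta p Q × twe_Delta p Th) × J =>
        MonoidAlgebra.of 𝒪 (twe_Delta p Q × twe_Delta p Th) gj.1 • b gj.2) ∧
      ⊤ ≤ Submodule.span 𝒪 (Set.range fun gj : (twe_Delta p Q × twe_Delta p Th) × J =>
        MonoidAlgebra.of 𝒪 (twe_Delta p Q × twe_Delta p Th) gj.1 • b gj.2)) ∧
    (LinearIndependent 𝒪 (fun gj : (twe_Delta p Q × twe_Delta p Th) × J =>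
        twc_sm_bigPsi Bg u hu (MonoidAlgebra.of 𝒪 _ gj.1) (b gj.2)) ∧
      ⊤ ≤ Submodule.span 𝒪 (Set.range fun gj : (twe_Delta p Q × twe_Delta p Th) × J =>
        twc_sm_bigPsi Bg u hu (MonoidAlgebra.of 𝒪 _ gj.1) (b gj.2))) := by
  have hpJ : (p : 𝒪) ∈ Ideal.jacobson (⊥ : Ideal 𝒪) := by
    rw [IsLocalRing.jacobson_eq_maximalIdeal ⊥ bot_ne_top]
    exact hp𝒪
  have hA := twc_sm_coinv (O := 𝒪) (M := Bg.Mb)
    (fun t : ↥Q => twe_ord p (t : ℕ)) (fun t : ↥Th => twe_ord p (t : ℕ)) p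
    (fun t : ↥Q => padicValNat p ((t : ℕ) - 1)) (fun t : ↥Th => padicValNat p ((t : ℕ) - 1))
    (fun _ => rfl) (fun _ => rfl) hpJ (L.c ∘ₗ Bg.c1) (twc_sm_big_ker Bg) b hbli
    (fun _ _ => hbspan Submodule.mem_top)
  refine ⟨hA, ?_⟩
  have : Module.Finite 𝒪 Bg.Mb :=
    Module.Finite.trans (MonoidAlgebra 𝒪 (twe_Delta p Q × twe_Delta p Th)) Bg.Mb
  exact twc_sm_basis (O := 𝒪) (𝒰 := Bg.T'') (M := Bg.Mb) (H := twe_Delta p Th)
    (fun t : ↥Q => twe_ord p (t : ℕ)) p (fun t : ↥Q => padicValNat p ((t : ℕ) - 1))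
    (fun _ => rfl) hpJ (fun t : ↥Q => u t t.2) (fun t x => hu t t.2 x)
    (fun t x => by
      obtain ⟨x', hx'⟩ := hδu t t.2 x
      exact ⟨x', by rw [sub_smul, one_smul]; exact hx'⟩)
    b hA.1 hA.2

/-- the standard basis of `(Fin K → Fin d → 𝒪)`, indexed by `Fin d × Fin K`. -/
theorem twc_sm_std (𝒪 : Type*) [CommRing 𝒪] (d K : ℕ) :
    LinearIndependent 𝒪 (fun ai : Fin d × Fin K =>
      (Pi.single ai.2 (Pi.single ai.1 1) : Fin K → Fin d → 𝒪)) ∧
    ⊤ ≤ Submodule.span 𝒪 (Set.range fun ai : Fin d × Fin K =>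
      (Pi.single ai.2 (Pi.single ai.1 1) : Fin K → Fin d → 𝒪)) := by
  set bs := Pi.basis (fun _ : Fin K => Pi.basisFun 𝒪 (Fin d)) with hbs
  set e : Fin d × Fin K ≃ (Σ _ : Fin K, Fin d) :=
    (Equiv.prodComm _ _).trans (Equiv.sigmaEquivProd (Fin K) (Fin d)).symm with he
  have hfam : (fun ai : Fin d × Fin K =>
      (Pi.single ai.2 (Pi.single ai.1 1) : Fin K → Fin d → 𝒪)) = bs ∘ e := by
    funext ai
    obtain ⟨a, i⟩ := ai
    simp [hbs, he, Pi.basis_apply]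
  rw [hfam]
  refine ⟨bs.linearIndependent.comp _ e.injective, ?_⟩
  rw [e.surjective.range_comp]
  exact bs.span_eq.ge

/-- **[Sigma/Mix] + [Sigma/Coinv] for a big system** (the input of the cell [Act]): the mixed
structure `ψ` and ONE family `b` lifting the standard basis of `M_∅^{2^r}`, which is a basis of
`Mb` over `𝒪[Δ_Q × Δ_Th]` for the Hecke structure AND for the mixed (Galois at `Q`) structure. -/
theorem twc_sm_big [hp : Fact p.Prime] (hp𝒪 : (p : 𝒪) ∈ maximalIdeal 𝒪)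
    (Bg : twe_Big L Th) (u : ∀ t : ℕ, t ∈ Q → Bg.T'')
    (hu : ∀ t ht (x : Bg.Mb), u t ht ^ twe_ord p t • x = x)
    (hδu : ∀ t ht (x : Bg.Mb), ∃ x' : Bg.Mb, Bg.diaQ t ht x - x = (u t ht - 1) • x') :
    ∃ (ψ : MonoidAlgebra 𝒪 (twe_Delta p Q × twe_Delta p Th) →ₐ[𝒪] Module.End 𝒪 Bg.Mb)
      (b : Fin B.d × Fin (2 ^ Q.card) → Bg.Mb),
      (∀ t ht (x : Bg.Mb), ψ (MonoidAlgebra.of 𝒪 (twe_Delta p Q × twe_Delta p Th)
        (twe_gen p Q t ht, 1)) x = u t ht • x) ∧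
      (∀ (η : twe_Delta p Th) (x : Bg.Mb),
        ψ (MonoidAlgebra.of 𝒪 (twe_Delta p Q × twe_Delta p Th) (1, η)) x =
          MonoidAlgebra.of 𝒪 (twe_Delta p Q × twe_Delta p Th) (1, η) • x) ∧
      (∀ (a : MonoidAlgebra 𝒪 (twe_Delta p Q × twe_Delta p Th)) (x : Bg.T'') (m : Bg.Mb),
        ψ a (x • m) = x • ψ a m) ∧
      (∀ (a a' : MonoidAlgebra 𝒪 (twe_Delta p Q × twe_Delta p Th)) (m : Bg.Mb),
        ψ a (a' • m) = a' • ψ a m) ∧
      (∀ (a : Fin B.d) (i : Fin (2 ^ Q.card)),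
        L.c (Bg.c1 (b (a, i))) = Pi.single i (Pi.single a 1)) ∧
      (LinearIndependent 𝒪 (fun gj : (twe_Delta p Q × twe_Delta p Th) ×
          (Fin B.d × Fin (2 ^ Q.card)) =>
          MonoidAlgebra.of 𝒪 (twe_Delta p Q × twe_Delta p Th) gj.1 • b gj.2) ∧
        ⊤ ≤ Submodule.span 𝒪 (Set.range fun gj : (twe_Delta p Q × twe_Delta p Th) ×
          (Fin B.d × Fin (2 ^ Q.card)) =>
          MonoidAlgebra.of 𝒪 (twe_Delta p Q × twe_Delta p Th) gj.1 • b gj.2)) ∧
      (LinearIndependent 𝒪 (fun gj : (twe_Delta p Q × twe_Delta p Th) ×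
          (Fin B.d × Fin (2 ^ Q.card)) => ψ (MonoidAlgebra.of 𝒪 _ gj.1) (b gj.2)) ∧
        ⊤ ≤ Submodule.span 𝒪 (Set.range fun gj : (twe_Delta p Q × twe_Delta p Th) ×
          (Fin B.d × Fin (2 ^ Q.card)) => ψ (MonoidAlgebra.of 𝒪 _ gj.1) (b gj.2))) := by
  have hsurj : Function.Surjective (L.c ∘ₗ Bg.c1) := L.c_surjective.comp Bg.c1_surjective
  choose b hb using fun ai : Fin B.d × Fin (2 ^ Q.card) =>
    hsurj (Pi.single ai.2 (Pi.single ai.1 1))
  have hb' : (fun j => L.c (Bg.c1 (b j))) = fun ai : Fin B.d × Fin (2 ^ Q.card) =>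
      (Pi.single ai.2 (Pi.single ai.1 1) : Fin (2 ^ Q.card) → Fin B.d → 𝒪) := by
    funext j
    exact hb j
  obtain ⟨hli, hspan⟩ := twc_sm_std 𝒪 B.d (2 ^ Q.card)
  obtain ⟨hA, hψ⟩ := twc_sm_big_basis hp𝒪 Bg u hu hδu b (by rw [hb']; exact hli)
    (by rw [hb']; exact hspan)
  exact ⟨twc_sm_bigPsi Bg u hu, b, twc_sm_bigPsi_gen Bg u hu, twc_sm_bigPsi_snd Bg u hu,
    twc_sm_bigPsi_comm_T Bg u hu, twc_sm_bigPsi_comm_A Bg u hu, fun a i => hb (a, i), hA, hψ⟩

/-- the same with the number `r` of Taylor–Wiles primes as a separate variable. -/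
theorem twc_sm_big_r [hp : Fact p.Prime] (hp𝒪 : (p : 𝒪) ∈ maximalIdeal 𝒪)
    (Bg : twe_Big L Th) (u : ∀ t : ℕ, t ∈ Q → Bg.T'')
    (hu : ∀ t ht (x : Bg.Mb), u t ht ^ twe_ord p t • x = x)
    (hδu : ∀ t ht (x : Bg.Mb), ∃ x' : Bg.Mb, Bg.diaQ t ht x - x = (u t ht - 1) • x')
    (r : ℕ) (hr : Q.card = r) :
    ∃ (ψ : MonoidAlgebra 𝒪 (twe_Delta p Q × twe_Delta p Th) →ₐ[𝒪] Module.End 𝒪 Bg.Mb)
      (b : Fin B.d × Fin (2 ^ r) → Bg.Mb),
      (∀ t ht (x : Bg.Mb), ψ (MonoidAlgebra.of 𝒪 (twe_Delta p Q × twe_Delta p Th)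
        (twe_gen p Q t ht, 1)) x = u t ht • x) ∧
      (∀ (η : twe_Delta p Th) (x : Bg.Mb),
        ψ (MonoidAlgebra.of 𝒪 (twe_Delta p Q × twe_Delta p Th) (1, η)) x =
          MonoidAlgebra.of 𝒪 (twe_Delta p Q × twe_Delta p Th) (1, η) • x) ∧
      (∀ (a : MonoidAlgebra 𝒪 (twe_Delta p Q × twe_Delta p Th)) (x : Bg.T'') (m : Bg.Mb),
        ψ a (x • m) = x • ψ a m) ∧
      (∀ (a a' : MonoidAlgebra 𝒪 (twe_Delta p Q × twe_Delta p Th)) (m : Bg.Mb),
        ψ a (a' • m) = a' • ψ a m) ∧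
      (∀ (a : Fin B.d) (i : Fin (2 ^ r)),
        L.c (Bg.c1 (b (a, i))) = Pi.single (Fin.cast (by rw [hr]) i) (Pi.single a 1)) ∧
      (LinearIndependent 𝒪 (fun gj : (twe_Delta p Q × twe_Delta p Th) ×
          (Fin B.d × Fin (2 ^ r)) =>
          MonoidAlgebra.of 𝒪 (twe_Delta p Q × twe_Delta p Th) gj.1 • b gj.2) ∧
        ⊤ ≤ Submodule.span 𝒪 (Set.range fun gj : (twe_Delta p Q × twe_Delta p Th) ×
          (Fin B.d × Fin (2 ^ r)) =>
          MonoidAlgebra.of 𝒪 (twe_Delta p Q × twe_Delta p Th) gj.1 • b gj.2)) ∧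
      (LinearIndependent 𝒪 (fun gj : (twe_Delta p Q × twe_Delta p Th) ×
          (Fin B.d × Fin (2 ^ r)) => ψ (MonoidAlgebra.of 𝒪 _ gj.1) (b gj.2)) ∧
        ⊤ ≤ Submodule.span 𝒪 (Set.range fun gj : (twe_Delta p Q × twe_Delta p Th) ×
          (Fin B.d × Fin (2 ^ r)) => ψ (MonoidAlgebra.of 𝒪 _ gj.1) (b gj.2))) := by
  subst hr
  exact twc_sm_big hp𝒪 Bg u hu hδu

end Big

end

end Fermat.Agent.TW
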