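import Mathlib
import Fermat.Agent.S56.PS.Gens

/-!
# Project TW (S43), block [C] DEF: relative cotangent spaces (prefix `twc_rel_`)

Pure commutative algebra.  `A` a noetherian local `𝒪`-algebra with residue field `k = 𝒪/𝔪_𝒪`,
`z : ι → 𝔪_A` a family of elements of the maximal ideal ("the local coordinates").

* `twc_relW z` : the subspace of the cotangent space of `A` spanned by the image of `𝔪_𝒪` and the
  classes of the `z i`.
* `twc_rel_pow_finrank_le` : if at most `N` algebra maps `A → k[ε]` kill all the `z i`, then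
  `|k| ^ dim (Cot A / twc_relW z) ≤ N`.
* `twc_rel_exists_gens` : if `dim (Cot A / twc_relW z) ≤ g` then `𝔪_A` is generated by `𝔪_𝒪`, the
  `z i` and `g` further elements.
* `twc_rel_surj` : hence (for `A` complete) a surjection `𝒪⟦ι ⊕ Fin g⟧ → A` with `X (inl i) ↦ z i`.
-/

set_option autoImplicit false
set_option linter.unusedSectionVars false
set_option linter.style.haveILetI false

open IsLocalRing MvPowerSeries
open Fermat.Agent.S53 Fermat.Agent.S56

namespace Fermat.Agent.TW

noncomputable section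

variable {𝒪 A : Type} [CommRing 𝒪] [IsLocalRing 𝒪] [CommRing A] [IsLocalRing A] [Algebra 𝒪 A]
  [IsLocalHom (algebraMap 𝒪 A)]

variable (𝒪) in
/-- the subspace of the cotangent space spanned by the image of `𝔪_𝒪` and the classes of `z`. -/
def twc_relW {ι : Type} (z : ι → maximalIdeal A) :
    Submodule (ResidueField A) (CotangentSpace A) :=
  S53.cbW 𝒪 A ⊔ Submodule.span (ResidueField A)
    (Set.range fun i => (maximalIdeal A).toCotangent (z i))

theorem twc_rel_cbW_le {ι : Type} (z : ι → maximalIdeal A) : S53.cbW 𝒪 A ≤ twc_relW 𝒪 z :=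
  le_sup_left

theorem twc_rel_mem {ι : Type} (z : ι → maximalIdeal A) (i : ι) :
    (maximalIdeal A).toCotangent (z i) ∈ twc_relW 𝒪 z :=
  Submodule.mem_sup_right (Submodule.subset_span ⟨i, rfl⟩)

/-- **the count bounds the relative cotangent dimension.** -/
theorem twc_rel_pow_finrank_le [Algebra 𝒪 (DualNumber (ResidueField 𝒪))]
    [Finite (ResidueField 𝒪)] [IsNoetherianRing A]
    (hres : Function.Surjective (residue A ∘ algebraMap 𝒪 A))
    (hinst : ∀ o : 𝒪, algebraMap 𝒪 (DualNumber (ResidueField 𝒪)) o =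
      TrivSqZeroExt.inl (residue 𝒪 o))
    {ι : Type} (z : ι → maximalIdeal A) (N : ℕ)
    (hN : ∀ F : Finset (A →ₐ[𝒪] DualNumber (ResidueField 𝒪)),
      (∀ φ ∈ F, ∀ i, φ (z i : A) = 0) → F.card ≤ N) :
    Nat.card (ResidueField 𝒪) ^
      Module.finrank (ResidueField A) (CotangentSpace A ⧸ twc_relW 𝒪 z) ≤ N := by
  classical
  have hfinA : Finite (ResidueField A) := Finite.of_equiv _ (cbResidueEquiv hres).toEquiv
  have hker : ∀ μ : Module.Dual (ResidueField A) (CotangentSpace A ⧸ twc_relW 𝒪 z),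
      S53.cbW 𝒪 A ≤ LinearMap.ker (μ.comp (twc_relW 𝒪 z).mkQ) := by
    intro μ v hv
    rw [LinearMap.mem_ker, LinearMap.comp_apply, Submodule.mkQ_apply,
      (Submodule.Quotient.mk_eq_zero _).2 (twc_rel_cbW_le z hv), map_zero]
  let Φ : Module.Dual (ResidueField A) (CotangentSpace A ⧸ twc_relW 𝒪 z) →
      (A →ₐ[𝒪] DualNumber (ResidueField 𝒪)) := fun μ =>
    cbAlgHom hres hinst (μ.comp (twc_relW 𝒪 z).mkQ) (hker μ)
  have hΦ : Function.Injective Φ := by
    intro μ μ' h
    have h1 := cbAlgHom_injective hres hinst _ _ _ _ h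
    refine LinearMap.ext fun v => ?_
    obtain ⟨w, rfl⟩ := Submodule.mkQ_surjective _ v
    exact LinearMap.congr_fun h1 w
  have hΦz : ∀ μ, ∀ i, Φ μ (z i : A) = 0 := by
    intro μ i
    show cbRingHom hres (μ.comp (twc_relW 𝒪 z).mkQ) (hker μ) (z i : A) = 0
    rw [cbRingHom_apply, cbD_of_mem hres _ (hker μ), (residue_eq_zero_iff _).2 (z i).2,
      LinearMap.comp_apply, Submodule.mkQ_apply,
      (Submodule.Quotient.mk_eq_zero _).2 (twc_rel_mem z i), map_zero, map_zero, map_zero,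
      TrivSqZeroExt.inl_zero, TrivSqZeroExt.inr_zero, add_zero]
  have hfinD : Finite (Module.Dual (ResidueField A) (CotangentSpace A ⧸ twc_relW 𝒪 z)) :=
    Module.finite_of_finite (ResidueField A)
  have : Fintype (Module.Dual (ResidueField A) (CotangentSpace A ⧸ twc_relW 𝒪 z)) :=
    Fintype.ofFinite _
  have hcard : (Finset.univ.image Φ).card =
      Nat.card (Module.Dual (ResidueField A) (CotangentSpace A ⧸ twc_relW 𝒪 z)) := by
    rw [Finset.card_image_of_injective _ hΦ, Finset.card_univ, Nat.card_eq_fintype_card]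
  have h2 := hN (Finset.univ.image Φ) (by
    intro φ hφ i
    obtain ⟨μ, -, rfl⟩ := Finset.mem_image.mp hφ
    exact hΦz μ i)
  rw [hcard, Module.natCard_eq_pow_finrank (K := ResidueField A), Subspace.dual_finrank_eq,
    ← Nat.card_congr (cbResidueEquiv hres).toEquiv] at h2
  exact h2

/-- **generators of the maximal ideal relative to `z`.** -/
theorem twc_rel_exists_gens [IsNoetherianRing A] {ι : Type} (z : ι → maximalIdeal A) (g : ℕ)
    (hd : Module.finrank (ResidueField A) (CotangentSpace A ⧸ twc_relW 𝒪 z) ≤ g) :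
    ∃ x : Fin g → A, maximalIdeal A = (maximalIdeal 𝒪).map (algebraMap 𝒪 A) ⊔
      Ideal.span (Set.range (Sum.elim (fun i => (z i : A)) x)) := by
  classical
  set d := Module.finrank (ResidueField A) (CotangentSpace A ⧸ twc_relW 𝒪 z) with hdd
  let b := Module.finBasis (ResidueField A) (CotangentSpace A ⧸ twc_relW 𝒪 z)
  have hx' : ∀ i : Fin d, ∃ x : maximalIdeal A,
      (twc_relW 𝒪 z).mkQ ((maximalIdeal A).toCotangent x) = b i := by
    intro i
    obtain ⟨v, hv⟩ := Submodule.mkQ_surjective (twc_relW 𝒪 z) (b i)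
    obtain ⟨x, rfl⟩ := (maximalIdeal A).toCotangent_surjective v
    exact ⟨x, hv⟩
  choose x' hx' using hx'
  let x : Fin g → A := fun i => if h : (i : ℕ) < d then (x' ⟨i, h⟩ : A) else 0
  have hxx' : ∀ i : Fin d, (x' i : A) ∈ Set.range (Sum.elim (fun i => (z i : A)) x) := by
    intro i
    refine ⟨Sum.inr ⟨i, lt_of_lt_of_le i.2 hd⟩, ?_⟩
    show (if h : (i : ℕ) < d then (x' ⟨i, h⟩ : A) else 0) = _
    rw [dif_pos i.2]
  have hPmem : ∀ p : maximalIdeal 𝒪, algebraMap 𝒪 A p ∈ maximalIdeal A := fun p =>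
    map_nonunit (algebraMap 𝒪 A) p p.2
  let S : Set (maximalIdeal A) := (Set.range x' ∪ Set.range z) ∪
    Set.range fun p : maximalIdeal 𝒪 => (⟨algebraMap 𝒪 A p, hPmem p⟩ : maximalIdeal A)
  set U : Submodule (ResidueField A) (CotangentSpace A) :=
    Submodule.span (ResidueField A) ((maximalIdeal A).toCotangent '' S) with hU
  have hWU : twc_relW 𝒪 z ≤ U := by
    refine sup_le ?_ ?_
    · refine Submodule.span_le.mpr ?_
      rintro _ ⟨p, rfl⟩
      exact Submodule.subset_span ⟨_, Or.inr ⟨p, rfl⟩, rfl⟩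
    · refine Submodule.span_le.mpr ?_
      rintro _ ⟨i, rfl⟩
      exact Submodule.subset_span ⟨z i, Or.inl (Or.inr ⟨i, rfl⟩), rfl⟩
  have hUtop : U = ⊤ := by
    have h1 : Submodule.map (twc_relW 𝒪 z).mkQ U = ⊤ := by
      rw [eq_top_iff, ← b.span_eq]
      refine Submodule.span_le.mpr ?_
      rintro _ ⟨i, rfl⟩
      refine ⟨(maximalIdeal A).toCotangent (x' i), ?_, hx' i⟩
      exact Submodule.subset_span ⟨x' i, Or.inl (Or.inl ⟨i, rfl⟩), rfl⟩
    rw [Submodule.map_mkQ_eq_top] at h1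
    rwa [sup_eq_right.mpr hWU] at h1
  have hStop : Submodule.span A S = ⊤ := CotangentSpace.span_image_eq_top_iff.mp hUtop
  refine ⟨x, ?_⟩
  apply le_antisymm
  · intro y hy
    have h1 : (⟨y, hy⟩ : maximalIdeal A) ∈ Submodule.span A S := by
      rw [hStop]; exact Submodule.mem_top
    have h2 : Submodule.map (maximalIdeal A).subtype (Submodule.span A S) ≤
        (maximalIdeal 𝒪).map (algebraMap 𝒪 A) ⊔
          Ideal.span (Set.range (Sum.elim (fun i => (z i : A)) x)) := by
      rw [Submodule.map_span]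
      refine Submodule.span_le.mpr ?_
      rintro _ ⟨w, hw, rfl⟩
      rcases hw with (⟨i, rfl⟩ | ⟨i, rfl⟩) | ⟨p, rfl⟩
      · exact Ideal.mem_sup_right (Ideal.subset_span (hxx' i))
      · exact Ideal.mem_sup_right (Ideal.subset_span ⟨Sum.inl i, rfl⟩)
      · exact Ideal.mem_sup_left (Ideal.mem_map_of_mem _ p.2)
    exact h2 ⟨⟨y, hy⟩, h1, rfl⟩
  · refine sup_le ?_ ?_
    · rw [Ideal.map_le_iff_le_comap]
      intro p hp
      exact hPmem ⟨p, hp⟩
    · rw [Ideal.span_le]
      rintro _ ⟨i | i, rfl⟩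
      · exact (z i).2
      · show (if h : (i : ℕ) < d then (x' ⟨i, h⟩ : A) else 0) ∈ maximalIdeal A
        split_ifs with h
        · exact (x' ⟨i, h⟩).2
        · exact Ideal.zero_mem _

/-- **the relative presentation.** -/
theorem twc_rel_surj [IsNoetherianRing 𝒪] [IsAdicComplete (maximalIdeal 𝒪) 𝒪]
    [IsNoetherianRing A] [IsAdicComplete (maximalIdeal A) A]
    (hres : Function.Surjective (residue A ∘ algebraMap 𝒪 A))
    {ι : Type} [Finite ι] (z : ι → maximalIdeal A) (g : ℕ)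
    (hd : Module.finrank (ResidueField A) (CotangentSpace A ⧸ twc_relW 𝒪 z) ≤ g) :
    ∃ γ : MvPowerSeries (ι ⊕ Fin g) 𝒪 →ₐ[𝒪] A, Function.Surjective γ ∧
      ∀ i, γ (X (Sum.inl i)) = (z i : A) := by
  obtain ⟨x, hx⟩ := twc_rel_exists_gens (𝒪 := 𝒪) z g hd
  obtain ⟨γ, hγX, hγ⟩ := s56ps_surj hres (Sum.elim (fun i => (z i : A)) x) hx
  exact ⟨γ, hγ, fun i => hγX (Sum.inl i)⟩

end

end Fermat.Agent.TW
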