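import Mathlib
import Fermat.Agent.S53.EvalNilp
import Fermat.Agent.S56.PS.Surj
import Fermat.Agent.TW.Def.RelCot

/-!
# Project TW (S43), block [C] DEF, cell C/Level: auxiliary lemmas (prefix `twc_lv_`)

* `twc_lv_pow_le_ker_of_finite` : automatic continuity: a ring homomorphism from a local ring to a
  FINITE ring kills a power of the maximal ideal.
* `twc_lv_algHom_ext` : two algebra maps from a power series ring to a (not necessarily
  commutative) algebra which agree on the variables and kill a power of the ideal of variables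
  are equal.
* `twc_lv_span_X_le` : the ideal of variables lies in the maximal ideal.
* `twc_lv_matrix_eq_of_forall_pow` : Krull separation for matrices over a noetherian local ring.
-/

set_option autoImplicit false
set_option linter.unusedSectionVars false

open IsLocalRing MvPowerSeries

namespace Fermat.Agent.TW

noncomputable section

/-- **automatic continuity.** -/
theorem twc_lv_pow_le_ker_of_finite {R E : Type*} [CommRing R] [IsLocalRing R] [Ring E] [Finite E]
    (f : R →+* E) : ∃ m : ℕ, maximalIdeal R ^ m ≤ RingHom.ker f := by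
  haveI : Finite (R ⧸ RingHom.ker f) :=
    Finite.of_injective (RingHom.kerLift f) (RingHom.kerLift_injective f)
  exact exists_maximalIdeal_pow_le_of_isArtinianRing_quotient (RingHom.ker f)

/-- uniqueness of algebra maps out of a power series ring, noncommutative target. -/
theorem twc_lv_algHom_ext {σ : Type*} [Finite σ] {𝒪 : Type*} [CommRing 𝒪] {E : Type*} [Ring E]
    [Algebra 𝒪 E] (φ ψ : MvPowerSeries σ 𝒪 →ₐ[𝒪] E) (n : ℕ)
    (hφ : ∀ f ∈ (Ideal.span (Set.range X) : Ideal (MvPowerSeries σ 𝒪)) ^ n, φ f = 0)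
    (hψ : ∀ f ∈ (Ideal.span (Set.range X) : Ideal (MvPowerSeries σ 𝒪)) ^ n, ψ f = 0)
    (hX : ∀ i, φ (X i) = ψ (X i)) : φ = ψ := by
  have hpoly : ∀ p : MvPolynomial σ 𝒪, φ (p : MvPowerSeries σ 𝒪) = ψ (p : MvPowerSeries σ 𝒪) := by
    intro p
    have e1 : (φ.comp (MvPolynomial.coeToMvPowerSeries.algHom (σ := σ) (R := 𝒪) 𝒪)) =
        (ψ.comp (MvPolynomial.coeToMvPowerSeries.algHom (σ := σ) (R := 𝒪) 𝒪)) := by
      apply MvPolynomial.algHom_ext
      intro i
      simpa using hX i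
    exact congrArg (fun g => g p) e1
  apply AlgHom.ext
  intro f
  have h1 := S53.sub_truncTotal_mem_span_range_X_pow n f
  have h2 : f = (f - ((truncTotal n f : MvPolynomial σ 𝒪) : MvPowerSeries σ 𝒪)) +
      ((truncTotal n f : MvPolynomial σ 𝒪) : MvPowerSeries σ 𝒪) := by ring
  rw [h2, map_add, map_add, hφ _ h1, hψ _ h1, hpoly]

/-- the ideal of variables lies in the maximal ideal. -/
theorem twc_lv_span_X_le {σ : Type*} [Finite σ] {𝒪 : Type*} [CommRing 𝒪] [IsLocalRing 𝒪] :
    (Ideal.span (Set.range X) : Ideal (MvPowerSeries σ 𝒪)) ≤ maximalIdeal (MvPowerSeries σ 𝒪) := by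
  rw [S53.maximalIdeal_mvPowerSeries_eq]
  exact le_sup_left

/-- Krull separation for matrices. -/
theorem twc_lv_matrix_eq_of_forall_pow {B : Type*} [CommRing B] [IsNoetherianRing B]
    [IsLocalRing B] {d : ℕ} (M N : Matrix (Fin d) (Fin d) B)
    (h : ∀ n : ℕ, ∀ i j, M i j - N i j ∈ maximalIdeal B ^ n) : M = N := by
  ext i j
  have h1 : M i j - N i j ∈ (⨅ n : ℕ, maximalIdeal B ^ n) := by
    rw [Ideal.mem_iInf]
    exact fun n => h n i j
  rw [Ideal.iInf_pow_eq_bot_of_isLocalRing _ (maximalIdeal.isMaximal B).ne_top, Ideal.mem_bot,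
    sub_eq_zero] at h1
  exact h1

/-- uniqueness of ring homomorphisms from a power series ring over a local ring to a FINITE
ring. -/
theorem twc_lv_ringHom_ext_finite {σ : Type*} [Finite σ] {𝒪 : Type*} [CommRing 𝒪] [IsLocalRing 𝒪]
    {E : Type*} [Ring E] [Finite E] (f1 f2 : MvPowerSeries σ 𝒪 →+* E)
    (hC : ∀ a : 𝒪, f1 (C a) = f2 (C a)) (hX : ∀ i, f1 (X i) = f2 (X i)) : f1 = f2 := by
  obtain ⟨m1, hm1⟩ := twc_lv_pow_le_ker_of_finite f1
  obtain ⟨m2, hm2⟩ := twc_lv_pow_le_ker_of_finite f2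
  set n := max m1 m2 with hn
  have hle : (Ideal.span (Set.range X) : Ideal (MvPowerSeries σ 𝒪)) ^ n ≤
      maximalIdeal (MvPowerSeries σ 𝒪) ^ n := Ideal.pow_right_mono twc_lv_span_X_le n
  have h1 : ∀ f ∈ (Ideal.span (Set.range X) : Ideal (MvPowerSeries σ 𝒪)) ^ n, f1 f = 0 :=
    fun f hf => hm1 (Ideal.pow_le_pow_right (le_max_left m1 m2) (hle hf))
  have h2 : ∀ f ∈ (Ideal.span (Set.range X) : Ideal (MvPowerSeries σ 𝒪)) ^ n, f2 f = 0 :=
    fun f hf => hm2 (Ideal.pow_le_pow_right (le_max_right m1 m2) (hle hf))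
  have hpoly : ∀ p : MvPolynomial σ 𝒪, f1 (p : MvPowerSeries σ 𝒪) = f2 (p : MvPowerSeries σ 𝒪) := by
    intro p
    have e1 : f1.comp (MvPolynomial.coeToMvPowerSeries.ringHom (σ := σ) (R := 𝒪)) =
        f2.comp (MvPolynomial.coeToMvPowerSeries.ringHom (σ := σ) (R := 𝒪)) := by
      apply MvPolynomial.ringHom_ext
      · intro a
        simpa using hC a
      · intro i
        simpa using hX i
    exact congrArg (fun g => g p) e1
  apply RingHom.ext
  intro f
  have h3 := S53.sub_truncTotal_mem_span_range_X_pow n f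
  have h4 : f = (f - ((truncTotal n f : MvPolynomial σ 𝒪) : MvPowerSeries σ 𝒪)) +
      ((truncTotal n f : MvPolynomial σ 𝒪) : MvPowerSeries σ 𝒪) := by ring
  rw [h4, map_add, map_add, h1 _ h3, h2 _ h3, hpoly]

/-- uniqueness of ring homomorphisms from a power series ring over a local ring to matrices over
a noetherian local ring with finite quotients `B ⧸ 𝔪 ^ N`. -/
theorem twc_lv_ringHom_ext_matrix {σ : Type*} [Finite σ] {𝒪 : Type*} [CommRing 𝒪] [IsLocalRing 𝒪]
    {B : Type*} [CommRing B] [IsNoetherianRing B] [IsLocalRing B]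
    (hfin : ∀ N : ℕ, Finite (B ⧸ maximalIdeal B ^ N)) {d : ℕ}
    (f1 f2 : MvPowerSeries σ 𝒪 →+* Matrix (Fin d) (Fin d) B)
    (hC : ∀ a : 𝒪, f1 (C a) = f2 (C a)) (hX : ∀ i, f1 (X i) = f2 (X i)) : f1 = f2 := by
  apply RingHom.ext
  intro s
  refine twc_lv_matrix_eq_of_forall_pow _ _ fun N i j => ?_
  haveI := hfin N
  have h := twc_lv_ringHom_ext_finite
    ((Ideal.Quotient.mk (maximalIdeal B ^ N)).mapMatrix.comp f1)
    ((Ideal.Quotient.mk (maximalIdeal B ^ N)).mapMatrix.comp f2)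
    (fun a => by rw [RingHom.comp_apply, RingHom.comp_apply, hC a])
    (fun i => by rw [RingHom.comp_apply, RingHom.comp_apply, hX i])
  have h1 := congrFun (congrFun (RingHom.congr_fun h s) i) j
  rw [RingHom.comp_apply, RingHom.comp_apply, RingHom.mapMatrix_apply, RingHom.mapMatrix_apply,
    Matrix.map_apply, Matrix.map_apply] at h1
  rw [← Ideal.Quotient.eq]
  exact h1

/-! ### generators of the maximal ideal chosen inside a given ideal -/

section GensIn

open Fermat.Agent.S53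

variable {𝒪 A : Type} [CommRing 𝒪] [IsLocalRing 𝒪] [CommRing A] [IsLocalRing A] [Algebra 𝒪 A]
  [IsLocalHom (algebraMap 𝒪 A)]

/-- the classes of the elements of `𝔪_𝒪 A + (z)` lie in `twc_relW z`. -/
theorem twc_lv_toCotangent_mem_relW {ι : Type} (z : ι → maximalIdeal A) (a : maximalIdeal A)
    (ha : (a : A) ∈ (maximalIdeal 𝒪).map (algebraMap 𝒪 A) ⊔
      Ideal.span (Set.range fun i => (z i : A))) :
    (maximalIdeal A).toCotangent a ∈ twc_relW 𝒪 z := by
  have hPmem : ∀ p : maximalIdeal 𝒪, algebraMap 𝒪 A p ∈ maximalIdeal A := fun p =>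
    map_nonunit (algebraMap 𝒪 A) p p.2
  -- the generators as elements of `𝔪_A`
  let G : Set (maximalIdeal A) := Set.range z ∪
    Set.range fun p : maximalIdeal 𝒪 => (⟨algebraMap 𝒪 A p, hPmem p⟩ : maximalIdeal A)
  have h1 : a ∈ Submodule.span A G := by
    have h2 : (maximalIdeal 𝒪).map (algebraMap 𝒪 A) ⊔
        Ideal.span (Set.range fun i => (z i : A)) ≤
        Submodule.map (maximalIdeal A).subtype (Submodule.span A G) := by
      refine sup_le ?_ ?_
      · rw [Ideal.map, Ideal.span_le]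
        rintro _ ⟨p, hp, rfl⟩
        exact ⟨⟨algebraMap 𝒪 A p, hPmem ⟨p, hp⟩⟩,
          Submodule.subset_span (Or.inr ⟨⟨p, hp⟩, rfl⟩), rfl⟩
      · rw [Ideal.span_le]
        rintro _ ⟨i, rfl⟩
        exact ⟨z i, Submodule.subset_span (Or.inl ⟨i, rfl⟩), rfl⟩
    obtain ⟨a', ha', hEq⟩ := h2 ha
    have : a' = a := Subtype.ext hEq
    rwa [this] at ha'
  refine Submodule.span_induction (p := fun x _ => (maximalIdeal A).toCotangent x ∈ twc_relW 𝒪 z)
    ?_ ?_ ?_ ?_ h1
  · rintro x (⟨i, rfl⟩ | ⟨p, rfl⟩)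
    · exact twc_rel_mem z i
    · exact twc_rel_cbW_le z (Submodule.subset_span ⟨p, rfl⟩)
  · rw [map_zero]; exact Submodule.zero_mem _
  · intro x y _ _ hx hy
    rw [map_add]; exact Submodule.add_mem _ hx hy
  · intro c x _ hx
    rw [cb_toCotangent_smul]
    exact Submodule.smul_mem _ _ hx

/-- **generators of the maximal ideal relative to `z`, chosen in an ideal `K`** with
`𝔪_A ≤ 𝔪_𝒪 A + (z) + K`. -/
theorem twc_lv_exists_gens_in [IsNoetherianRing A] {ι : Type} (z : ι → maximalIdeal A) (g : ℕ)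
    (hd : Module.finrank (ResidueField A) (CotangentSpace A ⧸ twc_relW 𝒪 z) ≤ g)
    (K : Ideal A)
    (hK : maximalIdeal A ≤ ((maximalIdeal 𝒪).map (algebraMap 𝒪 A) ⊔
      Ideal.span (Set.range fun i => (z i : A))) ⊔ K) :
    ∃ x : Fin g → A, (∀ j, x j ∈ K) ∧ (∀ j, x j ∈ maximalIdeal A) ∧
      maximalIdeal A = (maximalIdeal 𝒪).map (algebraMap 𝒪 A) ⊔
        Ideal.span (Set.range (Sum.elim (fun i => (z i : A)) x)) := by
  classical
  -- the classes of the elements of `K ∩ 𝔪` span the relative cotangent space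
  let s : Set (CotangentSpace A ⧸ twc_relW 𝒪 z) :=
    {v | ∃ x : maximalIdeal A, (x : A) ∈ K ∧
      (twc_relW 𝒪 z).mkQ ((maximalIdeal A).toCotangent x) = v}
  have hs : Submodule.span (ResidueField A) s = ⊤ := by
    rw [eq_top_iff]
    rintro v -
    obtain ⟨w, rfl⟩ := Submodule.mkQ_surjective (twc_relW 𝒪 z) v
    obtain ⟨y, rfl⟩ := (maximalIdeal A).toCotangent_surjective w
    obtain ⟨a, ha, k, hk, hak⟩ := Submodule.mem_sup.mp (hK y.2)
    have ham : a ∈ maximalIdeal A := by
      refine (sup_le ?_ ?_ : _ ≤ maximalIdeal A) ha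
      · rw [Ideal.map_le_iff_le_comap]
        intro p hp
        exact map_nonunit (algebraMap 𝒪 A) p hp
      · rw [Ideal.span_le]
        rintro _ ⟨i, rfl⟩
        exact (z i).2
    have hkm : k ∈ maximalIdeal A := by
      have : k = (y : A) - a := by rw [← hak]; ring
      rw [this]
      exact Ideal.sub_mem _ y.2 ham
    have hy : y = (⟨a, ham⟩ : maximalIdeal A) + ⟨k, hkm⟩ := Subtype.ext hak.symm
    have h0 : (twc_relW 𝒪 z).mkQ ((maximalIdeal A).toCotangent ⟨a, ham⟩) = 0 := by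
      rw [Submodule.mkQ_apply]
      exact (Submodule.Quotient.mk_eq_zero _).2 (twc_lv_toCotangent_mem_relW z ⟨a, ham⟩ ha)
    rw [hy, map_add, map_add, h0, zero_add]
    exact Submodule.subset_span ⟨⟨k, hkm⟩, hk, rfl⟩
  haveI : Module.Finite (ResidueField A) (CotangentSpace A ⧸ twc_relW 𝒪 z) := inferInstance
  have key := Submodule.exists_fun_fin_finrank_span_eq (ResidueField A) s
  have hee : Module.finrank (ResidueField A) (Submodule.span (ResidueField A) s) ≤ g := by
    rw [hs, finrank_top]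
    exact hd
  obtain ⟨e, hedef⟩ : ∃ e : ℕ,
      Module.finrank (ResidueField A) (Submodule.span (ResidueField A) s) = e := ⟨_, rfl⟩
  rw [hedef] at key hee
  obtain ⟨f, hfs, hfspan, -⟩ := key
  have hfspan' : Submodule.span (ResidueField A) (Set.range f) = ⊤ := hfspan.trans hs
  choose x' hx'K hx' using hfs
  let x : Fin g → A := fun i => if h : (i : ℕ) < e then (x' ⟨i, h⟩ : A) else 0
  have hxx' : ∀ i : Fin e, (x' i : A) ∈ Set.range (Sum.elim (fun i => (z i : A)) x) := by
    intro i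
    refine ⟨Sum.inr ⟨i, lt_of_lt_of_le i.2 hee⟩, ?_⟩
    show (if h : (i : ℕ) < e then (x' ⟨i, h⟩ : A) else 0) = _
    rw [dif_pos i.2]
  have hPmem : ∀ p : maximalIdeal 𝒪, algebraMap 𝒪 A p ∈ maximalIdeal A := fun p =>
    map_nonunit (algebraMap 𝒪 A) p p.2
  let S : Set (maximalIdeal A) := (Set.range x' ∪ Set.range z) ∪
    Set.range fun p : maximalIdeal 𝒪 => (⟨algebraMap 𝒪 A p, hPmem p⟩ : maximalIdeal A)
  set U : Submodule (ResidueField A) (CotangentSpace A) :=
    Submodule.span (ResidueField A) ((maximalIdeal A).toCotangent '' S) with hU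
  have hWU : twc_relW 𝒪 z ≤ U := by
    refine sup_le ?_ ?_
    · refine Submodule.span_le.mpr ?_
      rintro _ ⟨p, rfl⟩
      exact Submodule.subset_span ⟨_, Or.inr ⟨p, rfl⟩, rfl⟩
    · refine Submodule.span_le.mpr ?_
      rintro _ ⟨i, rfl⟩
      exact Submodule.subset_span ⟨z i, Or.inl (Or.inr ⟨i, rfl⟩), rfl⟩
  have hUtop : U = ⊤ := by
    have h1 : Submodule.map (twc_relW 𝒪 z).mkQ U = ⊤ := by
      rw [eq_top_iff, ← hfspan']
      refine Submodule.span_le.mpr ?_
      rintro _ ⟨i, rfl⟩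
      refine ⟨(maximalIdeal A).toCotangent (x' i), ?_, hx' i⟩
      exact Submodule.subset_span ⟨x' i, Or.inl (Or.inl ⟨i, rfl⟩), rfl⟩
    rw [Submodule.map_mkQ_eq_top] at h1
    rwa [sup_eq_right.mpr hWU] at h1
  have hStop : Submodule.span A S = ⊤ := CotangentSpace.span_image_eq_top_iff.mp hUtop
  refine ⟨x, ?_, ?_, ?_⟩
  · intro j
    show (if h : (j : ℕ) < e then (x' ⟨j, h⟩ : A) else 0) ∈ K
    split_ifs with h
    · exact hx'K ⟨j, h⟩
    · exact Ideal.zero_mem _
  · intro j
    show (if h : (j : ℕ) < e then (x' ⟨j, h⟩ : A) else 0) ∈ maximalIdeal A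
    split_ifs with h
    · exact (x' ⟨j, h⟩).2
    · exact Ideal.zero_mem _
  apply le_antisymm
  · intro y hy
    have h1 : (⟨y, hy⟩ : maximalIdeal A) ∈ Submodule.span A S := by
      rw [hStop]; exact Submodule.mem_top
    have h2 : Submodule.map (maximalIdeal A).subtype (Submodule.span A S) ≤
        (maximalIdeal 𝒪).map (algebraMap 𝒪 A) ⊔
          Ideal.span (Set.range (Sum.elim (fun i => (z i : A)) x)) := by
      rw [Submodule.map_span]
      refine Submodule.span_le.mpr ?_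
      rintro _ ⟨w, hw, rfl⟩
      rcases hw with (⟨i, rfl⟩ | ⟨i, rfl⟩) | ⟨p, rfl⟩
      · exact Ideal.mem_sup_right (Ideal.subset_span (hxx' i))
      · exact Ideal.mem_sup_right (Ideal.subset_span ⟨Sum.inl i, rfl⟩)
      · exact Ideal.mem_sup_left (Ideal.mem_map_of_mem _ p.2)
    exact h2 ⟨⟨y, hy⟩, h1, rfl⟩
  · refine sup_le ?_ ?_
    · rw [Ideal.map_le_iff_le_comap]
      intro p hp
      exact hPmem ⟨p, hp⟩
    · rw [Ideal.span_le]
      rintro _ ⟨i | i, rfl⟩
      · exact (z i).2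
      · show (if h : (i : ℕ) < e then (x' ⟨i, h⟩ : A) else 0) ∈ maximalIdeal A
        split_ifs with h
        · exact (x' ⟨i, h⟩).2
        · exact Ideal.zero_mem _

end GensIn

end

end Fermat.Agent.TW
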