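import Mathlib
import Fermat.Agent.TW.Def.LevelAux
import Fermat.Agent.TW.Patch.Defs
import Fermat.Agent.TW.Patch.MatCong

/-!
# Project TW (S43), block [C] DEF, cell C/Level (prefix `twc_`): the level datum of [D]

PURE ALGEBRA.  From the level-`n` output of the blocks [E] (modules and Hecke algebras), [A] (the
Galois diamonds), [B] (the local relations) and C/Present (the cotangent bound), packaged as
`twc_LvIn`, to the level datum `twd_Level` of block [D] (`TW/Patch/Defs.lean`).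

Fixed rings: `S = 𝒪⟦y_1..y_r⟧`, `𝒫χ = 𝒪⟦ι ⊕ Fin g⟧`, `𝒫1 = 𝒪⟦(ι ⊕ Fin g) ⊕ Fin g⟧` (`ι` = the local
coordinates, `g` free variables, `g` EXTRA free variables for the unipotent system),
`R1 = 𝒫1 ⧸ J1`, `Rχ = 𝒫χ ⧸ Jχ`, `Rb = Rχ ⧸ (λ)`, `q1 : R1 → Rb` induced by `res : 𝒫1 → 𝒫χ`
(`x' ↦ 0`).

* `twc_LvSys` : ONE system at level `n`: a complete noetherian local `𝒪`-algebra `T` with residue
  field `k`, local coordinates `z : ι → 𝔪_T` with relative cotangent dimension `≤ g`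
  (`twc_finrank_le`), the relations `J` hold for every presentation hitting `z`, an action
  `act : T → M_d(S ⧸ 𝔟)` and diamonds `u i ∈ 1 + 𝔪_T` acting as the scalars `1 + y_i`.
* `twc_LvIn` : the two systems, their common FINITE quotient `Tb` (acting on `M_n / λ`) with
  matching coordinates and diamonds, the intertwiner `P`, and the map to `T_∅`.
* `twc_level_of` : `twc_LvIn → Nonempty twd_Level`.
-/

set_option autoImplicit false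
set_option linter.unusedSectionVars false
set_option linter.style.haveILetI false

open IsLocalRing MvPowerSeries
open Fermat.Agent.S53 Fermat.Agent.S56

namespace Fermat.Agent.TW

noncomputable section

/-- ONE system at level `n`. -/
structure twc_LvSys (𝒪 : Type) [CommRing 𝒪] [IsLocalRing 𝒪] (r d g : ℕ) (ι κ : Type)
    (emb : ι → κ) (J : Ideal (MvPowerSeries κ 𝒪))
    (B : Type) [CommRing B] [Algebra 𝒪 B] (yB : Fin r → B) : Type 1 where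
  /-- the Hecke algebra -/
  T : Type
  [instCommRing : CommRing T]
  [instIsLocalRing : IsLocalRing T]
  [instIsNoetherianRing : IsNoetherianRing T]
  [instIsAdicComplete : IsAdicComplete (maximalIdeal T) T]
  [instAlgebra : Algebra 𝒪 T]
  [instIsLocalHom : IsLocalHom (algebraMap 𝒪 T)]
  residue_surjective : Function.Surjective (residue T ∘ algebraMap 𝒪 T)
  /-- the local coordinates -/
  z : ι → maximalIdeal T
  finrank_le : Module.finrank (ResidueField T) (CotangentSpace T ⧸ twc_relW 𝒪 z) ≤ g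
  /-- the local relations hold -/
  rel : ∀ γ : MvPowerSeries κ 𝒪 →ₐ[𝒪] T, (∀ c, γ (X (emb c)) = (z c : T)) →
    J ≤ RingHom.ker (γ : MvPowerSeries κ 𝒪 →+* T)
  /-- the action on the free module `M_n = (S ⧸ 𝔟)^d` -/
  act : T →ₐ[𝒪] Matrix (Fin d) (Fin d) B
  /-- the Galois diamonds -/
  u : Fin r → T
  u_mem : ∀ i, u i - 1 ∈ maximalIdeal T
  act_u : ∀ i, act (u i) = Matrix.scalar (Fin d) (1 + yB i)

attribute [instance] twc_LvSys.instCommRing twc_LvSys.instIsLocalRing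
  twc_LvSys.instIsNoetherianRing twc_LvSys.instIsAdicComplete twc_LvSys.instAlgebra
  twc_LvSys.instIsLocalHom

/-- the level-`n` input of C/Level. -/
structure twc_LvIn (𝒪 : Type) [CommRing 𝒪] [IsLocalRing 𝒪] (lam : 𝒪) (r d g : ℕ) (ι : Type)
    (J1 : Ideal (MvPowerSeries ((ι ⊕ Fin g) ⊕ Fin g) 𝒪))
    (Jχ : Ideal (MvPowerSeries (ι ⊕ Fin g) 𝒪))
    (𝔞 𝔟 : Ideal (MvPowerSeries (Fin r) 𝒪)) (h𝔟𝔞 : 𝔟 ≤ 𝔞)
    (T0 : Type) [CommRing T0] [Algebra 𝒪 T0]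
    (j : T0 →+* Matrix (Fin d) (Fin d) (MvPowerSeries (Fin r) 𝒪 ⧸ 𝔞))
    (c0 : Fin 2 → Fin 2 → ι) (β : Fin 2 → Fin 2 → T0) : Type 1 where
  /-- the unipotent system -/
  s1 : twc_LvSys 𝒪 r d g ι ((ι ⊕ Fin g) ⊕ Fin g) (fun c => Sum.inl (Sum.inl c)) J1
    (MvPowerSeries (Fin r) 𝒪 ⧸ 𝔟) (fun i => Ideal.Quotient.mk 𝔟 (X i))
  /-- the `χ`-system -/
  sχ : twc_LvSys 𝒪 r d g ι (ι ⊕ Fin g) Sum.inl Jχ
    (MvPowerSeries (Fin r) 𝒪 ⧸ 𝔟) (fun i => Ideal.Quotient.mk 𝔟 (X i))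
  /-- the common quotient acting on `M_n / λ` -/
  Tb : Type
  [instCommRingTb : CommRing Tb]
  [instAlgebraTb : Algebra 𝒪 Tb]
  [instFiniteTb : Finite Tb]
  [instNontrivialTb : Nontrivial Tb]
  π1 : s1.T →ₐ[𝒪] Tb
  πχ : sχ.T →ₐ[𝒪] Tb
  π1_surjective : Function.Surjective π1
  πχ_surjective : Function.Surjective πχ
  π_z : ∀ c, π1 (s1.z c : s1.T) = πχ (sχ.z c : sχ.T)
  π_u : ∀ i, π1 (s1.u i) = πχ (sχ.u i)
  /-- the intertwiner modulo `λ` -/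
  P : Matrix (Fin d) (Fin d) (MvPowerSeries (Fin r) 𝒪 ⧸ 𝔟)
  Pinv : Matrix (Fin d) (Fin d) (MvPowerSeries (Fin r) 𝒪 ⧸ 𝔟)
  P_mul_Pinv : twd_MatCong
    (Ideal.span {Ideal.Quotient.mk 𝔟 (algebraMap 𝒪 (MvPowerSeries (Fin r) 𝒪) lam)}) (P * Pinv) 1
  Pinv_mul_P : twd_MatCong
    (Ideal.span {Ideal.Quotient.mk 𝔟 (algebraMap 𝒪 (MvPowerSeries (Fin r) 𝒪) lam)}) (Pinv * P) 1
  intertwine : ∀ (t1 : s1.T) (tχ : sχ.T), π1 t1 = πχ tχ → twd_MatCong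
    (Ideal.span {Ideal.Quotient.mk 𝔟 (algebraMap 𝒪 (MvPowerSeries (Fin r) 𝒪) lam)})
    (P * s1.act t1) (sχ.act tχ * P)
  /-- the map to `T_∅` -/
  π0 : s1.T →ₐ[𝒪] T0
  act_mod : ∀ t : s1.T, (s1.act t).map (Ideal.Quotient.factor h𝔟𝔞) = j (π0 t)
  π0_z : ∀ i k, π0 (s1.z (c0 i k) : s1.T) = β i k

attribute [instance] twc_LvIn.instCommRingTb twc_LvIn.instAlgebraTb twc_LvIn.instFiniteTb
  twc_LvIn.instNontrivialTb

/-! ### small lemmas -/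

section Small

/-- a surjective ring homomorphism of local rings maps the maximal ideal ONTO the maximal ideal. -/
theorem twc_lv_map_maximalIdeal {R R' : Type*} [CommRing R] [IsLocalRing R] [CommRing R']
    [IsLocalRing R'] (f : R →+* R') (hf : Function.Surjective f) :
    (maximalIdeal R).map f = maximalIdeal R' := by
  haveI : IsLocalHom f := IsLocalHom.of_surjective f hf
  apply le_antisymm
  · rw [Ideal.map_le_iff_le_comap]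
    intro a ha
    exact map_nonunit f a ha
  · intro y hy
    obtain ⟨a, rfl⟩ := hf y
    refine Ideal.mem_map_of_mem f ?_
    rw [mem_maximalIdeal, mem_nonunits_iff]
    intro hu
    exact (mem_maximalIdeal _).1 hy (hu.map f)

/-- the quotient of a smaller subspace is bigger. -/
theorem twc_lv_finrank_quotient_le {K V : Type*} [Field K] [AddCommGroup V] [Module K V]
    [FiniteDimensional K V] {W W' : Submodule K V} (h : W ≤ W') :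
    Module.finrank K (V ⧸ W') ≤ Module.finrank K (V ⧸ W) := by
  have h1 := Submodule.finrank_quotient_add_finrank W
  have h2 := Submodule.finrank_quotient_add_finrank W'
  have h3 := Submodule.finrank_mono h
  omega

end Small

/-! ### the `S`-structure -/

section Sigma

variable {𝒪 : Type} [CommRing 𝒪] [IsLocalRing 𝒪] [IsNoetherianRing 𝒪]

/-- `S ⧸ 𝔟` is a noetherian local ring with finite quotients. -/
theorem twc_lv_B_isLocalRing {r : ℕ} {𝔟 : Ideal (MvPowerSeries (Fin r) 𝒪)} (h𝔟 : 𝔟 ≠ ⊤) :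
    IsLocalRing (MvPowerSeries (Fin r) 𝒪 ⧸ 𝔟) := by
  haveI : Nontrivial (MvPowerSeries (Fin r) 𝒪 ⧸ 𝔟) := Ideal.Quotient.nontrivial_iff.mpr h𝔟
  exact IsLocalRing.of_surjective' (Ideal.Quotient.mk 𝔟) Ideal.Quotient.mk_surjective

theorem twc_lv_B_finite {r : ℕ} {𝔟 : Ideal (MvPowerSeries (Fin r) 𝒪)}
    [IsLocalRing (MvPowerSeries (Fin r) 𝒪 ⧸ 𝔟)]
    (hS : ∀ k : ℕ, Finite (MvPowerSeries (Fin r) 𝒪 ⧸ maximalIdeal (MvPowerSeries (Fin r) 𝒪) ^ k))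
    (N : ℕ) : Finite ((MvPowerSeries (Fin r) 𝒪 ⧸ 𝔟) ⧸
      maximalIdeal (MvPowerSeries (Fin r) 𝒪 ⧸ 𝔟) ^ N) := by
  haveI := hS N
  haveI : IsLocalHom (Ideal.Quotient.mk 𝔟) :=
    IsLocalHom.of_surjective _ Ideal.Quotient.mk_surjective
  let f : MvPowerSeries (Fin r) 𝒪 →+* (MvPowerSeries (Fin r) 𝒪 ⧸ 𝔟) ⧸
      maximalIdeal (MvPowerSeries (Fin r) 𝒪 ⧸ 𝔟) ^ N :=
    (Ideal.Quotient.mk _).comp (Ideal.Quotient.mk 𝔟)
  have hf : ∀ a ∈ maximalIdeal (MvPowerSeries (Fin r) 𝒪) ^ N, f a = 0 := by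
    intro a ha
    show Ideal.Quotient.mk _ (Ideal.Quotient.mk 𝔟 a) = 0
    rw [Ideal.Quotient.eq_zero_iff_mem]
    have h1 : (maximalIdeal (MvPowerSeries (Fin r) 𝒪) ^ N).map (Ideal.Quotient.mk 𝔟) ≤
        maximalIdeal (MvPowerSeries (Fin r) 𝒪 ⧸ 𝔟) ^ N := by
      rw [Ideal.map_pow]
      refine Ideal.pow_right_mono ?_ N
      rw [Ideal.map_le_iff_le_comap]
      intro b hb
      exact map_nonunit (Ideal.Quotient.mk 𝔟) b hb
    exact h1 (Ideal.mem_map_of_mem _ ha)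
  refine Finite.of_surjective (Ideal.Quotient.lift _ f hf) ?_
  intro y
  obtain ⟨y', rfl⟩ := Ideal.Quotient.mk_surjective y
  obtain ⟨s, rfl⟩ := Ideal.Quotient.mk_surjective y'
  exact ⟨Ideal.Quotient.mk _ s, rfl⟩

variable [IsAdicComplete (maximalIdeal 𝒪) 𝒪]

/-- **the `S`-structure of a presented system**: a lift `σ : S → 𝒫 ⧸ J` of the diamonds. -/
theorem twc_lv_sigma {r d g : ℕ} {ι κ : Type} [Finite κ] {emb : ι → κ}
    {J : Ideal (MvPowerSeries κ 𝒪)} {𝔟 : Ideal (MvPowerSeries (Fin r) 𝒪)} (h𝔟 : 𝔟 ≠ ⊤)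
    (hS : ∀ k : ℕ, Finite (MvPowerSeries (Fin r) 𝒪 ⧸ maximalIdeal (MvPowerSeries (Fin r) 𝒪) ^ k))
    (sys : twc_LvSys 𝒪 r d g ι κ emb J (MvPowerSeries (Fin r) 𝒪 ⧸ 𝔟)
      (fun i => Ideal.Quotient.mk 𝔟 (X i)))
    [IsLocalRing (MvPowerSeries κ 𝒪 ⧸ J)]
    [IsAdicComplete (maximalIdeal (MvPowerSeries κ 𝒪 ⧸ J)) (MvPowerSeries κ 𝒪 ⧸ J)]
    (γ : MvPowerSeries κ 𝒪 →ₐ[𝒪] sys.T) (hγ : Function.Surjective γ)
    (hJ : ∀ a ∈ J, γ a = 0) :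
    ∃ σ : MvPowerSeries (Fin r) 𝒪 →ₐ[𝒪] (MvPowerSeries κ 𝒪 ⧸ J),
      ∀ s, sys.act (Ideal.Quotient.liftₐ J γ hJ (σ s)) =
        Matrix.scalar (Fin d) (Ideal.Quotient.mk 𝔟 s) := by
  classical
  haveI := twc_lv_B_isLocalRing h𝔟
  have hY : ∀ i : Fin r, ∃ Y : MvPowerSeries κ 𝒪, γ Y = sys.u i - 1 := fun i => hγ _
  choose Y hY using hY
  have hmem : ∀ i, Ideal.Quotient.mk J (Y i) ∈ maximalIdeal (MvPowerSeries κ 𝒪 ⧸ J) := by
    intro i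
    rw [mem_maximalIdeal, mem_nonunits_iff]
    intro hu
    have h1 : IsUnit (Ideal.Quotient.liftₐ J γ hJ (Ideal.Quotient.mk J (Y i))) :=
      hu.map (Ideal.Quotient.liftₐ J γ hJ)
    have h2 : Ideal.Quotient.liftₐ J γ hJ (Ideal.Quotient.mk J (Y i)) = sys.u i - 1 := by
      rw [← hY i]; rfl
    rw [h2] at h1
    exact (mem_maximalIdeal _).1 (sys.u_mem i) h1
  refine ⟨s56ps_eval (𝒪 := 𝒪) (fun i => Ideal.Quotient.mk J (Y i)) hmem, ?_⟩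
  set σ := s56ps_eval (𝒪 := 𝒪) (fun i => Ideal.Quotient.mk J (Y i)) hmem with hσ
  let f1 : MvPowerSeries (Fin r) 𝒪 →+* Matrix (Fin d) (Fin d) (MvPowerSeries (Fin r) 𝒪 ⧸ 𝔟) :=
    ((sys.act.comp (Ideal.Quotient.liftₐ J γ hJ)).comp σ : _ →ₐ[𝒪] _)
  let f2 : MvPowerSeries (Fin r) 𝒪 →+* Matrix (Fin d) (Fin d) (MvPowerSeries (Fin r) 𝒪 ⧸ 𝔟) :=
    (Matrix.scalar (Fin d)).comp (Ideal.Quotient.mk 𝔟)
  have key : f1 = f2 := by
    have hfinB := twc_lv_B_finite (𝔟 := 𝔟) hS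
    refine twc_lv_ringHom_ext_matrix hfinB f1 f2 ?_ ?_
    · intro a
      show ((sys.act.comp (Ideal.Quotient.liftₐ J γ hJ)).comp σ) (C a) =
        Matrix.scalar (Fin d) (Ideal.Quotient.mk 𝔟 (C a))
      rw [show (C a : MvPowerSeries (Fin r) 𝒪) = algebraMap 𝒪 _ a from rfl, AlgHom.commutes,
        Matrix.algebraMap_eq_diagonal]
      rfl
    · intro i
      show sys.act (Ideal.Quotient.liftₐ J γ hJ (σ (X i))) =
        Matrix.scalar (Fin d) (Ideal.Quotient.mk 𝔟 (X i))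
      rw [hσ, s56ps_eval_X]
      have h2 : Ideal.Quotient.liftₐ J γ hJ (Ideal.Quotient.mk J (Y i)) = sys.u i - 1 := by
        rw [← hY i]; rfl
      rw [h2, map_sub, map_one, sys.act_u i, map_add, map_one, add_sub_cancel_left]
  intro s
  exact RingHom.congr_fun key s

end Sigma

/-! ### the two presentations -/

section Present

variable {𝒪 : Type} [CommRing 𝒪] [IsLocalRing 𝒪] [IsNoetherianRing 𝒪]
  [IsAdicComplete (maximalIdeal 𝒪) 𝒪]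
  {lam : 𝒪} {r d g : ℕ} {ι : Type} [Finite ι]
  {J1 : Ideal (MvPowerSeries ((ι ⊕ Fin g) ⊕ Fin g) 𝒪)}
  {Jχ : Ideal (MvPowerSeries (ι ⊕ Fin g) 𝒪)}
  {𝔞 𝔟 : Ideal (MvPowerSeries (Fin r) 𝒪)} {h𝔟𝔞 : 𝔟 ≤ 𝔞}
  {T0 : Type} [CommRing T0] [Algebra 𝒪 T0]
  {j : T0 →+* Matrix (Fin d) (Fin d) (MvPowerSeries (Fin r) 𝒪 ⧸ 𝔞)}
  {c0 : Fin 2 → Fin 2 → ι} {β : Fin 2 → Fin 2 → T0}

/-- **the simultaneous presentations** of the two Hecke algebras: `x_k ↦` elements with a common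
image in `Tb`, `x'_k ↦` elements of `ker (T¹ → Tb)`. -/
theorem twc_lv_present (I : twc_LvIn 𝒪 lam r d g ι J1 Jχ 𝔞 𝔟 h𝔟𝔞 T0 j c0 β) :
    ∃ (γ1 : MvPowerSeries ((ι ⊕ Fin g) ⊕ Fin g) 𝒪 →ₐ[𝒪] I.s1.T)
      (γχ : MvPowerSeries (ι ⊕ Fin g) 𝒪 →ₐ[𝒪] I.sχ.T),
      Function.Surjective γ1 ∧ Function.Surjective γχ ∧
      (∀ c, γ1 (X (Sum.inl (Sum.inl c))) = (I.s1.z c : I.s1.T)) ∧
      (∀ c, γχ (X (Sum.inl c)) = (I.sχ.z c : I.sχ.T)) ∧
      (∀ v, I.π1 (γ1 (X (Sum.inl v))) = I.πχ (γχ (X v))) ∧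
      (∀ k, I.π1 (γ1 (X (Sum.inr k))) = 0) := by
  classical
  -- the `χ`-presentation
  obtain ⟨x, hx⟩ := twc_rel_exists_gens (𝒪 := 𝒪) I.sχ.z g I.sχ.finrank_le
  have hxm : ∀ v, Sum.elim (fun i => (I.sχ.z i : I.sχ.T)) x v ∈ maximalIdeal I.sχ.T := by
    intro v
    exact hx.ge (Ideal.mem_sup_right (Ideal.subset_span ⟨v, rfl⟩))
  haveI : IsLocalRing I.Tb :=
    IsLocalRing.of_surjective' (I.π1 : I.s1.T →+* I.Tb) I.π1_surjective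
  haveI hloc1 : IsLocalHom (I.π1 : I.s1.T →+* I.Tb) :=
    IsLocalHom.of_surjective _ I.π1_surjective
  haveI hlocχ : IsLocalHom (I.πχ : I.sχ.T →+* I.Tb) :=
    IsLocalHom.of_surjective _ I.πχ_surjective
  -- lifts of the `χ`-generators
  have hu' : ∀ k : Fin g, ∃ t : I.s1.T, I.π1 t = I.πχ (x k) := fun k => I.π1_surjective _
  choose u' hu' using hu'
  have hu'm : ∀ k, u' k ∈ maximalIdeal I.s1.T := by
    intro k
    rw [mem_maximalIdeal, mem_nonunits_iff]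
    intro hu
    have h1 : IsUnit (I.πχ (x k)) := by rw [← hu' k]; exact hu.map I.π1
    have h2 : x k ∈ maximalIdeal I.sχ.T := hxm (Sum.inr k)
    exact (mem_maximalIdeal _).1 (map_nonunit (I.πχ : I.sχ.T →+* I.Tb) _ h2) h1
  let z' : ι ⊕ Fin g → maximalIdeal I.s1.T := Sum.elim I.s1.z (fun k => ⟨u' k, hu'm k⟩)
  have hle : twc_relW 𝒪 I.s1.z ≤ twc_relW 𝒪 z' := by
    refine sup_le_sup_left (Submodule.span_mono ?_) _
    rintro _ ⟨i, rfl⟩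
    exact ⟨Sum.inl i, rfl⟩
  have hfin' : Module.finrank (ResidueField I.s1.T) (CotangentSpace I.s1.T ⧸ twc_relW 𝒪 z') ≤ g :=
    le_trans (twc_lv_finrank_quotient_le hle) I.s1.finrank_le
  -- `𝔪 ≤ 𝔪_𝒪 T + (z') + ker π1`
  have hK : maximalIdeal I.s1.T ≤ ((maximalIdeal 𝒪).map (algebraMap 𝒪 I.s1.T) ⊔
      Ideal.span (Set.range fun v => (z' v : I.s1.T))) ⊔
      RingHom.ker (I.π1 : I.s1.T →+* I.Tb) := by
    have hmap : ((maximalIdeal 𝒪).map (algebraMap 𝒪 I.s1.T) ⊔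
        Ideal.span (Set.range fun v => (z' v : I.s1.T))).map (I.π1 : I.s1.T →+* I.Tb) =
        maximalIdeal I.Tb := by
      rw [← twc_lv_map_maximalIdeal (I.πχ : I.sχ.T →+* I.Tb) I.πχ_surjective, hx, Ideal.map_sup,
        Ideal.map_sup, Ideal.map_map, Ideal.map_map, Ideal.map_span, Ideal.map_span]
      congr 1
      · congr 1
        ext a
        simp
      · congr 1
        ext y
        constructor
        · rintro ⟨_, ⟨v, rfl⟩, rfl⟩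
          refine ⟨_, ⟨v, rfl⟩, ?_⟩
          rcases v with c | k
          · exact (I.π_z c).symm
          · exact (hu' k).symm
        · rintro ⟨_, ⟨v, rfl⟩, rfl⟩
          refine ⟨_, ⟨v, rfl⟩, ?_⟩
          rcases v with c | k
          · exact I.π_z c
          · exact hu' k
    intro y hy
    have h1 : (I.π1 : I.s1.T →+* I.Tb) y ∈ ((maximalIdeal 𝒪).map (algebraMap 𝒪 I.s1.T) ⊔
        Ideal.span (Set.range fun v => (z' v : I.s1.T))).map (I.π1 : I.s1.T →+* I.Tb) := by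
      rw [hmap]
      exact map_nonunit (I.π1 : I.s1.T →+* I.Tb) y hy
    have h2 : y ∈ (((maximalIdeal 𝒪).map (algebraMap 𝒪 I.s1.T) ⊔
        Ideal.span (Set.range fun v => (z' v : I.s1.T))).map
          (I.π1 : I.s1.T →+* I.Tb)).comap (I.π1 : I.s1.T →+* I.Tb) := h1
    rwa [Ideal.comap_map_of_surjective (I.π1 : I.s1.T →+* I.Tb) I.π1_surjective,
      ← RingHom.ker_eq_comap_bot] at h2
  obtain ⟨w, hwK, hwm, hw⟩ := twc_lv_exists_gens_in (𝒪 := 𝒪) z' g hfin'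
    (RingHom.ker (I.π1 : I.s1.T →+* I.Tb)) hK
  have hgm : ∀ v, Sum.elim (fun v => (z' v : I.s1.T)) w v ∈ maximalIdeal I.s1.T := by
    intro v
    exact hw.ge (Ideal.mem_sup_right (Ideal.subset_span ⟨v, rfl⟩))
  refine ⟨s56ps_eval (𝒪 := 𝒪) _ hgm, s56ps_eval (𝒪 := 𝒪) _ hxm,
    s56ps_eval_surjective I.s1.residue_surjective _ hgm hw,
    s56ps_eval_surjective I.sχ.residue_surjective _ hxm hx, ?_, ?_, ?_, ?_⟩
  · intro c
    rw [s56ps_eval_X]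
    rfl
  · intro c
    rw [s56ps_eval_X]
    rfl
  · intro v
    rw [s56ps_eval_X, s56ps_eval_X]
    rcases v with c | k
    · exact I.π_z c
    · exact hu' k
  · intro k
    rw [s56ps_eval_X]
    exact RingHom.mem_ker.1 (hwK k)

end Present

/-! ### the assembly -/

section Main

variable {𝒪 : Type} [CommRing 𝒪] [IsLocalRing 𝒪] [IsNoetherianRing 𝒪]
  [IsAdicComplete (maximalIdeal 𝒪) 𝒪]
  {lam : 𝒪} {r d g : ℕ} {ι : Type} [Finite ι]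
  {J1 : Ideal (MvPowerSeries ((ι ⊕ Fin g) ⊕ Fin g) 𝒪)}
  {Jχ : Ideal (MvPowerSeries (ι ⊕ Fin g) 𝒪)}
  {𝔞 𝔟 : Ideal (MvPowerSeries (Fin r) 𝒪)} {h𝔟𝔞 : 𝔟 ≤ 𝔞}
  {T0 : Type} [CommRing T0] [Algebra 𝒪 T0]
  {j : T0 →+* Matrix (Fin d) (Fin d) (MvPowerSeries (Fin r) 𝒪 ⧸ 𝔞)}
  {c0 : Fin 2 → Fin 2 → ι} {β : Fin 2 → Fin 2 → T0}

/-- **C/Level**: the level datum of block [D] from the level-`n` input. -/
theorem twc_level_of
    [IsLocalRing (MvPowerSeries ((ι ⊕ Fin g) ⊕ Fin g) 𝒪 ⧸ J1)]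
    [IsAdicComplete (maximalIdeal (MvPowerSeries ((ι ⊕ Fin g) ⊕ Fin g) 𝒪 ⧸ J1))
      (MvPowerSeries ((ι ⊕ Fin g) ⊕ Fin g) 𝒪 ⧸ J1)]
    [IsLocalRing (MvPowerSeries (ι ⊕ Fin g) 𝒪 ⧸ Jχ)]
    [IsAdicComplete (maximalIdeal (MvPowerSeries (ι ⊕ Fin g) 𝒪 ⧸ Jχ))
      (MvPowerSeries (ι ⊕ Fin g) 𝒪 ⧸ Jχ)]
    (h𝔞 : 𝔞 ≠ ⊤)
    (hS : ∀ k : ℕ, Finite (MvPowerSeries (Fin r) 𝒪 ⧸ maximalIdeal (MvPowerSeries (Fin r) 𝒪) ^ k))
    (res : MvPowerSeries ((ι ⊕ Fin g) ⊕ Fin g) 𝒪 →ₐ[𝒪] MvPowerSeries (ι ⊕ Fin g) 𝒪)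
    (hres_inl : ∀ v, res (X (Sum.inl v)) = X v) (hres_inr : ∀ k, res (X (Sum.inr k)) = 0)
    (q1 : (MvPowerSeries ((ι ⊕ Fin g) ⊕ Fin g) 𝒪 ⧸ J1) →+*
      ((MvPowerSeries (ι ⊕ Fin g) 𝒪 ⧸ Jχ) ⧸
        Ideal.span {algebraMap 𝒪 (MvPowerSeries (ι ⊕ Fin g) 𝒪 ⧸ Jχ) lam}))
    (hq1 : ∀ F, q1 (Ideal.Quotient.mk J1 F) =
      Ideal.Quotient.mk _ (Ideal.Quotient.mk Jχ (res F)))
    (I : twc_LvIn 𝒪 lam r d g ι J1 Jχ 𝔞 𝔟 h𝔟𝔞 T0 j c0 β) :
    Nonempty (twd_Level 𝒪 lam (MvPowerSeries (Fin r) 𝒪)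
      (MvPowerSeries ((ι ⊕ Fin g) ⊕ Fin g) 𝒪 ⧸ J1) (MvPowerSeries (ι ⊕ Fin g) 𝒪 ⧸ Jχ)
      ((MvPowerSeries (ι ⊕ Fin g) 𝒪 ⧸ Jχ) ⧸
        Ideal.span {algebraMap 𝒪 (MvPowerSeries (ι ⊕ Fin g) 𝒪 ⧸ Jχ) lam})
      T0 d 𝔞 𝔟 h𝔟𝔞 q1 (Ideal.Quotient.mk _) j
      (fun i k => Ideal.Quotient.mk J1 (X (Sum.inl (Sum.inl (c0 i k))))) β) := by
  classical
  have h𝔟 : 𝔟 ≠ ⊤ := fun h => h𝔞 (top_le_iff.mp (h ▸ h𝔟𝔞))
  obtain ⟨γ1, γχ, hγ1s, hγχs, hγ1z, hγχz, hγπ, hγw⟩ := twc_lv_present I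
  have hJ1 : ∀ a ∈ J1, γ1 a = 0 := fun a ha => RingHom.mem_ker.1 (I.s1.rel γ1 hγ1z ha)
  have hJχ : ∀ a ∈ Jχ, γχ a = 0 := fun a ha => RingHom.mem_ker.1 (I.sχ.rel γχ hγχz ha)
  obtain ⟨σ1, hσ1⟩ := twc_lv_sigma h𝔟 hS I.s1 γ1 hγ1s hJ1
  obtain ⟨σχ, hσχ⟩ := twc_lv_sigma h𝔟 hS I.sχ γχ hγχs hJχ
  -- the two presentations agree in `Tb`
  have hkey : ∀ F, I.π1 (γ1 F) = I.πχ (γχ (res F)) := by
    have h := twc_lv_ringHom_ext_finite
      (((I.π1.comp γ1 : _ →ₐ[𝒪] I.Tb)) : MvPowerSeries ((ι ⊕ Fin g) ⊕ Fin g) 𝒪 →+* I.Tb)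
      ((((I.πχ.comp γχ).comp res : _ →ₐ[𝒪] I.Tb)) :
        MvPowerSeries ((ι ⊕ Fin g) ⊕ Fin g) 𝒪 →+* I.Tb)
      (fun a => by
        show (I.π1.comp γ1) (C a) = ((I.πχ.comp γχ).comp res) (C a)
        rw [show (C a : MvPowerSeries ((ι ⊕ Fin g) ⊕ Fin g) 𝒪) = algebraMap 𝒪 _ a from rfl,
          AlgHom.commutes, AlgHom.commutes])
      (fun v => by
        show I.π1 (γ1 (X v)) = I.πχ (γχ (res (X v)))
        rcases v with v | k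
        · rw [hres_inl, hγπ]
        · rw [hres_inr, map_zero, map_zero, hγw])
    intro F
    exact RingHom.congr_fun h F
  refine ⟨{
    α1 := ((I.s1.act.comp (Ideal.Quotient.liftₐ J1 γ1 hJ1) : _ →ₐ[𝒪] _) : _ →+* _)
    αχ := ((I.sχ.act.comp (Ideal.Quotient.liftₐ Jχ γχ hJχ) : _ →ₐ[𝒪] _) : _ →+* _)
    σ1 := σ1
    σχ := σχ
    σ1_algebraMap := σ1.commutes
    σχ_algebraMap := σχ.commutes
    α1_σ1 := hσ1
    αχ_σχ := hσχ
    P := I.P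
    Pinv := I.Pinv
    P_mul_Pinv := I.P_mul_Pinv
    Pinv_mul_P := I.Pinv_mul_P
    intertwine := ?_
    π := ((I.π0.comp (Ideal.Quotient.liftₐ J1 γ1 hJ1) : _ →ₐ[𝒪] T0) : _ →+* T0)
    π_algebraMap := fun a => (I.π0.comp (Ideal.Quotient.liftₐ J1 γ1 hJ1)).commutes a
    α1_mod := fun f => I.act_mod _
    π_ν := ?_ }⟩
  · intro f g hfg
    obtain ⟨F, rfl⟩ := Ideal.Quotient.mk_surjective f
    obtain ⟨G, rfl⟩ := Ideal.Quotient.mk_surjective g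
    rw [hq1, Ideal.Quotient.eq, Ideal.mem_span_singleton'] at hfg
    obtain ⟨c, hc⟩ := hfg
    have h1 := I.intertwine (γ1 F) (γχ (res F)) (hkey F)
    have h2 : twd_MatCong
        (Ideal.span {Ideal.Quotient.mk 𝔟 (algebraMap 𝒪 (MvPowerSeries (Fin r) 𝒪) lam)})
        (I.sχ.act (γχ (res F))) (I.sχ.act (γχ G)) := by
      have h3 : I.sχ.act (γχ (res F)) - I.sχ.act (γχ G) =
          I.sχ.act (Ideal.Quotient.liftₐ Jχ γχ hJχ c) *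
            algebraMap 𝒪 (Matrix (Fin d) (Fin d) (MvPowerSeries (Fin r) 𝒪 ⧸ 𝔟)) lam := by
        have h4 : γχ (res F) - γχ G = Ideal.Quotient.liftₐ Jχ γχ hJχ
            (Ideal.Quotient.mk Jχ (res F) - Ideal.Quotient.mk Jχ G) := by
          rw [map_sub]; rfl
        rw [← map_sub, h4, ← hc, map_mul, map_mul, AlgHom.commutes, AlgHom.commutes]
      intro i k
      rw [← Matrix.sub_apply, h3, Matrix.algebraMap_eq_diagonal, Matrix.mul_diagonal]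
      exact Ideal.mul_mem_left _ _ (Ideal.subset_span rfl)
    exact twd_matCong_trans h1 (twd_matCong_mul_right I.P h2)
  · intro i k
    show I.π0 (γ1 (X (Sum.inl (Sum.inl (c0 i k))))) = β i k
    rw [hγ1z]
    exact I.π0_z i k

end Main

end

end Fermat.Agent.TW
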