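import Mathlib
import Fermat.Agent.TW.Def.SigmaAct
import Fermat.Agent.TW.Aut.ChiAbs

/-!
# TW / [C] C/Sigma, cell [Act] (b), abstract core (helper28)

From ONE `𝒪[G × H]`-structure `ψ` on the big module `Mb` (free on `b`), commuting with the Hecke
ring `T2`, to the two matrix actions
`actχ = map (ev_m ∘ ev_χ) ∘ actBig : T2 → M_J(R)` and
`act1 = (map (ev_m ∘ ev_1) ∘ actBig) / π1 : T1 → M_J(R)`,
with the congruence modulo `λ`, the scalars, the reduction to the base action, and the vanishing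
on everything that kills `M^χ`.
-/

set_option autoImplicit false
set_option linter.unusedSectionVars false
set_option linter.style.haveILetI false

open MonoidAlgebra

namespace Fermat.Agent.TW

section core

/-- every element of a group algebra of a finite monoid is a combination of the `of k`. -/
theorem twc_ab_span_of {𝒪 K : Type*} [CommRing 𝒪] [Monoid K] [Fintype K]
    (a : MonoidAlgebra 𝒪 K) : ∃ c : K → 𝒪, a = ∑ k, c k • of 𝒪 K k := by
  classical
  induction a using MonoidAlgebra.induction_on with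
  | of g =>
    refine ⟨Pi.single g 1, ?_⟩
    rw [Finset.sum_eq_single g]
    · rw [Pi.single_eq_same, one_smul]
    · intro k _ hk
      rw [Pi.single_eq_of_ne hk, zero_smul]
    · intro h
      exact absurd (Finset.mem_univ g) h
  | add x y hx hy =>
    obtain ⟨c1, h1⟩ := hx
    obtain ⟨c2, h2⟩ := hy
    refine ⟨c1 + c2, ?_⟩
    simp only [Pi.add_apply, add_smul, Finset.sum_add_distrib]
    rw [← h1, ← h2]
  | smul r x hx =>
    obtain ⟨c, h⟩ := hx
    refine ⟨r • c, ?_⟩
    simp only [Pi.smul_apply, smul_eq_mul, mul_smul]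
    rw [← Finset.smul_sum, ← h]

variable {𝒪 : Type*} [CommRing 𝒪] {G H : Type*} [CommGroup G] [CommGroup H]
  [Fintype G] [Fintype H]
  {T2 T1 T0 : Type*} [CommRing T2] [Algebra 𝒪 T2] [CommRing T1] [Algebra 𝒪 T1]
  [CommRing T0] [Algebra 𝒪 T0]
  {Mb M1 : Type*} [AddCommGroup Mb] [Module 𝒪 Mb] [Module T2 Mb] [IsScalarTower 𝒪 T2 Mb]
  [AddCommGroup M1] [Module 𝒪 M1] [Module T1 M1] [IsScalarTower 𝒪 T1 M1]
  {D I I' : Type*} [Fintype D] [DecidableEq D] [Fintype I] [DecidableEq I] [DecidableEq I']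
  {R R0 : Type*} [CommRing R] [Algebra 𝒪 R] [CommRing R0] [Algebra 𝒪 R0]

/-- **[Act] (b), abstract form.** -/
theorem twc_ab_core
    (π1 : T2 →ₐ[𝒪] T1) (hπ1 : Function.Surjective π1) (π0 : T1 →ₐ[𝒪] T0)
    (c1 : Mb →ₗ[𝒪] M1) (hc1 : ∀ (x : T2) (m : Mb), c1 (x • m) = π1 x • c1 m)
    (ψ : MonoidAlgebra 𝒪 (G × H) →ₐ[𝒪] Module.End 𝒪 Mb)
    (hcomm : ∀ (a : MonoidAlgebra 𝒪 (G × H)) (x : T2) (m : Mb), ψ a (x • m) = x • ψ a m)
    (hker : LinearMap.ker c1 ≤
      twc_sg_sub ψ (RingHom.ker (twe_chi_ev (G := G) (1 : H →* 𝒪ˣ))))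
    (b : D × I → Mb)
    (hli : LinearIndependent 𝒪 (fun kj : (G × H) × (D × I) => ψ (of 𝒪 (G × H) kj.1) (b kj.2)))
    (hspan : ⊤ ≤ Submodule.span 𝒪
      (Set.range fun kj : (G × H) × (D × I) => ψ (of 𝒪 (G × H) kj.1) (b kj.2)))
    (j0 : T0 →ₐ[𝒪] Matrix D D 𝒪)
    (cc : M1 →ₗ[𝒪] (I' → D → 𝒪))
    (hcc : ∀ (x : T1) (m : M1) (i : I'), cc (x • m) i = (j0 (π0 x)).mulVec (cc m i))
    (haug : ∀ (g : G × H) (m : Mb), cc (c1 (ψ (of 𝒪 (G × H) g) m)) = cc (c1 m))
    (κ : I → I') (hκ : Function.Injective κ)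
    (hb : ∀ (a : D) (i : I), cc (c1 (b (a, i))) = Pi.single (κ i) (Pi.single a 1))
    (evm : MonoidAlgebra 𝒪 G →ₐ[𝒪] R) (fac : R →+* R0)
    (hfacalg : ∀ c : 𝒪, fac (algebraMap 𝒪 R c) = algebraMap 𝒪 R0 c)
    (hfac : ∀ g : G, fac (evm (of 𝒪 G g)) = 1)
    (lam : 𝒪) (χ : H →* 𝒪ˣ) (hχ : ∀ δ, ((χ δ : 𝒪ˣ) : 𝒪) - 1 ∈ Ideal.span {lam}) :
    ∃ (act1 : T1 →ₐ[𝒪] Matrix (D × I) (D × I) R) (actχ : T2 →ₐ[𝒪] Matrix (D × I) (D × I) R),
      (∀ (x : T2) (i j : D × I),
        act1 (π1 x) i j - actχ x i j ∈ Ideal.span {algebraMap 𝒪 R lam}) ∧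
      (∀ (x : T2) (g : G), (∀ m : Mb, ψ (of 𝒪 (G × H) (g, 1)) m = x • m) →
        act1 (π1 x) = Matrix.scalar (D × I) (evm (of 𝒪 G g)) ∧
        actχ x = Matrix.scalar (D × I) (evm (of 𝒪 G g))) ∧
      (∀ (x : T1) (a a' : D) (i i' : I), fac (act1 x (a, i) (a', i')) =
        if i = i' then algebraMap 𝒪 R0 (j0 (π0 x) a a') else 0) ∧
      (∀ x : T2, (∀ y : Mb, x • y ∈ twc_sg_sub ψ (RingHom.ker (twe_chi_ev (G := G) χ))) →
        actχ x = 0) := by
  classical
  obtain ⟨actBig, hB1, hB2, hB3, hB4, hB5⟩ :=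
    twc_sg_act (T := T2) ψ hcomm (of 𝒪 (G × H)) twc_ab_span_of b hli hspan
  -- the two specialisations
  let evχ : MonoidAlgebra 𝒪 (G × H) →ₐ[𝒪] R := evm.comp (twe_chi_ev (G := G) χ)
  let ev1 : MonoidAlgebra 𝒪 (G × H) →ₐ[𝒪] R := evm.comp (twe_chi_ev (G := G) (1 : H →* 𝒪ˣ))
  let actχ : T2 →ₐ[𝒪] Matrix (D × I) (D × I) R := (evχ.mapMatrix).comp actBig
  let act1' : T2 →ₐ[𝒪] Matrix (D × I) (D × I) R := (ev1.mapMatrix).comp actBig
  have hactχ : ∀ x i j, actχ x i j = evm (twe_chi_ev χ (actBig x i j)) := fun x i j => rfl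
  have hact1' : ∀ x i j, act1' x i j = evm (twe_chi_ev (1 : H →* 𝒪ˣ) (actBig x i j)) :=
    fun x i j => rfl
  -- `act1'` kills the kernel of `π1`
  have hkill : ∀ x : T2, π1 x = 0 → act1' x = 0 := by
    intro x hx
    ext i j
    rw [hact1', Matrix.zero_apply]
    have h1 : x • b j ∈ twc_sg_sub ψ (RingHom.ker (twe_chi_ev (G := G) (1 : H →* 𝒪ˣ))) := by
      apply hker
      rw [LinearMap.mem_ker, hc1, hx, zero_smul]
    rw [hB1 x j] at h1
    have h2 := hB5 _ (fun i => actBig x i j) h1 i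
    rw [RingHom.mem_ker] at h2
    rw [h2, map_zero]
  have hkerle : ∀ a ∈ RingHom.ker (π1 : T2 →+* T1), act1' a = 0 := fun a ha =>
    hkill a (RingHom.mem_ker.mp ha)
  let act1 : T1 →ₐ[𝒪] Matrix (D × I) (D × I) R :=
    (Ideal.Quotient.liftₐ (RingHom.ker (π1 : T2 →+* T1)) act1' hkerle).comp
      (Ideal.quotientKerAlgEquivOfSurjective hπ1).symm.toAlgHom
  have hact1 : ∀ x : T2, act1 (π1 x) = act1' x := by
    intro x
    show Ideal.Quotient.liftₐ _ act1' hkerle
      ((Ideal.quotientKerAlgEquivOfSurjective hπ1).symm (π1 x)) = _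
    have : (Ideal.quotientKerAlgEquivOfSurjective hπ1).symm (π1 x) =
        Ideal.Quotient.mk (RingHom.ker (π1 : T2 →+* T1)) x := by
      rw [AlgEquiv.symm_apply_eq]
      rfl
    rw [this]
    rfl
  refine ⟨act1, actχ, ?_, ?_, ?_, ?_⟩
  · -- congruence
    intro x i j
    rw [hact1, hact1', hactχ, ← map_sub]
    have h := twe_chi_ev_congr (G := G) (1 : H →* 𝒪ˣ) χ lam (fun δ => by
      have := hχ δ
      rw [MonoidHom.one_apply, Units.val_one]
      rw [← neg_sub]
      exact (Ideal.neg_mem_iff _).2 this) (actBig x i j)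
    obtain ⟨y, hy⟩ := Ideal.mem_span_singleton'.mp h
    rw [← hy, map_mul, AlgHom.commutes]
    exact Ideal.mul_mem_left _ _ (Ideal.subset_span rfl)
  · -- scalars
    intro x g hx
    have hsc : actBig x = Matrix.scalar (D × I) (of 𝒪 (G × H) (g, 1)) := by
      apply hB4
      intro j
      rw [← hx]
      rw [Finset.sum_eq_single j]
      · simp
      · intro i _ hij
        simp [Matrix.scalar_apply, Matrix.diagonal_apply_ne _ hij]
      · intro h
        exact absurd (Finset.mem_univ j) h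
    have key : ∀ (χ' : H →* 𝒪ˣ) (i j : D × I),
        evm (twe_chi_ev χ' ((Matrix.scalar (D × I) (of 𝒪 (G × H) (g, 1))) i j)) =
          Matrix.scalar (D × I) (evm (of 𝒪 G g)) i j := by
      intro χ' i j
      rw [Matrix.scalar_apply, Matrix.scalar_apply]
      by_cases hij : i = j
      · subst hij
        rw [Matrix.diagonal_apply_eq, Matrix.diagonal_apply_eq, twe_chi_ev_of', map_one,
          Units.val_one, one_smul]
      · rw [Matrix.diagonal_apply_ne _ hij, Matrix.diagonal_apply_ne _ hij, map_zero, map_zero]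
    constructor
    · rw [hact1]
      ext i j
      rw [hact1', hsc, key]
    · ext i j
      rw [hactχ, hsc, key]
  · -- reduction to the base action
    intro x a a' i i'
    obtain ⟨x2, rfl⟩ := hπ1 x
    rw [hact1, hact1']
    -- the total augmentation
    let aug : MonoidAlgebra 𝒪 (G × H) →ₐ[𝒪] 𝒪 := lift 𝒪 𝒪 (G × H) (1 : G × H →* 𝒪)
    have haugof : ∀ g : G × H, aug (of 𝒪 (G × H) g) = 1 := by
      intro g
      show lift 𝒪 𝒪 (G × H) (1 : G × H →* 𝒪) (of 𝒪 (G × H) g) = 1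
      rw [lift_of, MonoidHom.one_apply]
    have hfacaug : ∀ y : MonoidAlgebra 𝒪 (G × H),
        fac (evm (twe_chi_ev (G := G) (1 : H →* 𝒪ˣ) y)) = algebraMap 𝒪 R0 (aug y) := by
      intro y
      induction y using MonoidAlgebra.induction_on with
      | of g =>
        obtain ⟨g, δ⟩ := g
        rw [twe_chi_ev_of', MonoidHom.one_apply, Units.val_one, one_smul, hfac, haugof, map_one]
      | add x y hx hy => rw [map_add, map_add, map_add, map_add, map_add, hx, hy]
      | smul c y hy =>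
        rw [map_smul, map_smul, Algebra.smul_def, map_mul, hfacalg, hy, map_smul, smul_eq_mul,
          map_mul]
    have hccψ : ∀ (y : MonoidAlgebra 𝒪 (G × H)) (m : Mb),
        cc (c1 (ψ y m)) = aug y • cc (c1 m) := by
      intro y
      induction y using MonoidAlgebra.induction_on with
      | of g => intro m; rw [haug, haugof, one_smul]
      | add x y hx hy =>
        intro m
        rw [map_add, LinearMap.add_apply, map_add, map_add, hx, hy, map_add, add_smul]
      | smul c y hy =>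
        intro m
        rw [map_smul, LinearMap.smul_apply, map_smul, map_smul, hy, map_smul, smul_eq_mul,
          mul_smul]
    have h3 : cc (c1 (x2 • b (a', i'))) (κ i) a =
        cc (c1 (∑ k, ψ (actBig x2 k (a', i')) (b k))) (κ i) a := by
      rw [← hB1 x2 (a', i')]
    have hL : cc (c1 (x2 • b (a', i'))) (κ i) a =
        if i = i' then j0 (π0 (π1 x2)) a a' else 0 := by
      rw [hc1, hcc, hb]
      by_cases hii : i = i'
      · subst hii
        rw [if_pos rfl, Pi.single_eq_same, Matrix.mulVec_single_one]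
        rfl
      · rw [if_neg hii, Pi.single_eq_of_ne (fun h => hii (hκ h)), Matrix.mulVec_zero]
        rfl
    have hR : cc (c1 (∑ k, ψ (actBig x2 k (a', i')) (b k))) (κ i) a =
        aug (actBig x2 (a, i) (a', i')) := by
      rw [map_sum, map_sum, Finset.sum_apply, Finset.sum_apply]
      rw [Finset.sum_eq_single (a, i)]
      · rw [hccψ, hb, Pi.smul_apply, Pi.smul_apply, Pi.single_eq_same, Pi.single_eq_same,
          smul_eq_mul, mul_one]
      · rintro ⟨a₀, i₀⟩ _ hne
        rw [hccψ, hb, Pi.smul_apply, Pi.smul_apply]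
        by_cases hi : i₀ = i
        · subst hi
          have ha : a₀ ≠ a := fun h => hne (by rw [h])
          rw [Pi.single_eq_same, Pi.single_eq_of_ne (Ne.symm ha), smul_zero]
        · rw [Pi.single_eq_of_ne (fun h => hi (hκ h).symm)]
          simp
      · intro h
        exact absurd (Finset.mem_univ _) h
    rw [hfacaug, ← hR, ← h3, hL]
    split_ifs
    · rfl
    · rw [map_zero]
  · -- vanishing
    intro x hx
    ext i j
    rw [hactχ, Matrix.zero_apply]
    have h1 := hx (b j)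
    rw [hB1 x j] at h1
    have h2 := hB5 _ (fun i => actBig x i j) h1 i
    rw [RingHom.mem_ker] at h2
    rw [h2, map_zero]

end core

end Fermat.Agent.TW
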