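import Mathlib

/-!
# TW / [C] C/Sigma, cell [Act] (b): the specialisation `𝒪[∏ ℤ/P_i] → R` (helper28)

`twc_ab_phi` : for units-of-finite-order `y k ∈ R` (`y k ^ P (idx k) = 1`), the monoid hom
`∏ i, ℤ/P i → R`, `δ ↦ ∏ k, y k ^ (δ (idx k)).val`; `twc_ab_evm` its linear extension to the group
algebra.  For `idx` injective the generator of the `idx k`-th factor goes to `y k`.
-/

set_option autoImplicit false

open MonoidAlgebra

namespace Fermat.Agent.TW

noncomputable section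

variable {ι : Type*} (P : ι → ℕ) [∀ i, NeZero (P i)]
  {R : Type*} [CommRing R] {r : ℕ} (idx : Fin r → ι) (y : Fin r → R)
  (hy : ∀ k, y k ^ P (idx k) = 1)

/-- `δ ↦ ∏ k, y k ^ (δ (idx k)).val`. -/
def twc_ab_phi : Multiplicative (∀ i, ZMod (P i)) →* R where
  toFun δ := ∏ k, y k ^ (Multiplicative.toAdd δ (idx k)).val
  map_one' := by
    simp
  map_mul' δ δ' := by
    rw [← Finset.prod_mul_distrib]
    refine Finset.prod_congr rfl fun k _ => ?_
    rw [toAdd_mul, Pi.add_apply, ZMod.val_add, ← pow_add]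
    exact (pow_eq_pow_mod _ (hy k)).symm

theorem twc_ab_phi_apply (δ : Multiplicative (∀ i, ZMod (P i))) :
    twc_ab_phi P idx y hy δ = ∏ k, y k ^ (Multiplicative.toAdd δ (idx k)).val := rfl

theorem twc_ab_phi_single [DecidableEq ι] (hidx : Function.Injective idx) (k : Fin r) :
    twc_ab_phi P idx y hy (Multiplicative.ofAdd (Pi.single (idx k) 1)) = y k := by
  rw [twc_ab_phi_apply, Finset.prod_eq_single k]
  · rw [toAdd_ofAdd, Pi.single_eq_same, ZMod.val_one_eq_one_mod,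
      ← pow_eq_pow_mod _ (hy k), pow_one]
  · intro k' _ hk'
    rw [toAdd_ofAdd, Pi.single_eq_of_ne (fun h => hk' (hidx h)), ZMod.val_zero, pow_zero]
  · intro h
    exact absurd (Finset.mem_univ k) h

variable {𝒪 : Type*} [CommRing 𝒪] [Algebra 𝒪 R]

/-- the specialisation `𝒪[∏ ℤ/P_i] →ₐ[𝒪] R`. -/
def twc_ab_evm : MonoidAlgebra 𝒪 (Multiplicative (∀ i, ZMod (P i))) →ₐ[𝒪] R :=
  lift 𝒪 R (Multiplicative (∀ i, ZMod (P i))) (twc_ab_phi P idx y hy)

theorem twc_ab_evm_of (δ : Multiplicative (∀ i, ZMod (P i))) :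
    twc_ab_evm (𝒪 := 𝒪) P idx y hy (of 𝒪 _ δ) = twc_ab_phi P idx y hy δ := by
  rw [twc_ab_evm, lift_of]

/-- a ring hom killing all `y k - 1` kills the augmentation. -/
theorem twc_ab_map_phi {R0 : Type*} [CommRing R0] (fac : R →+* R0) (hfac : ∀ k, fac (y k) = 1)
    (δ : Multiplicative (∀ i, ZMod (P i))) : fac (twc_ab_phi P idx y hy δ) = 1 := by
  rw [twc_ab_phi_apply, map_prod]
  refine Finset.prod_eq_one fun k _ => ?_
  rw [map_pow, hfac, one_pow]

end

end Fermat.Agent.TW
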