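import Fermat.Agent.TW.Def.SigmaSeam
import Fermat.Agent.TW.Def.SigmaActCore
import Fermat.Agent.TW.Def.SigmaEv
import Fermat.Agent.TW.LG.MatchSeam
import Fermat.Agent.TW.Aut.ChiBridge

/-!
# TW / [C] C/Sigma, cell [Act] (b) (helper28)

`twc_ab_main` : from ONE `𝒪[Δ_Q × Δ_Th]`-structure `ψ` on `Bg.Mb` (Galois diamonds `u_t` at `Q`, Hecke
diamonds at `Th`) commuting with `T''`, free on `b` with `c (c1 (b (a, i))) = e_{κ i} ⊗ e_a`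
(= the conclusion of [Act] (a)), and the surjectivity of `Bg.π1`, to the five clauses of
`twc_Act_stmt` VERBATIM.
-/

set_option autoImplicit false
set_option linter.unusedSectionVars false
set_option linter.style.haveILetI false

open Polynomial CuspForm IsLocalRing MonoidAlgebra

namespace Fermat.Agent.TW

noncomputable section

section

variable {𝒪 : Type} [CommRing 𝒪]

theorem twc_ab_y_pow (p r m : ℕ) (k : Fin r) {n : ℕ} (h : p ^ m ∣ n) :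
    (Ideal.Quotient.mk (twds_b 𝒪 r (p ^ m)) (1 + MvPowerSeries.X k)) ^ n = 1 := by
  obtain ⟨c, rfl⟩ := h
  rw [pow_mul, ← map_pow]
  have h0 : (1 + MvPowerSeries.X k : MvPowerSeries (Fin r) 𝒪) ^ p ^ m - 1 ∈
      twds_b 𝒪 r (p ^ m) := Ideal.subset_span ⟨k, rfl⟩
  have h1 : Ideal.Quotient.mk (twds_b 𝒪 r (p ^ m)) ((1 + MvPowerSeries.X k) ^ p ^ m) = 1 := by
    rw [← sub_eq_zero, ← map_one (Ideal.Quotient.mk (twds_b 𝒪 r (p ^ m))), ← map_sub,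
      Ideal.Quotient.eq_zero_iff_mem]
    exact h0
  rw [h1, one_pow]

theorem twc_ab_factor_y (r N : ℕ) (k : Fin r) :
    Ideal.Quotient.factor (twds_b_le_a (O := 𝒪) r N)
      (Ideal.Quotient.mk (twds_b 𝒪 r N) (1 + MvPowerSeries.X k)) = 1 := by
  rw [Ideal.Quotient.factor_mk, map_add, map_one, add_eq_left, Ideal.Quotient.eq_zero_iff_mem,
    twds_mem_a]
  simp

end

section

variable {𝒪 : Type} [CommRing 𝒪] [IsDomain 𝒪] [IsDiscreteValuationRing 𝒪]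
  [IsAdicComplete (maximalIdeal 𝒪) 𝒪]
  {N : ℕ} [NeZero N] {S : Finset ℕ} {θ : heckeAlgebra N 2 (↑S : Set ℕ) →+* ResidueField 𝒪}
  {B : twe_Base 𝒪 N S θ} {p : ℕ} {Q : Finset ℕ} [NeZero (twe_Nbal N Q ∅)]
  {L : twe_Level B p Q} {Th : Finset ℕ} [NeZero (twe_Nbal N Q Th)]

/-- the specialisation `𝒪[Δ_Q] → S ⧸ 𝔟_m`, `δ_{qv i} ↦ 1 + y_i`. -/
def twc_ab_evQ (r : ℕ) (qv : Fin r → ℕ) (hqv : ∀ i, qv i ∈ Q) (m : ℕ)
    (hm : ∀ i, p ^ m ∣ twe_ord p (qv i)) :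
    MonoidAlgebra 𝒪 (twe_Delta p Q) →ₐ[𝒪] (MvPowerSeries (Fin r) 𝒪 ⧸ twds_b 𝒪 r (p ^ m)) :=
  twc_ab_evm (fun t : ↥Q => twe_ord p (t : ℕ)) (fun i => (⟨qv i, hqv i⟩ : ↥Q))
    (fun k => Ideal.Quotient.mk (twds_b 𝒪 r (p ^ m)) (1 + MvPowerSeries.X k))
    (fun k => twc_ab_y_pow p r m k (hm k))

theorem twc_ab_evQ_gen (r : ℕ) (qv : Fin r → ℕ) (hqv : ∀ i, qv i ∈ Q)
    (hinj : Function.Injective qv) (m : ℕ)
    (hm : ∀ i, p ^ m ∣ twe_ord p (qv i)) (i : Fin r) :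
    twc_ab_evQ (𝒪 := 𝒪) r qv hqv m hm (of 𝒪 (twe_Delta p Q) (twe_gen p Q (qv i) (hqv i))) =
      Ideal.Quotient.mk (twds_b 𝒪 r (p ^ m)) (1 + MvPowerSeries.X i) := by
  rw [twc_ab_evQ, twc_ab_evm_of]
  exact twc_ab_phi_single (fun t : ↥Q => twe_ord p (t : ℕ)) (fun i => (⟨qv i, hqv i⟩ : ↥Q))
    (fun k => Ideal.Quotient.mk (twds_b 𝒪 r (p ^ m)) (1 + MvPowerSeries.X k))
    (fun k => twc_ab_y_pow p r m k (hm k))
    (fun i j h => hinj (congrArg Subtype.val h)) i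

theorem twc_ab_factor_evQ (r : ℕ) (qv : Fin r → ℕ) (hqv : ∀ i, qv i ∈ Q) (m : ℕ)
    (hm : ∀ i, p ^ m ∣ twe_ord p (qv i)) (δ : twe_Delta p Q) :
    Ideal.Quotient.factor (twds_b_le_a (O := 𝒪) r (p ^ m))
      (twc_ab_evQ (𝒪 := 𝒪) r qv hqv m hm (of 𝒪 (twe_Delta p Q) δ)) = 1 := by
  rw [twc_ab_evQ, twc_ab_evm_of]
  exact twc_ab_map_phi _ _ _ _ _ (fun k => twc_ab_factor_y r (p ^ m) k) δ


/-- `ker c1` is `ψ(ker ev_1) Mb`. -/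
theorem twc_ab_hker (Bg : twe_Big L Th)
    (ψ : MonoidAlgebra 𝒪 (twe_Delta p Q × twe_Delta p Th) →ₐ[𝒪] Module.End 𝒪 Bg.Mb)
    (hψ1 : ∀ (η : twe_Delta p Th) (x : Bg.Mb),
      ψ (of 𝒪 (twe_Delta p Q × twe_Delta p Th) (1, η)) x =
        of 𝒪 (twe_Delta p Q × twe_Delta p Th) (1, η) • x) :
    LinearMap.ker Bg.c1 ≤ twc_sg_sub ψ
      (RingHom.ker (twe_chi_ev (G := twe_Delta p Q) (1 : twe_Delta p Th →* 𝒪ˣ))) := by
  rw [Bg.c1_ker, Submodule.span_le]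
  rintro _ ⟨δ, x, rfl⟩
  refine Submodule.subset_span ⟨of 𝒪 (twe_Delta p Q × twe_Delta p Th) (1, δ) - 1, ?_, x, ?_⟩
  · rw [RingHom.mem_ker, map_sub, map_one, twe_chi_ev_of', MonoidHom.one_apply, Units.val_one,
      one_smul, of_apply, ← one_def, sub_self]
  · rw [map_sub, map_one, LinearMap.sub_apply, hψ1, Module.End.one_apply]

/-- `twc_chiSub χ` is contained in `ψ(ker ev_χ) Mb`. -/
theorem twc_ab_chiSub_le (Bg : twe_Big L Th)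
    (ψ : MonoidAlgebra 𝒪 (twe_Delta p Q × twe_Delta p Th) →ₐ[𝒪] Module.End 𝒪 Bg.Mb)
    (hψ1 : ∀ (η : twe_Delta p Th) (x : Bg.Mb),
      ψ (of 𝒪 (twe_Delta p Q × twe_Delta p Th) (1, η)) x =
        of 𝒪 (twe_Delta p Q × twe_Delta p Th) (1, η) • x)
    (χ : twe_Delta p Th →* 𝒪ˣ) :
    twc_chiSub (G := twe_Delta p Q) (Mb := Bg.Mb) χ ≤ twc_sg_sub ψ
      (RingHom.ker (twe_chi_ev (G := twe_Delta p Q) χ)) := by
  rw [twc_chiSub, Submodule.span_le]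
  rintro _ ⟨δ, x, rfl⟩
  refine Submodule.subset_span ⟨twe_chi_gen χ δ, ?_, x, ?_⟩
  · rw [RingHom.mem_ker, twe_chi_ev_gen]
  · rw [twe_chi_gen, map_sub, LinearMap.sub_apply, hψ1, AlgHom.commutes,
      Module.algebraMap_end_apply]

/-- `c ∘ c1` does not see the `𝒪[Δ_Q × Δ_Th]`-structure `ψ`. -/
theorem twc_ab_haug (Bg : twe_Big L Th) (u : ∀ t : ℕ, t ∈ Q → Bg.T'')
    (hu2 : ∀ t ht (x : Bg.Mb), ∃ x' : Bg.Mb, (u t ht - 1) • x = Bg.diaQ t ht x' - x')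
    (ψ : MonoidAlgebra 𝒪 (twe_Delta p Q × twe_Delta p Th) →ₐ[𝒪] Module.End 𝒪 Bg.Mb)
    (hψu : ∀ t ht (x : Bg.Mb),
      ψ (of 𝒪 (twe_Delta p Q × twe_Delta p Th) (twe_gen p Q t ht, 1)) x = u t ht • x)
    (hψ1 : ∀ (η : twe_Delta p Th) (x : Bg.Mb),
      ψ (of 𝒪 (twe_Delta p Q × twe_Delta p Th) (1, η)) x =
        of 𝒪 (twe_Delta p Q × twe_Delta p Th) (1, η) • x)
    (g : twe_Delta p Q × twe_Delta p Th) (x : Bg.Mb) :
    L.c (Bg.c1 (ψ (of 𝒪 (twe_Delta p Q × twe_Delta p Th) g) x)) = L.c (Bg.c1 x) := by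
  -- the `Δ_Th`-direction
  have hη : ∀ (η : twe_Delta p Th) (x : Bg.Mb),
      Bg.c1 (ψ (of 𝒪 (twe_Delta p Q × twe_Delta p Th) (1, η)) x) = Bg.c1 x := by
    intro η x
    rw [hψ1, ← sub_eq_zero, ← map_sub, ← LinearMap.mem_ker, Bg.c1_ker]
    exact Submodule.subset_span ⟨η, x, rfl⟩
  -- the generators of the `Δ_Q`-direction
  have hgen : ∀ t ht (x : Bg.Mb),
      L.c (Bg.c1 (ψ (of 𝒪 (twe_Delta p Q × twe_Delta p Th) (twe_gen p Q t ht, 1)) x)) =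
        L.c (Bg.c1 x) := by
    intro t ht x
    obtain ⟨x', hx'⟩ := hu2 t ht x
    rw [hψu, ← sub_eq_zero, ← map_sub, ← map_sub, ← one_smul Bg.T'' x, smul_smul, mul_one,
      ← sub_smul, hx', map_sub]
    have h1 : Bg.c1 (Bg.diaQ t ht x') =
        of 𝒪 (twe_Delta p Q) (twe_gen p Q t ht) • Bg.c1 x' := Bg.c1_diamond _ x'
    rw [h1, ← LinearMap.mem_ker, L.c_ker]
    exact Submodule.subset_span ⟨_, _, rfl⟩
  -- the submonoid of good `δ`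
  let Z : Submonoid (twe_Delta p Q) :=
    { carrier := {δ | ∀ x : Bg.Mb,
        L.c (Bg.c1 (ψ (of 𝒪 (twe_Delta p Q × twe_Delta p Th) (δ, 1)) x)) = L.c (Bg.c1 x)}
      one_mem' := by
        intro x
        have : ((1 : twe_Delta p Q), (1 : twe_Delta p Th)) = 1 := rfl
        rw [this, map_one, map_one, Module.End.one_apply]
      mul_mem' := by
        intro δ δ' hδ hδ' x
        have : (δ * δ', (1 : twe_Delta p Th)) = (δ, 1) * (δ', 1) := by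
          rw [Prod.mk_mul_mk, mul_one]
        rw [this, map_mul, map_mul, Module.End.mul_apply, hδ, hδ'] }
  have hZ : ∀ δ : twe_Delta p Q, δ ∈ Z := by
    intro δ
    have h1 := twlg_prod_gen (fun t : ↥Q => twe_ord p (t : ℕ))
      ((twlg_expEquiv (fun t : ↥Q => twe_ord p (t : ℕ))).symm δ)
    rw [Equiv.apply_symm_apply] at h1
    rw [← h1]
    refine Submonoid.prod_mem _ fun t _ => Submonoid.pow_mem _ ?_ _
    intro x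
    exact hgen t.1 t.2 x
  obtain ⟨δ, η⟩ := g
  have h2 : ((δ, η) : twe_Delta p Q × twe_Delta p Th) = (δ, 1) * (1, η) := by
    rw [Prod.mk_mul_mk, mul_one, one_mul]
  rw [h2, map_mul, map_mul, Module.End.mul_apply, hZ δ, hη]


/-- **[Act] (b)**: the five clauses of `twc_Act_stmt` from the conclusion of [Act] (a) and the
surjectivity of `Bg.π1`. -/
theorem twc_ab_main (lam : 𝒪) (Bg : twe_Big L Th) (r : ℕ) (qv : Fin r → ℕ)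
    (hqv : ∀ i, qv i ∈ Q) (hinj : Function.Injective qv)
    (m : ℕ) (hm : ∀ i, p ^ m ∣ twe_ord p (qv i))
    (u : ∀ t : ℕ, t ∈ Q → Bg.T'')
    (hu2 : ∀ t ht (x : Bg.Mb), ∃ x' : Bg.Mb, (u t ht - 1) • x = Bg.diaQ t ht x' - x')
    (χ : twe_Delta p Th →* 𝒪ˣ) (hχ : ∀ δ, ((χ δ : 𝒪ˣ) : 𝒪) - 1 ∈ Ideal.span {lam})
    (hπ1 : Function.Surjective Bg.π1)
    (ψ : MonoidAlgebra 𝒪 (twe_Delta p Q × twe_Delta p Th) →ₐ[𝒪] Module.End 𝒪 Bg.Mb)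
    (hψu : ∀ t ht (x : Bg.Mb),
      ψ (of 𝒪 (twe_Delta p Q × twe_Delta p Th) (twe_gen p Q t ht, 1)) x = u t ht • x)
    (hψ1 : ∀ (η : twe_Delta p Th) (x : Bg.Mb),
      ψ (of 𝒪 (twe_Delta p Q × twe_Delta p Th) (1, η)) x =
        of 𝒪 (twe_Delta p Q × twe_Delta p Th) (1, η) • x)
    (hcomm : ∀ (a : MonoidAlgebra 𝒪 (twe_Delta p Q × twe_Delta p Th)) (x : Bg.T'') (y : Bg.Mb),
      ψ a (x • y) = x • ψ a y)
    (b : Fin B.d × Fin (2 ^ r) → Bg.Mb)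
    (hli : LinearIndependent 𝒪
      (fun kj : (twe_Delta p Q × twe_Delta p Th) × (Fin B.d × Fin (2 ^ r)) =>
        ψ (of 𝒪 (twe_Delta p Q × twe_Delta p Th) kj.1) (b kj.2)))
    (hspan : ⊤ ≤ Submodule.span 𝒪
      (Set.range fun kj : (twe_Delta p Q × twe_Delta p Th) × (Fin B.d × Fin (2 ^ r)) =>
        ψ (of 𝒪 (twe_Delta p Q × twe_Delta p Th) kj.1) (b kj.2)))
    (κ : Fin (2 ^ r) → Fin (2 ^ Q.card)) (hκ : Function.Injective κ)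
    (hb : ∀ (a : Fin B.d) (i : Fin (2 ^ r)),
      L.c (Bg.c1 (b (a, i))) = Pi.single (κ i) (Pi.single a 1)) :
    ∃ (act1 : L.T' →ₐ[𝒪] Matrix (Fin (B.d * 2 ^ r)) (Fin (B.d * 2 ^ r))
          (MvPowerSeries (Fin r) 𝒪 ⧸ twds_b 𝒪 r (p ^ m)))
      (actχ : Bg.T'' →ₐ[𝒪] Matrix (Fin (B.d * 2 ^ r)) (Fin (B.d * 2 ^ r))
          (MvPowerSeries (Fin r) 𝒪 ⧸ twds_b 𝒪 r (p ^ m))),
      (∀ x : Bg.T'', twd_MatCong
        (Ideal.span {Ideal.Quotient.mk (twds_b 𝒪 r (p ^ m))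
          (algebraMap 𝒪 (MvPowerSeries (Fin r) 𝒪) lam)}) (act1 (Bg.π1 x)) (actχ x)) ∧
      (∀ i, act1 (Bg.π1 (u (qv i) (hqv i))) = Matrix.scalar (Fin (B.d * 2 ^ r))
        (Ideal.Quotient.mk (twds_b 𝒪 r (p ^ m)) (1 + MvPowerSeries.X i))) ∧
      (∀ i, actχ (u (qv i) (hqv i)) = Matrix.scalar (Fin (B.d * 2 ^ r))
        (Ideal.Quotient.mk (twds_b 𝒪 r (p ^ m)) (1 + MvPowerSeries.X i))) ∧
      (∀ x : L.T', (act1 x).map (Ideal.Quotient.factor (twds_b_le_a r (p ^ m))) =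
        twc_j B r (L.π0 x)) ∧
      (∀ x : Bg.T'', (∀ y : Bg.Mb, x • y ∈ twc_chiSub (G := twe_Delta p Q) (Mb := Bg.Mb) χ) →
        actχ x = 0) := by
  haveI : Fintype (twe_Delta p Q) := Fintype.ofFinite _
  haveI : Fintype (twe_Delta p Th) := Fintype.ofFinite _
  obtain ⟨a1, aχ, h1, h2, h3, h4⟩ := twc_ab_core (R := MvPowerSeries (Fin r) 𝒪 ⧸ twds_b 𝒪 r (p ^ m))
    (R0 := MvPowerSeries (Fin r) 𝒪 ⧸ twds_a 𝒪 r)
    Bg.π1 hπ1 L.π0 Bg.c1 Bg.c1_hecke ψ hcomm (twc_ab_hker Bg ψ hψ1) b hli hspan B.j L.c L.c_hecke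
    (twc_ab_haug Bg u hu2 ψ hψu hψ1) κ hκ hb
    (twc_ab_evQ (𝒪 := 𝒪) r qv hqv m hm) (Ideal.Quotient.factor (twds_b_le_a r (p ^ m)))
    (fun c => rfl) (twc_ab_factor_evQ r qv hqv m hm) lam χ hχ
  let e : Fin B.d × Fin (2 ^ r) ≃ Fin (B.d * 2 ^ r) := finProdFinEquiv
  let re := Matrix.reindexAlgEquiv 𝒪 (MvPowerSeries (Fin r) 𝒪 ⧸ twds_b 𝒪 r (p ^ m)) e
  have hre : ∀ (X : Matrix (Fin B.d × Fin (2 ^ r)) (Fin B.d × Fin (2 ^ r))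
      (MvPowerSeries (Fin r) 𝒪 ⧸ twds_b 𝒪 r (p ^ m))) i j, re X i j = X (e.symm i) (e.symm j) := by
    intro X i j
    rfl
  have hsc : ∀ c : MvPowerSeries (Fin r) 𝒪 ⧸ twds_b 𝒪 r (p ^ m),
      re (Matrix.scalar (Fin B.d × Fin (2 ^ r)) c) = Matrix.scalar (Fin (B.d * 2 ^ r)) c := by
    intro c
    ext i j
    rw [hre, Matrix.scalar_apply, Matrix.scalar_apply, Matrix.diagonal_apply,
      Matrix.diagonal_apply]
    simp only [EmbeddingLike.apply_eq_iff_eq]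
  refine ⟨re.toAlgHom.comp a1, re.toAlgHom.comp aχ, ?_, ?_, ?_, ?_, ?_⟩
  · intro x i j
    show re (a1 (Bg.π1 x)) i j - re (aχ x) i j ∈ _
    rw [hre, hre]
    exact h1 x _ _
  · intro i
    show re (a1 (Bg.π1 (u (qv i) (hqv i)))) = _
    rw [(h2 (u (qv i) (hqv i)) (twe_gen p Q (qv i) (hqv i)) (hψu _ _)).1, hsc,
      twc_ab_evQ_gen r qv hqv hinj m hm i]
  · intro i
    show re (aχ (u (qv i) (hqv i))) = _
    rw [(h2 (u (qv i) (hqv i)) (twe_gen p Q (qv i) (hqv i)) (hψu _ _)).2, hsc,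
      twc_ab_evQ_gen r qv hqv hinj m hm i]
  · intro x
    ext i j
    obtain ⟨⟨a, i0⟩, rfl⟩ := e.surjective i
    obtain ⟨⟨a', i0'⟩, rfl⟩ := e.surjective j
    rw [Matrix.map_apply]
    show Ideal.Quotient.factor (twds_b_le_a r (p ^ m)) (re (a1 x) (e (a, i0)) (e (a', i0'))) = _
    rw [hre, Equiv.symm_apply_apply, Equiv.symm_apply_apply, h3, twc_j_apply]
  · intro x hx
    show re (aχ x) = 0
    rw [h4 x (fun y => twc_ab_chiSub_le Bg ψ hψ1 χ (hx y)), map_zero]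


end

section stmts

/-- the conclusion of **[Act] (a)** [Sigma/Mix], as a `Prop`: the mixed structure `ψ` (Galois
diamonds at `Q`, Hecke diamonds at `Th`) on `Bg.Mb`, with a basis adapted to the coinvariants. -/
def twc_ab_Mix_stmt : Prop :=
  ∀ (𝒪 : Type) [CommRing 𝒪] [IsDomain 𝒪] [IsDiscreteValuationRing 𝒪]
    [IsAdicComplete (maximalIdeal 𝒪) 𝒪] (p : ℕ) [Fact p.Prime],
    (p : 𝒪) ∈ maximalIdeal 𝒪 →
  ∀ (N : ℕ) [NeZero N] (S : Finset ℕ) (θ : heckeAlgebra N 2 (↑S : Set ℕ) →+* ResidueField 𝒪)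
    (B : twe_Base 𝒪 N S θ) (Q : Finset ℕ) [NeZero (twe_Nbal N Q ∅)] (L : twe_Level B p Q)
    (Th : Finset ℕ) [NeZero (twe_Nbal N Q Th)] (Bg : twe_Big L Th)
    (r : ℕ) (qv : Fin r → ℕ) (_hqv : ∀ i, qv i ∈ Q),
    Function.Injective qv → (∀ t ∈ Q, ∃ i, qv i = t) →
  ∀ (u : ∀ t : ℕ, t ∈ Q → Bg.T''),
    (∀ t ht (x : Bg.Mb), u t ht ^ twe_ord p t • x = x) →
    (∀ t ht (x : Bg.Mb), ∃ x' : Bg.Mb, (u t ht - 1) • x = Bg.diaQ t ht x' - x') →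
    (∀ t ht (x : Bg.Mb), ∃ x' : Bg.Mb, Bg.diaQ t ht x - x = (u t ht - 1) • x') →
    ∃ (ψ : MonoidAlgebra 𝒪 (twe_Delta p Q × twe_Delta p Th) →ₐ[𝒪] Module.End 𝒪 Bg.Mb)
      (b : Fin B.d × Fin (2 ^ r) → Bg.Mb) (κ : Fin (2 ^ r) → Fin (2 ^ Q.card)),
      (∀ t ht (x : Bg.Mb),
        ψ (of 𝒪 (twe_Delta p Q × twe_Delta p Th) (twe_gen p Q t ht, 1)) x = u t ht • x) ∧
      (∀ (η : twe_Delta p Th) (x : Bg.Mb),
        ψ (of 𝒪 (twe_Delta p Q × twe_Delta p Th) (1, η)) x =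
          of 𝒪 (twe_Delta p Q × twe_Delta p Th) (1, η) • x) ∧
      (∀ (a : MonoidAlgebra 𝒪 (twe_Delta p Q × twe_Delta p Th)) (x : Bg.T'') (y : Bg.Mb),
        ψ a (x • y) = x • ψ a y) ∧
      LinearIndependent 𝒪
        (fun kj : (twe_Delta p Q × twe_Delta p Th) × (Fin B.d × Fin (2 ^ r)) =>
          ψ (of 𝒪 (twe_Delta p Q × twe_Delta p Th) kj.1) (b kj.2)) ∧
      (⊤ ≤ Submodule.span 𝒪
        (Set.range fun kj : (twe_Delta p Q × twe_Delta p Th) × (Fin B.d × Fin (2 ^ r)) =>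
          ψ (of 𝒪 (twe_Delta p Q × twe_Delta p Th) kj.1) (b kj.2))) ∧
      Function.Injective κ ∧
      (∀ (a : Fin B.d) (i : Fin (2 ^ r)),
        L.c (Bg.c1 (b (a, i))) = Pi.single (κ i) (Pi.single a 1))

/-- `twc_Act_stmt` with ONE extra hypothesis: `Bg.π1` is surjective. -/
def twc_ab_Act_stmt : Prop :=
  ∀ (𝒪 : Type) [CommRing 𝒪] [IsDomain 𝒪] [IsDiscreteValuationRing 𝒪]
    [IsAdicComplete (maximalIdeal 𝒪) 𝒪] (lam : 𝒪) (p : ℕ) [Fact p.Prime],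
    (p : 𝒪) ∈ maximalIdeal 𝒪 →
  ∀ (N : ℕ) [NeZero N] (S : Finset ℕ) (θ : heckeAlgebra N 2 (↑S : Set ℕ) →+* ResidueField 𝒪)
    (B : twe_Base 𝒪 N S θ) (Q : Finset ℕ) [NeZero (twe_Nbal N Q ∅)] (L : twe_Level B p Q)
    (Th : Finset ℕ) [NeZero (twe_Nbal N Q Th)] (Bg : twe_Big L Th),
    Function.Surjective Bg.π1 →
  ∀ (r : ℕ) (qv : Fin r → ℕ) (hqv : ∀ i, qv i ∈ Q),
    Function.Injective qv → (∀ t ∈ Q, ∃ i, qv i = t) →
  ∀ (m : ℕ), (∀ i, p ^ m ∣ twe_ord p (qv i)) →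
  ∀ (u : ∀ t : ℕ, t ∈ Q → Bg.T''),
    (∀ t ht (x : Bg.Mb), u t ht ^ twe_ord p t • x = x) →
    (∀ t ht (x : Bg.Mb), ∃ x' : Bg.Mb, (u t ht - 1) • x = Bg.diaQ t ht x' - x') →
    (∀ t ht (x : Bg.Mb), ∃ x' : Bg.Mb, Bg.diaQ t ht x - x = (u t ht - 1) • x') →
  ∀ (χ : twe_Delta p Th →* 𝒪ˣ), (∀ δ, ((χ δ : 𝒪ˣ) : 𝒪) - 1 ∈ Ideal.span {lam}) →
    ∃ (act1 : L.T' →ₐ[𝒪] Matrix (Fin (B.d * 2 ^ r)) (Fin (B.d * 2 ^ r))
          (MvPowerSeries (Fin r) 𝒪 ⧸ twds_b 𝒪 r (p ^ m)))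
      (actχ : Bg.T'' →ₐ[𝒪] Matrix (Fin (B.d * 2 ^ r)) (Fin (B.d * 2 ^ r))
          (MvPowerSeries (Fin r) 𝒪 ⧸ twds_b 𝒪 r (p ^ m))),
      (∀ x : Bg.T'', twd_MatCong
        (Ideal.span {Ideal.Quotient.mk (twds_b 𝒪 r (p ^ m))
          (algebraMap 𝒪 (MvPowerSeries (Fin r) 𝒪) lam)}) (act1 (Bg.π1 x)) (actχ x)) ∧
      (∀ i, act1 (Bg.π1 (u (qv i) (hqv i))) = Matrix.scalar (Fin (B.d * 2 ^ r))
        (Ideal.Quotient.mk (twds_b 𝒪 r (p ^ m)) (1 + MvPowerSeries.X i))) ∧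
      (∀ i, actχ (u (qv i) (hqv i)) = Matrix.scalar (Fin (B.d * 2 ^ r))
        (Ideal.Quotient.mk (twds_b 𝒪 r (p ^ m)) (1 + MvPowerSeries.X i))) ∧
      (∀ x : L.T', (act1 x).map (Ideal.Quotient.factor (twds_b_le_a r (p ^ m))) =
        twc_j B r (L.π0 x)) ∧
      (∀ x : Bg.T'', (∀ y : Bg.Mb, x • y ∈ twc_chiSub (G := twe_Delta p Q) (Mb := Bg.Mb) χ) →
        actχ x = 0)

/-- **[Act] = (b) ∘ (a)**. -/
theorem twc_ab_act_of_mix (h : twc_ab_Mix_stmt) : twc_ab_Act_stmt := by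
  intro 𝒪 _ _ _ _ lam p _ hp N _ S θ B Q _ L Th _ Bg hπ1 r qv hqv hinj hsurj m hm u hu1 hu2 hu3 χ hχ
  obtain ⟨ψ, b, κ, hψu, hψ1, hcomm, hli, hspan, hκ, hb⟩ :=
    h 𝒪 p hp N S θ B Q L Th Bg r qv hqv hinj hsurj u hu1 hu2 hu3
  exact twc_ab_main lam Bg r qv hqv hinj m hm u hu2 χ hχ hπ1 ψ hψu hψ1 hcomm b hli hspan κ hκ hb

/-- `twc_Act_stmt` itself, for families of data where `π1` is known to be surjective. -/
theorem twc_ab_act_stmt_of (h : twc_ab_Mix_stmt)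
    (hπ1 : ∀ (𝒪 : Type) [CommRing 𝒪] [IsDomain 𝒪] [IsDiscreteValuationRing 𝒪]
      [IsAdicComplete (maximalIdeal 𝒪) 𝒪] (p : ℕ) (N : ℕ) [NeZero N] (S : Finset ℕ)
      (θ : heckeAlgebra N 2 (↑S : Set ℕ) →+* ResidueField 𝒪)
      (B : twe_Base 𝒪 N S θ) (Q : Finset ℕ) [NeZero (twe_Nbal N Q ∅)] (L : twe_Level B p Q)
      (Th : Finset ℕ) [NeZero (twe_Nbal N Q Th)] (Bg : twe_Big L Th),
      Function.Surjective Bg.π1) : twc_Act_stmt := by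
  intro 𝒪 _ _ _ _ lam p _ hp N _ S θ B Q _ L Th _ Bg r qv hqv hinj hsurj m hm u hu1 hu2 hu3 χ hχ
  exact twc_ab_act_of_mix h 𝒪 lam p hp N S θ B Q L Th Bg (hπ1 𝒪 p N S θ B Q L Th Bg) r qv hqv
    hinj hsurj m hm u hu1 hu2 hu3 χ hχ

end stmts

section
end

end

end Fermat.Agent.TW
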