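import Fermat.Agent.TW.Def.SigmaMix
import Fermat.Agent.TW.Def.SigmaActB

/-!
# Project ONE MACHINE, C/Sigma: [Act] (a) in the shape consumed by [Act] (b) (helper18)

`twc_sm_ab_mix : twc_ab_Mix_stmt` (helper28's packaged conclusion of (a), `TW/Def/SigmaActB.lean`),
from `twc_sm_big_r` (`TW/Def/SigmaMix.lean`); hence `twc_sm_ab_act : twc_ab_Act_stmt`
(`twc_Act_stmt` for systems with `Bg.π1` surjective).
-/

set_option autoImplicit false

open CuspForm IsLocalRing

namespace Fermat.Agent.TW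

/-- a set enumerated injectively by `Fin r` has `r` elements. -/
theorem twc_sm_card_of_enum {Q : Finset ℕ} {r : ℕ} (qv : Fin r → ℕ) (hqv : ∀ i, qv i ∈ Q)
    (hinj : Function.Injective qv) (hsurj : ∀ t ∈ Q, ∃ i, qv i = t) : Q.card = r := by
  have h : Q = Finset.univ.image qv := by
    ext t
    simp only [Finset.mem_image, Finset.mem_univ, true_and]
    constructor
    · intro ht
      exact hsurj t ht
    · rintro ⟨i, rfl⟩
      exact hqv i
  rw [h, Finset.card_image_of_injective _ hinj, Finset.card_univ, Fintype.card_fin]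

/-- **[Act] (a)**, packaged. -/
theorem twc_sm_ab_mix : twc_ab_Mix_stmt := by
  intro 𝒪 _ _ _ _ p _ hp N _ S θ B Q _ L Th _ Bg r qv hqv hinj hsurj u hu1 _ hu3
  have hr : Q.card = r := twc_sm_card_of_enum qv hqv hinj hsurj
  obtain ⟨ψ, b, h1, h2, h3, -, h5, -, h7, h8⟩ := twc_sm_big_r hp Bg u hu1 hu3 r hr
  exact ⟨ψ, b, Fin.cast (by rw [hr]), h1, h2, h3, h7, h8, Fin.cast_injective _, h5⟩

/-- **[Act]** for systems with `Bg.π1` surjective. -/
theorem twc_sm_ab_act : twc_ab_Act_stmt := twc_ab_act_of_mix twc_sm_ab_mix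

end Fermat.Agent.TW
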