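import Mathlib
import Fermat.Agent.S53.FramedResidual
import Fermat.Agent.S53.Burnside
import Fermat.Agent.S53.SpanTransport
import Fermat.Agent.FF.Car.Rigid
import Fermat.Agent.S56.Cheb.Exists

/-!
# Project TW (S43), cell C/HPair, Galois part (prefix `twc_hp_`)

* `twc_hp_charpoly_all` (**Chebotarev**): two residual representations whose characteristic
  polynomials agree at the Frobenius elements outside a finite set `S` have the same
  characteristic polynomials everywhere.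
* `twc_hp_isEquiv_of_charpoly` (**Brauer–Nesbitt, isomorphism form, dimension 2**): an absolutely
  irreducible residual representation is determined up to equivalence by its characteristic
  polynomials.
-/

set_option autoImplicit false
set_option linter.unusedSectionVars false
set_option linter.style.haveILetI false

open Polynomial
open Fermat.Agent.S53 Fermat.Agent.S56

namespace Fermat.Agent.TW

noncomputable section

local notation "GQ" => (AlgebraicClosure ℚ ≃ₐ[ℚ] AlgebraicClosure ℚ)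
local notation "Qbar" => AlgebraicClosure ℚ

/-- **Chebotarev**: agreement of the characteristic polynomials at the Frobenius elements
outside `S` implies agreement everywhere. -/
theorem twc_hp_charpoly_all {k₁ k₂ : Type} [Field k₁] [Field k₂] (j : k₁ →+* k₂)
    (ρ₁ : ResidualGaloisRep k₁) (ρ₂ : ResidualGaloisRep k₂) (S : Finset ℕ)
    (h : ∀ ℓ : ℕ, ℓ.Prime → ℓ ∉ S → ∀ A : ValuationSubring Qbar, A.LiesOverPrime ℓ →
      ∀ τ : GQ, A.IsFrobeniusAt τ ℓ →
        LinearMap.charpoly (ρ₂.ρ τ) = (LinearMap.charpoly (ρ₁.ρ τ)).map j) (σ : GQ) :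
    LinearMap.charpoly (ρ₂.ρ σ) = (LinearMap.charpoly (ρ₁.ρ σ)).map j := by
  obtain ⟨L₁, hL₁, h₁⟩ := ρ₁.factorsThroughFiniteLevel
  obtain ⟨L₂, hL₂, h₂⟩ := ρ₂.factorsThroughFiniteLevel
  haveI := hL₁
  haveI := hL₂
  have hL : FiniteDimensional ℚ ↥(L₁ ⊔ L₂) := IntermediateField.finiteDimensional_sup L₁ L₂
  obtain ⟨ℓ, A, τ, hℓ, hℓS, hA, hτ, hτσ⟩ := s56c_exists (L₁ ⊔ L₂) hL S σ
  have hfix : ∀ x ∈ L₁ ⊔ L₂, (σ⁻¹ * τ) x = x := by
    intro x hx
    rw [AlgEquiv.mul_apply, hτσ x hx]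
    exact σ.symm_apply_apply x
  have e₁ : ρ₁.ρ τ = ρ₁.ρ σ := by
    have h3 := h₁ (σ⁻¹ * τ) fun x hx => hfix x (le_sup_left (a := L₁) (b := L₂) hx)
    have h4 : ρ₁.ρ τ = ρ₁.ρ σ * ρ₁.ρ (σ⁻¹ * τ) := by
      rw [← map_mul, mul_inv_cancel_left]
    rw [h4, h3, mul_one]
  have e₂ : ρ₂.ρ τ = ρ₂.ρ σ := by
    have h3 := h₂ (σ⁻¹ * τ) fun x hx => hfix x (le_sup_right (a := L₁) (b := L₂) hx)
    have h4 : ρ₂.ρ τ = ρ₂.ρ σ * ρ₂.ρ (σ⁻¹ * τ) := by
      rw [← map_mul, mul_inv_cancel_left]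
    rw [h4, h3, mul_one]
  rw [← e₁, ← e₂]
  exact h ℓ hℓ hℓS A hA τ hτ

section bn

variable {k : Type} [Field k]

/-- the characteristic polynomial is invariant under equivalence. -/
theorem twc_hp_charpoly_of_equiv {ρ₁ ρ₂ : ResidualGaloisRep k}
    (e : ResidualGaloisRep.Equiv ρ₁ ρ₂) (σ : GQ) :
    LinearMap.charpoly (ρ₂.ρ σ) = LinearMap.charpoly (ρ₁.ρ σ) := by
  have hconj : e.toLinearEquiv.conj (ρ₁.ρ σ) = ρ₂.ρ σ := by
    ext x
    rw [LinearEquiv.conj_apply, LinearMap.comp_apply, LinearMap.comp_apply, LinearEquiv.coe_coe,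
      LinearEquiv.coe_coe, e.map_apply, LinearEquiv.apply_symm_apply]
  rw [← hconj, LinearEquiv.charpoly_conj]

/-- the characteristic polynomial of a framed residual representation. -/
theorem twc_hp_charpoly_framed (rb : FramedResidual k) (σ : GQ) :
    LinearMap.charpoly (rb.toResidualGaloisRep.ρ σ) = (rb σ).charpoly :=
  Matrix.charpoly_toLin' (rb σ)

/-- the values of a framed residual representation span `M₂(k)` if those of the attached
`ResidualGaloisRep` span `End`. -/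
theorem twc_hp_span_framed (rb : FramedResidual k)
    (h : Submodule.span k (Set.range rb.toResidualGaloisRep.ρ) =
      (⊤ : Submodule k (Module.End k rb.toResidualGaloisRep.V))) :
    Submodule.span k (Set.range rb.toMonoidHom) = ⊤ := by
  set f : GQ → ((Fin 2 → k) →ₗ[k] (Fin 2 → k)) := fun σ => Matrix.toLin' (rb.toMonoidHom σ)
    with hf
  have h' : Submodule.span k (Set.range f) =
      (⊤ : Submodule k ((Fin 2 → k) →ₗ[k] (Fin 2 → k))) := h
  have hrange : Set.range rb.toMonoidHom =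
      (LinearMap.toMatrix' : ((Fin 2 → k) →ₗ[k] (Fin 2 → k)) ≃ₗ[k] Matrix (Fin 2) (Fin 2) k) ''
        Set.range f := by
    ext M
    constructor
    · rintro ⟨σ, rfl⟩
      refine ⟨f σ, ⟨σ, rfl⟩, ?_⟩
      rw [hf]
      exact LinearMap.toMatrix'_toLin' _
    · rintro ⟨_, ⟨σ, rfl⟩, rfl⟩
      refine ⟨σ, ?_⟩
      rw [hf]
      exact (LinearMap.toMatrix'_toLin' _).symm
  rw [hrange, ← LinearEquiv.coe_coe, ← Submodule.map_span, h', Submodule.map_top,
    LinearEquiv.range]

/-- **Brauer–Nesbitt, isomorphism form**: an absolutely irreducible 2-dimensional residual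
representation is determined up to equivalence by its characteristic polynomials. -/
theorem twc_hp_isEquiv_of_charpoly (ρ₁ ρ₂ : ResidualGaloisRep k)
    (habs : ρ₁.IsAbsolutelyIrreducible)
    (h : ∀ σ : GQ, LinearMap.charpoly (ρ₂.ρ σ) = LinearMap.charpoly (ρ₁.ρ σ)) :
    ρ₂.IsEquiv ρ₁ := by
  obtain ⟨r₁, ⟨e₁⟩⟩ := exists_framedResidual ρ₁
  obtain ⟨r₂, ⟨e₂⟩⟩ := exists_framedResidual ρ₂
  have hcp : ∀ σ, (r₂ σ).charpoly = (r₁ σ).charpoly := by
    intro σ
    rw [← twc_hp_charpoly_framed, ← twc_hp_charpoly_framed, twc_hp_charpoly_of_equiv e₂,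
      twc_hp_charpoly_of_equiv e₁, h σ]
  have htr : ∀ σ, (r₂.toMonoidHom σ).trace = (r₁.toMonoidHom σ).trace := by
    intro σ
    have h1 := hcp σ
    rw [Matrix.trace_eq_neg_charpoly_coeff, Matrix.trace_eq_neg_charpoly_coeff]
    exact congrArg (fun q => -q.coeff (Fintype.card (Fin 2) - 1)) h1
  have hdet : ∀ σ, (r₂.toMonoidHom σ).det = (r₁.toMonoidHom σ).det := by
    intro σ
    have h1 := hcp σ
    rw [Matrix.det_eq_sign_charpoly_coeff, Matrix.det_eq_sign_charpoly_coeff]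
    exact congrArg (fun q => (-1) ^ Fintype.card (Fin 2) * q.coeff 0) h1
  have hspan : Submodule.span k (Set.range r₁.toMonoidHom) = ⊤ :=
    twc_hp_span_framed r₁
      (residual_span_eq_top_of_equiv e₁ (residual_span_range_eq_top ρ₁ habs))
  obtain ⟨Q, hQ, hQc⟩ := Fermat.Agent.FF.ffc_rigid_of_trace_det r₁.toMonoidHom r₂.toMonoidHom
    hspan htr hdet
  have hQu : IsUnit Q := (Matrix.isUnit_iff_isUnit_det Q).2 hQ
  have hconj : r₁.toResidualGaloisRep.IsEquiv r₂.toResidualGaloisRep := by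
    rw [FramedResidual.isEquiv_iff_conj]
    exact ⟨hQu.unit, fun σ => (hQc σ).symm⟩
  obtain ⟨e₃⟩ := hconj
  exact ⟨e₂.trans (e₃.symm.trans e₁.symm)⟩

end bn

end

end Fermat.Agent.TW
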