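import Mathlib
import Fermat.Prelude.Def_CuspForm_HeckeGaloisRepDatum
import Fermat.Agent.TW.Def.Seams
import Fermat.Agent.TW.Def.HPairBN
import Fermat.Agent.TW.Top.CoreSeam
import Fermat.Agent.S53.SliceProps
import Fermat.Agent.S56.LocD.Bridge
import Fermat.Agent.JT3.ES.FrobExists

/-!
# Project TW (S43), cell C/HPair: a Hecke–Galois datum is a Hecke pair (prefix `twc_hp_`)

The [E] → [C] glue.  Input: `H : HeckeGaloisRepDatum N ↑S 𝒪 θ T` (Prelude), `S ⊇ {ℓ ∣ N}`, a framed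
residual representation `rb` over `k = ResidueField 𝒪` with `twt_Compat θ rb.toResidualGaloisRep`.

* `twc_hp_residual` : `H.ρ.residual ≅ ρ̄ ⊗ k_T` (Chebotarev + Brauer–Nesbitt).
* `twc_hp_exists_framed` : a framing `r` of `H.ρ` lifting `rb`.
* `twc_hp_trace_frob` : `tr r(Frob_ℓ) = H.π T_ℓ`.
* `twc_hp_gen` : `𝒪`-algebra maps out of `T` are determined by the traces of `r`.
* `twc_hp_ofFramed` : the Hecke pair `(T, r)`; `twc_hp_main`.
* `twc_hp_push` : push-forward of a Hecke pair along a surjective `𝒪`-algebra map `T ↠ T̄`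
  (`T̄ =` the image of `T` in `End(M)`).
-/

set_option autoImplicit false
set_option linter.unusedSectionVars false
set_option linter.style.haveILetI false

open Polynomial IsLocalRing ExtCitation CuspForm
open Fermat.Agent.S53 Fermat.Agent.S56

namespace Fermat.Agent.TW

noncomputable section

local notation "GQ" => (AlgebraicClosure ℚ ≃ₐ[ℚ] AlgebraicClosure ℚ)
local notation "Qbar" => AlgebraicClosure ℚ

section datum

variable {𝒪 : Type} [CommRing 𝒪] [IsDomain 𝒪] [IsDiscreteValuationRing 𝒪]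
  [IsAdicComplete (maximalIdeal 𝒪) 𝒪]
  {N : ℕ} [NeZero N] {S : Finset ℕ}
  {θ : heckeAlgebra N 2 (↑S : Set ℕ) →+* ResidueField 𝒪}
  {T : Type} [CommRing T] [IsLocalRing T] [IsNoetherianRing T]
  [IsAdicComplete (maximalIdeal T) T] [Algebra 𝒪 T] [IsLocalHom (algebraMap 𝒪 T)]
  [Module.Finite 𝒪 T] [Module.Free 𝒪 T]

/-- the characteristic polynomial of the residual representation of `H.ρ` at a Frobenius. -/
theorem twc_hp_residual_charpoly (H : HeckeGaloisRepDatum N (↑S : Set ℕ) 𝒪 θ T)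
    (ℓ : ℕ) (hℓ : ℓ.Prime) (hℓN : ¬ ℓ ∣ N) (hℓS : ℓ ∉ (↑S : Set ℕ))
    (A : ValuationSubring Qbar) (hA : A.LiesOverPrime ℓ) (τ : GQ) (hτ : A.IsFrobeniusAt τ ℓ) :
    LinearMap.charpoly (H.ρ.residual.ρ τ) =
      X ^ 2 - C (ResidueField.map (algebraMap 𝒪 T) (θ (heckeAlgebra.T hℓ hℓN hℓS))) * X +
        C ((ℓ : ResidueField T)) := by
  change LinearMap.charpoly ((H.ρ.ρ τ).baseChange (ResidueField T)) = _
  rw [LinearMap.charpoly_baseChange, H.charpoly_frob ℓ hℓ hℓN hℓS A hA τ hτ]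
  simp only [Polynomial.map_add, Polynomial.map_sub, Polynomial.map_mul, Polynomial.map_pow,
    Polynomial.map_X, Polynomial.map_C, map_natCast, Polynomial.map_natCast]
  rw [ResidueField.algebraMap_eq, H.residue_π]

/-- the characteristic polynomial of `ρ̄ ⊗ k_T` at a Frobenius. -/
theorem twc_hp_bc_charpoly {k k' : Type} [Field k] [Field k'] (ι : k →+* k')
    (ρbar : ResidualGaloisRep k) (σ : GQ) :
    LinearMap.charpoly ((ρbar.baseChangeAlong ι).ρ σ) =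
      (LinearMap.charpoly (ρbar.ρ σ)).map ι := by
  letI : Algebra k k' := ι.toAlgebra
  change LinearMap.charpoly ((ρbar.ρ σ).baseChange k') = _
  rw [LinearMap.charpoly_baseChange]
  rfl

/-- **the residual representation of a Hecke–Galois datum is `ρ̄`**. -/
theorem twc_hp_residual (H : HeckeGaloisRepDatum N (↑S : Set ℕ) 𝒪 θ T)
    (hNS : ∀ ℓ : ℕ, ℓ.Prime → ℓ ∣ N → ℓ ∈ S)
    (ρbar : ResidualGaloisRep (ResidueField 𝒪)) (hc : twt_Compat θ ρbar) :
    H.ρ.residual.IsEquiv (ρbar.baseChangeAlong (ResidueField.map (algebraMap 𝒪 T))) := by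
  set ι := ResidueField.map (algebraMap 𝒪 T) with hι
  have key : ∀ σ : GQ, LinearMap.charpoly ((ρbar.baseChangeAlong ι).ρ σ) =
      (LinearMap.charpoly (H.ρ.residual.ρ σ)).map (RingHom.id _) := by
    refine twc_hp_charpoly_all (RingHom.id _) H.ρ.residual (ρbar.baseChangeAlong ι) S ?_
    intro ℓ hℓ hℓS A hA τ hτ
    have hℓN : ¬ ℓ ∣ N := fun h => hℓS (hNS ℓ hℓ h)
    have hℓS' : ℓ ∉ (↑S : Set ℕ) := fun h => hℓS (Finset.mem_coe.mp h)
    rw [Polynomial.map_id, twc_hp_residual_charpoly H ℓ hℓ hℓN hℓS' A hA τ hτ,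
      twc_hp_bc_charpoly, hc ℓ hℓ hℓN hℓS' A hA τ hτ]
    simp only [Polynomial.map_add, Polynomial.map_sub, Polynomial.map_mul, Polynomial.map_pow,
      Polynomial.map_X, Polynomial.map_C, map_natCast, Polynomial.map_natCast]
    rfl
  obtain ⟨e⟩ := twc_hp_isEquiv_of_charpoly H.ρ.residual (ρbar.baseChangeAlong ι)
    H.residual_absIrr (fun σ => by rw [key σ, Polynomial.map_id])
  exact ⟨e.symm⟩

/-- **a framing of `H.ρ` lifting `rb`**. -/
theorem twc_hp_exists_framed (H : HeckeGaloisRepDatum N (↑S : Set ℕ) 𝒪 θ T)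
    (hNS : ∀ ℓ : ℕ, ℓ.Prime → ℓ ∣ N → ℓ ∈ S)
    (rb : FramedResidual (ResidueField 𝒪)) (hc : twt_Compat θ rb.toResidualGaloisRep) :
    ∃ r : FramedRep T, H.ρ.IsEquiv r.toGaloisRepAdic ∧
      r.IsLiftOf rb (ResidueField.map (algebraMap 𝒪 T)) :=
  exists_framedLift H.ρ (ρbar := rb.toResidualGaloisRep)
    ⟨ResidualGaloisRep.Equiv.refl _⟩ _ (twc_hp_residual H hNS _ hc)

/-- the characteristic polynomial of a framing of `ρ`. -/
theorem twc_hp_charpoly_framedRep {A : Type} [CommRing A] [IsLocalRing A] (ρ : GaloisRepAdic A)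
    (r : FramedRep A) (hr : ρ.IsEquiv r.toGaloisRepAdic) (σ : GQ) :
    (r σ).charpoly = LinearMap.charpoly (ρ.ρ σ) := by
  obtain ⟨e⟩ := hr
  have hconj : e.toLinearEquiv.conj (ρ.ρ σ) = r.toGaloisRepAdic.ρ σ := by
    ext1 x
    rw [LinearEquiv.conj_apply, LinearMap.comp_apply, LinearMap.comp_apply, LinearEquiv.coe_coe,
      LinearEquiv.coe_coe, e.map_apply, LinearEquiv.apply_symm_apply]
  have h1 : LinearMap.charpoly (r.toGaloisRepAdic.ρ σ) = (r σ).charpoly :=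
    Matrix.charpoly_toLin' (r σ)
  rw [← h1, ← hconj, LinearEquiv.charpoly_conj]

/-- **`tr r(Frob_ℓ) = T_ℓ`**. -/
theorem twc_hp_trace_frob (H : HeckeGaloisRepDatum N (↑S : Set ℕ) 𝒪 θ T)
    (r : FramedRep T) (hr : H.ρ.IsEquiv r.toGaloisRepAdic)
    (ℓ : ℕ) (hℓ : ℓ.Prime) (hℓN : ¬ ℓ ∣ N) (hℓS : ℓ ∉ (↑S : Set ℕ))
    (A : ValuationSubring Qbar) (hA : A.LiesOverPrime ℓ) (τ : GQ) (hτ : A.IsFrobeniusAt τ ℓ) :
    (r τ).trace = H.π (heckeAlgebra.T hℓ hℓN hℓS) := by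
  have h1 := twc_hp_charpoly_framedRep H.ρ r hr τ
  rw [H.charpoly_frob ℓ hℓ hℓN hℓS A hA τ hτ] at h1
  rw [Matrix.trace_eq_neg_charpoly_coeff, h1]
  simp only [Fintype.card_fin, coeff_add, coeff_sub, coeff_X_pow, coeff_C_mul, coeff_C]
  simp

/-- `T` is generated by the traces of `r`: algebra maps out of `T` agreeing on all traces are
equal. -/
theorem twc_hp_gen (H : HeckeGaloisRepDatum N (↑S : Set ℕ) 𝒪 θ T)
    (hNS : ∀ ℓ : ℕ, ℓ.Prime → ℓ ∣ N → ℓ ∈ S)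
    (r : FramedRep T) (hr : H.ρ.IsEquiv r.toGaloisRepAdic)
    {B : Type*} [CommRing B] [Algebra 𝒪 B] (φ φ' : T →ₐ[𝒪] B)
    (h : ∀ σ : GQ, φ (Matrix.trace (r σ)) = φ' (Matrix.trace (r σ))) : φ = φ' := by
  set E : Subalgebra 𝒪 T := AlgHom.equalizer φ φ' with hE
  have hπ : ∀ (x : Module.End ℂ (CuspForm (CongruenceSubgroup.Gamma0 N) 2))
      (hx : x ∈ heckeAlgebra N 2 (↑S : Set ℕ)), H.π ⟨x, hx⟩ ∈ E := by
    intro x hx
    refine Algebra.adjoin_induction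
      (p := fun x hx => H.π ⟨x, hx⟩ ∈ E) ?_ ?_ ?_ ?_ hx
    · rintro y (⟨ℓ, hℓ, hℓN, hℓS, rfl⟩ | ⟨q, hqN, hq, hqS, rfl⟩)
      · obtain ⟨τ, hτ⟩ := Fermat.Agent.JT3.fex_exists_isFrobeniusAt hℓ
          (primeLocalPlace ⟨ℓ, hℓ⟩) (s56ld_liesOver ⟨ℓ, hℓ⟩)
        have h1 := twc_hp_trace_frob H r hr ℓ hℓ hℓN hℓS _ (s56ld_liesOver ⟨ℓ, hℓ⟩) τ hτ
        have h2 : (⟨heckeTLin 2 hℓ hℓN, Algebra.subset_adjoin (Or.inl ⟨ℓ, hℓ, hℓN, hℓS, rfl⟩)⟩ :
            heckeAlgebra N 2 (↑S : Set ℕ)) = heckeAlgebra.T hℓ hℓN hℓS := rfl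
        rw [h2, ← h1]
        exact h τ
      · exact absurd (Finset.mem_coe.2 (hNS q hq hqN)) hqS
    · intro n
      have h2 : (⟨algebraMap ℤ _ n, Subalgebra.algebraMap_mem _ n⟩ :
          heckeAlgebra N 2 (↑S : Set ℕ)) = ((n : ℤ) : heckeAlgebra N 2 (↑S : Set ℕ)) := by
        apply Subtype.ext
        simp
      rw [h2, map_intCast]
      exact Subalgebra.intCast_mem E n
    · intro x y hx hy hxE hyE
      have h2 : (⟨x + y, Subalgebra.add_mem _ hx hy⟩ : heckeAlgebra N 2 (↑S : Set ℕ)) =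
          ⟨x, hx⟩ + ⟨y, hy⟩ := rfl
      rw [h2, map_add]
      exact Subalgebra.add_mem E hxE hyE
    · intro x y hx hy hxE hyE
      have h2 : (⟨x * y, Subalgebra.mul_mem _ hx hy⟩ : heckeAlgebra N 2 (↑S : Set ℕ)) =
          ⟨x, hx⟩ * ⟨y, hy⟩ := rfl
      rw [h2, map_mul]
      exact Subalgebra.mul_mem E hxE hyE
  have hle : Algebra.adjoin 𝒪 (Set.range H.π) ≤ E := by
    apply Algebra.adjoin_le
    rintro _ ⟨x, rfl⟩
    exact hπ x.1 x.2
  rw [H.adjoin_range_π] at hle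
  ext t
  exact hle (Algebra.mem_top (x := t))

/-- **the Hecke pair `(T, r)`**. -/
def twc_hp_ofFramed (H : HeckeGaloisRepDatum N (↑S : Set ℕ) 𝒪 θ T)
    (hNS : ∀ ℓ : ℕ, ℓ.Prime → ℓ ∣ N → ℓ ∈ S)
    (rb : FramedResidual (ResidueField 𝒪)) (r : FramedRep T)
    (hr : H.ρ.IsEquiv r.toGaloisRepAdic)
    (hl : r.IsLiftOf rb (ResidueField.map (algebraMap 𝒪 T))) : twc_HPair 𝒪 rb where
  T := T
  residue_surjective := H.residue_surjective
  r := r
  lift := hl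
  gen := by
    letI := S53.dualNumberAlgebra 𝒪
    intro φ φ' h
    exact twc_hp_gen H hNS r hr φ φ' h

/-- **C/HPair**: a Hecke–Galois datum with `twt_Compat θ rb` gives a Hecke pair over the SAME ring
`T`, whose framed representation is equivalent to `H.ρ`. -/
theorem twc_hp_main (H : HeckeGaloisRepDatum N (↑S : Set ℕ) 𝒪 θ T)
    (hNS : ∀ ℓ : ℕ, ℓ.Prime → ℓ ∣ N → ℓ ∈ S)
    (rb : FramedResidual (ResidueField 𝒪)) (hc : twt_Compat θ rb.toResidualGaloisRep) :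
    ∃ (r : FramedRep T) (hr : H.ρ.IsEquiv r.toGaloisRepAdic)
      (hl : r.IsLiftOf rb (ResidueField.map (algebraMap 𝒪 T))),
      (twc_hp_ofFramed H hNS rb r hr hl).r = r := by
  obtain ⟨r, hr, hl⟩ := twc_hp_exists_framed H hNS rb hc
  exact ⟨r, hr, hl, rfl⟩

end datum

end

end Fermat.Agent.TW
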