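import Mathlib
import Fermat.Agent.TW.Def.HPairOfDatum
import Fermat.Agent.S56.Tan.Transport
import Fermat.Agent.S56.PS.BaseChange
import Fermat.Agent.S56.PS.BaseChangeFlat
import Fermat.Agent.TW.Loc.QuotInst

/-!
# Project TW (S43), cell C/HPair, part 2: push-forward and transport (prefix `twc_hp_`)

* `twc_hp_push P T' q hq` : the push-forward of a Hecke pair `P` along a surjective `𝒪`-algebra map
  `q : P.T → T'` (`T'` = the image of the Hecke ring in `End(M)`, or a quotient `P.T ⧸ I`).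
* `twc_hp_isType_of_equiv`, `twc_hp_isType_map` : transport of `twc_IsType` along an equivalence
  `ρ ≅ r.toGaloisRepAdic` and along `r ↦ r.map φ`, `φ` a surjective local homomorphism.
* the same for `IsUnipotentOnInertiaAt` and `twc_HasType`.
-/

set_option autoImplicit false
set_option linter.unusedSectionVars false
set_option linter.style.haveILetI false

open Polynomial IsLocalRing ExtCitation
open Fermat.Agent.S53 Fermat.Agent.S56

namespace Fermat.Agent.TW

noncomputable section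

local notation "GQ" => (AlgebraicClosure ℚ ≃ₐ[ℚ] AlgebraicClosure ℚ)
local notation "Qbar" => AlgebraicClosure ℚ

section push

variable {𝒪 : Type} [CommRing 𝒪] [IsLocalRing 𝒪]
  {A B : Type} [CommRing A] [IsLocalRing A] [Algebra 𝒪 A] [IsLocalHom (algebraMap 𝒪 A)]
  [CommRing B] [IsLocalRing B] [Algebra 𝒪 B] [IsLocalHom (algebraMap 𝒪 B)]

/-- the lift condition is preserved by `𝒪`-algebra homomorphisms (any `rb`). -/
theorem twc_hp_isLiftOf_map (rb : FramedResidual (ResidueField 𝒪)) (φ : A →ₐ[𝒪] B)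
    (hφ : IsLocalHom (φ : A →+* B)) {r : FramedRep A}
    (h : r.IsLiftOf rb (ResidueField.map (algebraMap 𝒪 A))) :
    (r.map (φ : A →+* B) hφ).IsLiftOf rb (ResidueField.map (algebraMap 𝒪 B)) := by
  have := hφ
  intro σ
  ext i j
  have h1 := congrFun (congrFun (h σ) i) j
  simp only [Matrix.map_apply] at h1
  simp only [Matrix.map_apply, FramedRep.map_apply]
  rw [← ResidueField.map_residue, h1, residueFieldMap_algHom]

/-- surjectivity of `𝒪 → residue field` passes to a surjective image. -/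
theorem twc_hp_residue_surjective_map (φ : A →ₐ[𝒪] B) (hφ : Function.Surjective φ)
    (h : Function.Surjective (residue A ∘ algebraMap 𝒪 A)) :
    Function.Surjective (residue B ∘ algebraMap 𝒪 B) := by
  haveI : IsLocalHom (φ : A →+* B) := IsLocalHom.of_surjective (φ : A →+* B) hφ
  intro y
  obtain ⟨b, rfl⟩ := residue_surjective y
  obtain ⟨a, rfl⟩ := hφ b
  obtain ⟨o, ho⟩ := h (residue A a)
  refine ⟨o, ?_⟩
  rw [Function.comp_apply] at ho ⊢
  have h1 : residue B (φ a) = ResidueField.map (φ : A →+* B) (residue A a) :=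
    (ResidueField.map_residue (φ : A →+* B) a).symm
  rw [h1, ← ho, ResidueField.map_residue]
  congr 1
  exact (φ.commutes o).symm

/-- **push-forward of a Hecke pair** along a surjective `𝒪`-algebra map. -/
def twc_hp_push {rb : FramedResidual (ResidueField 𝒪)} (P : twc_HPair 𝒪 rb)
    (T' : Type) [CommRing T'] [IsLocalRing T'] [IsNoetherianRing T']
    [IsAdicComplete (maximalIdeal T') T'] [Algebra 𝒪 T'] [IsLocalHom (algebraMap 𝒪 T')]
    (q : P.T →ₐ[𝒪] T') (hq : Function.Surjective q) : twc_HPair 𝒪 rb where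
  T := T'
  residue_surjective := twc_hp_residue_surjective_map q hq P.residue_surjective
  r := P.r.map (q : P.T →+* T') (IsLocalHom.of_surjective (q : P.T →+* T') hq)
  lift := twc_hp_isLiftOf_map rb q _ P.lift
  gen := by
    letI := S53.dualNumberAlgebra 𝒪
    intro φ φ' h
    have h1 : φ.comp q = φ'.comp q := by
      apply P.gen
      intro σ
      have h2 := h σ
      rw [FramedRep.map_apply] at h2
      have h3 : Matrix.trace ((P.r σ).map (q : P.T →+* T')) = q (Matrix.trace (P.r σ)) := by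
        simp [Matrix.trace, Matrix.diag]
      rw [h3] at h2
      exact h2
    refine AlgHom.ext fun t => ?_
    obtain ⟨s, rfl⟩ := hq t
    exact congrArg (fun f : P.T →ₐ[𝒪] DualNumber (ResidueField 𝒪) => f s) h1

@[simp] theorem twc_hp_push_r {rb : FramedResidual (ResidueField 𝒪)} (P : twc_HPair 𝒪 rb)
    (T' : Type) [CommRing T'] [IsLocalRing T'] [IsNoetherianRing T']
    [IsAdicComplete (maximalIdeal T') T'] [Algebra 𝒪 T'] [IsLocalHom (algebraMap 𝒪 T')]
    (q : P.T →ₐ[𝒪] T') (hq : Function.Surjective q) (σ : GQ) :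
    (twc_hp_push P T' q hq).r σ = (P.r σ).map q := rfl

end push

section quot

variable {𝒪 : Type} [CommRing 𝒪] [IsLocalRing 𝒪] {rb : FramedResidual (ResidueField 𝒪)}

/-- the algebra map to a proper quotient of the Hecke ring of a Hecke pair is local. -/
theorem twc_hp_quot_isLocalHom (P : twc_HPair 𝒪 rb) (I : Ideal P.T)
    [IsLocalRing (P.T ⧸ I)] : IsLocalHom (algebraMap 𝒪 (P.T ⧸ I)) := by
  haveI : IsLocalHom (Ideal.Quotient.mk I) :=
    IsLocalHom.of_surjective (Ideal.Quotient.mk I) Ideal.Quotient.mk_surjective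
  have h : algebraMap 𝒪 (P.T ⧸ I) = (Ideal.Quotient.mk I).comp (algebraMap 𝒪 P.T) := rfl
  rw [h]
  exact RingHom.isLocalHom_comp _ _

/-- **the Hecke pair on a proper quotient `P.T ⧸ I`** (e.g. `I` = the annihilator of a module). -/
def twc_hp_quot (P : twc_HPair 𝒪 rb) (I : Ideal P.T) (hI : I ≠ ⊤) : twc_HPair 𝒪 rb :=
  haveI : IsLocalRing (P.T ⧸ I) := twb_qi_isLocalRing hI
  haveI : IsAdicComplete (maximalIdeal (P.T ⧸ I)) (P.T ⧸ I) := twb_qi_isAdicComplete
  haveI : IsLocalHom (algebraMap 𝒪 (P.T ⧸ I)) := twc_hp_quot_isLocalHom P I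
  twc_hp_push P (P.T ⧸ I) (Ideal.Quotient.mkₐ 𝒪 I) (Ideal.Quotient.mkₐ_surjective 𝒪 I)

theorem twc_hp_quot_r (P : twc_HPair 𝒪 rb) (I : Ideal P.T) (hI : I ≠ ⊤) (σ : GQ) :
    (twc_hp_quot P I hI).r σ = (P.r σ).map (Ideal.Quotient.mk I) := rfl

end quot

section transport

variable {A B : Type} [CommRing A] [IsLocalRing A] [CommRing B] [IsLocalRing B]

/-- `twc_IsType` along an equivalence. -/
theorem twc_hp_isType_of_equiv {p : ℕ} {Smin : Finset ℕ} {Th : Finset Nat.Primes} {Q : Finset ℕ}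
    {ρ ρ' : GaloisRepAdic A} (e : ρ.IsEquiv ρ') (h : twc_IsType p Smin Th Q ρ) :
    twc_IsType p Smin Th Q ρ' := by
  obtain ⟨e⟩ := e
  obtain ⟨h1, h2, h3, h4⟩ := h
  exact ⟨s56t_tr_detIsCyclotomic e h1, s56t_tr_isFlatAt e h2,
    fun q hq hqn => s56t_tr_isUnramifiedAt e (h3 q hq hqn),
    fun q hq hqp hqne => s56t_tr_isUnipotentOnInertiaAt e (h4 q hq hqp hqne)⟩

/-- `twc_IsType` along the push-forward by a surjective local homomorphism. -/
theorem twc_hp_isType_map {p : ℕ} {Smin : Finset ℕ} {Th : Finset Nat.Primes} {Q : Finset ℕ}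
    (φ : A →+* B) (hφ : IsLocalHom φ) (hsurj : Function.Surjective φ) (r : FramedRep A)
    (h : twc_IsType p Smin Th Q r.toGaloisRepAdic) :
    twc_IsType p Smin Th Q (r.map φ hφ).toGaloisRepAdic := by
  refine twc_hp_isType_of_equiv (FramedRep.baseChangeAlong_isEquiv φ hφ r) ?_
  obtain ⟨h1, h2, h3, h4⟩ := h
  exact ⟨s56bc_det φ hφ _ p h1, s56bc_flat φ hφ hsurj _ p h2,
    fun q hq hqn => s56bc_unramified φ hφ _ q (h3 q hq hqn),
    fun q hq hqp hqne => s56bc_unipotent φ hφ _ q (h4 q hq hqp hqne)⟩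

/-- unipotent inertia along the push-forward. -/
theorem twc_hp_unip_map (φ : A →+* B) (hφ : IsLocalHom φ) (r : FramedRep A) (q : ℕ)
    (h : r.toGaloisRepAdic.IsUnipotentOnInertiaAt q) :
    (r.map φ hφ).toGaloisRepAdic.IsUnipotentOnInertiaAt q := by
  obtain ⟨e⟩ := FramedRep.baseChangeAlong_isEquiv φ hφ r
  exact s56t_tr_isUnipotentOnInertiaAt e (s56bc_unipotent φ hφ _ q h)

/-- the inertial type along an equivalence. -/
theorem twc_hp_hasType_of_equiv {𝒪 : Type} [CommRing 𝒪] [Algebra 𝒪 A] {ρ ρ' : GaloisRepAdic A}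
    (e : ρ.IsEquiv ρ') (ℓ : ℕ) (ψ : GQ →* 𝒪ˣ) (h : twc_HasType (𝒪 := 𝒪) ρ ℓ ψ) :
    twc_HasType (𝒪 := 𝒪) ρ' ℓ ψ := by
  obtain ⟨e⟩ := e
  intro P hP σ hσ
  rw [s56t_tr_charpoly e σ]
  exact h P hP σ hσ

/-- the inertial type along the push-forward by an `𝒪`-algebra map. -/
theorem twc_hp_hasType_map {𝒪 : Type} [CommRing 𝒪] [Algebra 𝒪 A] [Algebra 𝒪 B]
    (φ : A →ₐ[𝒪] B) (hφ : IsLocalHom (φ : A →+* B)) (r : FramedRep A) (ℓ : ℕ) (ψ : GQ →* 𝒪ˣ)
    (h : twc_HasType (𝒪 := 𝒪) r.toGaloisRepAdic ℓ ψ) :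
    twc_HasType (𝒪 := 𝒪) (r.map (φ : A →+* B) hφ).toGaloisRepAdic ℓ ψ := by
  intro P hP σ hσ
  have h1 := h P hP σ hσ
  have h2 : LinearMap.charpoly (r.toGaloisRepAdic.ρ σ) = (r σ).charpoly :=
    Matrix.charpoly_toLin' (r σ)
  have h3 : LinearMap.charpoly ((r.map (φ : A →+* B) hφ).toGaloisRepAdic.ρ σ) =
      ((r σ).map (φ : A →+* B)).charpoly := Matrix.charpoly_toLin' _
  rw [h2] at h1
  rw [h3, Matrix.charpoly_map, h1]
  simp only [Polynomial.map_mul, Polynomial.map_sub, Polynomial.map_X, Polynomial.map_C]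
  rw [show ((φ : A →+* B) (algebraMap 𝒪 A (ψ σ : 𝒪))) = algebraMap 𝒪 B (ψ σ : 𝒪) from
    φ.commutes _,
    show ((φ : A →+* B) (algebraMap 𝒪 A ((ψ σ)⁻¹ : 𝒪ˣ))) = algebraMap 𝒪 B ((ψ σ)⁻¹ : 𝒪ˣ) from
    φ.commutes _]

end transport

end

end Fermat.Agent.TW
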