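import Mathlib
import Fermat.Agent.TW.Def.HPairOfDatum
import Fermat.Agent.TW.LG.Transfer

/-!
# Project TW (S43), cell C/Frames, part 1: generation of the Hecke ring away from a finite set
(prefix `twc_hg_`)

`H : HeckeGaloisRepDatum N ↑S 𝒪 θ T` with `S ⊇ {ℓ ∣ N}`.  The ring `T` is generated over `𝒪` by
the images of ALL `T_ℓ` (`ℓ ∤ N`, `ℓ ∉ S`) (`adjoin_range_π`).  Here: it is already generated by the
`T_ℓ` with `ℓ` OUTSIDE ANY FINITE SET `S'` (`twc_hg_adjoin_away`): the traces of `H.ρ` at the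
Frobenius elements outside `S ∪ S'` lie in the subalgebra `E`; `E` is an `𝒪`-submodule of the
finite `𝒪`-module `T`, hence closed for the `𝔪_T`-adic topology; by Chebotarev + adic continuity
every trace lies in `E`, in particular `T_t = tr ρ(Frob_t)` for `t ∈ S'`.

Consumer: the surjectivity of the transition maps `T'' → T' → T_∅` of the Taylor–Wiles tower
(`twe_Level.π0`, `twe_Big.π1` only control the `T_ℓ` with `ℓ ∉ S ∪ Q`), `twc_hg_surjective`.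
-/

set_option autoImplicit false
set_option linter.unusedSectionVars false
set_option linter.style.haveILetI false

open Polynomial IsLocalRing CuspForm ExtCitation
open Fermat.Agent.S53 Fermat.Agent.S56 Fermat.Agent.JT3 Fermat.Agent.SS

namespace Fermat.Agent.TW

noncomputable section

local notation "GQ" => (AlgebraicClosure ℚ ≃ₐ[ℚ] AlgebraicClosure ℚ)
local notation "Qbar" => AlgebraicClosure ℚ

section approx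

variable {O : Type} [CommRing O] [IsLocalRing O]

/-- **Chebotarev + adic continuity**: the trace of `ρ(σ)` is approximated modulo `𝔪 ^ n` by the
trace at a Frobenius element outside a given finite set. -/
theorem twc_hg_trace_approx (ρ : GaloisRepAdic O) (S : Finset ℕ) (σ : GQ) (n : ℕ) :
    ∃ (ℓ : ℕ) (A : ValuationSubring Qbar) (φ : GQ), ℓ.Prime ∧ ℓ ∉ S ∧ A.LiesOverPrime ℓ ∧
      A.IsFrobeniusAt φ ℓ ∧
      LinearMap.trace O ρ.V (ρ.ρ φ) - LinearMap.trace O ρ.V (ρ.ρ σ) ∈ maximalIdeal O ^ n := by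
  obtain ⟨L₁, hL₁, h₁⟩ := ρ.isAdicContinuous n
  obtain ⟨ℓ, A, τ, hℓ, hℓS, hA, hτ, hτσ⟩ := s56c_exists L₁ hL₁ S σ
  refine ⟨ℓ, A, τ, hℓ, hℓS, hA, hτ, ?_⟩
  set t : GQ := σ⁻¹ * τ with htdef
  have ht : ∀ x ∈ L₁, t x = x := by
    intro x hx
    rw [htdef, AlgEquiv.mul_apply, hτσ x hx]
    exact σ.symm_apply_apply x
  have hτt : τ = σ * t := by rw [htdef, mul_inv_cancel_left]
  have hE : gcl_Small (maximalIdeal O ^ n) (ρ.ρ t - 1) := fun v => by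
    simpa using h₁ t ht v
  have hYeq : ρ.ρ τ = ρ.ρ σ + ρ.ρ σ * (ρ.ρ t - 1) := by
    rw [hτt, map_mul, mul_sub, mul_one]; abel
  rw [hYeq, map_add, add_sub_cancel_left]
  exact twlg_tr_trace_mem _ _ (hE.mul_left (ρ.ρ σ))

end approx

section closed

variable {𝒪 : Type} [CommRing 𝒪] [IsLocalRing 𝒪] [IsNoetherianRing 𝒪]
  {T : Type} [CommRing T] [IsLocalRing T] [Algebra 𝒪 T] [Module.Finite 𝒪 T]

/-- a power of `𝔪_T` lies in `𝔪_𝒪 T`. -/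
theorem twc_hg_pow_le : ∃ e : ℕ, maximalIdeal T ^ e ≤ (maximalIdeal 𝒪).map (algebraMap 𝒪 T) := by
  haveI : Module.Finite (𝒪 ⧸ maximalIdeal 𝒪) (T ⧸ (maximalIdeal 𝒪).map (algebraMap 𝒪 T)) :=
    Module.Finite.of_restrictScalars_finite 𝒪 _ _
  haveI : IsArtinianRing (𝒪 ⧸ maximalIdeal 𝒪) := inferInstanceAs (IsArtinianRing (ResidueField 𝒪))
  haveI : IsArtinianRing (T ⧸ (maximalIdeal 𝒪).map (algebraMap 𝒪 T)) :=
    IsArtinianRing.of_finite (𝒪 ⧸ maximalIdeal 𝒪) _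
  exact exists_maximalIdeal_pow_le_of_isArtinianRing_quotient _

/-- `𝒪`-submodules of `T` are closed for the `𝔪_T`-adic topology. -/
theorem twc_hg_closed (W : Submodule 𝒪 T) (x : T)
    (h : ∀ n : ℕ, ∃ w ∈ W, x - w ∈ maximalIdeal T ^ n) : x ∈ W := by
  obtain ⟨e, he⟩ := twc_hg_pow_le (𝒪 := 𝒪) (T := T)
  have hne : maximalIdeal 𝒪 ≠ ⊤ := Ideal.IsPrime.ne_top'
  have hkrull := Ideal.iInf_pow_smul_eq_bot_of_isLocalRing (M := T ⧸ W) (maximalIdeal 𝒪) hne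
  have hmem : W.mkQ x ∈ (⨅ i : ℕ, maximalIdeal 𝒪 ^ i • (⊤ : Submodule 𝒪 (T ⧸ W))) := by
    rw [Submodule.mem_iInf]
    intro n
    obtain ⟨w, hw, hxw⟩ := h (e * n)
    have h1 : x - w ∈ (maximalIdeal 𝒪 ^ n).map (algebraMap 𝒪 T) := by
      rw [Ideal.map_pow]
      rw [pow_mul] at hxw
      exact Ideal.pow_right_mono he n hxw
    have h2 : x - w ∈ maximalIdeal 𝒪 ^ n • (⊤ : Submodule 𝒪 T) := by
      rw [Ideal.smul_top_eq_map]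
      exact h1
    have h3 : W.mkQ (x - w) ∈ (maximalIdeal 𝒪 ^ n • (⊤ : Submodule 𝒪 T)).map W.mkQ :=
      Submodule.mem_map_of_mem h2
    rw [Submodule.map_smul''] at h3
    have hw0 : W.mkQ w = 0 := by
      rw [Submodule.mkQ_apply]
      exact (Submodule.Quotient.mk_eq_zero W).2 hw
    have h4 : W.mkQ x = W.mkQ (x - w) := by
      rw [map_sub, hw0, sub_zero]
    rw [h4]
    exact Submodule.smul_mono le_rfl le_top h3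
  rw [hkrull, Submodule.mem_bot] at hmem
  exact (Submodule.Quotient.mk_eq_zero W).1 hmem

end closed

section datum

variable {𝒪 : Type} [CommRing 𝒪] [IsDomain 𝒪] [IsDiscreteValuationRing 𝒪]
  [IsAdicComplete (maximalIdeal 𝒪) 𝒪]
  {N : ℕ} [NeZero N] {S : Finset ℕ}
  {θ : heckeAlgebra N 2 (↑S : Set ℕ) →+* ResidueField 𝒪}
  {T : Type} [CommRing T] [IsLocalRing T] [IsNoetherianRing T]
  [IsAdicComplete (maximalIdeal T) T] [Algebra 𝒪 T] [IsLocalHom (algebraMap 𝒪 T)]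
  [Module.Finite 𝒪 T] [Module.Free 𝒪 T]

/-- a subalgebra containing all the `T_ℓ` is everything (`S ⊇ {ℓ ∣ N}`: no `U_q`). -/
theorem twc_hg_top_of_T_mem (H : HeckeGaloisRepDatum N (↑S : Set ℕ) 𝒪 θ T)
    (hNS : ∀ ℓ : ℕ, ℓ.Prime → ℓ ∣ N → ℓ ∈ S) (E : Subalgebra 𝒪 T)
    (h : ∀ (ℓ : ℕ) (hℓ : ℓ.Prime) (hℓN : ¬ ℓ ∣ N) (hℓS : ℓ ∉ (↑S : Set ℕ)),
      H.π (heckeAlgebra.T hℓ hℓN hℓS) ∈ E) : E = ⊤ := by
  have hπ : ∀ (x : Module.End ℂ (CuspForm (CongruenceSubgroup.Gamma0 N) 2))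
      (hx : x ∈ heckeAlgebra N 2 (↑S : Set ℕ)), H.π ⟨x, hx⟩ ∈ E := by
    intro x hx
    refine Algebra.adjoin_induction
      (p := fun x hx => H.π ⟨x, hx⟩ ∈ E) ?_ ?_ ?_ ?_ hx
    · rintro y (⟨ℓ, hℓ, hℓN, hℓS, rfl⟩ | ⟨q, hqN, hq, hqS, rfl⟩)
      · exact h ℓ hℓ hℓN hℓS
      · exact absurd (Finset.mem_coe.2 (hNS q hq hqN)) hqS
    · intro n
      have h2 : (⟨algebraMap ℤ _ n, Subalgebra.algebraMap_mem _ n⟩ :
          heckeAlgebra N 2 (↑S : Set ℕ)) = ((n : ℤ) : heckeAlgebra N 2 (↑S : Set ℕ)) := by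
        apply Subtype.ext
        simp
      rw [h2, map_intCast]
      exact Subalgebra.intCast_mem E n
    · intro x y hx hy hxE hyE
      have h2 : (⟨x + y, Subalgebra.add_mem _ hx hy⟩ : heckeAlgebra N 2 (↑S : Set ℕ)) =
          ⟨x, hx⟩ + ⟨y, hy⟩ := rfl
      rw [h2, map_add]
      exact Subalgebra.add_mem E hxE hyE
    · intro x y hx hy hxE hyE
      have h2 : (⟨x * y, Subalgebra.mul_mem _ hx hy⟩ : heckeAlgebra N 2 (↑S : Set ℕ)) =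
          ⟨x, hx⟩ * ⟨y, hy⟩ := rfl
      rw [h2, map_mul]
      exact Subalgebra.mul_mem E hxE hyE
  have hle : Algebra.adjoin 𝒪 (Set.range H.π) ≤ E := by
    apply Algebra.adjoin_le
    rintro _ ⟨x, rfl⟩
    exact hπ x.1 x.2
  rw [H.adjoin_range_π] at hle
  exact top_le_iff.mp hle

/-- `tr ρ(Frob_ℓ) = T_ℓ` (no framing). -/
theorem twc_hg_trace_frob (H : HeckeGaloisRepDatum N (↑S : Set ℕ) 𝒪 θ T)
    (ℓ : ℕ) (hℓ : ℓ.Prime) (hℓN : ¬ ℓ ∣ N) (hℓS : ℓ ∉ (↑S : Set ℕ))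
    (A : ValuationSubring Qbar) (hA : A.LiesOverPrime ℓ) (τ : GQ) (hτ : A.IsFrobeniusAt τ ℓ) :
    LinearMap.trace T H.ρ.V (H.ρ.ρ τ) = H.π (heckeAlgebra.T hℓ hℓN hℓS) := by
  have h := H.charpoly_frob ℓ hℓ hℓN hℓS A hA τ hτ
  rw [sst_charpoly_rank_two H.ρ.finrank_eq] at h
  have h1 := congrArg (fun P : T[X] => P.coeff 1) h
  simp only [coeff_add, coeff_sub, coeff_X_pow, coeff_C_mul, coeff_X_one, coeff_C] at h1
  simpa using h1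

/-- **every trace of `H.ρ` lies in a subalgebra containing the `T_ℓ`, `ℓ ∉ S'`.** -/
theorem twc_hg_trace_mem (H : HeckeGaloisRepDatum N (↑S : Set ℕ) 𝒪 θ T)
    (hNS : ∀ ℓ : ℕ, ℓ.Prime → ℓ ∣ N → ℓ ∈ S) (S' : Finset ℕ) (E : Subalgebra 𝒪 T)
    (h : ∀ (ℓ : ℕ) (hℓ : ℓ.Prime) (hℓN : ¬ ℓ ∣ N) (hℓS : ℓ ∉ (↑S : Set ℕ)), ℓ ∉ S' →
      H.π (heckeAlgebra.T hℓ hℓN hℓS) ∈ E) (σ : GQ) :
    LinearMap.trace T H.ρ.V (H.ρ.ρ σ) ∈ E := by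
  classical
  refine twc_hg_closed (𝒪 := 𝒪) (Subalgebra.toSubmodule E) _ fun n => ?_
  obtain ⟨ℓ, A, φ, hℓ, hℓS, hA, hφ, hmem⟩ := twc_hg_trace_approx H.ρ (S ∪ S') σ n
  have hℓS1 : ℓ ∉ S := fun h' => hℓS (Finset.mem_union_left _ h')
  have hℓS2 : ℓ ∉ S' := fun h' => hℓS (Finset.mem_union_right _ h')
  have hℓN : ¬ ℓ ∣ N := fun h' => hℓS1 (hNS ℓ hℓ h')
  have hℓS' : ℓ ∉ (↑S : Set ℕ) := fun h' => hℓS1 (Finset.mem_coe.mp h')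
  refine ⟨LinearMap.trace T H.ρ.V (H.ρ.ρ φ), ?_, ?_⟩
  · rw [twc_hg_trace_frob H ℓ hℓ hℓN hℓS' A hA φ hφ]
    exact h ℓ hℓ hℓN hℓS' hℓS2
  · have : LinearMap.trace T H.ρ.V (H.ρ.ρ σ) - LinearMap.trace T H.ρ.V (H.ρ.ρ φ) =
        -(LinearMap.trace T H.ρ.V (H.ρ.ρ φ) - LinearMap.trace T H.ρ.V (H.ρ.ρ σ)) := by ring
    rw [this]
    exact neg_mem hmem

/-- **generation away from a finite set**: a subalgebra containing the `T_ℓ`, `ℓ ∉ S'`, is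
everything. -/
theorem twc_hg_top_of_T_mem_away (H : HeckeGaloisRepDatum N (↑S : Set ℕ) 𝒪 θ T)
    (hNS : ∀ ℓ : ℕ, ℓ.Prime → ℓ ∣ N → ℓ ∈ S) (S' : Finset ℕ) (E : Subalgebra 𝒪 T)
    (h : ∀ (ℓ : ℕ) (hℓ : ℓ.Prime) (hℓN : ¬ ℓ ∣ N) (hℓS : ℓ ∉ (↑S : Set ℕ)), ℓ ∉ S' →
      H.π (heckeAlgebra.T hℓ hℓN hℓS) ∈ E) : E = ⊤ := by
  refine twc_hg_top_of_T_mem H hNS E fun ℓ hℓ hℓN hℓS => ?_
  obtain ⟨τ, hτ⟩ := fex_exists_isFrobeniusAt hℓ (primeLocalPlace ⟨ℓ, hℓ⟩)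
    (s56ld_liesOver ⟨ℓ, hℓ⟩)
  rw [← twc_hg_trace_frob H ℓ hℓ hℓN hℓS _ (s56ld_liesOver ⟨ℓ, hℓ⟩) τ hτ]
  exact twc_hg_trace_mem H hNS S' E h τ

/-- **generation away from a finite set**, `adjoin` form. -/
theorem twc_hg_adjoin_away (H : HeckeGaloisRepDatum N (↑S : Set ℕ) 𝒪 θ T)
    (hNS : ∀ ℓ : ℕ, ℓ.Prime → ℓ ∣ N → ℓ ∈ S) (S' : Finset ℕ) :
    Algebra.adjoin 𝒪 {x : T | ∃ (ℓ : ℕ) (hℓ : ℓ.Prime) (hℓN : ¬ ℓ ∣ N)
      (hℓS : ℓ ∉ (↑S : Set ℕ)), ℓ ∉ S' ∧ x = H.π (heckeAlgebra.T hℓ hℓN hℓS)} = ⊤ :=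
  twc_hg_top_of_T_mem_away H hNS S' _ fun ℓ hℓ hℓN hℓS hℓS' =>
    Algebra.subset_adjoin ⟨ℓ, hℓ, hℓN, hℓS, hℓS', rfl⟩

end datum

section surj

variable {𝒪 : Type} [CommRing 𝒪] [IsDomain 𝒪] [IsDiscreteValuationRing 𝒪]
  [IsAdicComplete (maximalIdeal 𝒪) 𝒪]
  {N₁ : ℕ} [NeZero N₁] {S₁ : Finset ℕ}
  {θ₁ : heckeAlgebra N₁ 2 (↑S₁ : Set ℕ) →+* ResidueField 𝒪}
  {T₁ : Type} [CommRing T₁] [IsLocalRing T₁] [IsNoetherianRing T₁]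
  [IsAdicComplete (maximalIdeal T₁) T₁] [Algebra 𝒪 T₁] [IsLocalHom (algebraMap 𝒪 T₁)]
  [Module.Finite 𝒪 T₁] [Module.Free 𝒪 T₁]
  {N₂ : ℕ} [NeZero N₂] {S₂ : Finset ℕ}
  {θ₂ : heckeAlgebra N₂ 2 (↑S₂ : Set ℕ) →+* ResidueField 𝒪}
  {T₂ : Type} [CommRing T₂] [IsLocalRing T₂] [IsNoetherianRing T₂]
  [IsAdicComplete (maximalIdeal T₂) T₂] [Algebra 𝒪 T₂] [IsLocalHom (algebraMap 𝒪 T₂)]
  [Module.Finite 𝒪 T₂] [Module.Free 𝒪 T₂]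

/-- **an `𝒪`-algebra map between two Hecke rings matching the `T_ℓ` outside a finite set is
surjective.** -/
theorem twc_hg_surjective (H₁ : HeckeGaloisRepDatum N₁ (↑S₁ : Set ℕ) 𝒪 θ₁ T₁)
    (H₂ : HeckeGaloisRepDatum N₂ (↑S₂ : Set ℕ) 𝒪 θ₂ T₂)
    (hNS₂ : ∀ ℓ : ℕ, ℓ.Prime → ℓ ∣ N₂ → ℓ ∈ S₂) (f : T₁ →ₐ[𝒪] T₂) (S' : Finset ℕ)
    (hf : ∀ (ℓ : ℕ) (hℓ : ℓ.Prime) (h2N : ¬ ℓ ∣ N₂) (h2S : ℓ ∉ (↑S₂ : Set ℕ)), ℓ ∉ S' →
      ∃ (h1N : ¬ ℓ ∣ N₁) (h1S : ℓ ∉ (↑S₁ : Set ℕ)),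
        f (H₁.π (heckeAlgebra.T hℓ h1N h1S)) = H₂.π (heckeAlgebra.T hℓ h2N h2S)) :
    Function.Surjective f := by
  have htop : f.range = ⊤ := by
    refine twc_hg_top_of_T_mem_away H₂ hNS₂ S' f.range fun ℓ hℓ h2N h2S hℓS' => ?_
    obtain ⟨h1N, h1S, h⟩ := hf ℓ hℓ h2N h2S hℓS'
    exact ⟨_, h⟩
  intro y
  have hy : y ∈ f.range := by rw [htop]; exact Algebra.mem_top
  exact hy

end surj

end

end Fermat.Agent.TW
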