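import Mathlib
import Fermat.Agent.TW.Def.HeckeGen
import Fermat.Agent.TW.Def.HPairPush
import Fermat.Agent.TW.Top.FrameCompat
import Fermat.Agent.TW.Top.DatumLocal
import Fermat.Agent.TW.Aut.Seams
import Fermat.Agent.S56.Grp.Transport

/-!
# Project TW (S43), cell C/Frames: compatible framings along the Taylor–Wiles tower
(prefix `twc_fr_`)

Two Hecke–Galois data `H₁` over `T₁`, `H₂` over `T₂` and an `𝒪`-algebra map `f : T₁ → T₂` matching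
the `T_ℓ` outside a finite set `S'` (`twc_fr_Match`).  Then

* `f` is surjective (`twc_fr_match_surjective`, = `twc_hg_surjective`);
* the push-forward of every framing of `H₁.ρ` is a framing of `H₂.ρ` (`twc_fr_isEquiv_map`);
* **re-framing** (`twc_fr_reframe`): for strict lifts `r₁` (of `H₁.ρ`), `r₂` (of `H₂.ρ`) of the
  same framed residual representation `rb` there is `γ ∈ GL₂(T₁)`, `γ ≡ 1 mod 𝔪`, with
  `(r₁.conj γ).map f = r₂` EXACTLY (the chief's `twt_fc_main_frob`).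

Application to the tower `T'' → T' → T_∅` of `TW/Aut/Seams.lean`: `twc_fr_π0_surjective`,
`twc_fr_π1_surjective`, `twc_fr_compat_level`, `twc_fr_compat_big`, and
* `twc_fr_big` (**F3**): for a FIXED framing `r0` of `B.H.ρ` lifting `rb`, a framing `r''` of
  `Bg.H''.ρ` lifting `rb` with `r''.map (π0 ∘ π1) = r0`;
* `twc_fr_level_isEquiv` (**F4**): `r''.map π1` is a framing of `L.H'.ρ`;
* `twc_fr_level_unip` : hence unipotent on inertia at the hard primes.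
-/

set_option autoImplicit false
set_option linter.unusedSectionVars false
set_option linter.style.haveILetI false

open Polynomial IsLocalRing CuspForm ExtCitation
open Fermat.Agent.S53 Fermat.Agent.S56 Fermat.Agent.JT3

namespace Fermat.Agent.TW

noncomputable section

local notation "GQ" => (AlgebraicClosure ℚ ≃ₐ[ℚ] AlgebraicClosure ℚ)
local notation "Qbar" => AlgebraicClosure ℚ

/-! ### rigidity, equivalence form -/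

section rigid

variable {A : Type} [CommRing A] [IsLocalRing A] [IsNoetherianRing A]

/-- two framed representations over a noetherian local ring with the same Frobenius
characteristic polynomials outside a finite set, one of them residually absolutely irreducible,
are equivalent. -/
theorem twc_fr_isEquiv_of_frob (r s : FramedRep A)
    (habs : s.toGaloisRepAdic.residual.IsAbsolutelyIrreducible) (S : Finset ℕ)
    (hfrob : ∀ ℓ : ℕ, ℓ.Prime → ℓ ∉ S → ∀ P : ValuationSubring Qbar, P.LiesOverPrime ℓ →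
      ∀ φ : GQ, P.IsFrobeniusAt φ ℓ → (r φ).charpoly = (s φ).charpoly) :
    s.toGaloisRepAdic.IsEquiv r.toGaloisRepAdic := by
  have hρ : ∀ (t : FramedRep A) (σ : GQ),
      LinearMap.charpoly (t.toGaloisRepAdic.ρ σ) = (t σ).charpoly := by
    intro t σ
    change LinearMap.charpoly (Matrix.toLin' (t.toMonoidHom σ)) = _
    exact Matrix.charpoly_toLin' _
  have hall : ∀ σ : GQ, (r σ).charpoly = (s σ).charpoly := by
    intro σ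
    have h := twlg_tr_charpoly_eq r.toGaloisRepAdic s.toGaloisRepAdic S
      (fun ℓ hℓ hℓS P hP φ hφ => by
        rw [hρ, hρ]
        exact hfrob ℓ hℓ hℓS P hP φ hφ) σ
    rw [hρ, hρ] at h
    exact h
  obtain ⟨Q, hQ, hQc⟩ := Fermat.Agent.FF.ffc_rigid_of_trace_det s.toMonoidHom r.toMonoidHom
    (twt_fc_span s habs)
    (fun σ => (twt_fc_trace_det_of_charpoly _ _ (hall σ)).1)
    (fun σ => (twt_fc_trace_det_of_charpoly _ _ (hall σ)).2)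
  have hQu : IsUnit Q := (Matrix.isUnit_iff_isUnit_det Q).2 hQ
  rw [FramedRep.isEquiv_iff_conj]
  exact ⟨hQu.unit, fun σ => (hQc σ).symm⟩

end rigid

/-! ### two Hecke–Galois data -/

section two

variable {𝒪 : Type} [CommRing 𝒪] [IsDomain 𝒪] [IsDiscreteValuationRing 𝒪]
  [IsAdicComplete (maximalIdeal 𝒪) 𝒪]
  {N₁ : ℕ} [NeZero N₁] {S₁ : Finset ℕ}
  {θ₁ : heckeAlgebra N₁ 2 (↑S₁ : Set ℕ) →+* ResidueField 𝒪}
  {T₁ : Type} [CommRing T₁] [IsLocalRing T₁] [IsNoetherianRing T₁]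
  [IsAdicComplete (maximalIdeal T₁) T₁] [Algebra 𝒪 T₁] [IsLocalHom (algebraMap 𝒪 T₁)]
  [Module.Finite 𝒪 T₁] [Module.Free 𝒪 T₁]
  {N₂ : ℕ} [NeZero N₂] {S₂ : Finset ℕ}
  {θ₂ : heckeAlgebra N₂ 2 (↑S₂ : Set ℕ) →+* ResidueField 𝒪}
  {T₂ : Type} [CommRing T₂] [IsLocalRing T₂] [IsNoetherianRing T₂]
  [IsAdicComplete (maximalIdeal T₂) T₂] [Algebra 𝒪 T₂] [IsLocalHom (algebraMap 𝒪 T₂)]
  [Module.Finite 𝒪 T₂] [Module.Free 𝒪 T₂]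

/-- `f : T₁ → T₂` matches the Hecke operators `T_ℓ` outside the finite set `S'`. -/
def twc_fr_Match (H₁ : HeckeGaloisRepDatum N₁ (↑S₁ : Set ℕ) 𝒪 θ₁ T₁)
    (H₂ : HeckeGaloisRepDatum N₂ (↑S₂ : Set ℕ) 𝒪 θ₂ T₂) (f : T₁ →ₐ[𝒪] T₂) (S' : Finset ℕ) : Prop :=
  ∀ (ℓ : ℕ) (hℓ : ℓ.Prime) (h2N : ¬ ℓ ∣ N₂) (h2S : ℓ ∉ (↑S₂ : Set ℕ)), ℓ ∉ S' →
    ∃ (h1N : ¬ ℓ ∣ N₁) (h1S : ℓ ∉ (↑S₁ : Set ℕ)),
      f (H₁.π (heckeAlgebra.T hℓ h1N h1S)) = H₂.π (heckeAlgebra.T hℓ h2N h2S)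

variable {H₁ : HeckeGaloisRepDatum N₁ (↑S₁ : Set ℕ) 𝒪 θ₁ T₁}
  {H₂ : HeckeGaloisRepDatum N₂ (↑S₂ : Set ℕ) 𝒪 θ₂ T₂} {f : T₁ →ₐ[𝒪] T₂} {S' : Finset ℕ}

theorem twc_fr_match_surjective (hNS₂ : ∀ ℓ : ℕ, ℓ.Prime → ℓ ∣ N₂ → ℓ ∈ S₂)
    (hf : twc_fr_Match H₁ H₂ f S') : Function.Surjective f :=
  twc_hg_surjective H₁ H₂ hNS₂ f S' hf

/-- the Frobenius characteristic polynomials of a push-forward. -/
theorem twc_fr_match_charpoly (hNS₂ : ∀ ℓ : ℕ, ℓ.Prime → ℓ ∣ N₂ → ℓ ∈ S₂)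
    (hf : twc_fr_Match H₁ H₂ f S')
    (r₁ : FramedRep T₁) (h₁ : H₁.ρ.IsEquiv r₁.toGaloisRepAdic)
    (r₂ : FramedRep T₂) (h₂ : H₂.ρ.IsEquiv r₂.toGaloisRepAdic)
    (ℓ : ℕ) (hℓ : ℓ.Prime) (hℓS : ℓ ∉ S₂ ∪ S') (P : ValuationSubring Qbar)
    (hP : P.LiesOverPrime ℓ) (φ : GQ) (hφ : P.IsFrobeniusAt φ ℓ) :
    ((r₁ φ).map (f : T₁ →+* T₂)).charpoly = (r₂ φ).charpoly := by
  classical
  have hℓS2 : ℓ ∉ S₂ := fun h' => hℓS (Finset.mem_union_left _ h')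
  have hℓS' : ℓ ∉ S' := fun h' => hℓS (Finset.mem_union_right _ h')
  have h2N : ¬ ℓ ∣ N₂ := fun h' => hℓS2 (hNS₂ ℓ hℓ h')
  have h2S : ℓ ∉ (↑S₂ : Set ℕ) := fun h' => hℓS2 (Finset.mem_coe.mp h')
  obtain ⟨h1N, h1S, hT⟩ := hf ℓ hℓ h2N h2S hℓS'
  have e1 : ((r₁ φ).map (f : T₁ →+* T₂)).charpoly = ((r₁ φ).charpoly).map (f : T₁ →+* T₂) := by
    have := Matrix.charpoly_map (r₁ φ) (f : T₁ →+* T₂)
    rw [← this]
  rw [e1, twc_hp_charpoly_framedRep H₁.ρ r₁ h₁ φ, twc_hp_charpoly_framedRep H₂.ρ r₂ h₂ φ,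
    H₁.charpoly_frob ℓ hℓ h1N h1S P hP φ hφ, H₂.charpoly_frob ℓ hℓ h2N h2S P hP φ hφ, ← hT]
  simp only [Polynomial.map_add, Polynomial.map_sub, Polynomial.map_mul, Polynomial.map_pow,
    Polynomial.map_X, Polynomial.map_C, map_natCast, Polynomial.map_natCast]
  rfl

/-- residual absolute irreducibility of a framing of `H.ρ`. -/
theorem twc_fr_habs (r₂ : FramedRep T₂) (h₂ : H₂.ρ.IsEquiv r₂.toGaloisRepAdic) :
    r₂.toGaloisRepAdic.residual.IsAbsolutelyIrreducible := by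
  obtain ⟨e⟩ := h₂
  exact s56g_tr_abs e.residual H₂.residual_absIrr

/-- **the push-forward of a framing of `H₁.ρ` is a framing of `H₂.ρ`.** -/
theorem twc_fr_isEquiv_map (hNS₂ : ∀ ℓ : ℕ, ℓ.Prime → ℓ ∣ N₂ → ℓ ∈ S₂)
    (hf : twc_fr_Match H₁ H₂ f S') (hloc : IsLocalHom (f : T₁ →+* T₂))
    (r₁ : FramedRep T₁) (h₁ : H₁.ρ.IsEquiv r₁.toGaloisRepAdic) :
    H₂.ρ.IsEquiv (r₁.map (f : T₁ →+* T₂) hloc).toGaloisRepAdic := by
  classical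
  obtain ⟨r₂, h₂⟩ := exists_framedRep H₂.ρ
  have h := twc_fr_isEquiv_of_frob (r₁.map (f : T₁ →+* T₂) hloc) r₂ (twc_fr_habs r₂ h₂) (S₂ ∪ S')
    (fun ℓ hℓ hℓS P hP φ hφ => by
      rw [FramedRep.map_apply]
      exact twc_fr_match_charpoly hNS₂ hf r₁ h₁ r₂ h₂ ℓ hℓ hℓS P hP φ hφ)
  obtain ⟨e₂⟩ := h₂
  obtain ⟨e⟩ := h
  exact ⟨e₂.trans e⟩

/-- **re-framing along a matching map**: strict lifts `r₁`, `r₂` of the same `rb`. -/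
theorem twc_fr_reframe (hNS₂ : ∀ ℓ : ℕ, ℓ.Prime → ℓ ∣ N₂ → ℓ ∈ S₂)
    (hf : twc_fr_Match H₁ H₂ f S') (rb : FramedResidual (ResidueField 𝒪))
    (r₁ : FramedRep T₁) (h₁ : H₁.ρ.IsEquiv r₁.toGaloisRepAdic)
    (l₁ : r₁.IsLiftOf rb (ResidueField.map (algebraMap 𝒪 T₁)))
    (r₂ : FramedRep T₂) (h₂ : H₂.ρ.IsEquiv r₂.toGaloisRepAdic)
    (l₂ : r₂.IsLiftOf rb (ResidueField.map (algebraMap 𝒪 T₂))) :
    ∃ (hloc : IsLocalHom (f : T₁ →+* T₂)) (γ : (Matrix (Fin 2) (Fin 2) T₁)ˣ),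
      (∀ i j, (γ.val - 1) i j ∈ maximalIdeal T₁) ∧
      (r₁.conj γ).map (f : T₁ →+* T₂) hloc = r₂ := by
  classical
  have hsurj : Function.Surjective (f : T₁ →+* T₂) := twc_fr_match_surjective hNS₂ hf
  have hloc : IsLocalHom (f : T₁ →+* T₂) := IsLocalHom.of_surjective _ hsurj
  haveI := hloc
  have hres : ∀ σ : GQ, ((r₁ σ).map (f : T₁ →+* T₂)).map (residue T₂) =
      (r₂ σ).map (residue T₂) := by
    intro σ
    have hl := twc_hp_isLiftOf_map rb f hloc l₁ σ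
    rw [FramedRep.map_apply] at hl
    rw [hl, l₂ σ]
  obtain ⟨γ, hγ1, hγ⟩ := twt_fc_main_frob (f : T₁ →+* T₂) hsurj hloc r₁ r₂ (twc_fr_habs r₂ h₂)
    (S₂ ∪ S')
    (fun ℓ hℓ hℓS P hP φ hφ => twc_fr_match_charpoly hNS₂ hf r₁ h₁ r₂ h₂ ℓ hℓ hℓS P hP φ hφ)
    hres
  exact ⟨hloc, γ, hγ1, hγ⟩

/-- composition of matching maps. -/
theorem twc_fr_match_comp
    {N₃ : ℕ} [NeZero N₃] {S₃ : Finset ℕ}
    {θ₃ : heckeAlgebra N₃ 2 (↑S₃ : Set ℕ) →+* ResidueField 𝒪}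
    {T₃ : Type} [CommRing T₃] [IsLocalRing T₃] [IsNoetherianRing T₃]
    [IsAdicComplete (maximalIdeal T₃) T₃] [Algebra 𝒪 T₃] [IsLocalHom (algebraMap 𝒪 T₃)]
    [Module.Finite 𝒪 T₃] [Module.Free 𝒪 T₃]
    {H₃ : HeckeGaloisRepDatum N₃ (↑S₃ : Set ℕ) 𝒪 θ₃ T₃} {g : T₂ →ₐ[𝒪] T₃} {S'' : Finset ℕ}
    (hf : twc_fr_Match H₁ H₂ f S') (hg : twc_fr_Match H₂ H₃ g S'') :
    twc_fr_Match H₁ H₃ (g.comp f) (S' ∪ S'') := by
  classical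
  intro ℓ hℓ h3N h3S hℓS
  obtain ⟨h2N, h2S, hg'⟩ := hg ℓ hℓ h3N h3S (fun h' => hℓS (Finset.mem_union_right _ h'))
  obtain ⟨h1N, h1S, hf'⟩ := hf ℓ hℓ h2N h2S (fun h' => hℓS (Finset.mem_union_left _ h'))
  exact ⟨h1N, h1S, by rw [AlgHom.comp_apply, hf', hg']⟩

end two

/-! ### the Taylor–Wiles tower -/

section tower

variable {𝒪 : Type} [CommRing 𝒪] [IsDomain 𝒪] [IsDiscreteValuationRing 𝒪]
  [IsAdicComplete (maximalIdeal 𝒪) 𝒪]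
  {N : ℕ} [NeZero N] {S : Finset ℕ} {θ : heckeAlgebra N 2 (↑S : Set ℕ) →+* ResidueField 𝒪}
  {B : twe_Base 𝒪 N S θ} {p : ℕ} {Q : Finset ℕ} [NeZero (twe_Nbal N Q ∅)]
  {L : twe_Level B p Q} {Th : Finset ℕ} [NeZero (twe_Nbal N Q Th)]

theorem twc_fr_N_dvd_Nbal (N : ℕ) (Q Th : Finset ℕ) : N ∣ twe_Nbal N Q Th := by
  unfold twe_Nbal
  exact Dvd.dvd.mul_right (Dvd.intro _ rfl) _

theorem twc_fr_Nbal_dvd (N : ℕ) (Q Th : Finset ℕ) : twe_Nbal N Q ∅ ∣ twe_Nbal N Q Th := by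
  unfold twe_Nbal
  rw [Finset.prod_empty, mul_one]
  exact Dvd.intro _ rfl

/-- `π0 : T' → T_∅` matches the Hecke operators outside `Q ∪ {ℓ ∣ N ∏ t²}`. -/
theorem twc_fr_match_π0 (L : twe_Level B p Q) :
    twc_fr_Match L.H' B.H L.π0 (Q ∪ (twe_Nbal N Q ∅).primeFactors) := by
  classical
  intro ℓ hℓ h2N h2S hℓS
  have h1N : ¬ ℓ ∣ twe_Nbal N Q ∅ := fun h' =>
    hℓS (Finset.mem_union_right _ (Nat.mem_primeFactors.2 ⟨hℓ, h', NeZero.ne _⟩))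
  have h1S : ℓ ∉ (↑(S ∪ Q) : Set ℕ) := by
    intro h'
    rcases Finset.mem_union.1 (Finset.mem_coe.1 h') with h'' | h''
    · exact h2S (Finset.mem_coe.2 h'')
    · exact hℓS (Finset.mem_union_left _ h'')
  exact ⟨h1N, h1S, L.π0_T ℓ hℓ h1N h1S h2N h2S⟩

/-- `π1 : T'' → T'` matches the Hecke operators outside `{ℓ ∣ N ∏ t² ∏ ℓ}`. -/
theorem twc_fr_match_π1 (Bg : twe_Big L Th) :
    twc_fr_Match Bg.H'' L.H' Bg.π1 (twe_Nbal N Q Th).primeFactors := by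
  intro ℓ hℓ h2N h2S hℓS
  have h1N : ¬ ℓ ∣ twe_Nbal N Q Th := fun h' =>
    hℓS (Nat.mem_primeFactors.2 ⟨hℓ, h', NeZero.ne _⟩)
  exact ⟨h1N, h2S, Bg.π1_T ℓ hℓ h1N h2S h2N⟩

theorem twc_fr_π0_surjective (hNS : ∀ ℓ : ℕ, ℓ.Prime → ℓ ∣ N → ℓ ∈ S) (L : twe_Level B p Q) :
    Function.Surjective L.π0 :=
  twc_fr_match_surjective hNS (twc_fr_match_π0 L)

theorem twc_fr_π1_surjective (hNS' : ∀ ℓ : ℕ, ℓ.Prime → ℓ ∣ twe_Nbal N Q ∅ → ℓ ∈ S ∪ Q)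
    (Bg : twe_Big L Th) : Function.Surjective Bg.π1 :=
  twc_fr_match_surjective hNS' (twc_fr_match_π1 Bg)

/-- the eigensystem of the unipotent level is compatible with `ρ̄`. -/
theorem twc_fr_compat_level {ρbar : ResidualGaloisRep (ResidueField 𝒪)} (hc : twt_Compat θ ρbar)
    (L : twe_Level B p Q) : twt_Compat L.θ' ρbar := by
  classical
  intro ℓ hℓ h1 h2 A hA σ hσ
  have h3 : ¬ ℓ ∣ N := fun h' => h1 (dvd_trans h' (twc_fr_N_dvd_Nbal N Q ∅))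
  have h4 : ℓ ∉ (↑S : Set ℕ) := fun h' =>
    h2 (Finset.mem_coe.2 (Finset.mem_union_left _ (Finset.mem_coe.1 h')))
  rw [L.θ'_eq ℓ hℓ h1 h2 h3 h4]
  exact hc ℓ hℓ h3 h4 A hA σ hσ

/-- the eigensystem of the big level is compatible with `ρ̄`. -/
theorem twc_fr_compat_big {ρbar : ResidualGaloisRep (ResidueField 𝒪)} (hc : twt_Compat θ ρbar)
    (Bg : twe_Big L Th) : twt_Compat Bg.θ'' ρbar := by
  classical
  intro ℓ hℓ h1 h2 A hA σ hσ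
  have h3 : ¬ ℓ ∣ N := fun h' => h1 (dvd_trans h' (twc_fr_N_dvd_Nbal N Q Th))
  have h4 : ℓ ∉ (↑S : Set ℕ) := fun h' =>
    h2 (Finset.mem_coe.2 (Finset.mem_union_left _ (Finset.mem_coe.1 h')))
  rw [Bg.θ''_eq ℓ hℓ h1 h2 h3 h4]
  exact hc ℓ hℓ h3 h4 A hA σ hσ

/-- **(F3)**: for a FIXED framing `r0` of `B.H.ρ` lifting `rb`, a framing `r''` of `Bg.H''.ρ`
lifting `rb` whose push-forward to `T_∅` is `r0` EXACTLY. -/
theorem twc_fr_big (hNS : ∀ ℓ : ℕ, ℓ.Prime → ℓ ∣ N → ℓ ∈ S)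
    (hNS'' : ∀ ℓ : ℕ, ℓ.Prime → ℓ ∣ twe_Nbal N Q Th → ℓ ∈ S ∪ Q)
    (Bg : twe_Big L Th) (rb : FramedResidual (ResidueField 𝒪))
    (hc : twt_Compat θ rb.toResidualGaloisRep)
    (r0 : FramedRep B.T) (h0e : B.H.ρ.IsEquiv r0.toGaloisRepAdic)
    (h0l : r0.IsLiftOf rb (ResidueField.map (algebraMap 𝒪 B.T))) :
    ∃ (r'' : FramedRep Bg.T'')
      (hloc : IsLocalHom ((L.π0.comp Bg.π1 : Bg.T'' →ₐ[𝒪] B.T) : Bg.T'' →+* B.T)),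
      Bg.H''.ρ.IsEquiv r''.toGaloisRepAdic ∧
      r''.IsLiftOf rb (ResidueField.map (algebraMap 𝒪 Bg.T'')) ∧
      r''.map ((L.π0.comp Bg.π1 : Bg.T'' →ₐ[𝒪] B.T) : Bg.T'' →+* B.T) hloc = r0 := by
  classical
  obtain ⟨r1, h1e, h1l⟩ := twc_hp_exists_framed Bg.H'' hNS'' rb (twc_fr_compat_big hc Bg)
  obtain ⟨hloc, γ, hγ1, hγ⟩ := twc_fr_reframe hNS
    (twc_fr_match_comp (twc_fr_match_π1 Bg) (twc_fr_match_π0 L)) rb r1 h1e h1l r0 h0e h0l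
  obtain ⟨e1⟩ := h1e
  obtain ⟨e2⟩ := twt_fc_conj_isEquiv r1 γ
  exact ⟨r1.conj γ, hloc, ⟨e1.trans e2⟩, twt_fc_conj_isLiftOf r1 rb _ h1l γ hγ1, hγ⟩

/-- **(F4)**: the push-forward to `T'` of a framing of `Bg.H''.ρ` is a framing of `L.H'.ρ`. -/
theorem twc_fr_level_isEquiv (hNS' : ∀ ℓ : ℕ, ℓ.Prime → ℓ ∣ twe_Nbal N Q ∅ → ℓ ∈ S ∪ Q)
    (Bg : twe_Big L Th) (hloc : IsLocalHom (Bg.π1 : Bg.T'' →+* L.T'))
    (r'' : FramedRep Bg.T'') (h : Bg.H''.ρ.IsEquiv r''.toGaloisRepAdic) :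
    L.H'.ρ.IsEquiv (r''.map (Bg.π1 : Bg.T'' →+* L.T') hloc).toGaloisRepAdic :=
  twc_fr_isEquiv_map hNS' (twc_fr_match_π1 Bg) hloc r'' h

/-- the push-forward to `T_∅` of a framing of `L.H'.ρ` is a framing of `B.H.ρ`. -/
theorem twc_fr_base_isEquiv (hNS : ∀ ℓ : ℕ, ℓ.Prime → ℓ ∣ N → ℓ ∈ S)
    (L : twe_Level B p Q) (hloc : IsLocalHom (L.π0 : L.T' →+* B.T))
    (r' : FramedRep L.T') (h : L.H'.ρ.IsEquiv r'.toGaloisRepAdic) :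
    B.H.ρ.IsEquiv (r'.map (L.π0 : L.T' →+* B.T) hloc).toGaloisRepAdic :=
  twc_fr_isEquiv_map hNS (twc_fr_match_π0 L) hloc r' h

theorem twc_fr_π1_isLocalHom (hNS' : ∀ ℓ : ℕ, ℓ.Prime → ℓ ∣ twe_Nbal N Q ∅ → ℓ ∈ S ∪ Q)
    (Bg : twe_Big L Th) : IsLocalHom (Bg.π1 : Bg.T'' →+* L.T') :=
  IsLocalHom.of_surjective _ (twc_fr_π1_surjective hNS' Bg)

theorem twc_fr_π0_isLocalHom (hNS : ∀ ℓ : ℕ, ℓ.Prime → ℓ ∣ N → ℓ ∈ S) (L : twe_Level B p Q) :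
    IsLocalHom (L.π0 : L.T' →+* B.T) :=
  IsLocalHom.of_surjective _ (twc_fr_π0_surjective hNS L)

/-- **unipotent inertia at the hard primes** for the push-forward to `T'` (level `N ∏ t²`, where
`q ∥ N`): S34 at the unipotent level. -/
theorem twc_fr_level_unip [Finite (ResidueField 𝒪)] [CharZero 𝒪]
    (hp : p.Prime) (hp𝒪 : (p : 𝒪) ∈ maximalIdeal 𝒪) (hpS : p ∈ S)
    (hNS' : ∀ ℓ : ℕ, ℓ.Prime → ℓ ∣ twe_Nbal N Q ∅ → ℓ ∈ S ∪ Q)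
    (Bg : twe_Big L Th) (hloc : IsLocalHom (Bg.π1 : Bg.T'' →+* L.T'))
    (r'' : FramedRep Bg.T'') (h : Bg.H''.ρ.IsEquiv r''.toGaloisRepAdic)
    (q : ℕ) (hq : q.Prime) (hqp : q ≠ p) (hqN : q ∣ twe_Nbal N Q ∅)
    (hq2 : ¬ q ^ 2 ∣ twe_Nbal N Q ∅) :
    (r''.map (Bg.π1 : Bg.T'' →+* L.T') hloc).toGaloisRepAdic.IsUnipotentOnInertiaAt q := by
  classical
  obtain ⟨e⟩ := twc_fr_level_isEquiv hNS' Bg hloc r'' h
  exact s56t_tr_isUnipotentOnInertiaAt e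
    (twt_dl_unip hp hp𝒪 (Finset.mem_union_left _ hpS) hNS' L.H' q hq hqp hqN hq2)

end tower

end

end Fermat.Agent.TW
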