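import Mathlib
import Fermat.Agent.TW.Def.Core
import Fermat.Agent.S56.Asm.MMain
import Fermat.Agent.S56.Tan.Cls
import Fermat.Agent.S56.LocQ.Main
import Fermat.Agent.S56.LocTW.FrobGen
import Fermat.Agent.S56.ChebEl.Closed
import Fermat.Agent.S56.GW.Asm.Final
import Fermat.Agent.S56.GW.Unr.Main
import Fermat.Agent.S56.GW.H2.Main
import Fermat.Agent.S56.GW.Dual.D5.Closed
import Fermat.Agent.S56.GW.LEC.H2.Closed
import Fermat.Agent.S56.GW.EC.GB.Closed
import Fermat.Agent.S56.GW.EC.GB.Final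
import Fermat.Agent.S56.GW.EC.Base.Closed
import Fermat.Agent.S56.Flat.Closed

/-!
# Project TW (S43), block [C] DEF, cell C/Core, closed form (prefix `twc_`)

`twc_core_flat` : the Taylor–Wiles count with hard primes (`twc_core`) for the FLAT condition at
`p`, with every seam of S56 instantiated by its closed proof on main.  No hypothesis left except
the standing hypotheses `s56a_Hyp` on the framed residual representation.
-/

set_option autoImplicit false

open Polynomial IsLocalRing CategoryTheory Module groupCohomology ExtCitation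
open Fermat.Agent.S53 Fermat.Agent.S56

namespace Fermat.Agent.TW

noncomputable section

local notation "GQ" => (AlgebraicClosure ℚ ≃ₐ[ℚ] AlgebraicClosure ℚ)

/-- the closed Greenberg–Wiles seam of S56. -/
theorem twc_gw_closed : s56gw_Main_stmt :=
  s56gwa_main s56gdg_dual (s56egb_GEC_of_C s56eb_C_closed) s56lh_LEC_closed s56gwh_main
    s56gwu_main

/-- **C/Core, closed, flat at `p`.** -/
theorem twc_core_flat (p : ℕ) [Fact p.Prime] {k : Type} [Field k] [Finite k] [Algebra (ZMod p) k]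
    (hp2 : p ≠ 2) (rb : FramedResidual k) (hyp : s56a_Hyp p rb.toResidualGaloisRep)
    (S Smin : Finset ℕ) (hpSmin : p ∈ Smin) (hSmin : Smin ⊆ S)
    (hmin : ∀ q : ℕ, q.Prime → q ≠ p →
      (q ∈ Smin ↔ ¬ rb.toResidualGaloisRep.IsUnramifiedAt q))
    (Th : Finset Nat.Primes) (hThS : ∀ ℓ ∈ Th, (ℓ : ℕ) ∈ S) (hThmin : ∀ ℓ ∈ Th, (ℓ : ℕ) ∉ Smin)
    (hscal : ∀ ℓ ∈ Th, ∀ σ ∈ (primeLocalPlace ℓ).decompositionSubgroup ℚ,
      ∃ a : k, rb σ = Matrix.scalar (Fin 2) a) :
    ∃ r : ℕ, ∀ n : ℕ, ∃ qv : Fin r → ℕ, Function.Injective qv ∧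
      (∀ i, (qv i).Prime ∧ qv i ∉ S ∧ p ^ (n + 1) ∣ qv i - 1) ∧
      (∀ i, ∀ P : ValuationSubring (AlgebraicClosure ℚ), P.LiesOverPrime (qv i) →
        ∀ φ : GQ, P.IsFrobeniusAt φ (qv i) → ∃ α β : k, α ≠ β ∧
          LinearMap.charpoly (rb.toResidualGaloisRep.ρ φ) = (X - C α) * (X - C β)) ∧
      3 * Th.card ≤ r ∧
      ∃ W : Submodule (ZMod p) (H1 (s56a_ad p rb)), Finite W ∧
        Nat.card W * Nat.card k ^ (3 * Th.card) ≤ Nat.card k ^ r ∧
        ∀ (r' : FramedRep (DualNumber k)) (hc : s56t_IsCoc rb.toMonoidHom (s56t_coc r')),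
          (∀ σ, s56t_bar r' σ = rb σ) → r'.toGaloisRepAdic.DetIsCyclotomic p →
          r'.toGaloisRepAdic.IsFlatAt p →
          (∀ q : ℕ, q.Prime →
            q ∉ Smin ∪ Th.image (fun ℓ : Nat.Primes => (ℓ : ℕ)) ∪ Finset.univ.image qv →
            r'.toGaloisRepAdic.IsUnramifiedAt q) →
          (∀ q ∈ Smin, q.Prime → q ≠ p → r'.toGaloisRepAdic.IsUnipotentOnInertiaAt q) →
          (∀ ℓ ∈ Th, ∀ σ ∈ (primeLocalPlace ℓ).decompositionSubgroup ℚ, s56t_coc r' σ = 0) →
          s56t_cls p (s56t_coc r') hc ∈ W :=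
  twc_core p twc_gw_closed s56ac_main s56q_main s56w_locTW s56ce_cheb_closed s56am_main hp2 rb hyp
    (fun r => r.toGaloisRepAdic.IsFlatAt p) (s56f_closed p hp2 k rb hyp.hsplit)
    S Smin hpSmin hSmin hmin Th hThS hThmin hscal

end

end Fermat.Agent.TW
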