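import Mathlib
import Fermat.Agent.TW.Def.Seams
import Fermat.Agent.TW.Def.CoreClosed
import Fermat.Agent.S56.Tan.Count
import Fermat.Agent.S56.PS.Conditions

/-!
# Project TW (S43), block [C] DEF, cell C/Count (prefix `twc_`)

`twc_count : twc_Count_stmt` — for the Taylor–Wiles primes of `twc_core_flat` and every Hecke pair
`H` of the enlarged type, the `𝒪`-algebra maps `H.T → k[ε]` killing the local coordinates at the
hard primes inject into the Selmer group `W` of `twc_core_flat`: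

* `φ ↦` the class of the cocycle of the frame `H.r.map φ`;
* the frame has the type of `twc_core_flat` (`twc_frame_*`): determinant, flatness (for `φ` onto),
  ramification, unipotence are pushed forward along `φ`; the cocycle VANISHES on the decomposition
  groups at the hard primes because the image of `D_ℓ` is generated by `φ_ℓ^{±1}, σ_ℓ`
  (`twc_TameData.gen`) whose images have no `ε`-part (`twc_LocTriv`);
* cohomologous cocycles give conjugate frames, hence equal traces, hence equal maps (`H.gen`).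
-/

set_option autoImplicit false
set_option linter.unusedSectionVars false
set_option linter.style.haveILetI false

open Polynomial IsLocalRing ExtCitation
open Fermat.Agent.S53 Fermat.Agent.S56

namespace Fermat.Agent.TW

noncomputable section

local notation "GQ" => (AlgebraicClosure ℚ ≃ₐ[ℚ] AlgebraicClosure ℚ)
local notation "Qbar" => AlgebraicClosure ℚ

/-! ### matrices over the dual numbers without `ε`-part -/

section NoEps

variable {k : Type} [Field k]

/-- the matrices over `k[ε]` without `ε`-part. -/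
def twc_noEps : Submonoid (Matrix (Fin 2) (Fin 2) (DualNumber k)) where
  carrier := {M | s56t_snd M = 0}
  one_mem' := s56t_snd_one
  mul_mem' := by
    intro M N hM hN
    show s56t_snd (M * N) = 0
    rw [s56t_snd_mul, show s56t_snd M = 0 from hM, show s56t_snd N = 0 from hN, Matrix.mul_zero,
      Matrix.zero_mul, add_zero]

theorem twc_mem_noEps (M : Matrix (Fin 2) (Fin 2) (DualNumber k)) :
    M ∈ twc_noEps (k := k) ↔ s56t_snd M = 0 := Iff.rfl

/-- a left inverse of a matrix without `ε`-part has no `ε`-part. -/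
theorem twc_noEps_of_mul_eq_one {X Y : Matrix (Fin 2) (Fin 2) (DualNumber k)}
    (hX : s56t_snd X = 0) (h1 : Y * X = 1) (h2 : X * Y = 1) : s56t_snd Y = 0 := by
  have h3 := congrArg s56t_snd h1
  rw [s56t_snd_mul, hX, Matrix.mul_zero, zero_add, s56t_snd_one] at h3
  have h4 := congrArg s56t_fst h2
  rw [s56t_fst_mul, s56t_fst_one] at h4
  calc s56t_snd Y = s56t_snd Y * (s56t_fst X * s56t_fst Y) := by rw [h4, Matrix.mul_one]
    _ = 0 := by rw [← Matrix.mul_assoc, h3, Matrix.zero_mul]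

theorem twc_snd_scalar (c : k) :
    s56t_snd (Matrix.scalar (Fin 2) (algebraMap k (DualNumber k) c)) = 0 := by
  ext i j
  by_cases h : i = j
  · subst h; simp [TrivSqZeroExt.algebraMap_eq_inl]
  · simp [Matrix.scalar_apply, Matrix.diagonal_apply_ne _ h]

/-- a matrix over `k[ε]` with reduction `1` has `p`-th power `1` in characteristic `p`. -/
theorem twc_pow_char_eq_one (p : ℕ) [CharP k p] (M : Matrix (Fin 2) (Fin 2) (DualNumber k))
    (hM : s56t_fst M = 1) : M ^ p = 1 := by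
  obtain ⟨N, hN⟩ : ∃ N, M = s56t_mk 1 N := ⟨s56t_snd M, by rw [← hM, s56t_mk_fst_snd]⟩
  have hE : ∀ n : ℕ, M ^ n = s56t_mk 1 (n • N) := by
    intro n
    induction n with
    | zero => rw [pow_zero, zero_smul, s56t_mk_one_zero]
    | succ n ih =>
      rw [pow_succ, ih, hN, s56t_mk_mul, Matrix.one_mul, Matrix.one_mul, Matrix.mul_one,
        succ_nsmul, add_comm]
  rw [hE p]
  have : p • N = 0 := by
    ext i j
    rw [Matrix.smul_apply, nsmul_eq_mul, CharP.cast_eq_zero k p, zero_mul, Matrix.zero_apply]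
  rw [this, s56t_mk_one_zero]

end NoEps

/-! ### `𝒪`-algebra maps from a local `𝒪`-algebra with residue field `k` to `k[ε]` -/

section Hom

variable {𝒪 : Type} [CommRing 𝒪] [IsLocalRing 𝒪]
  {T : Type} [CommRing T] [IsLocalRing T] [Algebra 𝒪 T] [IsLocalHom (algebraMap 𝒪 T)]

attribute [local instance] S53.dualNumberAlgebra

/-- every `𝒪`-algebra map to the dual numbers is local. -/
theorem twc_isLocalHom (φ : T →ₐ[𝒪] DualNumber (ResidueField 𝒪)) :
    IsLocalHom (φ : T →+* DualNumber (ResidueField 𝒪)) :=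
  haveI := S53.isLocalHom_algebraMap_dualNumber 𝒪
  S53.isLocalHom_of_residue_surjective
    (S53.isArtinianTestAlgebra_dualNumber 𝒪).residue_surjective φ

/-- the first component of `φ a` is the residue of `a`. -/
theorem twc_fst_of_residue (φ : T →ₐ[𝒪] DualNumber (ResidueField 𝒪)) (a : T)
    (x : ResidueField 𝒪) (h : residue T a = ResidueField.map (algebraMap 𝒪 T) x) :
    TrivSqZeroExt.fst (φ a) = x := by
  obtain ⟨o, rfl⟩ := residue_surjective x
  rw [ResidueField.map_residue] at h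
  have hu : a - algebraMap 𝒪 T o ∈ maximalIdeal T := by
    rw [← residue_eq_zero_iff, map_sub, sub_eq_zero]
    exact h
  have h1 : φ (a - algebraMap 𝒪 T o) ∈ maximalIdeal (DualNumber (ResidueField 𝒪)) := by
    haveI := twc_isLocalHom φ
    exact map_nonunit (φ : T →+* DualNumber (ResidueField 𝒪)) _ hu
  rw [mem_maximalIdeal_dualNumber_iff, map_sub, AlgHom.commutes,
    S53.algebraMap_dualNumber_apply, TrivSqZeroExt.fst_sub, sub_eq_zero] at h1
  rw [h1]
  simp [TrivSqZeroExt.algebraMap_eq_inl]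

/-- a map to the dual numbers with a nonzero `ε`-component on the maximal ideal is onto. -/
theorem twc_surjective_of_snd_ne_zero (φ : T →ₐ[𝒪] DualNumber (ResidueField 𝒪)) (u : T)
    (hu1 : TrivSqZeroExt.fst (φ u) = 0) (hu2 : TrivSqZeroExt.snd (φ u) ≠ 0) :
    Function.Surjective φ := by
  intro y
  obtain ⟨c, hc⟩ := residue_surjective (R := 𝒪) (TrivSqZeroExt.fst y)
  obtain ⟨e, he⟩ := residue_surjective (R := 𝒪)
    (TrivSqZeroExt.snd y * (TrivSqZeroExt.snd (φ u))⁻¹)
  refine ⟨algebraMap 𝒪 T c + algebraMap 𝒪 T e * u, ?_⟩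
  rw [map_add, map_mul, AlgHom.commutes, AlgHom.commutes, S53.algebraMap_dualNumber_apply,
    S53.algebraMap_dualNumber_apply, hc, he]
  ext
  · simp [TrivSqZeroExt.algebraMap_eq_inl, hu1]
  · simp [TrivSqZeroExt.algebraMap_eq_inl, hu1]
    rw [mul_assoc, inv_mul_cancel₀ hu2, mul_one]

/-- a non-surjective `φ` has no `ε`-part. -/
theorem twc_snd_of_not_surjective (hres : Function.Surjective (residue T ∘ algebraMap 𝒪 T))
    (φ : T →ₐ[𝒪] DualNumber (ResidueField 𝒪)) (h : ¬ Function.Surjective φ) (a : T) :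
    TrivSqZeroExt.snd (φ a) = 0 := by
  obtain ⟨o, ho⟩ := hres (residue T a)
  have hu : a - algebraMap 𝒪 T o ∈ maximalIdeal T := by
    rw [← residue_eq_zero_iff, map_sub, sub_eq_zero]
    exact ho.symm
  have h1 : φ (a - algebraMap 𝒪 T o) ∈ maximalIdeal (DualNumber (ResidueField 𝒪)) := by
    haveI := twc_isLocalHom φ
    exact map_nonunit (φ : T →+* DualNumber (ResidueField 𝒪)) _ hu
  rw [mem_maximalIdeal_dualNumber_iff] at h1
  have h2 : TrivSqZeroExt.snd (φ (a - algebraMap 𝒪 T o)) = 0 := by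
    by_contra hne
    exact h (twc_surjective_of_snd_ne_zero φ _ h1 hne)
  rw [map_sub, AlgHom.commutes, S53.algebraMap_dualNumber_apply, TrivSqZeroExt.snd_sub,
    sub_eq_zero] at h2
  rw [h2]
  simp [TrivSqZeroExt.algebraMap_eq_inl]

/-- the frame of the specialisation of a framed representation along `φ`. -/
def twc_frame (r : FramedRep T) (φ : T →ₐ[𝒪] DualNumber (ResidueField 𝒪)) :
    FramedRep (DualNumber (ResidueField 𝒪)) :=
  r.map (φ : T →+* DualNumber (ResidueField 𝒪)) (twc_isLocalHom φ)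

@[simp] theorem twc_frame_apply (r : FramedRep T) (φ : T →ₐ[𝒪] DualNumber (ResidueField 𝒪))
    (σ : GQ) : twc_frame r φ σ = (r σ).map φ := rfl

theorem twc_frame_isEquiv (r : FramedRep T) (φ : T →ₐ[𝒪] DualNumber (ResidueField 𝒪)) :
    (r.toGaloisRepAdic.baseChangeAlong (φ : T →+* DualNumber (ResidueField 𝒪))
      (twc_isLocalHom φ)).IsEquiv (twc_frame r φ).toGaloisRepAdic :=
  FramedRep.baseChangeAlong_isEquiv (φ : T →+* DualNumber (ResidueField 𝒪)) (twc_isLocalHom φ) r

/-- **all the frames reduce to the fixed residual frame.** -/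
theorem twc_frame_bar (r : FramedRep T) {rb : FramedResidual (ResidueField 𝒪)}
    (hlift : r.IsLiftOf rb (ResidueField.map (algebraMap 𝒪 T)))
    (φ : T →ₐ[𝒪] DualNumber (ResidueField 𝒪)) (σ : GQ) :
    s56t_bar (twc_frame r φ) σ = rb σ := by
  ext i j
  rw [s56t_bar_apply, s56t_fst_apply, twc_frame_apply, Matrix.map_apply]
  refine twc_fst_of_residue φ _ _ ?_
  have := congrFun (congrFun (hlift σ) i) j
  rwa [Matrix.map_apply, Matrix.map_apply] at this

/-- **the non-surjective specialisation has cocycle zero.** -/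
theorem twc_frame_coc_of_not_surjective
    (hres : Function.Surjective (residue T ∘ algebraMap 𝒪 T)) (r : FramedRep T)
    (φ : T →ₐ[𝒪] DualNumber (ResidueField 𝒪)) (h : ¬ Function.Surjective φ) (σ : GQ) :
    s56t_coc (twc_frame r φ) σ = 0 := by
  have h1 : s56t_snd (twc_frame r φ σ) = 0 := by
    ext i j
    rw [s56t_snd_apply, twc_frame_apply, Matrix.map_apply, Matrix.zero_apply]
    exact twc_snd_of_not_surjective hres φ h _
  rw [s56t_coc, h1, Matrix.zero_mul]

/-- the trace of the frame. -/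
theorem twc_frame_trace (r : FramedRep T) (φ : T →ₐ[𝒪] DualNumber (ResidueField 𝒪)) (σ : GQ) :
    Matrix.trace (twc_frame r φ σ) = φ (Matrix.trace (r σ)) := by
  rw [twc_frame_apply, Matrix.trace_fin_two, Matrix.trace_fin_two, map_add]
  rfl

/-- **cohomologous cocycles ⟹ the same traces.** -/
theorem twc_frame_trace_eq (r : FramedRep T) {rb : FramedResidual (ResidueField 𝒪)}
    (hlift : r.IsLiftOf rb (ResidueField.map (algebraMap 𝒪 T)))
    (φ φ' : T →ₐ[𝒪] DualNumber (ResidueField 𝒪)) (m : Matrix (Fin 2) (Fin 2) (ResidueField 𝒪))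
    (h : ∀ σ, s56t_coc (twc_frame r φ) σ - s56t_coc (twc_frame r φ') σ =
      rb σ * m * rb σ⁻¹ - m) (σ : GQ) :
    φ (Matrix.trace (r σ)) = φ' (Matrix.trace (r σ)) := by
  have he := s56t_equiv_of_cob (twc_frame r φ) (twc_frame r φ')
    (fun σ => by rw [twc_frame_bar r hlift, twc_frame_bar r hlift]) m
    (fun σ => by rw [h σ, twc_frame_bar r hlift, twc_frame_bar r hlift])
  rw [FramedRep.isEquiv_iff_conj] at he
  obtain ⟨γ, hγ⟩ := he
  rw [← twc_frame_trace, ← twc_frame_trace]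
  have h1 : twc_frame r φ' σ = γ.val * twc_frame r φ σ * γ.inv := by
    rw [hγ σ, mul_assoc, γ.val_inv, mul_one]
  rw [h1, Matrix.trace_mul_comm, ← mul_assoc, γ.inv_val, one_mul]

end Hom

/-! ### the type of the frames -/

section FrameType

variable {𝒪 : Type} [CommRing 𝒪] [IsLocalRing 𝒪]
  {T : Type} [CommRing T] [IsLocalRing T] [Algebra 𝒪 T] [IsLocalHom (algebraMap 𝒪 T)]

attribute [local instance] S53.dualNumberAlgebra

theorem twc_frame_det (r : FramedRep T) (φ : T →ₐ[𝒪] DualNumber (ResidueField 𝒪)) {p : ℕ}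
    (h : r.toGaloisRepAdic.DetIsCyclotomic p) :
    (twc_frame r φ).toGaloisRepAdic.DetIsCyclotomic p := by
  obtain ⟨e⟩ := twc_frame_isEquiv r φ
  exact s56t_tr_detIsCyclotomic e (s56bc_det _ (twc_isLocalHom φ) _ p h)

theorem twc_frame_unram (r : FramedRep T) (φ : T →ₐ[𝒪] DualNumber (ResidueField 𝒪)) {q : ℕ}
    (h : r.toGaloisRepAdic.IsUnramifiedAt q) :
    (twc_frame r φ).toGaloisRepAdic.IsUnramifiedAt q := by
  obtain ⟨e⟩ := twc_frame_isEquiv r φ
  exact s56t_tr_isUnramifiedAt e (s56bc_unramified _ (twc_isLocalHom φ) _ q h)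

theorem twc_frame_unip (r : FramedRep T) (φ : T →ₐ[𝒪] DualNumber (ResidueField 𝒪)) {q : ℕ}
    (h : r.toGaloisRepAdic.IsUnipotentOnInertiaAt q) :
    (twc_frame r φ).toGaloisRepAdic.IsUnipotentOnInertiaAt q := by
  obtain ⟨e⟩ := twc_frame_isEquiv r φ
  exact s56t_tr_isUnipotentOnInertiaAt e (s56bc_unipotent _ (twc_isLocalHom φ) _ q h)

theorem twc_frame_flat (r : FramedRep T) (φ : T →ₐ[𝒪] DualNumber (ResidueField 𝒪))
    (hφ : Function.Surjective φ) {p : ℕ} (h : r.toGaloisRepAdic.IsFlatAt p) :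
    (twc_frame r φ).toGaloisRepAdic.IsFlatAt p := by
  obtain ⟨e⟩ := twc_frame_isEquiv r φ
  exact s56t_tr_isFlatAt e (s56bc_flat _ (twc_isLocalHom φ) hφ _ p h)

end FrameType

/-! ### the cocycle of a frame vanishes on the decomposition groups at the hard primes -/

section Loc

variable {𝒪 : Type} [CommRing 𝒪] [IsLocalRing 𝒪] {rb : FramedResidual (ResidueField 𝒪)}

attribute [local instance] S53.dualNumberAlgebra

theorem twc_frame_coc_loc {p : ℕ} [CharP (ResidueField 𝒪) p] {Th : Finset Nat.Primes}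
    (td : twc_TameData p Th) (a : Nat.Primes → 𝒪) (H : twc_HPair 𝒪 rb)
    (φ : H.T →ₐ[𝒪] DualNumber (ResidueField 𝒪)) (hφ : twc_LocTriv td a H φ)
    (hunr : ∀ ℓ ∈ Th, ∀ τ ∈ (primeLocalPlace ℓ).inertiaSubgroupIn ℚ, rb τ = 1)
    (ℓ : Nat.Primes) (hℓ : ℓ ∈ Th) (τ : GQ)
    (hτ : τ ∈ (primeLocalPlace ℓ).decompositionSubgroup ℚ) :
    s56t_coc (twc_frame H.r φ) τ = 0 := by
  set f : GQ →* Matrix (Fin 2) (Fin 2) (DualNumber (ResidueField 𝒪)) :=
    (twc_frame H.r φ).toMonoidHom with hf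
  have hfa : ∀ σ, f σ = twc_frame H.r φ σ := fun _ => rfl
  obtain ⟨L, hL, hlev⟩ := s56t_exists_level (twc_frame H.r φ)
  have hpg : ∀ τ ∈ (primeLocalPlace ℓ).inertiaSubgroupIn ℚ, ∃ n : ℕ, f τ ^ p ^ n = 1 := by
    intro τ hτ
    refine ⟨1, ?_⟩
    rw [pow_one]
    refine twc_pow_char_eq_one p _ ?_
    rw [hfa, ← s56t_bar_apply, twc_frame_bar H.r H.lift, hunr ℓ hℓ τ hτ]
  have hmem := td.gen ℓ hℓ _ f ⟨L, hL, hlev⟩ hpg τ hτ
  have hle : Submonoid.closure ({f (td.gφ ℓ), f (td.gφ ℓ)⁻¹, f (td.gσ ℓ)} :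
      Set (Matrix (Fin 2) (Fin 2) (DualNumber (ResidueField 𝒪)))) ≤
      twc_noEps (k := ResidueField 𝒪) := by
    rw [Submonoid.closure_le]
    have h1 : s56t_snd (f (td.gφ ℓ)) = 0 := by
      rw [hfa, twc_frame_apply, (hφ ℓ hℓ).2, S53.algebraMap_dualNumber_apply]
      exact twc_snd_scalar _
    intro x hx
    rcases hx with rfl | rfl | rfl
    · exact h1
    · refine twc_noEps_of_mul_eq_one h1 ?_ ?_
      · rw [← map_mul, inv_mul_cancel, map_one]
      · rw [← map_mul, mul_inv_cancel, map_one]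
    · show s56t_snd (f (td.gσ ℓ)) = 0
      rw [hfa, twc_frame_apply, (hφ ℓ hℓ).1, s56t_snd_one]
  have h2 : s56t_snd (twc_frame H.r φ τ) = 0 := hle hmem
  rw [s56t_coc, h2, Matrix.zero_mul]

end Loc

/-! ### the count -/

section Main

attribute [local instance] S53.dualNumberAlgebra

/-- the residual frame is trivial on inertia at the hard primes. -/
theorem twc_rb_unram {k : Type} [Field k] (rb : FramedResidual k) (p : ℕ) (Smin : Finset ℕ)
    (hpSmin : p ∈ Smin)
    (hmin : ∀ q : ℕ, q.Prime → q ≠ p → (q ∈ Smin ↔ ¬ rb.toResidualGaloisRep.IsUnramifiedAt q))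
    (Th : Finset Nat.Primes) (hThmin : ∀ ℓ ∈ Th, (ℓ : ℕ) ∉ Smin) :
    ∀ ℓ ∈ Th, ∀ τ ∈ (primeLocalPlace ℓ).inertiaSubgroupIn ℚ, rb τ = 1 := by
  intro ℓ hℓ τ hτ
  have hne : (ℓ : ℕ) ≠ p := fun h => hThmin ℓ hℓ (h ▸ hpSmin)
  have hur : rb.toResidualGaloisRep.IsUnramifiedAt (ℓ : ℕ) := by
    by_contra h
    exact hThmin ℓ hℓ ((hmin ℓ ℓ.2 hne).mpr h)
  have h1 := hur (primeLocalPlace ℓ) (s56gwu_place_liesOver ℓ) τ hτ
  have h2 : Matrix.toLin' (rb τ) = Matrix.toLin' (1 : Matrix (Fin 2) (Fin 2) k) := by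
    rw [Matrix.toLin'_one]; exact h1
  exact Matrix.toLin'.injective h2

/-- **C/Count.** -/
theorem twc_count : twc_Count_stmt := by
  intro 𝒪 _ _ _ _ _ p _ hp2 hp𝒪 rb hyp S Smin hpSmin hSmin hmin Th hThS hThmin _ a hscal td _
  classical
  haveI : CharP (ResidueField 𝒪) p := s56a_charP p hp𝒪
  letI : Algebra (ZMod p) (ResidueField 𝒪) := ZMod.algebra _ p
  haveI : NeZero p := ⟨(Fact.out : p.Prime).ne_zero⟩
  obtain ⟨r, h⟩ := twc_core_flat p hp2 rb hyp S Smin hpSmin hSmin hmin Th hThS hThmin hscal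
  refine ⟨r, ?_, fun n => ?_⟩
  · obtain ⟨qv, -, -, -, h4, -⟩ := h 0
    exact h4
  obtain ⟨qv, h1, h2, h3, -, W, hWfin, hWcard, hWmem⟩ := h n
  refine ⟨qv, h1, h2, h3, fun H hType F hF => ?_⟩
  haveI := hWfin
  obtain ⟨hdet, hflat, hunr, hunip⟩ := hType
  have hrbI := twc_rb_unram rb p Smin hpSmin hmin Th hThmin
  have hbar : ∀ (φ : H.T →ₐ[𝒪] DualNumber (ResidueField 𝒪)) (σ : GQ),
      s56t_bar (twc_frame H.r φ) σ = rb.toMonoidHom σ :=
    fun φ σ => twc_frame_bar H.r H.lift φ σ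
  have htr : ∀ (φ : H.T →ₐ[𝒪] DualNumber (ResidueField 𝒪)) (σ : GQ),
      Matrix.trace (s56t_coc (twc_frame H.r φ) σ) = 0 :=
    fun φ σ => s56t_cyc_trace _ (twc_frame_det H.r φ hdet) σ
  have hcoc : ∀ φ : H.T →ₐ[𝒪] DualNumber (ResidueField 𝒪),
      s56t_IsCoc rb.toMonoidHom (s56t_coc (twc_frame H.r φ)) :=
    fun φ => s56t_isCoc_of_framed _ (hbar φ) (htr φ)
  have hfW : ∀ φ ∈ F, s56t_cls p (s56t_coc (twc_frame H.r φ)) (hcoc φ) ∈ W := by
    intro φ hφF
    by_cases hs : Function.Surjective φ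
    · exact hWmem _ (hcoc φ) (hbar φ) (twc_frame_det H.r φ hdet) (twc_frame_flat H.r φ hs hflat)
        (fun q hq hqn => twc_frame_unram H.r φ (hunr q hq hqn))
        (fun q hq hqp hne => twc_frame_unip H.r φ (hunip q hq hqp hne))
        (fun ℓ hℓ σ hσ => twc_frame_coc_loc td a H φ (hF φ hφF) hrbI ℓ hℓ σ hσ)
    · have h0 : s56t_cls p (s56t_coc (twc_frame H.r φ)) (hcoc φ) = 0 := by
        rw [s56t_cls_eq_zero_iff]
        refine ⟨0, Matrix.trace_zero _ _, fun σ => ?_⟩
        rw [twc_frame_coc_of_not_surjective H.residue_surjective H.r φ hs, Matrix.mul_zero,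
          Matrix.zero_mul, sub_zero]
      rw [h0]
      exact W.zero_mem
  let f : {φ // φ ∈ F} → W := fun φ => ⟨_, hfW φ.1 φ.2⟩
  have hinj : Function.Injective f := by
    intro φ φ' h
    have h1 := congrArg Subtype.val h
    obtain ⟨m, -, hm⟩ := (s56t_cls_eq_iff p (hcoc φ.1) (hcoc φ'.1)).mp h1
    exact Subtype.ext (H.gen φ.1 φ'.1 (twc_frame_trace_eq H.r H.lift φ.1 φ'.1 m hm))
  have hcard : F.card ≤ Nat.card W := by
    calc F.card = Nat.card {φ // φ ∈ F} := by
          rw [Nat.card_eq_fintype_card, Fintype.card_coe]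
      _ ≤ Nat.card W := Nat.card_le_card_of_injective f hinj
  exact le_trans (Nat.mul_le_mul_right _ hcard) hWcard

end Main

end

end Fermat.Agent.TW
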