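import Mathlib
import Fermat.Agent.TW.Def.Count
import Fermat.Agent.TW.Def.RelCot

/-!
# Project TW (S43), block [C] DEF, cell C/Present (prefix `twc_`)

THE deliverable of the Galois-cohomology side of block [C], in COORDINATE-FREE form.

* `twc_LocNoEps td H φ` : the images of `r(σ_ℓ)`, `r(φ_ℓ)` (`ℓ` hard) under `φ : T → k[ε]` have no
  `ε`-part.  This is the weakest hypothesis under which the count works.
* `twc_finrank_le` : ONE existential `∃ r, ∀ n, ∃ qv` (the Taylor–Wiles primes of `twc_core_flat`)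
  such that for every Hecke pair `H` of the enlarged type and EVERY family `z : ι → 𝔪_T` of "local
  coordinates" (any family such that the maps `T → k[ε]` killing it satisfy `twc_LocNoEps`) the
  relative cotangent space `𝔪_T / (𝔪_T² + 𝔪_𝒪 T + (z))` has dimension `≤ r - 3 |Th|`.
* `twc_present_gen` : hence a surjection `𝒪⟦ι ⊕ Fin (r - 3|Th|)⟧ ↠ T`, `X (inl i) ↦ z i`.
* `twc_present : twc_Present_stmt` : the instance with the `8 |Th|` coordinates "all entries of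
  `r(σ_ℓ) - 1`, `r(φ_ℓ) - a_ℓ`".
* `twc_locNoEps_of_scalar` : the instance for traceless coordinates: if `φ` makes `r(σ_ℓ)`,
  `r(φ_ℓ)` scalar then (cyclotomic determinant, `p ≠ 2`) they have no `ε`-part.
-/

set_option autoImplicit false
set_option linter.unusedSectionVars false
set_option linter.style.haveILetI false

open Polynomial IsLocalRing ExtCitation
open Fermat.Agent.S53 Fermat.Agent.S56

namespace Fermat.Agent.TW

noncomputable section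

local notation "GQ" => (AlgebraicClosure ℚ ≃ₐ[ℚ] AlgebraicClosure ℚ)
local notation "Qbar" => AlgebraicClosure ℚ

attribute [local instance] S53.dualNumberAlgebra

section Loc

variable {𝒪 : Type} [CommRing 𝒪] [IsLocalRing 𝒪] {rb : FramedResidual (ResidueField 𝒪)}

/-- the images of `r(σ_ℓ)`, `r(φ_ℓ)` under `φ` have no `ε`-part. -/
def twc_LocNoEps {p : ℕ} {Th : Finset Nat.Primes} (td : twc_TameData p Th)
    (H : twc_HPair 𝒪 rb) (φ : H.T →ₐ[𝒪] DualNumber (ResidueField 𝒪)) : Prop :=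
  ∀ ℓ ∈ Th, s56t_snd ((H.r (td.gσ ℓ)).map φ) = 0 ∧ s56t_snd ((H.r (td.gφ ℓ)).map φ) = 0

theorem twc_locNoEps_of_locTriv {p : ℕ} {Th : Finset Nat.Primes} (td : twc_TameData p Th)
    (a : Nat.Primes → 𝒪) (H : twc_HPair 𝒪 rb) (φ : H.T →ₐ[𝒪] DualNumber (ResidueField 𝒪))
    (h : twc_LocTriv td a H φ) : twc_LocNoEps td H φ := by
  intro ℓ hℓ
  refine ⟨?_, ?_⟩
  · rw [(h ℓ hℓ).1, s56t_snd_one]
  · rw [(h ℓ hℓ).2, S53.algebraMap_dualNumber_apply]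
    exact twc_snd_scalar _

/-- the cocycle of the frame vanishes on the decomposition groups at the hard primes. -/
theorem twc_frame_coc_loc' {p : ℕ} [CharP (ResidueField 𝒪) p] {Th : Finset Nat.Primes}
    (td : twc_TameData p Th) (H : twc_HPair 𝒪 rb)
    (φ : H.T →ₐ[𝒪] DualNumber (ResidueField 𝒪)) (hφ : twc_LocNoEps td H φ)
    (hunr : ∀ ℓ ∈ Th, ∀ τ ∈ (primeLocalPlace ℓ).inertiaSubgroupIn ℚ, rb τ = 1)
    (ℓ : Nat.Primes) (hℓ : ℓ ∈ Th) (τ : GQ)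
    (hτ : τ ∈ (primeLocalPlace ℓ).decompositionSubgroup ℚ) :
    s56t_coc (twc_frame H.r φ) τ = 0 := by
  set f : GQ →* Matrix (Fin 2) (Fin 2) (DualNumber (ResidueField 𝒪)) :=
    (twc_frame H.r φ).toMonoidHom with hf
  have hfa : ∀ σ, f σ = twc_frame H.r φ σ := fun _ => rfl
  obtain ⟨L, hL, hlev⟩ := s56t_exists_level (twc_frame H.r φ)
  have hpg : ∀ τ ∈ (primeLocalPlace ℓ).inertiaSubgroupIn ℚ, ∃ n : ℕ, f τ ^ p ^ n = 1 := by
    intro τ hτ
    refine ⟨1, ?_⟩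
    rw [pow_one]
    refine twc_pow_char_eq_one p _ ?_
    rw [hfa, ← s56t_bar_apply, twc_frame_bar H.r H.lift, hunr ℓ hℓ τ hτ]
  have hmem := td.gen ℓ hℓ _ f ⟨L, hL, hlev⟩ hpg τ hτ
  have hle : Submonoid.closure ({f (td.gφ ℓ), f (td.gφ ℓ)⁻¹, f (td.gσ ℓ)} :
      Set (Matrix (Fin 2) (Fin 2) (DualNumber (ResidueField 𝒪)))) ≤
      twc_noEps (k := ResidueField 𝒪) := by
    rw [Submonoid.closure_le]
    have h1 : s56t_snd (f (td.gφ ℓ)) = 0 := by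
      rw [hfa, twc_frame_apply]
      exact (hφ ℓ hℓ).2
    intro x hx
    rcases hx with rfl | rfl | rfl
    · exact h1
    · refine twc_noEps_of_mul_eq_one h1 ?_ ?_
      · rw [← map_mul, inv_mul_cancel, map_one]
      · rw [← map_mul, mul_inv_cancel, map_one]
    · show s56t_snd (f (td.gσ ℓ)) = 0
      rw [hfa, twc_frame_apply]
      exact (hφ ℓ hℓ).1
  have h2 : s56t_snd (twc_frame H.r φ τ) = 0 := hle hmem
  rw [s56t_coc, h2, Matrix.zero_mul]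

end Loc

section Main

/-- **C/Count, general form**: the maps `T → k[ε]` with `twc_LocNoEps`. -/
theorem twc_count_gen (𝒪 : Type) [CommRing 𝒪] [IsDomain 𝒪] [IsDiscreteValuationRing 𝒪]
    [IsAdicComplete (maximalIdeal 𝒪) 𝒪] [Finite (ResidueField 𝒪)]
    (p : ℕ) [Fact p.Prime] (hp2 : p ≠ 2) (hp𝒪 : (p : 𝒪) ∈ maximalIdeal 𝒪)
    (rb : FramedResidual (ResidueField 𝒪)) (hyp : s56a_Hyp p rb.toResidualGaloisRep)
    (S Smin : Finset ℕ) (hpSmin : p ∈ Smin) (hSmin : Smin ⊆ S)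
    (hmin : ∀ q : ℕ, q.Prime → q ≠ p →
      (q ∈ Smin ↔ ¬ rb.toResidualGaloisRep.IsUnramifiedAt q))
    (Th : Finset Nat.Primes) (hThS : ∀ ℓ ∈ Th, (ℓ : ℕ) ∈ S) (hThmin : ∀ ℓ ∈ Th, (ℓ : ℕ) ∉ Smin)
    (hscal : ∀ ℓ ∈ Th, ∀ σ ∈ (primeLocalPlace ℓ).decompositionSubgroup ℚ,
      ∃ c : ResidueField 𝒪, rb σ = Matrix.scalar (Fin 2) c)
    (td : twc_TameData p Th) :
    ∃ r : ℕ, 3 * Th.card ≤ r ∧ ∀ n : ℕ, ∃ qv : Fin r → ℕ, Function.Injective qv ∧
      (∀ i, (qv i).Prime ∧ qv i ∉ S ∧ p ^ (n + 1) ∣ qv i - 1) ∧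
      (∀ i, ∀ P : ValuationSubring Qbar, P.LiesOverPrime (qv i) →
        ∀ φ : GQ, P.IsFrobeniusAt φ (qv i) → ∃ α β : ResidueField 𝒪, α ≠ β ∧
          LinearMap.charpoly (rb.toResidualGaloisRep.ρ φ) = (X - C α) * (X - C β)) ∧
      ∀ (H : twc_HPair 𝒪 rb),
        twc_IsType p Smin Th (Finset.univ.image qv) H.r.toGaloisRepAdic →
        ∀ F : Finset (H.T →ₐ[𝒪] DualNumber (ResidueField 𝒪)),
          (∀ φ ∈ F, twc_LocNoEps td H φ) →
          F.card ≤ Nat.card (ResidueField 𝒪) ^ (r - 3 * Th.card) := by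
  classical
  haveI : CharP (ResidueField 𝒪) p := s56a_charP p hp𝒪
  letI : Algebra (ZMod p) (ResidueField 𝒪) := ZMod.algebra _ p
  haveI : NeZero p := ⟨(Fact.out : p.Prime).ne_zero⟩
  obtain ⟨r, h⟩ := twc_core_flat p hp2 rb hyp S Smin hpSmin hSmin hmin Th hThS hThmin hscal
  have hr : 3 * Th.card ≤ r := by
    obtain ⟨qv, -, -, -, h4, -⟩ := h 0
    exact h4
  refine ⟨r, hr, fun n => ?_⟩
  obtain ⟨qv, h1, h2, h3, -, W, hWfin, hWcard, hWmem⟩ := h n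
  refine ⟨qv, h1, h2, h3, fun H hType F hF => ?_⟩
  haveI := hWfin
  obtain ⟨hdet, hflat, hunr, hunip⟩ := hType
  have hrbI := twc_rb_unram rb p Smin hpSmin hmin Th hThmin
  have hbar : ∀ (φ : H.T →ₐ[𝒪] DualNumber (ResidueField 𝒪)) (σ : GQ),
      s56t_bar (twc_frame H.r φ) σ = rb.toMonoidHom σ :=
    fun φ σ => twc_frame_bar H.r H.lift φ σ
  have htr : ∀ (φ : H.T →ₐ[𝒪] DualNumber (ResidueField 𝒪)) (σ : GQ),
      Matrix.trace (s56t_coc (twc_frame H.r φ) σ) = 0 :=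
    fun φ σ => s56t_cyc_trace _ (twc_frame_det H.r φ hdet) σ
  have hcoc : ∀ φ : H.T →ₐ[𝒪] DualNumber (ResidueField 𝒪),
      s56t_IsCoc rb.toMonoidHom (s56t_coc (twc_frame H.r φ)) :=
    fun φ => s56t_isCoc_of_framed _ (hbar φ) (htr φ)
  have hfW : ∀ φ ∈ F, s56t_cls p (s56t_coc (twc_frame H.r φ)) (hcoc φ) ∈ W := by
    intro φ hφF
    by_cases hs : Function.Surjective φ
    · exact hWmem _ (hcoc φ) (hbar φ) (twc_frame_det H.r φ hdet) (twc_frame_flat H.r φ hs hflat)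
        (fun q hq hqn => twc_frame_unram H.r φ (hunr q hq hqn))
        (fun q hq hqp hne => twc_frame_unip H.r φ (hunip q hq hqp hne))
        (fun ℓ hℓ σ hσ => twc_frame_coc_loc' td H φ (hF φ hφF) hrbI ℓ hℓ σ hσ)
    · have h0 : s56t_cls p (s56t_coc (twc_frame H.r φ)) (hcoc φ) = 0 := by
        rw [s56t_cls_eq_zero_iff]
        refine ⟨0, Matrix.trace_zero _ _, fun σ => ?_⟩
        rw [twc_frame_coc_of_not_surjective H.residue_surjective H.r φ hs, Matrix.mul_zero,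
          Matrix.zero_mul, sub_zero]
      rw [h0]
      exact W.zero_mem
  let f : {φ // φ ∈ F} → W := fun φ => ⟨_, hfW φ.1 φ.2⟩
  have hinj : Function.Injective f := by
    intro φ φ' h
    have h1 := congrArg Subtype.val h
    obtain ⟨m, -, hm⟩ := (s56t_cls_eq_iff p (hcoc φ.1) (hcoc φ'.1)).mp h1
    exact Subtype.ext (H.gen φ.1 φ'.1 (twc_frame_trace_eq H.r H.lift φ.1 φ'.1 m hm))
  have hcard : F.card ≤ Nat.card W := by
    calc F.card = Nat.card {φ // φ ∈ F} := by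
          rw [Nat.card_eq_fintype_card, Fintype.card_coe]
      _ ≤ Nat.card W := Nat.card_le_card_of_injective f hinj
  have h5 : F.card * Nat.card (ResidueField 𝒪) ^ (3 * Th.card) ≤
      Nat.card (ResidueField 𝒪) ^ (r - 3 * Th.card) *
        Nat.card (ResidueField 𝒪) ^ (3 * Th.card) := by
    rw [← pow_add, Nat.sub_add_cancel hr]
    exact le_trans (Nat.mul_le_mul_right _ hcard) hWcard
  exact Nat.le_of_mul_le_mul_right h5 (pow_pos Nat.card_pos _)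

/-- **C/Present, cotangent form.** -/
theorem twc_finrank_le (𝒪 : Type) [CommRing 𝒪] [IsDomain 𝒪] [IsDiscreteValuationRing 𝒪]
    [IsAdicComplete (maximalIdeal 𝒪) 𝒪] [Finite (ResidueField 𝒪)]
    (p : ℕ) [Fact p.Prime] (hp2 : p ≠ 2) (hp𝒪 : (p : 𝒪) ∈ maximalIdeal 𝒪)
    (rb : FramedResidual (ResidueField 𝒪)) (hyp : s56a_Hyp p rb.toResidualGaloisRep)
    (S Smin : Finset ℕ) (hpSmin : p ∈ Smin) (hSmin : Smin ⊆ S)
    (hmin : ∀ q : ℕ, q.Prime → q ≠ p →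
      (q ∈ Smin ↔ ¬ rb.toResidualGaloisRep.IsUnramifiedAt q))
    (Th : Finset Nat.Primes) (hThS : ∀ ℓ ∈ Th, (ℓ : ℕ) ∈ S) (hThmin : ∀ ℓ ∈ Th, (ℓ : ℕ) ∉ Smin)
    (hscal : ∀ ℓ ∈ Th, ∀ σ ∈ (primeLocalPlace ℓ).decompositionSubgroup ℚ,
      ∃ c : ResidueField 𝒪, rb σ = Matrix.scalar (Fin 2) c)
    (td : twc_TameData p Th) :
    ∃ r : ℕ, 3 * Th.card ≤ r ∧ ∀ n : ℕ, ∃ qv : Fin r → ℕ, Function.Injective qv ∧
      (∀ i, (qv i).Prime ∧ qv i ∉ S ∧ p ^ (n + 1) ∣ qv i - 1) ∧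
      (∀ i, ∀ P : ValuationSubring Qbar, P.LiesOverPrime (qv i) →
        ∀ φ : GQ, P.IsFrobeniusAt φ (qv i) → ∃ α β : ResidueField 𝒪, α ≠ β ∧
          LinearMap.charpoly (rb.toResidualGaloisRep.ρ φ) = (X - C α) * (X - C β)) ∧
      ∀ (H : twc_HPair 𝒪 rb),
        twc_IsType p Smin Th (Finset.univ.image qv) H.r.toGaloisRepAdic →
        ∀ (ι : Type) (z : ι → maximalIdeal H.T),
          (∀ φ : H.T →ₐ[𝒪] DualNumber (ResidueField 𝒪), (∀ i, φ (z i : H.T) = 0) →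
            twc_LocNoEps td H φ) →
          Module.finrank (ResidueField H.T) (CotangentSpace H.T ⧸ twc_relW 𝒪 z) ≤
            r - 3 * Th.card := by
  obtain ⟨r, hr, h⟩ := twc_count_gen 𝒪 p hp2 hp𝒪 rb hyp S Smin hpSmin hSmin hmin Th hThS hThmin
    hscal td
  refine ⟨r, hr, fun n => ?_⟩
  obtain ⟨qv, h1, h2, h3, h4⟩ := h n
  refine ⟨qv, h1, h2, h3, fun H hType ι z hz => ?_⟩
  have h5 := twc_rel_pow_finrank_le (𝒪 := 𝒪) (A := H.T) H.residue_surjective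
    (fun o => by
      show algebraMap (ResidueField 𝒪) (DualNumber (ResidueField 𝒪)) (residue 𝒪 o) = _
      rfl) z _
    (fun F hF => h4 H hType F (fun φ hφ => hz φ (hF φ hφ)))
  exact (Nat.pow_le_pow_iff_right Finite.one_lt_card).mp h5

/-- **C/Present, general form**: for EVERY family of local coordinates `z` a surjection
`𝒪⟦ι ⊕ Fin (r - 3|Th|)⟧ ↠ T` with `X (inl i) ↦ z i`. -/
theorem twc_present_gen (𝒪 : Type) [CommRing 𝒪] [IsDomain 𝒪] [IsDiscreteValuationRing 𝒪]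
    [IsAdicComplete (maximalIdeal 𝒪) 𝒪] [Finite (ResidueField 𝒪)]
    (p : ℕ) [Fact p.Prime] (hp2 : p ≠ 2) (hp𝒪 : (p : 𝒪) ∈ maximalIdeal 𝒪)
    (rb : FramedResidual (ResidueField 𝒪)) (hyp : s56a_Hyp p rb.toResidualGaloisRep)
    (S Smin : Finset ℕ) (hpSmin : p ∈ Smin) (hSmin : Smin ⊆ S)
    (hmin : ∀ q : ℕ, q.Prime → q ≠ p →
      (q ∈ Smin ↔ ¬ rb.toResidualGaloisRep.IsUnramifiedAt q))
    (Th : Finset Nat.Primes) (hThS : ∀ ℓ ∈ Th, (ℓ : ℕ) ∈ S) (hThmin : ∀ ℓ ∈ Th, (ℓ : ℕ) ∉ Smin)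
    (hscal : ∀ ℓ ∈ Th, ∀ σ ∈ (primeLocalPlace ℓ).decompositionSubgroup ℚ,
      ∃ c : ResidueField 𝒪, rb σ = Matrix.scalar (Fin 2) c)
    (td : twc_TameData p Th) :
    ∃ r : ℕ, 3 * Th.card ≤ r ∧ ∀ n : ℕ, ∃ qv : Fin r → ℕ, Function.Injective qv ∧
      (∀ i, (qv i).Prime ∧ qv i ∉ S ∧ p ^ (n + 1) ∣ qv i - 1) ∧
      (∀ i, ∀ P : ValuationSubring Qbar, P.LiesOverPrime (qv i) →
        ∀ φ : GQ, P.IsFrobeniusAt φ (qv i) → ∃ α β : ResidueField 𝒪, α ≠ β ∧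
          LinearMap.charpoly (rb.toResidualGaloisRep.ρ φ) = (X - C α) * (X - C β)) ∧
      ∀ (H : twc_HPair 𝒪 rb),
        twc_IsType p Smin Th (Finset.univ.image qv) H.r.toGaloisRepAdic →
        ∀ (ι : Type) [Finite ι] (z : ι → maximalIdeal H.T),
          (∀ φ : H.T →ₐ[𝒪] DualNumber (ResidueField 𝒪), (∀ i, φ (z i : H.T) = 0) →
            twc_LocNoEps td H φ) →
          ∃ γ : MvPowerSeries (ι ⊕ Fin (r - 3 * Th.card)) 𝒪 →ₐ[𝒪] H.T,
            Function.Surjective γ ∧ ∀ i, γ (MvPowerSeries.X (Sum.inl i)) = (z i : H.T) := by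
  obtain ⟨r, hr, h⟩ := twc_finrank_le 𝒪 p hp2 hp𝒪 rb hyp S Smin hpSmin hSmin hmin Th hThS hThmin
    hscal td
  refine ⟨r, hr, fun n => ?_⟩
  obtain ⟨qv, h1, h2, h3, h4⟩ := h n
  refine ⟨qv, h1, h2, h3, fun H hType ι _ z hz => ?_⟩
  exact twc_rel_surj (𝒪 := 𝒪) H.residue_surjective z _ (h4 H hType ι z hz)

/-! ### the instance with the `8 |Th|` coordinates -/

section Eight

variable {𝒪 : Type} [CommRing 𝒪] [IsLocalRing 𝒪] {rb : FramedResidual (ResidueField 𝒪)}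

/-- the entries of `r σ - M₀` lie in the maximal ideal when `rb σ` is the reduction of `M₀`. -/
theorem twc_sub_mem_maximalIdeal (H : twc_HPair 𝒪 rb) (σ : GQ) (M₀ : Matrix (Fin 2) (Fin 2) 𝒪)
    (h : rb σ = M₀.map (residue 𝒪)) (i j : Fin 2) :
    (H.r σ - M₀.map (algebraMap 𝒪 H.T)) i j ∈ maximalIdeal H.T := by
  rw [← residue_eq_zero_iff, Matrix.sub_apply, map_sub, sub_eq_zero, Matrix.map_apply]
  have h1 := congrFun (congrFun (H.lift σ) i) j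
  rw [Matrix.map_apply, Matrix.map_apply, h, Matrix.map_apply, ResidueField.map_residue] at h1
  exact h1

/-- the `8` coordinates at the hard prime `ℓ`. -/
def twc_coord8 {p : ℕ} {Th : Finset Nat.Primes} (td : twc_TameData p Th) (a : Nat.Primes → 𝒪)
    (H : twc_HPair 𝒪 rb) (x : ↥Th × Fin 2 × Fin 2 × Fin 2) : H.T :=
  (![H.r (td.gσ x.1) - 1,
    H.r (td.gφ x.1) - Matrix.scalar (Fin 2) (algebraMap 𝒪 H.T (a x.1))] x.2.1) x.2.2.1 x.2.2.2

theorem twc_coord8_mem {p : ℕ} {Th : Finset Nat.Primes} (td : twc_TameData p Th)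
    (a : Nat.Primes → 𝒪) (H : twc_HPair 𝒪 rb)
    (hσ : ∀ ℓ ∈ Th, rb (td.gσ ℓ) = 1)
    (hφ : ∀ ℓ ∈ Th, rb (td.gφ ℓ) = Matrix.scalar (Fin 2) (residue 𝒪 (a ℓ)))
    (x : ↥Th × Fin 2 × Fin 2 × Fin 2) : twc_coord8 td a H x ∈ maximalIdeal H.T := by
  obtain ⟨ℓ, c, i, j⟩ := x
  fin_cases c
  · have h := twc_sub_mem_maximalIdeal H (td.gσ ℓ) 1
      (by rw [hσ ℓ ℓ.2, Matrix.map_one _ (map_zero _) (map_one _)]) i j
    rw [Matrix.map_one _ (map_zero _) (map_one _)] at h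
    exact h
  · have h := twc_sub_mem_maximalIdeal H (td.gφ ℓ) (Matrix.scalar (Fin 2) (a ℓ))
      (by
        rw [hφ ℓ ℓ.2]
        ext i j
        by_cases hij : i = j
        · subst hij; simp
        · simp [Matrix.scalar_apply, Matrix.diagonal_apply_ne _ hij]) i j
    have h2 : (Matrix.scalar (Fin 2) (a ℓ)).map (algebraMap 𝒪 H.T) =
        Matrix.scalar (Fin 2) (algebraMap 𝒪 H.T (a ℓ)) := by
      ext i j
      by_cases hij : i = j
      · subst hij; simp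
      · simp [Matrix.scalar_apply, Matrix.diagonal_apply_ne _ hij]
    rw [h2] at h
    exact h

theorem twc_locTriv_of_coord8 {p : ℕ} {Th : Finset Nat.Primes} (td : twc_TameData p Th)
    (a : Nat.Primes → 𝒪) (H : twc_HPair 𝒪 rb) (φ : H.T →ₐ[𝒪] DualNumber (ResidueField 𝒪))
    (h : ∀ x, φ (twc_coord8 td a H x) = 0) : twc_LocTriv td a H φ := by
  intro ℓ hℓ
  refine ⟨?_, ?_⟩
  · refine Matrix.ext fun i j => ?_
    have h1 := h (⟨ℓ, hℓ⟩, 0, i, j)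
    have h2 : twc_coord8 td a H (⟨ℓ, hℓ⟩, 0, i, j) = (H.r (td.gσ ℓ) - 1) i j := rfl
    rw [h2, Matrix.sub_apply, map_sub, sub_eq_zero] at h1
    rw [Matrix.map_apply, h1]
    by_cases hij : i = j
    · subst hij; simp
    · simp [Matrix.one_apply_ne hij]
  · refine Matrix.ext fun i j => ?_
    have h1 := h (⟨ℓ, hℓ⟩, 1, i, j)
    have h2 : twc_coord8 td a H (⟨ℓ, hℓ⟩, 1, i, j) =
        (H.r (td.gφ ℓ) - Matrix.scalar (Fin 2) (algebraMap 𝒪 H.T (a ℓ))) i j := rfl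
    rw [h2, Matrix.sub_apply, map_sub, sub_eq_zero] at h1
    rw [Matrix.map_apply, h1]
    by_cases hij : i = j
    · subst hij; simp
    · simp [Matrix.scalar_apply, Matrix.diagonal_apply_ne _ hij]

end Eight

/-- **C/Present.** -/
theorem twc_present : twc_Present_stmt := by
  intro 𝒪 _ _ _ _ _ p _ hp2 hp𝒪 rb hyp S Smin hpSmin hSmin hmin Th hThS hThmin _ a hscal td hφa
  obtain ⟨r, hr, h⟩ := twc_present_gen 𝒪 p hp2 hp𝒪 rb hyp S Smin hpSmin hSmin hmin Th hThS hThmin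
    hscal td
  refine ⟨r, hr, fun n => ?_⟩
  obtain ⟨qv, h1, h2, h3, h4⟩ := h n
  refine ⟨qv, h1, h2, h3, fun H hType => ?_⟩
  have hrbI := twc_rb_unram rb p Smin hpSmin hmin Th hThmin
  have hσ1 : ∀ ℓ ∈ Th, rb (td.gσ ℓ) = 1 := fun ℓ hℓ => hrbI ℓ hℓ _ (td.σ_mem ℓ hℓ)
  obtain ⟨γ, hγ, hγz⟩ := h4 H hType (↥Th × Fin 2 × Fin 2 × Fin 2)
    (fun x => ⟨twc_coord8 td a H x, twc_coord8_mem td a H hσ1 hφa x⟩)
    (fun φ hφ => twc_locNoEps_of_locTriv td a H φ (twc_locTriv_of_coord8 td a H φ hφ))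
  exact ⟨γ, hγ, fun ℓ i j => hγz (ℓ, 0, i, j), fun ℓ i j => hγz (ℓ, 1, i, j)⟩

end Main

end

end Fermat.Agent.TW
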