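/-
ONE MACHINE / block [C] DEF, leaf `C/TameGen`, part 1 (helper8).  Namespace `Fermat.Agent.TW`,
prefix `twc_tc_`.

`ℚ(ζ_ℓ)/ℚ` is totally ramified at `ℓ`: the inertia group of ANY valuation subring `A` of `ℚ̄` over
`ℓ` maps ONTO `(ℤ/ℓ)ˣ` under the mod-`ℓ` cyclotomic character `dspk_cyc ℓ` (DS/Pack/CycloMod).

* `twc_tc_inertia_eq_top` : the inertia group of `𝔪_A ∩ 𝓞 K`, `K = ℚ(ζ_ℓ) ⊆ ℚ̄`, is all of `Gal(K/ℚ)`
  (Mathlib's `IsCyclotomicExtension.Rat.ramificationIdxIn_eq_of_prime` +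
  `Ideal.card_inertia_eq_ramificationIdxIn`);
* `twc_tc_inertia_surj` : `∀ u : (ZMod ℓ)ˣ, ∃ τ ∈ I_A, dspk_cyc ℓ τ = u`.
-/
import Mathlib
import Fermat.Agent.DS.Pack.CycloMod
import Fermat.Agent.S55.Places.Galois

set_option autoImplicit false
set_option linter.unusedSectionVars false
set_option linter.style.haveILetI false

noncomputable section

namespace Fermat.Agent.TW

open NumberField Fermat.Agent.S55 Fermat.Agent.DS Polynomial

local notation "Qbar" => AlgebraicClosure ℚ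
local notation "GQ" => (AlgebraicClosure ℚ ≃ₐ[ℚ] AlgebraicClosure ℚ)

local instance twc_tc_qbarIsAlgebraic : Algebra.IsAlgebraic ℚ (AlgebraicClosure ℚ) :=
  AlgebraicClosure.isAlgebraic ℚ

local instance twc_tc_qbarIsAlgClosure : IsAlgClosure ℚ (AlgebraicClosure ℚ) :=
  ⟨inferInstance, inferInstance⟩

section

variable (ℓ : ℕ) [hℓ : Fact ℓ.Prime] (A : ValuationSubring Qbar) (hA : A.LiesOverPrime ℓ)
  (K : IntermediateField ℚ Qbar) [FiniteDimensional ℚ K] [IsGalois ℚ K] [NumberField K]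
  [hcyc : IsCyclotomicExtension {ℓ} ℚ K]

include hA in
/-- total ramification: the inertia group of the prime of `ℚ(ζ_ℓ)` below `A` is everything. -/
theorem twc_tc_inertia_eq_top :
    (pl_ideal K A).toAddSubgroup.inertia (K ≃ₐ[ℚ] K) = ⊤ := by
  classical
  set Q : Ideal (𝓞 K) := pl_ideal K A with hQ
  have hQ0 : Q ≠ ⊥ := pl_ideal_ne_bot K A hℓ.out hA
  set P : Ideal ℤ := Ideal.span {(ℓ : ℤ)} with hP
  haveI hPmax : P.IsMaximal := Int.ideal_span_isMaximal_of_prime ℓ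
  have hunder : Q.under ℤ = P := by
    symm
    apply hPmax.eq_of_le
    · exact (Ideal.IsPrime.under ℤ Q).ne_top
    · rw [Ideal.span_singleton_le_iff_mem, Ideal.under_def, Ideal.mem_comap]
      have := pl_natCast_mem_ideal K A hA
      simpa using this
  haveI : Q.LiesOver P := ⟨hunder.symm⟩
  have hcard : Nat.card (ℤ ⧸ P) = ℓ := Int.card_ideal_quot ℓ
  haveI : Finite (ℤ ⧸ P) := Nat.finite_of_card_ne_zero (by rw [hcard]; exact hℓ.out.ne_zero)
  haveI : Finite P.ResidueField := inferInstance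
  have h1 : Nat.card (Q.inertia Gal(K/ℚ)) = P.ramificationIdxIn (𝓞 K) :=
    Ideal.card_inertia_eq_ramificationIdxIn (G := Gal(K/ℚ)) P Q
  have h2 : P.ramificationIdxIn (𝓞 K) = ℓ - 1 :=
    IsCyclotomicExtension.Rat.ramificationIdxIn_eq_of_prime ℓ K
  have h3 : Nat.card Gal(K/ℚ) = ℓ - 1 := by
    rw [IsGalois.card_aut_eq_finrank,
      IsCyclotomicExtension.finrank (n := ℓ) K (cyclotomic.irreducible_rat hℓ.out.pos),
      Nat.totient_prime hℓ.out]
  exact Subgroup.eq_top_of_card_eq _ (by rw [h1, h2, h3])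

end

/-- **total ramification of `ℚ(ζ_ℓ)` at `ℓ`, in the language of `ℚ̄`**: the inertia group of any
valuation subring of `ℚ̄` over `ℓ` maps onto `(ℤ/ℓ)ˣ` under the mod-`ℓ` cyclotomic character. -/
theorem twc_tc_inertia_surj (ℓ : ℕ) [hℓ : Fact ℓ.Prime] (A : ValuationSubring Qbar)
    (hA : A.LiesOverPrime ℓ) (u : (ZMod ℓ)ˣ) :
    ∃ τ ∈ A.inertiaSubgroupIn ℚ, dspk_cyc ℓ τ = u := by
  classical
  obtain ⟨ζ, hζ⟩ := HasEnoughRootsOfUnity.exists_primitiveRoot Qbar ℓ
  set K : IntermediateField ℚ Qbar := IntermediateField.adjoin ℚ {ζ} with hK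
  haveI : FiniteDimensional ℚ K :=
    IntermediateField.adjoin.finiteDimensional (Algebra.IsIntegral.isIntegral (R := ℚ) ζ)
  haveI hcyc : IsCyclotomicExtension {ℓ} ℚ K := hζ.intermediateField_adjoin_isCyclotomicExtension ℚ
  haveI : IsGalois ℚ K := IsCyclotomicExtension.isGalois {ℓ} ℚ K
  haveI : NumberField K := { to_charZero := inferInstance, to_finiteDimensional := inferInstance }
  -- the primitive root inside `K`
  set ζK : K := ⟨ζ, IntermediateField.mem_adjoin_simple_self ℚ ζ⟩ with hζK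
  have hζK' : IsPrimitiveRoot ζK ℓ :=
    IsPrimitiveRoot.of_map_of_injective (f := algebraMap K Qbar)
      (show IsPrimitiveRoot (algebraMap K Qbar ζK) ℓ from hζ) (algebraMap K Qbar).injective
  -- an automorphism of `K` with `g ζ = ζ ^ u`
  have hirr : Irreducible (cyclotomic ℓ ℚ) := cyclotomic.irreducible_rat hℓ.out.pos
  have hbij : Function.Bijective (hζK'.autToPow ℚ) := by
    rw [Fintype.bijective_iff_injective_and_card]
    refine ⟨hζK'.autToPow_injective ℚ, ?_⟩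
    rw [ZMod.card_units_eq_totient, ← Nat.card_eq_fintype_card, IsGalois.card_aut_eq_finrank,
      IsCyclotomicExtension.finrank (n := ℓ) K hirr]
  obtain ⟨g, hg⟩ := hbij.2 u
  have hgζ : g ζK = ζK ^ (u : ZMod ℓ).val := by
    rw [← hg]; exact (hζK'.autToPow_spec ℚ g).symm
  -- lift to the inertia group of `A`
  have htop := twc_tc_inertia_eq_top ℓ A hA K
  have hgin : g ∈ (pl_ideal K A).toAddSubgroup.inertia (K ≃ₐ[ℚ] K) := by
    rw [htop]; exact Subgroup.mem_top g
  rw [← pl_map_inertia K A hℓ.out hA] at hgin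
  obtain ⟨τ, hτ, hτg⟩ := hgin
  refine ⟨τ, hτ, ?_⟩
  -- `τ` raises the `ℓ`-th roots of unity to the power `u`
  have hτζ : τ ζ = ζ ^ (u : ZMod ℓ).val := by
    have h1 := AlgEquiv.restrictNormal_commutes τ K ζK
    have h2 : τ.restrictNormal K = g := hτg
    rw [h2, hgζ] at h1
    simpa [hζK] using h1.symm
  apply Units.ext
  have h3 := dspk_cyc_eq_of ℓ τ (u : ZMod ℓ).val (fun μ hμ => by
    obtain ⟨i, -, rfl⟩ := hζ.eq_pow_of_pow_eq_one hμ
    rw [map_pow, hτζ, ← pow_mul, ← pow_mul, mul_comm])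
  rw [h3, ZMod.natCast_zmod_val]

end Fermat.Agent.TW
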