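/-
ONE MACHINE / block [C] DEF, leaf `C/TameGen`, part 2 (helper8).  Namespace `Fermat.Agent.TW`,
prefix `twc_tg_`.

`ℓ` a prime, `A` a valuation subring of `ℚ̄` over `ℓ`, `D_A ⊇ I_A` its decomposition and inertia
groups.  We FIX (by choice, once and for all, independently of any representation)

* `twc_tg_phi ℓ A hA : G_ℚ`   : a Frobenius element at `A` which fixes the `ℓ`-th roots of unity
                                (`dspk_cyc ℓ φ = 1`);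
* `twc_tg_sigma ℓ A hA : G_ℚ` : an element of `I_A` whose mod-`ℓ` cyclotomic character generates
                                `(ℤ/ℓ)ˣ`,

and prove, for every FINITE-LEVEL monoid hom `f : G_ℚ →* M` (`f = 1` on `Gal(ℚ̄/L₀)`, `[L₀:ℚ] < ∞`)
such that `f(I_A)` is a `p`-group, `p ∣ ℓ - 1`:

* (a)  `twc_tg_conj`        : `f φ * f σ = f σ ^ ℓ * f φ`;
* (b') `twc_tg_inertia_gen` : `f(I_A)` is generated by `f σ`:  `∀ τ ∈ I_A, ∃ m, f τ = f σ ^ m`;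
* (b)  `twc_tg_decomp_gen`  : `f(D_A)` is generated by `f φ, f σ`:
                              `∀ τ ∈ D_A, ∃ (n : ℤ) (m : ℕ), f τ = f (φ ^ n * σ ^ m)`;
* (c)  `twc_tg_phi_root`, `twc_tg_sigma_root`, `twc_tg_phi_root_ell`, `twc_tg_sigma_gen`: the action
       on roots of unity (`φ μ = μ ^ ℓ`, `σ μ = μ` for `μ` of order prime to `ℓ`; `φ μ = μ` for
       `μ ^ ℓ = 1`; `dspk_cyc ℓ σ` generates `(ℤ/ℓ)ˣ`), hence `ε_p(φ) = ℓ`, `ε_p(σ) = 1`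
       (`cya_eps_frob`, `cya_eps_inertia`) and for EVERY character `χ₀ : (ℤ/ℓ)ˣ →* Rˣ`:
       `ψ := χ₀ ∘ dspk_cyc ℓ` has `ψ φ = 1`, `ψ σ = χ₀ (generator)`;
* `twc_tg_exists_char` : for `ζ ^ p = 1`, `p ∣ ℓ - 1`, a character `χ₀ : (ℤ/ℓ)ˣ →* Rˣ` with
       `χ₀ (dspk_cyc ℓ σ) = ζ`.
-/
import Mathlib
import Fermat.Agent.TW.Def.TameCyc
import Fermat.Agent.S56.LocQ.Tame
import Fermat.Agent.S56.LocTW.FrobGen
import Fermat.Agent.MZ.F3.TameFrobAt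

set_option autoImplicit false
set_option linter.unusedSectionVars false
set_option linter.style.haveILetI false

noncomputable section

namespace Fermat.Agent.TW

open NumberField Fermat.Agent.S55 Fermat.Agent.S56 Fermat.Agent.DS Fermat.Agent.MZ
  Fermat.Agent.JT3
open scoped Pointwise

local notation "Qbar" => AlgebraicClosure ℚ
local notation "GQ" => (AlgebraicClosure ℚ ≃ₐ[ℚ] AlgebraicClosure ℚ)

local instance twc_tg_qbarIsAlgebraic : Algebra.IsAlgebraic ℚ (AlgebraicClosure ℚ) :=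
  AlgebraicClosure.isAlgebraic ℚ

local instance twc_tg_qbarIsAlgClosure : IsAlgClosure ℚ (AlgebraicClosure ℚ) :=
  ⟨inferInstance, inferInstance⟩

local instance twc_tg_qbarNormal : Normal ℚ (AlgebraicClosure ℚ) :=
  IsAlgClosure.normal ℚ (AlgebraicClosure ℚ)

/-! ### Folding the Frobenius predicate -/

/-- the converse of `mzf3_tfa_unfold`. -/
theorem twc_tg_isFrobeniusAt_of (A : ValuationSubring Qbar) {φ : GQ} {q : ℕ}
    (h1 : φ • A = A) (h2 : ∀ a ∈ A, φ a - a ^ q ∈ A.nonunits) : A.IsFrobeniusAt φ q := by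
  have hφ : φ ∈ A.decompositionSubgroup ℚ := h1
  refine ⟨hφ, fun x => ?_⟩
  obtain ⟨⟨a, ha⟩, rfl⟩ := IsLocalRing.residue_surjective x
  rw [← IsLocalRing.ResidueField.residue_smul, ← map_pow]
  refine Ideal.Quotient.eq.mpr ?_
  have h3 := h2 a ha
  rw [← ValuationSubring.coe_mem_nonunits_iff] at *
  exact h3

/-- a Frobenius element times an inertia element is a Frobenius element. -/
theorem twc_tg_isFrobeniusAt_mul (A : ValuationSubring Qbar) {φ τ : GQ} {q : ℕ}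
    (hφ : A.IsFrobeniusAt φ q) (hτ : τ ∈ A.inertiaSubgroupIn ℚ) : A.IsFrobeniusAt (τ * φ) q := by
  obtain ⟨h1, h2⟩ := mzf3_tfa_unfold A hφ
  obtain ⟨h3, h4⟩ := (tl_mem_inertiaSubgroupIn_iff A τ).1 hτ
  refine twc_tg_isFrobeniusAt_of A ?_ fun a ha => ?_
  · rw [mul_smul, h1, h3]
  · have hφa : φ a ∈ A := by
      have : φ a ∈ φ • A := ⟨a, ha, rfl⟩
      rwa [h1] at this
    have e : (τ * φ) a - a ^ q = (τ (φ a) - φ a) + (φ a - a ^ q) := by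
      rw [AlgEquiv.mul_apply]; ring
    rw [e]
    have h5 := h4 (φ a) hφa
    have h6 := h2 a ha
    rw [ValuationSubring.mem_nonunits_iff] at *
    exact Valuation.map_add_lt _ h5 h6

/-! ### The choice of `φ` and `σ` -/

section choice

variable (ℓ : ℕ) [hℓ : Fact ℓ.Prime] (A : ValuationSubring Qbar) (hA : A.LiesOverPrime ℓ)

include hA in
theorem twc_tg_exists :
    ∃ φ σ : GQ, A.IsFrobeniusAt φ ℓ ∧ dspk_cyc ℓ φ = 1 ∧ σ ∈ A.inertiaSubgroupIn ℚ ∧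
      ∀ u : (ZMod ℓ)ˣ, u ∈ Subgroup.zpowers (dspk_cyc ℓ σ) := by
  obtain ⟨φ₀, hφ₀⟩ := fex_exists_isFrobeniusAt hℓ.out A hA
  obtain ⟨τ, hτ, hτc⟩ := twc_tc_inertia_surj ℓ A hA (dspk_cyc ℓ φ₀)⁻¹
  obtain ⟨g, hg⟩ := IsCyclic.exists_generator (α := (ZMod ℓ)ˣ)
  obtain ⟨σ, hσ, hσc⟩ := twc_tc_inertia_surj ℓ A hA g
  refine ⟨τ * φ₀, σ, twc_tg_isFrobeniusAt_mul A hφ₀ hτ, ?_, hσ, fun u => ?_⟩
  · rw [map_mul, hτc, inv_mul_cancel]
  · rw [hσc]; exact hg u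

/-- **the Frobenius element at `A`** (fixing the `ℓ`-th roots of unity). -/
def twc_tg_phi : GQ := (twc_tg_exists ℓ A hA).choose

/-- **the generator of tame inertia at `A`** (modulo the primes not dividing `ℓ - 1`). -/
def twc_tg_sigma : GQ := (twc_tg_exists ℓ A hA).choose_spec.choose

theorem twc_tg_phi_isFrobeniusAt : A.IsFrobeniusAt (twc_tg_phi ℓ A hA) ℓ :=
  (twc_tg_exists ℓ A hA).choose_spec.choose_spec.1

theorem twc_tg_phi_cyc : dspk_cyc ℓ (twc_tg_phi ℓ A hA) = 1 :=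
  (twc_tg_exists ℓ A hA).choose_spec.choose_spec.2.1

theorem twc_tg_sigma_mem : twc_tg_sigma ℓ A hA ∈ A.inertiaSubgroupIn ℚ :=
  (twc_tg_exists ℓ A hA).choose_spec.choose_spec.2.2.1

theorem twc_tg_sigma_gen (u : (ZMod ℓ)ˣ) :
    u ∈ Subgroup.zpowers (dspk_cyc ℓ (twc_tg_sigma ℓ A hA)) :=
  (twc_tg_exists ℓ A hA).choose_spec.choose_spec.2.2.2 u

theorem twc_tg_phi_mem : twc_tg_phi ℓ A hA ∈ A.decompositionSubgroup ℚ :=
  (twc_tg_phi_isFrobeniusAt ℓ A hA).mem_decompositionSubgroup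

theorem twc_tg_sigma_mem_decomp : twc_tg_sigma ℓ A hA ∈ A.decompositionSubgroup ℚ :=
  ((tl_mem_inertiaSubgroupIn_iff A _).1 (twc_tg_sigma_mem ℓ A hA)).1

/-- `φ` fixes the `ℓ`-th roots of unity. -/
theorem twc_tg_phi_root_ell {μ : Qbar} (hμ : μ ^ ℓ = 1) : twc_tg_phi ℓ A hA μ = μ := by
  have h := dspk_cyc_spec ℓ (twc_tg_phi ℓ A hA) hμ
  rw [twc_tg_phi_cyc, Units.val_one, ZMod.val_one, pow_one] at h
  exact h

/-- `φ` raises the roots of unity of order prime to `ℓ` to the power `ℓ`. -/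
theorem twc_tg_phi_root {n : ℕ} [NeZero n] (hn : ¬ ℓ ∣ n) {μ : Qbar} (hμ : μ ^ n = 1) :
    twc_tg_phi ℓ A hA μ = μ ^ ℓ :=
  dspk_cyc_frob_root n hℓ.out hn A hA _ (twc_tg_phi_isFrobeniusAt ℓ A hA) hμ

/-- `σ` fixes the roots of unity of order prime to `ℓ`. -/
theorem twc_tg_sigma_root {n : ℕ} [NeZero n] (hn : ¬ ℓ ∣ n) {μ : Qbar} (hμ : μ ^ n = 1) :
    twc_tg_sigma ℓ A hA μ = μ :=
  dspk_cyc_inertia_root n hℓ.out hn A hA (twc_tg_sigma_mem ℓ A hA) hμ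

end choice

/-! ### Finite-level homomorphisms with `p`-group inertia image -/

/-- equal tame characters give equal values of a homomorphism killed by the kernel of the tame
character. -/
theorem twc_tg_eq_pow_of_theta (A : ValuationSubring Qbar) {π : Qbar} (hπ : π ≠ 0)
    {N : Type*} [Monoid N] (F : GQ →* N)
    (hkill : ∀ σ : ↥(A.inertiaSubgroupIn ℚ), s56q_theta A hπ σ = 1 → F (σ : GQ) = 1)
    (σ' τ₀ : ↥(A.inertiaSubgroupIn ℚ)) (n : ℕ)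
    (h : s56q_theta A hπ σ' = s56q_theta A hπ τ₀ ^ n) : F (σ' : GQ) = F (τ₀ : GQ) ^ n := by
  have h1 : s56q_theta A hπ (σ' * (τ₀ ^ n)⁻¹) = 1 := by
    rw [map_mul, map_inv, map_pow, h, mul_inv_cancel]
  have h2 := hkill (σ' * (τ₀ ^ n)⁻¹) h1
  have h3 : (σ' : GQ) = ((σ' * (τ₀ ^ n)⁻¹ : ↥(A.inertiaSubgroupIn ℚ)) : GQ) * (τ₀ : GQ) ^ n := by
    rw [← SubgroupClass.coe_pow, ← Subgroup.coe_mul, inv_mul_cancel_right]
  rw [h3, map_mul, h2, one_mul, map_pow]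

section main

variable (ℓ : ℕ) [hℓ : Fact ℓ.Prime] (A : ValuationSubring Qbar) (hA : A.LiesOverPrime ℓ)

/-- `p ∣ ℓ - 1` forces `p ≠ ℓ`. -/
theorem twc_tg_ne {p : ℕ} (hpl : p ∣ ℓ - 1) : p ≠ ℓ := by
  rintro rfl
  have h1 : 0 < p - 1 := by have := hℓ.out.two_le; omega
  have := Nat.le_of_dvd h1 hpl
  omega

include hA in
/-- **(b') the key lemma**: for a finite-level `f` with `f(I_A)` a `p`-group, `p ∣ ℓ - 1`, and
`σ ∈ I_A` whose mod-`ℓ` cyclotomic character generates `(ℤ/ℓ)ˣ`: `f(I_A)` is generated by `f σ`. -/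
theorem twc_tg_inertia_gen_of {p : ℕ} (hp : p.Prime) (hpl : p ∣ ℓ - 1)
    {σ : GQ} (hσ : σ ∈ A.inertiaSubgroupIn ℚ)
    (hgen : ∀ u : (ZMod ℓ)ˣ, u ∈ Subgroup.zpowers (dspk_cyc ℓ σ))
    {M : Type*} [Monoid M] (f : GQ →* M) (L₀ : IntermediateField ℚ Qbar) [FiniteDimensional ℚ L₀]
    (hL₀ : ∀ τ ∈ L₀.fixingSubgroup, f τ = 1)
    (hpgrp : ∀ τ ∈ A.inertiaSubgroupIn ℚ, ∃ k : ℕ, f τ ^ (p ^ k) = 1)
    {τ : GQ} (hτ : τ ∈ A.inertiaSubgroupIn ℚ) : ∃ m : ℕ, f τ = f σ ^ m := by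
  classical
  have hq : ℓ.Prime := hℓ.out
  have hpne : p ≠ ℓ := twc_tg_ne ℓ hpl
  -- the field `L`
  obtain ⟨ζ, hζ⟩ := HasEnoughRootsOfUnity.exists_primitiveRoot Qbar ℓ
  set Kc : IntermediateField ℚ Qbar := IntermediateField.adjoin ℚ {ζ} with hKc
  haveI : FiniteDimensional ℚ Kc :=
    IntermediateField.adjoin.finiteDimensional (Algebra.IsIntegral.isIntegral (R := ℚ) ζ)
  set L1 : IntermediateField ℚ Qbar := L₀ ⊔ Kc with hL1
  haveI : FiniteDimensional ℚ L1 := IntermediateField.finiteDimensional_sup L₀ Kc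
  set L := IntermediateField.normalClosure ℚ L1 Qbar with hLdef
  haveI hLn : Normal ℚ L := normalClosure.normal ℚ L1 Qbar
  haveI : FiniteDimensional ℚ L := normalClosure.is_finiteDimensional ℚ L1 Qbar
  have hle1 : L1 ≤ L := IntermediateField.le_normalClosure L1
  have hle0 : L₀ ≤ L := le_sup_left.trans hle1
  have hζL : ζ ∈ L := hle1 (le_sup_right (a := L₀) (IntermediateField.mem_adjoin_simple_self ℚ ζ))
  -- the two homomorphisms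
  set c : GQ →* (ZMod ℓ)ˣ := dspk_cyc ℓ with hc
  have hLf : ∀ τ ∈ L.fixingSubgroup, f τ = 1 := fun τ hτ =>
    hL₀ τ (IntermediateField.fixingSubgroup_antitone hle0 hτ)
  have hLc : ∀ τ ∈ L.fixingSubgroup, c τ = 1 := by
    intro τ hτ
    refine dspk_cyc_eq_one_of ℓ τ fun μ hμ => ?_
    obtain ⟨i, -, rfl⟩ := hζ.eq_pow_of_pow_eq_one hμ
    have hfix : τ ζ = ζ := (IntermediateField.mem_fixingSubgroup_iff _ _).1 hτ ζ hζL
    rw [map_pow, hfix]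
  have hordf : ∀ τ ∈ A.inertiaSubgroupIn ℚ, ∃ m : ℕ, 0 < m ∧ ¬ ℓ ∣ m ∧ f τ ^ m = 1 := by
    intro τ hτ
    obtain ⟨k, hk⟩ := hpgrp τ hτ
    refine ⟨p ^ k, pow_pos hp.pos k, fun hdvd => ?_, hk⟩
    exact hpne.symm ((Nat.prime_dvd_prime_iff_eq hq hp).1 (hq.dvd_of_dvd_pow hdvd))
  have hordc : ∀ τ ∈ A.inertiaSubgroupIn ℚ, ∃ m : ℕ, 0 < m ∧ ¬ ℓ ∣ m ∧ c τ ^ m = 1 := by
    intro τ _
    have h2 := hq.two_le
    refine ⟨ℓ - 1, by omega, fun hdvd => ?_, ZMod.units_pow_card_sub_one_eq_one ℓ (c τ)⟩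
    have := Nat.le_of_dvd (by omega) hdvd
    omega
  obtain ⟨π, -, hπ, hunif⟩ := s56q_exists_unif A hq hA L
  have hkillf := s56q_kill A hq hA f L hLf hordf hπ hunif
  have hkillc := s56q_kill A hq hA c L hLc hordc hπ hunif
  obtain ⟨τ₀, hτ₀⟩ := s56q_theta_cyclic A hπ
  obtain ⟨s, hs⟩ := hτ₀ ⟨σ, hσ⟩
  obtain ⟨t, ht⟩ := hτ₀ ⟨τ, hτ⟩
  have hfσ : f σ = f (τ₀ : GQ) ^ s := twc_tg_eq_pow_of_theta A hπ f hkillf ⟨σ, hσ⟩ τ₀ s hs
  have hcσ : c σ = c (τ₀ : GQ) ^ s := twc_tg_eq_pow_of_theta A hπ c hkillc ⟨σ, hσ⟩ τ₀ s hs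
  have hfτ : f τ = f (τ₀ : GQ) ^ t := twc_tg_eq_pow_of_theta A hπ f hkillf ⟨τ, hτ⟩ τ₀ t ht
  -- `p ∤ s`
  have hps : ¬ p ∣ s := by
    rintro ⟨s₁, rfl⟩
    have hord : orderOf (c σ) = Nat.card (ZMod ℓ)ˣ := orderOf_eq_card_of_forall_mem_zpowers hgen
    have hcard : Nat.card (ZMod ℓ)ˣ = ℓ - 1 := by
      rw [Nat.card_eq_fintype_card, ZMod.card_units_eq_totient, Nat.totient_prime hq]
    obtain ⟨e, he⟩ := hpl
    have h2 := hq.two_le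
    have he0 : 0 < e := by
      rcases Nat.eq_zero_or_pos e with h | h
      · rw [h, mul_zero] at he; omega
      · exact h
    have hlt : e < orderOf (c σ) := by
      rw [hord, hcard, he]
      calc e = 1 * e := (one_mul e).symm
        _ < p * e := Nat.mul_lt_mul_of_pos_right hp.one_lt he0
    have hne := pow_ne_one_of_lt_orderOf he0.ne' hlt
    apply hne
    rw [hcσ, ← pow_mul]
    have e1 : p * s₁ * e = s₁ * (ℓ - 1) := by rw [he]; ring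
    rw [e1, pow_mul]
    exact ZMod.units_pow_card_sub_one_eq_one ℓ _
  -- the exponent
  obtain ⟨j, hj⟩ := hpgrp (τ₀ : GQ) τ₀.2
  set x : M := f (τ₀ : GQ) with hx
  rcases Nat.eq_zero_or_pos j with hj0 | hj0
  · refine ⟨0, ?_⟩
    rw [hj0, pow_zero, pow_one] at hj
    rw [hfτ, hj, one_pow, pow_zero]
  · have hcop : Nat.Coprime s (p ^ j) :=
      Nat.Coprime.pow_right j ((Nat.Prime.coprime_iff_not_dvd hp).2 hps).symm
    have h1lt : 1 < p ^ j := Nat.one_lt_pow hj0.ne' hp.one_lt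
    obtain ⟨s', -, hs'⟩ := Nat.exists_mul_mod_eq_one_of_coprime hcop h1lt
    refine ⟨s' * t, ?_⟩
    have h1 : x ^ (s * s') = x := by
      rw [pow_eq_pow_mod (s * s') hj, hs', pow_one]
    rw [hfτ, hfσ, ← pow_mul, ← mul_assoc, pow_mul, h1]

include hA in
/-- **(a)** the tame relation `f φ * f σ = f σ ^ ℓ * f φ` for a Frobenius `φ` at `A`, `σ ∈ I_A` and
a finite-level `f` with `f(I_A)` a `p`-group, `p ≠ ℓ`. -/
theorem twc_tg_conj_of {p : ℕ} (hp : p.Prime) (hpne : p ≠ ℓ)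
    {φ σ : GQ} (hφ : A.IsFrobeniusAt φ ℓ) (hσ : σ ∈ A.inertiaSubgroupIn ℚ)
    {M : Type*} [Monoid M] (f : GQ →* M) (L₀ : IntermediateField ℚ Qbar) [FiniteDimensional ℚ L₀]
    (hL₀ : ∀ τ ∈ L₀.fixingSubgroup, f τ = 1)
    (hpgrp : ∀ τ ∈ A.inertiaSubgroupIn ℚ, ∃ k : ℕ, f τ ^ (p ^ k) = 1) :
    f φ * f σ = f σ ^ ℓ * f φ := by
  have hq : ℓ.Prime := hℓ.out
  have hL1 : ∀ τ : GQ, (∀ y ∈ L₀, τ y = y) → f.toHomUnits τ = 1 := by
    intro τ hτ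
    apply Units.ext
    rw [MonoidHom.coe_toHomUnits, Units.val_one]
    exact hL₀ τ ((IntermediateField.mem_fixingSubgroup_iff _ _).2 hτ)
  have hcop : ∀ τ ∈ A.inertiaSubgroupIn ℚ, (orderOf (f.toHomUnits τ)).Coprime ℓ := by
    intro τ hτ
    obtain ⟨k, hk⟩ := hpgrp τ hτ
    have h1 : f.toHomUnits τ ^ (p ^ k) = 1 := by
      apply Units.ext
      rw [Units.val_pow_eq_pow_val, MonoidHom.coe_toHomUnits, Units.val_one]
      exact hk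
    have h2 : orderOf (f.toHomUnits τ) ∣ p ^ k := orderOf_dvd_of_pow_eq_one h1
    have h3 : Nat.Coprime (p ^ k) ℓ :=
      Nat.Coprime.pow_left k ((Nat.coprime_primes hp hq).2 hpne)
    exact Nat.Coprime.coprime_dvd_left h2 h3
  have key := mzf3_tfa_conj A hq hA L₀ f.toHomUnits hL1 hcop hφ hσ
  have key' : f (φ * σ * φ⁻¹) = f σ ^ ℓ := by
    have h : ((f.toHomUnits (φ * σ * φ⁻¹) : Mˣ) : M) = ((f.toHomUnits σ ^ ℓ : Mˣ) : M) :=
      congrArg (fun u : Mˣ => (u : M)) key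
    rw [MonoidHom.coe_toHomUnits, Units.val_pow_eq_pow_val, MonoidHom.coe_toHomUnits] at h
    exact h
  calc f φ * f σ = f (φ * σ * φ⁻¹ * φ) := by rw [← map_mul, inv_mul_cancel_right]
    _ = f σ ^ ℓ * f φ := by rw [map_mul, key']

include hA in
/-- **(b)** `f(D_A)` is generated by `f φ` and `f σ`. -/
theorem twc_tg_decomp_gen_of {p : ℕ} (hp : p.Prime) (hpl : p ∣ ℓ - 1)
    {φ σ : GQ} (hφ : A.IsFrobeniusAt φ ℓ) (hσ : σ ∈ A.inertiaSubgroupIn ℚ)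
    (hgen : ∀ u : (ZMod ℓ)ˣ, u ∈ Subgroup.zpowers (dspk_cyc ℓ σ))
    {M : Type*} [Monoid M] (f : GQ →* M) (L₀ : IntermediateField ℚ Qbar) [FiniteDimensional ℚ L₀]
    (hL₀ : ∀ τ ∈ L₀.fixingSubgroup, f τ = 1)
    (hpgrp : ∀ τ ∈ A.inertiaSubgroupIn ℚ, ∃ k : ℕ, f τ ^ (p ^ k) = 1)
    {τ : GQ} (hτ : τ ∈ A.decompositionSubgroup ℚ) :
    ∃ (n : ℤ) (m : ℕ), f τ = f (φ ^ n * σ ^ m) := by
  have hq : ℓ.Prime := hℓ.out
  set K : IntermediateField ℚ Qbar := IntermediateField.normalClosure ℚ ↥L₀ Qbar with hK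
  haveI : Normal ℚ ↥K := normalClosure.normal ℚ ↥L₀ Qbar
  haveI : FiniteDimensional ℚ ↥K := normalClosure.is_finiteDimensional ℚ ↥L₀ Qbar
  haveI : IsGalois ℚ ↥K := ⟨⟩
  haveI : NumberField ↥K := { to_charZero := inferInstance, to_finiteDimensional := inferInstance }
  obtain ⟨n, τ', hτ', h⟩ := s56w_frobGen_galois A hq hA K hφ hτ
  have h0 : (φ ^ n * τ')⁻¹ * τ ∈ L₀.fixingSubgroup :=
    IntermediateField.fixingSubgroup_antitone (IntermediateField.le_normalClosure L₀) h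
  have h1 : f ((φ ^ n * τ')⁻¹ * τ) = 1 := hL₀ _ h0
  have h2 : f τ = f (φ ^ n * τ') := by
    calc f τ = f ((φ ^ n * τ') * ((φ ^ n * τ')⁻¹ * τ)) := by rw [mul_inv_cancel_left]
      _ = f (φ ^ n * τ') := by rw [map_mul, h1, mul_one]
  obtain ⟨m, hm⟩ := twc_tg_inertia_gen_of ℓ A hA hp hpl hσ hgen f L₀ hL₀ hpgrp hτ'
  refine ⟨n, m, ?_⟩
  rw [h2, map_mul, hm, map_mul, map_pow]

/-! ### The packaged statements for the chosen `φ`, `σ` -/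

/-- **(a)** `f φ * f σ = f σ ^ ℓ * f φ`. -/
theorem twc_tg_conj {p : ℕ} (hp : p.Prime) (hpl : p ∣ ℓ - 1)
    {M : Type*} [Monoid M] (f : GQ →* M) (L₀ : IntermediateField ℚ Qbar) [FiniteDimensional ℚ L₀]
    (hL₀ : ∀ τ ∈ L₀.fixingSubgroup, f τ = 1)
    (hpgrp : ∀ τ ∈ A.inertiaSubgroupIn ℚ, ∃ k : ℕ, f τ ^ (p ^ k) = 1) :
    f (twc_tg_phi ℓ A hA) * f (twc_tg_sigma ℓ A hA) =
      f (twc_tg_sigma ℓ A hA) ^ ℓ * f (twc_tg_phi ℓ A hA) :=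
  twc_tg_conj_of ℓ A hA hp (twc_tg_ne ℓ hpl) (twc_tg_phi_isFrobeniusAt ℓ A hA)
    (twc_tg_sigma_mem ℓ A hA) f L₀ hL₀ hpgrp

/-- **(b')** `f(I_A)` is generated by `f σ`. -/
theorem twc_tg_inertia_gen {p : ℕ} (hp : p.Prime) (hpl : p ∣ ℓ - 1)
    {M : Type*} [Monoid M] (f : GQ →* M) (L₀ : IntermediateField ℚ Qbar) [FiniteDimensional ℚ L₀]
    (hL₀ : ∀ τ ∈ L₀.fixingSubgroup, f τ = 1)
    (hpgrp : ∀ τ ∈ A.inertiaSubgroupIn ℚ, ∃ k : ℕ, f τ ^ (p ^ k) = 1)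
    {τ : GQ} (hτ : τ ∈ A.inertiaSubgroupIn ℚ) : ∃ m : ℕ, f τ = f (twc_tg_sigma ℓ A hA) ^ m :=
  twc_tg_inertia_gen_of ℓ A hA hp hpl (twc_tg_sigma_mem ℓ A hA) (twc_tg_sigma_gen ℓ A hA) f L₀ hL₀
    hpgrp hτ

/-- **(b)** `f(D_A)` is generated by `f φ` and `f σ`. -/
theorem twc_tg_decomp_gen {p : ℕ} (hp : p.Prime) (hpl : p ∣ ℓ - 1)
    {M : Type*} [Monoid M] (f : GQ →* M) (L₀ : IntermediateField ℚ Qbar) [FiniteDimensional ℚ L₀]
    (hL₀ : ∀ τ ∈ L₀.fixingSubgroup, f τ = 1)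
    (hpgrp : ∀ τ ∈ A.inertiaSubgroupIn ℚ, ∃ k : ℕ, f τ ^ (p ^ k) = 1)
    {τ : GQ} (hτ : τ ∈ A.decompositionSubgroup ℚ) :
    ∃ (n : ℤ) (m : ℕ), f τ = f (twc_tg_phi ℓ A hA ^ n * twc_tg_sigma ℓ A hA ^ m) :=
  twc_tg_decomp_gen_of ℓ A hA hp hpl (twc_tg_phi_isFrobeniusAt ℓ A hA) (twc_tg_sigma_mem ℓ A hA)
    (twc_tg_sigma_gen ℓ A hA) f L₀ hL₀ hpgrp hτ

/-- two monoid homs from a group which agree at `g` agree at `g ^ n`, `n : ℤ`. -/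
theorem twc_tg_map_zpow_eq {G M : Type*} [Group G] [Monoid M] (f f' : G →* M) {g : G}
    (h : f g = f' g) (n : ℤ) : f (g ^ n) = f' (g ^ n) := by
  have h1 : f.toHomUnits g = f'.toHomUnits g := by
    apply Units.ext
    rw [MonoidHom.coe_toHomUnits, MonoidHom.coe_toHomUnits, h]
  have h2 : f.toHomUnits (g ^ n) = f'.toHomUnits (g ^ n) := by
    rw [map_zpow, map_zpow, h1]
  have h3 : ((f.toHomUnits (g ^ n) : Mˣ) : M) = ((f'.toHomUnits (g ^ n) : Mˣ) : M) :=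
    congrArg (fun u : Mˣ => (u : M)) h2
  rwa [MonoidHom.coe_toHomUnits, MonoidHom.coe_toHomUnits] at h3

/-- a consequence of (b): two finite-level homomorphisms with `p`-group inertia image which agree
at `φ` and at `σ` agree on the whole decomposition group `D_A`. -/
theorem twc_tg_eq_on_decomp {p : ℕ} (hp : p.Prime) (hpl : p ∣ ℓ - 1)
    {M : Type*} [Monoid M] (f f' : GQ →* M) (L₀ : IntermediateField ℚ Qbar)
    [FiniteDimensional ℚ L₀]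
    (hL₀ : ∀ τ ∈ L₀.fixingSubgroup, f τ = 1) (hL₀' : ∀ τ ∈ L₀.fixingSubgroup, f' τ = 1)
    (hpgrp : ∀ τ ∈ A.inertiaSubgroupIn ℚ, ∃ k : ℕ, f τ ^ (p ^ k) = 1 ∧ f' τ ^ (p ^ k) = 1)
    (h1 : f (twc_tg_phi ℓ A hA) = f' (twc_tg_phi ℓ A hA))
    (h2 : f (twc_tg_sigma ℓ A hA) = f' (twc_tg_sigma ℓ A hA))
    {τ : GQ} (hτ : τ ∈ A.decompositionSubgroup ℚ) : f τ = f' τ := by
  -- apply (b) to the product homomorphism
  have hpg : ∀ τ ∈ A.inertiaSubgroupIn ℚ, ∃ k : ℕ, (f.prod f') τ ^ (p ^ k) = 1 := by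
    intro τ hτ
    obtain ⟨k, hk1, hk2⟩ := hpgrp τ hτ
    exact ⟨k, Prod.ext (by simpa using hk1) (by simpa using hk2)⟩
  have hL : ∀ τ ∈ L₀.fixingSubgroup, (f.prod f') τ = 1 := fun τ hτ =>
    Prod.ext (by simpa using hL₀ τ hτ) (by simpa using hL₀' τ hτ)
  obtain ⟨n, m, h⟩ := twc_tg_decomp_gen ℓ A hA hp hpl (f.prod f') L₀ hL hpg hτ
  have ha := congrArg Prod.fst h
  have hb := congrArg Prod.snd h
  simp only [MonoidHom.prod_apply] at ha hb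
  rw [ha, hb, map_mul, map_mul, map_pow, map_pow, h2, twc_tg_map_zpow_eq f f' h1 n]

end main

/-! ### Characters of `(ℤ/ℓ)ˣ` -/

/-- for `ζ ^ p = 1`, `p ∣ ℓ - 1`, and a generator `g` of `(ℤ/ℓ)ˣ` there is a character
`χ₀ : (ℤ/ℓ)ˣ →* G'` with `χ₀ g = ζ`. -/
theorem twc_tg_exists_char (ℓ : ℕ) [hℓ : Fact ℓ.Prime] {p : ℕ} (hpl : p ∣ ℓ - 1)
    {g : (ZMod ℓ)ˣ} (hg : ∀ u : (ZMod ℓ)ˣ, u ∈ Subgroup.zpowers g)
    {G' : Type*} [Group G'] {ζ : G'} (hζ : ζ ^ p = 1) :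
    ∃ χ₀ : (ZMod ℓ)ˣ →* G', χ₀ g = ζ := by
  have hord : orderOf g = ℓ - 1 := by
    rw [orderOf_eq_card_of_forall_mem_zpowers hg, Nat.card_eq_fintype_card,
      ZMod.card_units_eq_totient, Nat.totient_prime hℓ.out]
  have hdvd : orderOf ζ ∣ orderOf g := by
    rw [hord]; exact (orderOf_dvd_of_pow_eq_one hζ).trans hpl
  exact ⟨monoidHomOfForallMemZpowers hg hdvd, monoidHomOfForallMemZpowers_apply_gen hg hdvd⟩

/-- the global character `ψ = χ₀ ∘ (mod-ℓ cyclotomic character)` with `ψ φ = 1`, `ψ σ = ζ`. -/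
theorem twc_tg_exists_psi (ℓ : ℕ) [hℓ : Fact ℓ.Prime] (A : ValuationSubring Qbar)
    (hA : A.LiesOverPrime ℓ) {p : ℕ} (hpl : p ∣ ℓ - 1)
    {G' : Type*} [Group G'] {ζ : G'} (hζ : ζ ^ p = 1) :
    ∃ χ₀ : (ZMod ℓ)ˣ →* G', (χ₀.comp (dspk_cyc ℓ)) (twc_tg_phi ℓ A hA) = 1 ∧
      (χ₀.comp (dspk_cyc ℓ)) (twc_tg_sigma ℓ A hA) = ζ := by
  obtain ⟨χ₀, hχ₀⟩ := twc_tg_exists_char ℓ hpl (twc_tg_sigma_gen ℓ A hA) hζ
  refine ⟨χ₀, ?_, ?_⟩
  · rw [MonoidHom.comp_apply, twc_tg_phi_cyc, map_one]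
  · rw [MonoidHom.comp_apply, hχ₀]

end Fermat.Agent.TW
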