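/-
ONE MACHINE / block [C] DEF, leaf `C/TameGen`, part 3 (helper8).  Namespace `Fermat.Agent.TW`,
prefix `twc_tg_`.

**`twc_tg_main : twc_TameGen_stmt`** (the seam of `TW/Def/Seams.lean`): the tame generators
`twc_TameData p Th` exist at every finite set `Th` of primes `ℓ ≡ 1 mod p`, with
`gφ ℓ = twc_tg_phi ℓ (primeLocalPlace ℓ)`, `gσ ℓ = twc_tg_sigma ℓ (primeLocalPlace ℓ)`
(`TW/Def/TameGen.lean`).  Moreover (`twc_tg_data_phi_cyc`) `cycloChar ℓ (gφ ℓ) = 1` for this datum.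
-/
import Mathlib
import Fermat.Agent.TW.Def.Seams
import Fermat.Agent.TW.Def.TameGen
import Fermat.Agent.S56.LocD.Bridge

set_option autoImplicit false
set_option linter.unusedSectionVars false
set_option linter.style.haveILetI false

noncomputable section

namespace Fermat.Agent.TW

open ExtCitation Fermat.Agent.S56 Fermat.Agent.DS

local notation "Qbar" => AlgebraicClosure ℚ
local notation "GQ" => (AlgebraicClosure ℚ ≃ₐ[ℚ] AlgebraicClosure ℚ)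

/-- the Prelude's mod-`ℓ` cyclotomic character is `dspk_cyc ℓ`. -/
theorem twc_tg_cycloChar_eq (ℓ : ℕ) [hℓ : Fact ℓ.Prime] (σ : GQ) :
    cycloChar ℓ σ = dspk_cyc ℓ σ := by
  apply Units.ext
  have h := dspk_cyc_eq_of ℓ σ (cycloExp ℓ σ) (fun μ hμ => by
    haveI : NeZero ℓ := ⟨hℓ.out.ne_zero⟩
    have hu : IsUnit μ := IsUnit.of_pow_eq_one hμ (NeZero.ne ℓ)
    obtain ⟨u, rfl⟩ := hu
    have hmem : u ∈ rootsOfUnity ℓ Qbar := by
      rw [mem_rootsOfUnity]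
      exact Units.ext (by simpa using hμ)
    exact modularCyclotomicCharacter.spec Qbar (card_rootsOfUnity_eq_self ℓ)
      (σ : Qbar ≃+* Qbar) hmem)
  rw [h, coe_cycloChar]

/-- the chosen Frobenius at `primeLocalPlace ℓ`. -/
def twc_tg_gphi (ℓ : Nat.Primes) : GQ :=
  haveI : Fact (ℓ : ℕ).Prime := ⟨ℓ.2⟩
  twc_tg_phi (ℓ : ℕ) (primeLocalPlace ℓ) (s56ld_liesOver ℓ)

/-- the chosen tame generator at `primeLocalPlace ℓ`. -/
def twc_tg_gsigma (ℓ : Nat.Primes) : GQ :=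
  haveI : Fact (ℓ : ℕ).Prime := ⟨ℓ.2⟩
  twc_tg_sigma (ℓ : ℕ) (primeLocalPlace ℓ) (s56ld_liesOver ℓ)

/-- the finite-level hypothesis of `twc_TameData`, in the `fixingSubgroup` form. -/
theorem twc_tg_finiteLevel_conv {M : Type*} [Monoid M] (f : GQ →* M)
    (h : ∃ L : IntermediateField ℚ Qbar, FiniteDimensional ℚ L ∧
      ∀ s : GQ, (∀ x ∈ L, s x = x) → f s = 1) :
    ∃ L : IntermediateField ℚ Qbar, FiniteDimensional ℚ L ∧ ∀ τ ∈ L.fixingSubgroup, f τ = 1 := by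
  obtain ⟨L, hL, h⟩ := h
  exact ⟨L, hL, fun τ hτ => h τ ((IntermediateField.mem_fixingSubgroup_iff _ _).1 hτ)⟩

/-- the image of `φ ^ n`, `n : ℤ`, lies in the submonoid generated by `f φ` and `f φ⁻¹`. -/
theorem twc_tg_zpow_mem {M : Type*} [Monoid M] (f : GQ →* M) (φ : GQ) (S : Submonoid M)
    (h1 : f φ ∈ S) (h2 : f φ⁻¹ ∈ S) (n : ℤ) : f (φ ^ n) ∈ S := by
  rcases Int.eq_nat_or_neg n with ⟨k, rfl | rfl⟩
  · rw [zpow_natCast, map_pow]; exact pow_mem h1 k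
  · rw [zpow_neg, zpow_natCast, ← inv_pow, map_pow]; exact pow_mem h2 k

/-- **C/TameGen**. -/
theorem twc_tg_main : twc_TameGen_stmt := by
  intro p hp Th hTh
  refine ⟨{
    gφ := twc_tg_gphi
    gσ := twc_tg_gsigma
    φ_mem := fun ℓ _ => ?_
    φ_frob := fun ℓ _ => ?_
    σ_mem := fun ℓ _ => ?_
    rel := fun ℓ hℓ M _ f hfin hpg => ?_
    gen := fun ℓ hℓ M _ f hfin hpg τ hτ => ?_
    σ_cyclo := fun ℓ hℓ hF u => ?_ }⟩
  · haveI : Fact (ℓ : ℕ).Prime := ⟨ℓ.2⟩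
    exact twc_tg_phi_mem (ℓ : ℕ) (primeLocalPlace ℓ) (s56ld_liesOver ℓ)
  · haveI : Fact (ℓ : ℕ).Prime := ⟨ℓ.2⟩
    exact twc_tg_phi_isFrobeniusAt (ℓ : ℕ) (primeLocalPlace ℓ) (s56ld_liesOver ℓ)
  · haveI : Fact (ℓ : ℕ).Prime := ⟨ℓ.2⟩
    exact twc_tg_sigma_mem (ℓ : ℕ) (primeLocalPlace ℓ) (s56ld_liesOver ℓ)
  · haveI : Fact (ℓ : ℕ).Prime := ⟨ℓ.2⟩
    obtain ⟨L, hL, hLf⟩ := twc_tg_finiteLevel_conv f hfin
    haveI := hL
    exact twc_tg_conj (ℓ : ℕ) (primeLocalPlace ℓ) (s56ld_liesOver ℓ) hp.out (hTh ℓ hℓ).2 f L hLf hpg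
  · haveI : Fact (ℓ : ℕ).Prime := ⟨ℓ.2⟩
    obtain ⟨L, hL, hLf⟩ := twc_tg_finiteLevel_conv f hfin
    haveI := hL
    obtain ⟨n, m, h⟩ := twc_tg_decomp_gen (ℓ : ℕ) (primeLocalPlace ℓ) (s56ld_liesOver ℓ) hp.out
      (hTh ℓ hℓ).2 f L hLf hpg hτ
    rw [h, map_mul, map_pow]
    refine mul_mem (twc_tg_zpow_mem f _ _ ?_ ?_ n) (pow_mem ?_ m)
    · exact Submonoid.subset_closure (by simp [twc_tg_gphi])
    · exact Submonoid.subset_closure (by simp [twc_tg_gphi])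
    · exact Submonoid.subset_closure (by simp [twc_tg_gsigma])
  · intro heq
    have hq : (ℓ : ℕ).Prime := ℓ.2
    have hgen : ∀ v : (ZMod (ℓ : ℕ))ˣ,
        v ∈ Subgroup.zpowers (dspk_cyc (ℓ : ℕ) (twc_tg_gsigma ℓ)) :=
      twc_tg_sigma_gen (ℓ : ℕ) (primeLocalPlace ℓ) (s56ld_liesOver ℓ)
    have hc : dspk_cyc (ℓ : ℕ) (twc_tg_gsigma ℓ) = u ^ p := by
      rw [← twc_tg_cycloChar_eq]; exact heq
    have hord : orderOf (dspk_cyc (ℓ : ℕ) (twc_tg_gsigma ℓ)) = (ℓ : ℕ) - 1 := by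
      rw [orderOf_eq_card_of_forall_mem_zpowers hgen, Nat.card_eq_fintype_card,
        ZMod.card_units_eq_totient, Nat.totient_prime hq]
    obtain ⟨e, he⟩ := (hTh ℓ hℓ).2
    have h2 := hq.two_le
    have he0 : 0 < e := by
      rcases Nat.eq_zero_or_pos e with h | h
      · rw [h, mul_zero] at he; omega
      · exact h
    have hlt : e < orderOf (dspk_cyc (ℓ : ℕ) (twc_tg_gsigma ℓ)) := by
      rw [hord, he]
      calc e = 1 * e := (one_mul e).symm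
        _ < p * e := Nat.mul_lt_mul_of_pos_right hp.out.one_lt he0
    apply pow_ne_one_of_lt_orderOf he0.ne' hlt
    rw [hc, ← pow_mul, ← he]
    exact ZMod.units_pow_card_sub_one_eq_one (ℓ : ℕ) u

/-- for the datum of `twc_tg_main`, the Frobenius `gφ ℓ` fixes the `ℓ`-th roots of unity. -/
theorem twc_tg_gphi_cyc (ℓ : Nat.Primes) :
    haveI : Fact (ℓ : ℕ).Prime := ⟨ℓ.2⟩
    cycloChar (ℓ : ℕ) (twc_tg_gphi ℓ) = 1 := by
  haveI : Fact (ℓ : ℕ).Prime := ⟨ℓ.2⟩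
  rw [twc_tg_cycloChar_eq]
  exact twc_tg_phi_cyc (ℓ : ℕ) (primeLocalPlace ℓ) (s56ld_liesOver ℓ)

end Fermat.Agent.TW
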