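/-
Project ONE MACHINE (S43), block [C] DEF, cell C/LocRel (helper13).

The local relations at a hard prime `ℓ ∈ Th` hold in every framed representation `r` over a
noetherian local ring `A` (e.g. the `r` of a Hecke pair `twc_HPair`), for the tame generators
`Φ := r(φ_ℓ)`, `Σ := r(σ_ℓ)` of a `twc_TameData`:

* (R1) `twc_lr_rel`     : `Φ * Σ = Σ ^ ℓ * Φ`  (from `td.rel` on the finite-level quotients
                          `GQ → GL₂(A/𝔪ⁿ)` + Krull's intersection theorem), as soon as `p ∈ 𝔪` and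
                          `r` is residually trivial on the inertia group at `ℓ`;
* (R2) `twc_lr_charpoly`: `Σ.charpoly = (X - ψ(σ_ℓ)) (X - ψ(σ_ℓ)⁻¹)` for the type `ψ`, hence
                          `twc_lr_det_sigma : det Σ = 1`, `twc_lr_trace_sigma`;
* (R3) `twc_lr_det_phi` : `det Φ = ℓ` (cyclotomic determinant + Frobenius on `p`-power roots of
                          unity + Krull).

Mathlib-only helper: `twc_lr_pow_p` — if `p ∈ J` and `X ≡ 1 mod M₂(J)` then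
`X^(p^j) ≡ 1 mod M₂(J^(j+1))`.
-/
import Mathlib
import Fermat.Agent.TW.Def.Seams
import Fermat.Agent.DS.Pack.CycloMod
import Fermat.Agent.S56.LocD.Bridge

set_option autoImplicit false
set_option linter.unusedSectionVars false
set_option linter.style.haveILetI false

open Polynomial IsLocalRing ExtCitation
open Fermat.Agent.S53 Fermat.Agent.S56

namespace Fermat.Agent.TW

noncomputable section

local notation "GQ" => (AlgebraicClosure ℚ ≃ₐ[ℚ] AlgebraicClosure ℚ)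
local notation "Qbar" => AlgebraicClosure ℚ

/-! ### Matrices with entries in an ideal -/

section entries

variable {B : Type*} [CommRing B]

/-- all entries of `X` lie in the ideal `I`. -/
def twc_lr_In (I : Ideal B) (X : Matrix (Fin 2) (Fin 2) B) : Prop := ∀ i j, X i j ∈ I

lemma twc_lr_In.mono {I I' : Ideal B} (h : I ≤ I') {X : Matrix (Fin 2) (Fin 2) B}
    (hX : twc_lr_In I X) : twc_lr_In I' X := fun i j => h (hX i j)

lemma twc_lr_In.add {I : Ideal B} {X Y : Matrix (Fin 2) (Fin 2) B} (hX : twc_lr_In I X)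
    (hY : twc_lr_In I Y) : twc_lr_In I (X + Y) := fun i j => by
  rw [Matrix.add_apply]; exact I.add_mem (hX i j) (hY i j)

lemma twc_lr_In.mul {I I' : Ideal B} {X Y : Matrix (Fin 2) (Fin 2) B} (hX : twc_lr_In I X)
    (hY : twc_lr_In I' Y) : twc_lr_In (I * I') (X * Y) := fun i j => by
  rw [Matrix.mul_apply]
  exact Ideal.sum_mem _ fun k _ => Ideal.mul_mem_mul (hX i k) (hY k j)

lemma twc_lr_In.mul_left {I : Ideal B} (Z : Matrix (Fin 2) (Fin 2) B)
    {Y : Matrix (Fin 2) (Fin 2) B} (hY : twc_lr_In I Y) : twc_lr_In I (Z * Y) := fun i j => by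
  rw [Matrix.mul_apply]
  exact Ideal.sum_mem _ fun k _ => I.mul_mem_left _ (hY k j)

/-- `X ≡ 1` implies `X ^ n ≡ 1`. -/
lemma twc_lr_In.pow_sub_one {I : Ideal B} {X : Matrix (Fin 2) (Fin 2) B}
    (hX : twc_lr_In I (X - 1)) (n : ℕ) : twc_lr_In I (X ^ n - 1) := by
  induction n with
  | zero => intro i j; simp
  | succ n ih =>
    have h : X ^ (n + 1) - 1 = X ^ n * (X - 1) + (X ^ n - 1) := by
      rw [pow_succ]; noncomm_ring
    rw [h]
    exact (twc_lr_In.mul_left _ hX).add ih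

/-- `p ∈ J` and `X ≡ 1 mod J` imply `∑_{i<p} X^i ≡ 0 mod J`. -/
lemma twc_lr_In.geom {J : Ideal B} {p : ℕ} (hp : (p : B) ∈ J) {X : Matrix (Fin 2) (Fin 2) B}
    (hX : twc_lr_In J (X - 1)) : twc_lr_In J (∑ i ∈ Finset.range p, X ^ i) := by
  have h : (∑ i ∈ Finset.range p, X ^ i) =
      (∑ i ∈ Finset.range p, (X ^ i - 1)) + (p : Matrix (Fin 2) (Fin 2) B) := by
    rw [Finset.sum_sub_distrib, Finset.sum_const, Finset.card_range, nsmul_eq_mul, mul_one]
    abel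
  rw [h]
  refine twc_lr_In.add ?_ ?_
  · intro i j
    rw [Matrix.sum_apply]
    exact Ideal.sum_mem _ fun k _ => hX.pow_sub_one k i j
  · intro i j
    by_cases hij : i = j
    · subst hij
      have : ((p : Matrix (Fin 2) (Fin 2) B)) i i = (p : B) := by
        simp [Matrix.natCast_apply]
      rw [this]; exact hp
    · have : ((p : Matrix (Fin 2) (Fin 2) B)) i j = 0 := by
        simp [Matrix.natCast_apply, hij]
      rw [this]; exact J.zero_mem

/-- **`p`-power torsion of the congruence kernel.** -/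
theorem twc_lr_pow_p {J : Ideal B} {p : ℕ} (hp : (p : B) ∈ J) {X : Matrix (Fin 2) (Fin 2) B}
    (hX : twc_lr_In J (X - 1)) (j : ℕ) : twc_lr_In (J ^ (j + 1)) (X ^ p ^ j - 1) := by
  induction j with
  | zero => simpa using hX
  | succ j ih =>
    have hJ : J ^ (j + 1) ≤ J := Ideal.pow_le_self (Nat.succ_ne_zero j)
    have h1 : twc_lr_In J (∑ i ∈ Finset.range p, (X ^ p ^ j) ^ i) :=
      twc_lr_In.geom hp (ih.mono hJ)
    have h2 : X ^ p ^ (j + 1) - 1 = (∑ i ∈ Finset.range p, (X ^ p ^ j) ^ i) * (X ^ p ^ j - 1) := by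
      rw [geom_sum_mul, ← pow_mul, ← pow_succ]
    rw [h2, pow_succ' J (j + 1)]
    exact h1.mul ih

end entries

/-! ### Krull -/

section krull

variable {A : Type*} [CommRing A] [IsLocalRing A] [IsNoetherianRing A]

lemma twc_lr_eq_zero_of_forall_mem {x : A} (h : ∀ n : ℕ, x ∈ maximalIdeal A ^ n) : x = 0 := by
  have h1 : x ∈ ⨅ n : ℕ, maximalIdeal A ^ n := by
    rw [Ideal.mem_iInf]; exact h
  rw [Ideal.iInf_pow_eq_bot_of_isLocalRing _ (Ideal.IsPrime.ne_top inferInstance)] at h1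
  exact h1

lemma twc_lr_matrix_eq_zero {X : Matrix (Fin 2) (Fin 2) A}
    (h : ∀ n : ℕ, twc_lr_In (maximalIdeal A ^ n) X) : X = 0 := by
  ext i j
  exact twc_lr_eq_zero_of_forall_mem fun n => h n i j

end krull

/-! ### The relations -/

section rel

variable {A : Type} [CommRing A] [IsLocalRing A] [IsNoetherianRing A]

/-- reduction of `2 × 2` matrices modulo `𝔪ⁿ`. -/
def twc_lr_mk (A : Type) [CommRing A] [IsLocalRing A] (n : ℕ) :
    Matrix (Fin 2) (Fin 2) A →+* Matrix (Fin 2) (Fin 2) (A ⧸ maximalIdeal A ^ n) :=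
  (Ideal.Quotient.mk (maximalIdeal A ^ n)).mapMatrix

/-- the reduction of a framed representation modulo `𝔪ⁿ`, as a monoid homomorphism. -/
def twc_lr_red (r : FramedRep A) (n : ℕ) :
    GQ →* Matrix (Fin 2) (Fin 2) (A ⧸ maximalIdeal A ^ n) :=
  (twc_lr_mk A n).toMonoidHom.comp r.toMonoidHom

lemma twc_lr_red_apply (r : FramedRep A) (n : ℕ) (σ : GQ) :
    twc_lr_red r n σ = twc_lr_mk A n (r σ) := rfl

/-- a matrix maps to `0` modulo `𝔪ⁿ` iff its entries lie in `𝔪ⁿ`. -/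
lemma twc_lr_mk_eq_zero_iff (n : ℕ) (X : Matrix (Fin 2) (Fin 2) A) :
    twc_lr_mk A n X = 0 ↔ twc_lr_In (maximalIdeal A ^ n) X := by
  constructor
  · intro h i j
    have := congrFun (congrFun h i) j
    rwa [twc_lr_mk, RingHom.mapMatrix_apply, Matrix.map_apply, Matrix.zero_apply,
      Ideal.Quotient.eq_zero_iff_mem] at this
  · intro h
    ext i j
    rw [twc_lr_mk, RingHom.mapMatrix_apply, Matrix.map_apply, Matrix.zero_apply,
      Ideal.Quotient.eq_zero_iff_mem]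
    exact h i j

/-- **(R1) the tame relation** `Φ Σ = Σ^ℓ Φ`. -/
theorem twc_lr_rel {p : ℕ} {Th : Finset Nat.Primes} (td : twc_TameData p Th)
    (hp : (p : A) ∈ maximalIdeal A) (r : FramedRep A) (ℓ : Nat.Primes) (hℓ : ℓ ∈ Th)
    (hres : ∀ τ ∈ (primeLocalPlace ℓ).inertiaSubgroupIn ℚ,
      twc_lr_In (maximalIdeal A) (r τ - 1)) :
    r (td.gφ ℓ) * r (td.gσ ℓ) = r (td.gσ ℓ) ^ (ℓ : ℕ) * r (td.gφ ℓ) := by
  rw [← sub_eq_zero]
  refine twc_lr_matrix_eq_zero fun n => ?_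
  rw [← twc_lr_mk_eq_zero_iff]
  have hfin : ∃ L : IntermediateField ℚ Qbar, FiniteDimensional ℚ L ∧
      ∀ s : GQ, (∀ x ∈ L, s x = x) → twc_lr_red r n s = 1 := by
    obtain ⟨L, hL, h⟩ := r.cont n
    refine ⟨L, hL, fun s hs => ?_⟩
    rw [twc_lr_red_apply, ← sub_eq_zero, ← map_one (twc_lr_mk A n), ← map_sub,
      twc_lr_mk_eq_zero_iff]
    exact h s hs
  have hpg : ∀ τ ∈ (primeLocalPlace ℓ).inertiaSubgroupIn ℚ,
      ∃ m : ℕ, twc_lr_red r n τ ^ p ^ m = 1 := by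
    intro τ hτ
    refine ⟨n, ?_⟩
    rw [twc_lr_red_apply, ← map_pow, ← sub_eq_zero, ← map_one (twc_lr_mk A n), ← map_sub,
      twc_lr_mk_eq_zero_iff]
    exact (twc_lr_pow_p hp (hres τ hτ) n).mono (Ideal.pow_le_pow_right (Nat.le_succ n))
  have h := td.rel ℓ hℓ _ (twc_lr_red r n) hfin hpg
  simp only [twc_lr_red_apply] at h
  rw [map_sub, map_mul, map_mul, map_pow, h, sub_self]

/-- **(R2) the characteristic polynomial of `Σ`** for the inertial type `ψ`. -/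
theorem twc_lr_charpoly {𝒪 : Type} [CommRing 𝒪] [Algebra 𝒪 A] {p : ℕ} {Th : Finset Nat.Primes}
    (td : twc_TameData p Th) (r : FramedRep A) (ℓ : Nat.Primes) (hℓ : ℓ ∈ Th) (ψ : GQ →* 𝒪ˣ)
    (hT : twc_HasType (𝒪 := 𝒪) r.toGaloisRepAdic (ℓ : ℕ) ψ) :
    (r (td.gσ ℓ)).charpoly =
      (X - C (algebraMap 𝒪 A (ψ (td.gσ ℓ) : 𝒪))) *
        (X - C (algebraMap 𝒪 A ((ψ (td.gσ ℓ))⁻¹ : 𝒪ˣ))) := by
  have h := hT (primeLocalPlace ℓ) (s56ld_liesOver ℓ) (td.gσ ℓ) (td.σ_mem ℓ hℓ)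
  rw [← h]
  exact (Matrix.charpoly_toLin' (r (td.gσ ℓ))).symm

/-- `det Σ = 1` and `tr Σ = ψ(σ_ℓ) + ψ(σ_ℓ)⁻¹`. -/
theorem twc_lr_det_trace_sigma {𝒪 : Type} [CommRing 𝒪] [Algebra 𝒪 A] {p : ℕ}
    {Th : Finset Nat.Primes}
    (td : twc_TameData p Th) (r : FramedRep A) (ℓ : Nat.Primes) (hℓ : ℓ ∈ Th) (ψ : GQ →* 𝒪ˣ)
    (hT : twc_HasType (𝒪 := 𝒪) r.toGaloisRepAdic (ℓ : ℕ) ψ) :
    (r (td.gσ ℓ)).det = 1 ∧
      (r (td.gσ ℓ)).trace =
        algebraMap 𝒪 A (ψ (td.gσ ℓ) : 𝒪) + algebraMap 𝒪 A ((ψ (td.gσ ℓ))⁻¹ : 𝒪ˣ) := by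
  have hcp := twc_lr_charpoly td r ℓ hℓ ψ hT
  set u : A := algebraMap 𝒪 A (ψ (td.gσ ℓ) : 𝒪) with hu
  set v : A := algebraMap 𝒪 A ((ψ (td.gσ ℓ))⁻¹ : 𝒪ˣ) with hv
  have huv : u * v = 1 := by
    rw [hu, hv, ← map_mul, ← Units.val_mul, mul_inv_cancel, Units.val_one, map_one]
  have e1 : ((X - C u) * (X - C v) : A[X]) = X ^ 2 - C (u + v) * X + C (u * v) := by
    simp only [map_add, map_mul]; ring
  rw [e1] at hcp
  constructor
  · rw [Matrix.det_eq_sign_charpoly_coeff, hcp]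
    simp only [Fintype.card_fin, coeff_add, coeff_sub, coeff_X_pow, coeff_C_mul, coeff_C]
    simp [huv]
  · rw [Matrix.trace_eq_neg_charpoly_coeff, hcp]
    simp only [Fintype.card_fin, coeff_add, coeff_sub, coeff_X_pow, coeff_C_mul, coeff_C]
    simp

/-- **(R3) `det Φ = ℓ`** from the cyclotomic determinant. -/
theorem twc_lr_det_phi {p : ℕ} [Fact p.Prime] {Th : Finset Nat.Primes} (td : twc_TameData p Th)
    (r : FramedRep A) (ℓ : Nat.Primes) (hℓ : ℓ ∈ Th) (hℓp : (ℓ : ℕ) ≠ p)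
    (hdet : r.toGaloisRepAdic.DetIsCyclotomic p) :
    (r (td.gφ ℓ)).det = ((ℓ : ℕ) : A) := by
  have hpp : p.Prime := Fact.out
  obtain ⟨hpA, hcyc⟩ := hdet
  rw [← sub_eq_zero]
  refine twc_lr_eq_zero_of_forall_mem fun n => ?_
  haveI : NeZero (p ^ n) := ⟨pow_ne_zero _ hpp.ne_zero⟩
  have hℓn : ¬ (ℓ : ℕ) ∣ p ^ n := fun h =>
    hℓp ((Nat.prime_dvd_prime_iff_eq ℓ.2 hpp).1 (ℓ.2.dvd_of_dvd_pow h))
  have h1 := hcyc n (td.gφ ℓ) (ℓ : ℕ) fun μ hμ =>
    Fermat.Agent.DS.dspk_cyc_frob_root (p ^ n) ℓ.2 hℓn (primeLocalPlace ℓ) (s56ld_liesOver ℓ)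
      (td.gφ ℓ) (td.φ_frob ℓ hℓ) hμ
  have h2 : LinearMap.det (r.toGaloisRepAdic.ρ (td.gφ ℓ)) = (r (td.gφ ℓ)).det :=
    LinearMap.det_toLin' (r (td.gφ ℓ))
  rw [h2] at h1
  have h3 : Ideal.span {((p ^ n : ℕ) : A)} ≤ maximalIdeal A ^ n := by
    rw [Ideal.span_singleton_le_iff_mem]
    push_cast
    exact Ideal.pow_mem_pow hpA n
  exact h3 h1

end rel

end

end Fermat.Agent.TW
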