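import Mathlib
import Fermat.Agent.TW.Def.LocRel
import Fermat.Agent.TW.Loc.Rel8

/-!
# Project TW (S43), cell C/LocRel8: the presentation `γ` of C/Present kills `J^1` resp. `J^#`

Glue between block [C] (`twc_present`: a surjection `γ : 𝒪[[(Th × 2 × 2 × 2) ⊕ ι]] → T` with
`X (ℓ, 0, i, j) ↦ (r(σ_ℓ) - 1) i j`, `X (ℓ, 1, i, j) ↦ (r(φ_ℓ) - a ℓ) i j`) and block [B]
(`twb_r8_Junip`, `twb_r8_Jhash` of `TW/Loc/Rel8.lean`).  Prefix `twc_l8_`.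

* `twc_l8_hres` : a lift of a residual representation unramified at `ℓ` is residually trivial on
  the inertia group at `ℓ` (the hypothesis `hres` of `twc_lr_rel`).
* `twc_l8_mapSig`, `twc_l8_mapPhi` : `γ` maps the universal matrices to `r(σ_ℓ)`, `r(φ_ℓ)`.
* `twc_l8_unip_rels` : the four matrix identities of the unipotent system;
  `twc_l8_Junip_le_ker` : `J^1 ≤ ker γ`.
* `twc_l8_hash_rels` : the four matrix identities of the `χ`-system from `∑_{k<p} Σ^k = 0`,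
  `det Σ = 1`;  `twc_l8_Jhash_le_ker` : `J^# ≤ ker γ`.
-/

set_option autoImplicit false
set_option linter.unusedSectionVars false
set_option linter.style.haveILetI false

open Polynomial IsLocalRing ExtCitation
open Fermat.Agent.S53 Fermat.Agent.S56

namespace Fermat.Agent.TW

noncomputable section

local notation "GQ" => (AlgebraicClosure ℚ ≃ₐ[ℚ] AlgebraicClosure ℚ)
local notation "Qbar" => AlgebraicClosure ℚ

variable {A : Type} [CommRing A] [IsLocalRing A]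

/-- a lift of a residual representation which is unramified at `ℓ` is residually trivial on the
inertia group at `ℓ`. -/
theorem twc_l8_hres {k : Type} [Field k] (r : FramedRep A) (rb : FramedResidual k)
    (ι : k →+* ResidueField A) (hl : r.IsLiftOf rb ι) (ℓ : Nat.Primes)
    (hur : rb.toResidualGaloisRep.IsUnramifiedAt (ℓ : ℕ)) :
    ∀ τ ∈ (primeLocalPlace ℓ).inertiaSubgroupIn ℚ,
      twc_lr_In (maximalIdeal A) (r τ - 1) := by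
  intro τ hτ i j
  have h1 : rb.toResidualGaloisRep.ρ τ = 1 := hur (primeLocalPlace ℓ) (s56ld_liesOver ℓ) τ hτ
  have h2 : rb τ = 1 := by
    have h3 : Matrix.toLin' (rb.toMonoidHom τ) = 1 := h1
    have h4 : Matrix.toLin' (rb.toMonoidHom τ) = Matrix.toLin' (1 : Matrix (Fin 2) (Fin 2) k) := by
      rw [h3, Matrix.toLin'_one]; rfl
    exact Matrix.toLin'.injective h4
  have h5 := hl τ
  rw [h2] at h5
  have h6 := congrFun (congrFun h5 i) j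
  rw [Matrix.map_apply, Matrix.map_apply] at h6
  rw [← IsLocalRing.residue_eq_zero_iff, Matrix.sub_apply, map_sub, h6]
  by_cases hij : i = j
  · subst hij; simp
  · simp [Matrix.one_apply_ne hij]

section gamma

variable {𝒪 : Type} [CommRing 𝒪] [Algebra 𝒪 A] {T : Type} {ι : Type}

/-- `γ` maps the universal `Σ_ℓ` to `Sg ℓ`. -/
theorem twc_l8_mapSig (γ : twb_r8_P 𝒪 T ι →ₐ[𝒪] A) (Sg : T → Matrix (Fin 2) (Fin 2) A)
    (hσ : ∀ (ℓ : T) (i j : Fin 2),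
      γ (MvPowerSeries.X (Sum.inl (ℓ, 0, i, j))) = (Sg ℓ - 1) i j) (ℓ : T) :
    γ.toRingHom.mapMatrix (twb_r8_Sig 𝒪 ι ℓ) = Sg ℓ := by
  ext i j
  rw [RingHom.mapMatrix_apply, Matrix.map_apply, twb_r8_Sig, Matrix.add_apply, map_add,
    Matrix.of_apply]
  have h := hσ ℓ i j
  rw [Matrix.sub_apply] at h
  have h1 : γ.toRingHom ((1 : Matrix (Fin 2) (Fin 2) (twb_r8_P 𝒪 T ι)) i j)
      = (1 : Matrix (Fin 2) (Fin 2) A) i j := by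
    by_cases hij : i = j
    · subst hij; simp
    · simp [Matrix.one_apply_ne hij]
  rw [h1]
  show _ + γ _ = _
  rw [h]; ring

/-- `γ` maps the universal `Φ_ℓ` to `Ph ℓ`. -/
theorem twc_l8_mapPhi (γ : twb_r8_P 𝒪 T ι →ₐ[𝒪] A) (a : T → 𝒪)
    (Ph : T → Matrix (Fin 2) (Fin 2) A)
    (hφ : ∀ (ℓ : T) (i j : Fin 2),
      γ (MvPowerSeries.X (Sum.inl (ℓ, 1, i, j))) =
        (Ph ℓ - Matrix.scalar (Fin 2) (algebraMap 𝒪 A (a ℓ))) i j) (ℓ : T) :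
    γ.toRingHom.mapMatrix (twb_r8_Phi 𝒪 ι a ℓ) = Ph ℓ := by
  ext i j
  rw [RingHom.mapMatrix_apply, Matrix.map_apply, twb_r8_Phi, Matrix.add_apply, map_add,
    Matrix.of_apply]
  have h := hφ ℓ i j
  rw [Matrix.sub_apply] at h
  have hC : γ (MvPowerSeries.C (a ℓ)) = algebraMap 𝒪 A (a ℓ) := by
    have : (MvPowerSeries.C (a ℓ) : twb_r8_P 𝒪 T ι) = algebraMap 𝒪 (twb_r8_P 𝒪 T ι) (a ℓ) := rfl
    rw [this, AlgHom.commutes]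
  have h1 : γ.toRingHom ((Matrix.scalar (Fin 2) (MvPowerSeries.C (a ℓ)) :
      Matrix (Fin 2) (Fin 2) (twb_r8_P 𝒪 T ι)) i j)
      = (Matrix.scalar (Fin 2) (algebraMap 𝒪 A (a ℓ)) : Matrix (Fin 2) (Fin 2) A) i j := by
    by_cases hij : i = j
    · subst hij
      simp only [Matrix.scalar_apply, Matrix.diagonal_apply_eq]
      exact hC
    · simp only [Matrix.scalar_apply, Matrix.diagonal_apply_ne _ hij]
      exact map_zero _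
  rw [h1]
  show _ + γ _ = _
  rw [h]; ring

end gamma

section rels

variable [IsNoetherianRing A]

/-- **the four matrix identities of the unipotent system** at a hard prime `ℓ`. -/
theorem twc_l8_unip_rels {p : ℕ} [Fact p.Prime] (hp2 : p ≠ 2) {Th : Finset Nat.Primes}
    (td : twc_TameData p Th) (r : FramedRep A) (ℓ : Nat.Primes) (hℓ : ℓ ∈ Th)
    (hℓp : (ℓ : ℕ) ≠ p)
    (hres : ∀ τ ∈ (primeLocalPlace ℓ).inertiaSubgroupIn ℚ,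
      twc_lr_In (maximalIdeal A) (r τ - 1))
    (hdet : r.toGaloisRepAdic.DetIsCyclotomic p)
    (hun : r.toGaloisRepAdic.IsUnipotentOnInertiaAt (ℓ : ℕ)) :
    (r (td.gσ ℓ) - 1) ^ (p - 1) = 0 ∧ (r (td.gσ ℓ)).det = 1 ∧
      r (td.gφ ℓ) * r (td.gσ ℓ) = r (td.gσ ℓ) ^ (ℓ : ℕ) * r (td.gφ ℓ) ∧
      (r (td.gφ ℓ)).det = ((ℓ : ℕ) : A) := by
  have hpp : p.Prime := Fact.out
  have hT : twc_HasType (𝒪 := A) r.toGaloisRepAdic (ℓ : ℕ) 1 :=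
    (twc_hasType_one_iff (𝒪 := A) r.toGaloisRepAdic (ℓ : ℕ)).2 hun
  have hcp := twc_lr_charpoly td r ℓ hℓ (1 : GQ →* Aˣ) hT
  have hdt := (twc_lr_det_trace_sigma td r ℓ hℓ (1 : GQ →* Aˣ) hT).1
  refine ⟨?_, hdt, twc_lr_rel td hdet.1 r ℓ hℓ hres, twc_lr_det_phi td r ℓ hℓ hℓp hdet⟩
  have hsq : (r (td.gσ ℓ) - 1) ^ 2 = 0 := by
    have h := Matrix.aeval_self_charpoly (r (td.gσ ℓ))
    rw [hcp] at h
    simpa [pow_two] using h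
  have h2 : 2 ≤ p - 1 := by
    have := hpp.two_le
    omega
  obtain ⟨m, hm⟩ := Nat.exists_eq_add_of_le h2
  rw [hm, pow_add, hsq, zero_mul]

/-- **the four matrix identities of the `χ`-system** at a hard prime `ℓ ≡ 1 mod p`, from
`∑_{k<p} Σ^k = 0` and `det Σ = 1` (block [A]'s (A-X)). -/
theorem twc_l8_hash_rels {p : ℕ} [Fact p.Prime] {Th : Finset Nat.Primes}
    (td : twc_TameData p Th) (r : FramedRep A) (ℓ : Nat.Primes) (hℓ : ℓ ∈ Th)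
    (hℓp : (ℓ : ℕ) ≠ p) (hℓ1 : (ℓ : ℕ) % p = 1)
    (hres : ∀ τ ∈ (primeLocalPlace ℓ).inertiaSubgroupIn ℚ,
      twc_lr_In (maximalIdeal A) (r τ - 1))
    (hdet : r.toGaloisRepAdic.DetIsCyclotomic p)
    (hgeom : ∑ k ∈ Finset.range p, r (td.gσ ℓ) ^ k = 0)
    (hdσ : (r (td.gσ ℓ)).det = 1) :
    ∑ k ∈ Finset.range p, r (td.gσ ℓ) ^ k = 0 ∧ (r (td.gσ ℓ)).det = 1 ∧
      r (td.gφ ℓ) * r (td.gσ ℓ) = r (td.gσ ℓ) * r (td.gφ ℓ) ∧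
      (r (td.gφ ℓ)).det = ((ℓ : ℕ) : A) := by
  refine ⟨hgeom, hdσ, ?_, twc_lr_det_phi td r ℓ hℓ hℓp hdet⟩
  have h := twc_lr_rel td hdet.1 r ℓ hℓ hres
  rwa [twb_m8_pow_eq_self (r (td.gσ ℓ)) hgeom hℓ1] at h

variable {𝒪 : Type} [CommRing 𝒪] [Algebra 𝒪 A] {ι : Type}

/-- **`J^1 ≤ ker γ`**: the presentation of C/Present of a Hecke ring of the unipotent system
factors through `R^1_∞ = P / J^1`. -/
theorem twc_l8_Junip_le_ker {p : ℕ} [Fact p.Prime] (hp2 : p ≠ 2) {Th : Finset Nat.Primes}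
    (td : twc_TameData p Th) (r : FramedRep A)
    (hℓp : ∀ ℓ ∈ Th, (ℓ : ℕ) ≠ p)
    (hres : ∀ ℓ ∈ Th, ∀ τ ∈ (primeLocalPlace ℓ).inertiaSubgroupIn ℚ,
      twc_lr_In (maximalIdeal A) (r τ - 1))
    (hdet : r.toGaloisRepAdic.DetIsCyclotomic p)
    (hun : ∀ ℓ ∈ Th, r.toGaloisRepAdic.IsUnipotentOnInertiaAt (ℓ : ℕ))
    (a : Nat.Primes → 𝒪) (γ : twb_r8_P 𝒪 (↥Th) ι →ₐ[𝒪] A)
    (hσ : ∀ (ℓ : ↥Th) (i j : Fin 2),
      γ (MvPowerSeries.X (Sum.inl (ℓ, 0, i, j))) = (r (td.gσ ℓ) - 1) i j)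
    (hφ : ∀ (ℓ : ↥Th) (i j : Fin 2),
      γ (MvPowerSeries.X (Sum.inl (ℓ, 1, i, j))) =
        (r (td.gφ ℓ) - Matrix.scalar (Fin 2) (algebraMap 𝒪 A (a ℓ))) i j) :
    twb_r8_Junip 𝒪 ι p (fun ℓ : ↥Th => a ℓ) (fun ℓ : ↥Th => ((ℓ : Nat.Primes) : ℕ)) ≤
      RingHom.ker γ.toRingHom := by
  rw [twb_r8_Junip, Ideal.span_le]
  intro x hx
  obtain ⟨ℓ, hxℓ⟩ := Set.mem_iUnion.mp hx
  rw [SetLike.mem_coe, RingHom.mem_ker]
  have hS := twc_l8_mapSig γ (fun ℓ : ↥Th => r (td.gσ ℓ)) hσ ℓ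
  have hP := twc_l8_mapPhi γ (fun ℓ : ↥Th => a ℓ) (fun ℓ : ↥Th => r (td.gφ ℓ)) hφ ℓ
  refine (twb_r8_unipSet_iff γ.toRingHom p ((ℓ : Nat.Primes) : ℕ) _ _).2 ?_ x hxℓ
  rw [hS, hP]
  exact twc_l8_unip_rels hp2 td r ℓ ℓ.2 (hℓp ℓ ℓ.2) (hres ℓ ℓ.2) hdet (hun ℓ ℓ.2)

/-- **`J^# ≤ ker γ`**: the presentation of C/Present of a Hecke ring of the `χ`-system factors
through `R^χ_∞ = P / J^#`. -/
theorem twc_l8_Jhash_le_ker {p : ℕ} [Fact p.Prime] {Th : Finset Nat.Primes}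
    (td : twc_TameData p Th) (r : FramedRep A)
    (hℓp : ∀ ℓ ∈ Th, (ℓ : ℕ) ≠ p) (hℓ1 : ∀ ℓ ∈ Th, (ℓ : ℕ) % p = 1)
    (hres : ∀ ℓ ∈ Th, ∀ τ ∈ (primeLocalPlace ℓ).inertiaSubgroupIn ℚ,
      twc_lr_In (maximalIdeal A) (r τ - 1))
    (hdet : r.toGaloisRepAdic.DetIsCyclotomic p)
    (hgeom : ∀ ℓ ∈ Th, ∑ k ∈ Finset.range p, r (td.gσ ℓ) ^ k = 0)
    (hdσ : ∀ ℓ ∈ Th, (r (td.gσ ℓ)).det = 1)
    (a : Nat.Primes → 𝒪) (γ : twb_r8_P 𝒪 (↥Th) ι →ₐ[𝒪] A)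
    (hσ : ∀ (ℓ : ↥Th) (i j : Fin 2),
      γ (MvPowerSeries.X (Sum.inl (ℓ, 0, i, j))) = (r (td.gσ ℓ) - 1) i j)
    (hφ : ∀ (ℓ : ↥Th) (i j : Fin 2),
      γ (MvPowerSeries.X (Sum.inl (ℓ, 1, i, j))) =
        (r (td.gφ ℓ) - Matrix.scalar (Fin 2) (algebraMap 𝒪 A (a ℓ))) i j) :
    twb_r8_Jhash 𝒪 ι p (fun ℓ : ↥Th => a ℓ) (fun ℓ : ↥Th => ((ℓ : Nat.Primes) : ℕ)) ≤
      RingHom.ker γ.toRingHom := by
  rw [twb_r8_Jhash, Ideal.span_le]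
  intro x hx
  obtain ⟨ℓ, hxℓ⟩ := Set.mem_iUnion.mp hx
  rw [SetLike.mem_coe, RingHom.mem_ker]
  have hS := twc_l8_mapSig γ (fun ℓ : ↥Th => r (td.gσ ℓ)) hσ ℓ
  have hP := twc_l8_mapPhi γ (fun ℓ : ↥Th => a ℓ) (fun ℓ : ↥Th => r (td.gφ ℓ)) hφ ℓ
  refine (twb_r8_hashSet_iff γ.toRingHom p _ _ _).2 ?_ x hxℓ
  rw [hS, hP, map_natCast]
  exact twc_l8_hash_rels td r ℓ ℓ.2 (hℓp ℓ ℓ.2) (hℓ1 ℓ ℓ.2) (hres ℓ ℓ.2) hdet
    (hgeom ℓ ℓ.2) (hdσ ℓ ℓ.2)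

end rels

end

end Fermat.Agent.TW
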