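import Mathlib
import Fermat.Agent.TW.Def.Level

/-!
# Project TW (S43), block [C] DEF, cell C/Level, version 2 (prefix `twc_`)

The same as `TW/Def/Level.lean` with the index type of the unipotent power series ring in the
shape of block [B] (`TW/Loc/Rel8.lean`): `𝒫1 = 𝒪⟦ι ⊕ (Fin g ⊕ Fin g)⟧ = twb_r8_P 𝒪 T (Fin g ⊕ Fin g)`
(for `ι = T × Fin 2 × Fin 2 × Fin 2`), `𝒫χ = 𝒪⟦ι ⊕ Fin g⟧ = twb_r8_P 𝒪 T (Fin g)`, and
`res = twb_r8_kill ⟨Sum.inl, _⟩` (`X (inr (inl k)) ↦ X (inr k)`, `X (inr (inr k)) ↦ 0`).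

* `twc_LvIn2` : the level-`n` input;
* `twc_level_of2` : `twc_LvIn2 → Nonempty twd_Level`.
-/

set_option autoImplicit false
set_option linter.unusedSectionVars false
set_option linter.style.haveILetI false

open IsLocalRing MvPowerSeries
open Fermat.Agent.S53 Fermat.Agent.S56

namespace Fermat.Agent.TW

noncomputable section

/-- the level-`n` input of C/Level. -/
structure twc_LvIn2 (𝒪 : Type) [CommRing 𝒪] [IsLocalRing 𝒪] (lam : 𝒪) (r d g : ℕ) (ι : Type)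
    (J1 : Ideal (MvPowerSeries (ι ⊕ (Fin g ⊕ Fin g)) 𝒪))
    (Jχ : Ideal (MvPowerSeries (ι ⊕ Fin g) 𝒪))
    (𝔞 𝔟 : Ideal (MvPowerSeries (Fin r) 𝒪)) (h𝔟𝔞 : 𝔟 ≤ 𝔞)
    (T0 : Type) [CommRing T0] [Algebra 𝒪 T0]
    (j : T0 →+* Matrix (Fin d) (Fin d) (MvPowerSeries (Fin r) 𝒪 ⧸ 𝔞))
    (c0 : Fin 2 → Fin 2 → ι) (β : Fin 2 → Fin 2 → T0) : Type 1 where
  /-- the unipotent system -/
  s1 : twc_LvSys 𝒪 r d g ι (ι ⊕ (Fin g ⊕ Fin g)) Sum.inl J1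
    (MvPowerSeries (Fin r) 𝒪 ⧸ 𝔟) (fun i => Ideal.Quotient.mk 𝔟 (X i))
  /-- the `χ`-system -/
  sχ : twc_LvSys 𝒪 r d g ι (ι ⊕ Fin g) Sum.inl Jχ
    (MvPowerSeries (Fin r) 𝒪 ⧸ 𝔟) (fun i => Ideal.Quotient.mk 𝔟 (X i))
  /-- the common quotient acting on `M_n / λ` -/
  Tb : Type
  [instCommRingTb : CommRing Tb]
  [instAlgebraTb : Algebra 𝒪 Tb]
  [instFiniteTb : Finite Tb]
  [instNontrivialTb : Nontrivial Tb]
  π1 : s1.T →ₐ[𝒪] Tb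
  πχ : sχ.T →ₐ[𝒪] Tb
  π1_surjective : Function.Surjective π1
  πχ_surjective : Function.Surjective πχ
  π_z : ∀ c, π1 (s1.z c : s1.T) = πχ (sχ.z c : sχ.T)
  π_u : ∀ i, π1 (s1.u i) = πχ (sχ.u i)
  /-- the intertwiner modulo `λ` -/
  P : Matrix (Fin d) (Fin d) (MvPowerSeries (Fin r) 𝒪 ⧸ 𝔟)
  Pinv : Matrix (Fin d) (Fin d) (MvPowerSeries (Fin r) 𝒪 ⧸ 𝔟)
  P_mul_Pinv : twd_MatCong
    (Ideal.span {Ideal.Quotient.mk 𝔟 (algebraMap 𝒪 (MvPowerSeries (Fin r) 𝒪) lam)}) (P * Pinv) 1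
  Pinv_mul_P : twd_MatCong
    (Ideal.span {Ideal.Quotient.mk 𝔟 (algebraMap 𝒪 (MvPowerSeries (Fin r) 𝒪) lam)}) (Pinv * P) 1
  intertwine : ∀ (t1 : s1.T) (tχ : sχ.T), π1 t1 = πχ tχ → twd_MatCong
    (Ideal.span {Ideal.Quotient.mk 𝔟 (algebraMap 𝒪 (MvPowerSeries (Fin r) 𝒪) lam)})
    (P * s1.act t1) (sχ.act tχ * P)
  /-- the map to `T_∅` -/
  π0 : s1.T →ₐ[𝒪] T0
  act_mod : ∀ t : s1.T, (s1.act t).map (Ideal.Quotient.factor h𝔟𝔞) = j (π0 t)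
  π0_z : ∀ i k, π0 (s1.z (c0 i k) : s1.T) = β i k

attribute [instance] twc_LvIn2.instCommRingTb twc_LvIn2.instAlgebraTb twc_LvIn2.instFiniteTb
  twc_LvIn2.instNontrivialTb

/-! ### the two presentations -/

section Present

variable {𝒪 : Type} [CommRing 𝒪] [IsLocalRing 𝒪] [IsNoetherianRing 𝒪]
  [IsAdicComplete (maximalIdeal 𝒪) 𝒪]
  {lam : 𝒪} {r d g : ℕ} {ι : Type} [Finite ι]
  {J1 : Ideal (MvPowerSeries (ι ⊕ (Fin g ⊕ Fin g)) 𝒪)}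
  {Jχ : Ideal (MvPowerSeries (ι ⊕ Fin g) 𝒪)}
  {𝔞 𝔟 : Ideal (MvPowerSeries (Fin r) 𝒪)} {h𝔟𝔞 : 𝔟 ≤ 𝔞}
  {T0 : Type} [CommRing T0] [Algebra 𝒪 T0]
  {j : T0 →+* Matrix (Fin d) (Fin d) (MvPowerSeries (Fin r) 𝒪 ⧸ 𝔞)}
  {c0 : Fin 2 → Fin 2 → ι} {β : Fin 2 → Fin 2 → T0}

/-- **the simultaneous presentations** of the two Hecke algebras: `x_k ↦` elements with a common
image in `Tb`, `x'_k ↦` elements of `ker (T¹ → Tb)`. -/
theorem twc_lv_present2 (I : twc_LvIn2 𝒪 lam r d g ι J1 Jχ 𝔞 𝔟 h𝔟𝔞 T0 j c0 β) :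
    ∃ (γ1 : MvPowerSeries (ι ⊕ (Fin g ⊕ Fin g)) 𝒪 →ₐ[𝒪] I.s1.T)
      (γχ : MvPowerSeries (ι ⊕ Fin g) 𝒪 →ₐ[𝒪] I.sχ.T),
      Function.Surjective γ1 ∧ Function.Surjective γχ ∧
      (∀ c, γ1 (X (Sum.inl c)) = (I.s1.z c : I.s1.T)) ∧
      (∀ c, γχ (X (Sum.inl c)) = (I.sχ.z c : I.sχ.T)) ∧
      (∀ k, I.π1 (γ1 (X (Sum.inr (Sum.inl k)))) = I.πχ (γχ (X (Sum.inr k)))) ∧
      (∀ k, I.π1 (γ1 (X (Sum.inr (Sum.inr k)))) = 0) := by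
  classical
  -- the `χ`-presentation
  obtain ⟨x, hx⟩ := twc_rel_exists_gens (𝒪 := 𝒪) I.sχ.z g I.sχ.finrank_le
  have hxm : ∀ v, Sum.elim (fun i => (I.sχ.z i : I.sχ.T)) x v ∈ maximalIdeal I.sχ.T := by
    intro v
    exact hx.ge (Ideal.mem_sup_right (Ideal.subset_span ⟨v, rfl⟩))
  haveI : IsLocalRing I.Tb :=
    IsLocalRing.of_surjective' (I.π1 : I.s1.T →+* I.Tb) I.π1_surjective
  haveI hloc1 : IsLocalHom (I.π1 : I.s1.T →+* I.Tb) :=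
    IsLocalHom.of_surjective _ I.π1_surjective
  haveI hlocχ : IsLocalHom (I.πχ : I.sχ.T →+* I.Tb) :=
    IsLocalHom.of_surjective _ I.πχ_surjective
  -- lifts of the `χ`-generators
  have hu' : ∀ k : Fin g, ∃ t : I.s1.T, I.π1 t = I.πχ (x k) := fun k => I.π1_surjective _
  choose u' hu' using hu'
  have hu'm : ∀ k, u' k ∈ maximalIdeal I.s1.T := by
    intro k
    rw [mem_maximalIdeal, mem_nonunits_iff]
    intro hu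
    have h1 : IsUnit (I.πχ (x k)) := by rw [← hu' k]; exact hu.map I.π1
    have h2 : x k ∈ maximalIdeal I.sχ.T := hxm (Sum.inr k)
    exact (mem_maximalIdeal _).1 (map_nonunit (I.πχ : I.sχ.T →+* I.Tb) _ h2) h1
  let z' : ι ⊕ Fin g → maximalIdeal I.s1.T := Sum.elim I.s1.z (fun k => ⟨u' k, hu'm k⟩)
  have hle : twc_relW 𝒪 I.s1.z ≤ twc_relW 𝒪 z' := by
    refine sup_le_sup_left (Submodule.span_mono ?_) _
    rintro _ ⟨i, rfl⟩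
    exact ⟨Sum.inl i, rfl⟩
  have hfin' : Module.finrank (ResidueField I.s1.T) (CotangentSpace I.s1.T ⧸ twc_relW 𝒪 z') ≤ g :=
    le_trans (twc_lv_finrank_quotient_le hle) I.s1.finrank_le
  -- `𝔪 ≤ 𝔪_𝒪 T + (z') + ker π1`
  have hK : maximalIdeal I.s1.T ≤ ((maximalIdeal 𝒪).map (algebraMap 𝒪 I.s1.T) ⊔
      Ideal.span (Set.range fun v => (z' v : I.s1.T))) ⊔
      RingHom.ker (I.π1 : I.s1.T →+* I.Tb) := by
    have hmap : ((maximalIdeal 𝒪).map (algebraMap 𝒪 I.s1.T) ⊔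
        Ideal.span (Set.range fun v => (z' v : I.s1.T))).map (I.π1 : I.s1.T →+* I.Tb) =
        maximalIdeal I.Tb := by
      rw [← twc_lv_map_maximalIdeal (I.πχ : I.sχ.T →+* I.Tb) I.πχ_surjective, hx, Ideal.map_sup,
        Ideal.map_sup, Ideal.map_map, Ideal.map_map, Ideal.map_span, Ideal.map_span]
      congr 1
      · congr 1
        ext a
        simp
      · congr 1
        ext y
        constructor
        · rintro ⟨_, ⟨v, rfl⟩, rfl⟩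
          refine ⟨_, ⟨v, rfl⟩, ?_⟩
          rcases v with c | k
          · exact (I.π_z c).symm
          · exact (hu' k).symm
        · rintro ⟨_, ⟨v, rfl⟩, rfl⟩
          refine ⟨_, ⟨v, rfl⟩, ?_⟩
          rcases v with c | k
          · exact I.π_z c
          · exact hu' k
    intro y hy
    have h1 : (I.π1 : I.s1.T →+* I.Tb) y ∈ ((maximalIdeal 𝒪).map (algebraMap 𝒪 I.s1.T) ⊔
        Ideal.span (Set.range fun v => (z' v : I.s1.T))).map (I.π1 : I.s1.T →+* I.Tb) := by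
      rw [hmap]
      exact map_nonunit (I.π1 : I.s1.T →+* I.Tb) y hy
    have h2 : y ∈ (((maximalIdeal 𝒪).map (algebraMap 𝒪 I.s1.T) ⊔
        Ideal.span (Set.range fun v => (z' v : I.s1.T))).map
          (I.π1 : I.s1.T →+* I.Tb)).comap (I.π1 : I.s1.T →+* I.Tb) := h1
    rwa [Ideal.comap_map_of_surjective (I.π1 : I.s1.T →+* I.Tb) I.π1_surjective,
      ← RingHom.ker_eq_comap_bot] at h2
  obtain ⟨w, hwK, hwm, hw⟩ := twc_lv_exists_gens_in (𝒪 := 𝒪) z' g hfin'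
    (RingHom.ker (I.π1 : I.s1.T →+* I.Tb)) hK
  -- the generators in the index shape `ι ⊕ (Fin g ⊕ Fin g)`
  let G : ι ⊕ (Fin g ⊕ Fin g) → I.s1.T :=
    Sum.elim (fun c => (I.s1.z c : I.s1.T)) (Sum.elim u' w)
  have hrange : Set.range G = Set.range (Sum.elim (fun v => (z' v : I.s1.T)) w) := by
    ext y
    constructor
    · rintro ⟨(c | k | k), rfl⟩
      · exact ⟨Sum.inl (Sum.inl c), rfl⟩
      · exact ⟨Sum.inl (Sum.inr k), rfl⟩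
      · exact ⟨Sum.inr k, rfl⟩
    · rintro ⟨((c | k) | k), rfl⟩
      · exact ⟨Sum.inl c, rfl⟩
      · exact ⟨Sum.inr (Sum.inl k), rfl⟩
      · exact ⟨Sum.inr (Sum.inr k), rfl⟩
  have hG : maximalIdeal I.s1.T = (maximalIdeal 𝒪).map (algebraMap 𝒪 I.s1.T) ⊔
      Ideal.span (Set.range G) := by
    rw [hrange]
    exact hw
  have hgm : ∀ v, G v ∈ maximalIdeal I.s1.T := by
    intro v
    exact hG.ge (Ideal.mem_sup_right (Ideal.subset_span ⟨v, rfl⟩))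
  refine ⟨s56ps_eval (𝒪 := 𝒪) G hgm, s56ps_eval (𝒪 := 𝒪) _ hxm,
    s56ps_eval_surjective I.s1.residue_surjective G hgm hG,
    s56ps_eval_surjective I.sχ.residue_surjective _ hxm hx, ?_, ?_, ?_, ?_⟩
  · intro c
    rw [s56ps_eval_X]
    rfl
  · intro c
    rw [s56ps_eval_X]
    rfl
  · intro k
    rw [s56ps_eval_X, s56ps_eval_X]
    exact hu' k
  · intro k
    rw [s56ps_eval_X]
    exact RingHom.mem_ker.1 (hwK k)

end Present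

/-! ### the assembly -/

section Main

variable {𝒪 : Type} [CommRing 𝒪] [IsLocalRing 𝒪] [IsNoetherianRing 𝒪]
  [IsAdicComplete (maximalIdeal 𝒪) 𝒪]
  {lam : 𝒪} {r d g : ℕ} {ι : Type} [Finite ι]
  {J1 : Ideal (MvPowerSeries (ι ⊕ (Fin g ⊕ Fin g)) 𝒪)}
  {Jχ : Ideal (MvPowerSeries (ι ⊕ Fin g) 𝒪)}
  {𝔞 𝔟 : Ideal (MvPowerSeries (Fin r) 𝒪)} {h𝔟𝔞 : 𝔟 ≤ 𝔞}
  {T0 : Type} [CommRing T0] [Algebra 𝒪 T0]
  {j : T0 →+* Matrix (Fin d) (Fin d) (MvPowerSeries (Fin r) 𝒪 ⧸ 𝔞)}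
  {c0 : Fin 2 → Fin 2 → ι} {β : Fin 2 → Fin 2 → T0}

/-- **C/Level**: the level datum of block [D] from the level-`n` input. -/
theorem twc_level_of2
    [IsLocalRing (MvPowerSeries (ι ⊕ (Fin g ⊕ Fin g)) 𝒪 ⧸ J1)]
    [IsAdicComplete (maximalIdeal (MvPowerSeries (ι ⊕ (Fin g ⊕ Fin g)) 𝒪 ⧸ J1))
      (MvPowerSeries (ι ⊕ (Fin g ⊕ Fin g)) 𝒪 ⧸ J1)]
    [IsLocalRing (MvPowerSeries (ι ⊕ Fin g) 𝒪 ⧸ Jχ)]
    [IsAdicComplete (maximalIdeal (MvPowerSeries (ι ⊕ Fin g) 𝒪 ⧸ Jχ))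
      (MvPowerSeries (ι ⊕ Fin g) 𝒪 ⧸ Jχ)]
    (h𝔞 : 𝔞 ≠ ⊤)
    (hS : ∀ k : ℕ, Finite (MvPowerSeries (Fin r) 𝒪 ⧸ maximalIdeal (MvPowerSeries (Fin r) 𝒪) ^ k))
    (res : MvPowerSeries (ι ⊕ (Fin g ⊕ Fin g)) 𝒪 →ₐ[𝒪] MvPowerSeries (ι ⊕ Fin g) 𝒪)
    (hres_inl : ∀ c, res (X (Sum.inl c)) = X (Sum.inl c))
    (hres_inrl : ∀ k, res (X (Sum.inr (Sum.inl k))) = X (Sum.inr k))
    (hres_inrr : ∀ k, res (X (Sum.inr (Sum.inr k))) = 0)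
    (q1 : (MvPowerSeries (ι ⊕ (Fin g ⊕ Fin g)) 𝒪 ⧸ J1) →+*
      ((MvPowerSeries (ι ⊕ Fin g) 𝒪 ⧸ Jχ) ⧸
        Ideal.span {algebraMap 𝒪 (MvPowerSeries (ι ⊕ Fin g) 𝒪 ⧸ Jχ) lam}))
    (hq1 : ∀ F, q1 (Ideal.Quotient.mk J1 F) =
      Ideal.Quotient.mk _ (Ideal.Quotient.mk Jχ (res F)))
    (I : twc_LvIn2 𝒪 lam r d g ι J1 Jχ 𝔞 𝔟 h𝔟𝔞 T0 j c0 β) :
    Nonempty (twd_Level 𝒪 lam (MvPowerSeries (Fin r) 𝒪)
      (MvPowerSeries (ι ⊕ (Fin g ⊕ Fin g)) 𝒪 ⧸ J1) (MvPowerSeries (ι ⊕ Fin g) 𝒪 ⧸ Jχ)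
      ((MvPowerSeries (ι ⊕ Fin g) 𝒪 ⧸ Jχ) ⧸
        Ideal.span {algebraMap 𝒪 (MvPowerSeries (ι ⊕ Fin g) 𝒪 ⧸ Jχ) lam})
      T0 d 𝔞 𝔟 h𝔟𝔞 q1 (Ideal.Quotient.mk _) j
      (fun i k => Ideal.Quotient.mk J1 (X (Sum.inl (c0 i k)))) β) := by
  classical
  have h𝔟 : 𝔟 ≠ ⊤ := fun h => h𝔞 (top_le_iff.mp (h ▸ h𝔟𝔞))
  obtain ⟨γ1, γχ, hγ1s, hγχs, hγ1z, hγχz, hγπ, hγw⟩ := twc_lv_present2 I
  have hJ1 : ∀ a ∈ J1, γ1 a = 0 := fun a ha => RingHom.mem_ker.1 (I.s1.rel γ1 hγ1z ha)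
  have hJχ : ∀ a ∈ Jχ, γχ a = 0 := fun a ha => RingHom.mem_ker.1 (I.sχ.rel γχ hγχz ha)
  obtain ⟨σ1, hσ1⟩ := twc_lv_sigma h𝔟 hS I.s1 γ1 hγ1s hJ1
  obtain ⟨σχ, hσχ⟩ := twc_lv_sigma h𝔟 hS I.sχ γχ hγχs hJχ
  -- the two presentations agree in `Tb`
  have hkey : ∀ F, I.π1 (γ1 F) = I.πχ (γχ (res F)) := by
    have h := twc_lv_ringHom_ext_finite
      (((I.π1.comp γ1 : _ →ₐ[𝒪] I.Tb)) : MvPowerSeries (ι ⊕ (Fin g ⊕ Fin g)) 𝒪 →+* I.Tb)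
      ((((I.πχ.comp γχ).comp res : _ →ₐ[𝒪] I.Tb)) :
        MvPowerSeries (ι ⊕ (Fin g ⊕ Fin g)) 𝒪 →+* I.Tb)
      (fun a => by
        show (I.π1.comp γ1) (C a) = ((I.πχ.comp γχ).comp res) (C a)
        rw [show (C a : MvPowerSeries (ι ⊕ (Fin g ⊕ Fin g)) 𝒪) = algebraMap 𝒪 _ a from rfl,
          AlgHom.commutes, AlgHom.commutes])
      (fun v => by
        show I.π1 (γ1 (X v)) = I.πχ (γχ (res (X v)))
        rcases v with c | k | k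
        · rw [hres_inl, hγ1z, hγχz]
          exact I.π_z c
        · rw [hres_inrl, hγπ]
        · rw [hres_inrr, map_zero, map_zero, hγw])
    intro F
    exact RingHom.congr_fun h F
  refine ⟨{
    α1 := ((I.s1.act.comp (Ideal.Quotient.liftₐ J1 γ1 hJ1) : _ →ₐ[𝒪] _) : _ →+* _)
    αχ := ((I.sχ.act.comp (Ideal.Quotient.liftₐ Jχ γχ hJχ) : _ →ₐ[𝒪] _) : _ →+* _)
    σ1 := σ1
    σχ := σχ
    σ1_algebraMap := σ1.commutes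
    σχ_algebraMap := σχ.commutes
    α1_σ1 := hσ1
    αχ_σχ := hσχ
    P := I.P
    Pinv := I.Pinv
    P_mul_Pinv := I.P_mul_Pinv
    Pinv_mul_P := I.Pinv_mul_P
    intertwine := ?_
    π := ((I.π0.comp (Ideal.Quotient.liftₐ J1 γ1 hJ1) : _ →ₐ[𝒪] T0) : _ →+* T0)
    π_algebraMap := fun a => (I.π0.comp (Ideal.Quotient.liftₐ J1 γ1 hJ1)).commutes a
    α1_mod := fun f => I.act_mod _
    π_ν := ?_ }⟩
  · intro f g hfg
    obtain ⟨F, rfl⟩ := Ideal.Quotient.mk_surjective f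
    obtain ⟨G, rfl⟩ := Ideal.Quotient.mk_surjective g
    rw [hq1, Ideal.Quotient.eq, Ideal.mem_span_singleton'] at hfg
    obtain ⟨c, hc⟩ := hfg
    have h1 := I.intertwine (γ1 F) (γχ (res F)) (hkey F)
    have h2 : twd_MatCong
        (Ideal.span {Ideal.Quotient.mk 𝔟 (algebraMap 𝒪 (MvPowerSeries (Fin r) 𝒪) lam)})
        (I.sχ.act (γχ (res F))) (I.sχ.act (γχ G)) := by
      have h3 : I.sχ.act (γχ (res F)) - I.sχ.act (γχ G) =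
          I.sχ.act (Ideal.Quotient.liftₐ Jχ γχ hJχ c) *
            algebraMap 𝒪 (Matrix (Fin d) (Fin d) (MvPowerSeries (Fin r) 𝒪 ⧸ 𝔟)) lam := by
        have h4 : γχ (res F) - γχ G = Ideal.Quotient.liftₐ Jχ γχ hJχ
            (Ideal.Quotient.mk Jχ (res F) - Ideal.Quotient.mk Jχ G) := by
          rw [map_sub]; rfl
        rw [← map_sub, h4, ← hc, map_mul, map_mul, AlgHom.commutes, AlgHom.commutes]
      intro i k
      rw [← Matrix.sub_apply, h3, Matrix.algebraMap_eq_diagonal, Matrix.mul_diagonal]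
      exact Ideal.mul_mem_left _ _ (Ideal.subset_span rfl)
    exact twd_matCong_trans h1 (twd_matCong_mul_right I.P h2)
  · intro i k
    show I.π0 (γ1 (X (Sum.inl (c0 i k)))) = β i k
    rw [hγ1z]
    exact I.π0_z i k

end Main

end

end Fermat.Agent.TW
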