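import Mathlib
import Fermat.Agent.TW.Def.Frames

/-!
# Project TW (S43), cell C/Frames, part 3: the types along the tower, arithmetic hypotheses only
(prefix `twc_ft_`)

`N` squarefree, `S ⊇ {ℓ ∣ N} ∪ {p}`, `p ∤ N`, `Q` a set of primes outside `S`, `ThP` a set of primes
dividing `N`, `Smin ∋ p` with `{ℓ ∣ N} ⊆ Smin ∪ ThP`, `Smin ∖ {p} ⊆ {ℓ ∣ N} ∖ ThP`.  Then for the
big system `Bg : twe_Big L (ThP.image (↑))` and a framing `r''` of `Bg.H''.ρ`: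

* `twc_ft_isType_big`   : `twc_IsType p Smin ThP Q r''`;
* `twc_ft_isType_level` : `twc_IsType p Smin ThP Q (r''.map π1)`;
* `twc_ft_unip_level`   : `r''.map π1` is unipotent on inertia at every `ℓ ∈ ThP`;
* `twc_ft_isType_map`   : the type of every further surjective push-forward.

The divisibility facts about `twe_Nbal`: `twc_ft_prime_dvd_Nbal`, `twc_ft_hNS`, `twc_ft_not_sq_dvd`.
-/

set_option autoImplicit false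
set_option linter.unusedSectionVars false
set_option linter.style.haveILetI false

open Polynomial IsLocalRing CuspForm ExtCitation
open Fermat.Agent.S53 Fermat.Agent.S56 Fermat.Agent.JT3

namespace Fermat.Agent.TW

noncomputable section

local notation "GQ" => (AlgebraicClosure ℚ ≃ₐ[ℚ] AlgebraicClosure ℚ)
local notation "Qbar" => AlgebraicClosure ℚ

/-! ### the primes of the balanced level -/

section arith

/-- the prime divisors of the balanced level. -/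
theorem twc_ft_prime_dvd_Nbal {N : ℕ} {Q Th : Finset ℕ} (hQ : ∀ t ∈ Q, t.Prime)
    (hTh : ∀ ℓ ∈ Th, ℓ.Prime) {q : ℕ} (hq : q.Prime) :
    q ∣ twe_Nbal N Q Th ↔ q ∣ N ∨ q ∈ Q ∨ q ∈ Th := by
  unfold twe_Nbal
  rw [hq.dvd_mul, hq.dvd_mul, hq.prime.dvd_finset_prod_iff, hq.prime.dvd_finset_prod_iff]
  constructor
  · rintro ((h | ⟨t, ht, h⟩) | ⟨ℓ, hℓ, h⟩)
    · exact Or.inl h
    · have h1 : q ∣ t := hq.dvd_of_dvd_pow h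
      rw [(Nat.prime_dvd_prime_iff_eq hq (hQ t ht)).1 h1]
      exact Or.inr (Or.inl ht)
    · rw [(Nat.prime_dvd_prime_iff_eq hq (hTh ℓ hℓ)).1 h]
      exact Or.inr (Or.inr hℓ)
  · rintro (h | h | h)
    · exact Or.inl (Or.inl h)
    · exact Or.inl (Or.inr ⟨q, h, dvd_pow_self q two_ne_zero⟩)
    · exact Or.inr ⟨q, h, dvd_rfl⟩

/-- the primes of the balanced level lie in `S ∪ Q`. -/
theorem twc_ft_hNS {N : ℕ} {S Q Th : Finset ℕ} (hNS : ∀ ℓ : ℕ, ℓ.Prime → ℓ ∣ N → ℓ ∈ S)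
    (hQ : ∀ t ∈ Q, t.Prime) (hTh : ∀ ℓ ∈ Th, ℓ.Prime ∧ ℓ ∣ N) :
    ∀ ℓ : ℕ, ℓ.Prime → ℓ ∣ twe_Nbal N Q Th → ℓ ∈ S ∪ Q := by
  classical
  intro ℓ hℓ h
  rcases (twc_ft_prime_dvd_Nbal hQ (fun ℓ hℓ => (hTh ℓ hℓ).1) hℓ).1 h with h | h | h
  · exact Finset.mem_union_left _ (hNS ℓ hℓ h)
  · exact Finset.mem_union_right _ h
  · exact Finset.mem_union_left _ (hNS ℓ hℓ (hTh ℓ h).2)

/-- a prime `q ∥ N` outside `Q ∪ Th` divides the balanced level exactly once. -/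
theorem twc_ft_not_sq_dvd {N : ℕ} {Q Th : Finset ℕ} (hsq : Squarefree N)
    (hQ : ∀ t ∈ Q, t.Prime) (hTh : ∀ ℓ ∈ Th, ℓ.Prime) {q : ℕ} (hq : q.Prime)
    (hqQ : q ∉ Q) (hqTh : q ∉ Th) : ¬ q ^ 2 ∣ twe_Nbal N Q Th := by
  intro h
  unfold twe_Nbal at h
  have hc1 : Nat.Coprime (q ^ 2) (∏ ℓ ∈ Th, ℓ) := by
    refine Nat.Coprime.pow_left 2 ((Nat.Prime.coprime_iff_not_dvd hq).2 fun h' => ?_)
    obtain ⟨ℓ, hℓ, h''⟩ := (hq.prime.dvd_finset_prod_iff _).1 h'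
    exact hqTh ((Nat.prime_dvd_prime_iff_eq hq (hTh ℓ hℓ)).1 h'' ▸ hℓ)
  have hc2 : Nat.Coprime (q ^ 2) (∏ t ∈ Q, t ^ 2) := by
    refine Nat.Coprime.pow_left 2 ((Nat.Prime.coprime_iff_not_dvd hq).2 fun h' => ?_)
    obtain ⟨t, ht, h''⟩ := (hq.prime.dvd_finset_prod_iff _).1 h'
    have h1 : q ∣ t := hq.dvd_of_dvd_pow h''
    exact hqQ ((Nat.prime_dvd_prime_iff_eq hq (hQ t ht)).1 h1 ▸ ht)
  have h1 : q ^ 2 ∣ N * ∏ t ∈ Q, t ^ 2 := hc1.dvd_of_dvd_mul_right h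
  have h2 : q ^ 2 ∣ N := hc2.dvd_of_dvd_mul_right h1
  rw [pow_two] at h2
  exact hq.not_isUnit (hsq q h2)

end arith

/-! ### the types -/

section types

variable {𝒪 : Type} [CommRing 𝒪] [IsDomain 𝒪] [IsDiscreteValuationRing 𝒪]
  [IsAdicComplete (maximalIdeal 𝒪) 𝒪] [Finite (ResidueField 𝒪)] [CharZero 𝒪]
  {N : ℕ} [NeZero N] {S : Finset ℕ} {θ : heckeAlgebra N 2 (↑S : Set ℕ) →+* ResidueField 𝒪}
  {B : twe_Base 𝒪 N S θ} {p : ℕ} {Q : Finset ℕ} [NeZero (twe_Nbal N Q ∅)]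
  {L : twe_Level B p Q} {ThP : Finset Nat.Primes}
  [NeZero (twe_Nbal N Q (ThP.image fun ℓ : Nat.Primes => (ℓ : ℕ)))]

/-- the hard primes as natural numbers are primes dividing `N`. -/
theorem twc_ft_hTh (hThN : ∀ ℓ ∈ ThP, (ℓ : ℕ) ∣ N) :
    ∀ ℓ ∈ ThP.image (fun ℓ : Nat.Primes => (ℓ : ℕ)), ℓ.Prime ∧ ℓ ∣ N := by
  classical
  intro ℓ hℓ
  obtain ⟨ℓ', hℓ', rfl⟩ := Finset.mem_image.1 hℓ
  exact ⟨ℓ'.2, hThN ℓ' hℓ'⟩

/-- **the type of a framing of the big system.** -/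
theorem twc_ft_isType_big (hp : p.Prime) (hp2 : p ≠ 2) (hp𝒪 : (p : 𝒪) ∈ maximalIdeal 𝒪)
    (hpN : ¬ p ∣ N) (hpS : p ∈ S) (hNS : ∀ ℓ : ℕ, ℓ.Prime → ℓ ∣ N → ℓ ∈ S) (hsq : Squarefree N)
    (hQ : ∀ t ∈ Q, t.Prime ∧ t ∉ S) (hThN : ∀ ℓ ∈ ThP, (ℓ : ℕ) ∣ N)
    (Smin : Finset ℕ) (hpSmin : p ∈ Smin)
    (hcoverN : ∀ q : ℕ, q.Prime → q ∣ N →
      q ∈ Smin ∪ ThP.image (fun ℓ : Nat.Primes => (ℓ : ℕ)))
    (hSminN : ∀ q ∈ Smin, q.Prime → q ≠ p →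
      q ∣ N ∧ q ∉ ThP.image (fun ℓ : Nat.Primes => (ℓ : ℕ)))
    (Bg : twe_Big L (ThP.image fun ℓ : Nat.Primes => (ℓ : ℕ)))
    (r'' : FramedRep Bg.T'') (h : Bg.H''.ρ.IsEquiv r''.toGaloisRepAdic) :
    twc_IsType p Smin ThP Q r''.toGaloisRepAdic := by
  classical
  have hQp : ∀ t ∈ Q, t.Prime := fun t ht => (hQ t ht).1
  have hTh := twc_ft_hTh (N := N) hThN
  have hThp : ∀ ℓ ∈ ThP.image (fun ℓ : Nat.Primes => (ℓ : ℕ)), ℓ.Prime := fun ℓ hℓ => (hTh ℓ hℓ).1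
  have hNS'' := twc_ft_hNS hNS hQp hTh
  have hpN'' : ¬ p ∣ twe_Nbal N Q (ThP.image fun ℓ : Nat.Primes => (ℓ : ℕ)) := by
    intro h'
    rcases (twc_ft_prime_dvd_Nbal hQp hThp hp).1 h' with h'' | h'' | h''
    · exact hpN h''
    · exact (hQ p h'').2 hpS
    · exact hpN (hTh p h'').2
  refine twc_hp_isType_of_equiv h
    (twt_dl_isType hp hp2 hp𝒪 hpN'' (Finset.mem_union_left _ hpS) hNS'' Bg.H'' Smin ThP Q hpSmin
      ?_ ?_)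
  · intro q hq hqN
    rcases (twc_ft_prime_dvd_Nbal hQp hThp hq).1 hqN with h'' | h'' | h''
    · exact Finset.mem_union_left _ (hcoverN q hq h'')
    · exact Finset.mem_union_right _ h''
    · exact Finset.mem_union_left _ (Finset.mem_union_right _ h'')
  · intro q hqS hq hqp
    obtain ⟨hqN, hqTh⟩ := hSminN q hqS hq hqp
    have hqQ : q ∉ Q := fun h' => (hQ q h').2 (hNS q hq hqN)
    exact ⟨dvd_trans hqN (twc_fr_N_dvd_Nbal N Q _), twc_ft_not_sq_dvd hsq hQp hThp hq hqQ hqTh⟩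

/-- the type of a surjective push-forward. -/
theorem twc_ft_isType_map {A A' : Type} [CommRing A] [IsLocalRing A] [CommRing A'] [IsLocalRing A']
    {Smin : Finset ℕ} (f : A →+* A') (hf : Function.Surjective f) (r : FramedRep A)
    (h : twc_IsType p Smin ThP Q r.toGaloisRepAdic) :
    twc_IsType p Smin ThP Q
      (r.map f (IsLocalHom.of_surjective f hf)).toGaloisRepAdic :=
  twc_hp_isType_map f _ hf r h

/-- **the type of the push-forward to the unipotent level.** -/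
theorem twc_ft_isType_level (hp : p.Prime) (hp2 : p ≠ 2) (hp𝒪 : (p : 𝒪) ∈ maximalIdeal 𝒪)
    (hpN : ¬ p ∣ N) (hpS : p ∈ S) (hNS : ∀ ℓ : ℕ, ℓ.Prime → ℓ ∣ N → ℓ ∈ S) (hsq : Squarefree N)
    (hQ : ∀ t ∈ Q, t.Prime ∧ t ∉ S) (hThN : ∀ ℓ ∈ ThP, (ℓ : ℕ) ∣ N)
    (Smin : Finset ℕ) (hpSmin : p ∈ Smin)
    (hcoverN : ∀ q : ℕ, q.Prime → q ∣ N →
      q ∈ Smin ∪ ThP.image (fun ℓ : Nat.Primes => (ℓ : ℕ)))
    (hSminN : ∀ q ∈ Smin, q.Prime → q ≠ p →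
      q ∣ N ∧ q ∉ ThP.image (fun ℓ : Nat.Primes => (ℓ : ℕ)))
    (Bg : twe_Big L (ThP.image fun ℓ : Nat.Primes => (ℓ : ℕ)))
    (hloc : IsLocalHom (Bg.π1 : Bg.T'' →+* L.T'))
    (r'' : FramedRep Bg.T'') (h : Bg.H''.ρ.IsEquiv r''.toGaloisRepAdic) :
    twc_IsType p Smin ThP Q (r''.map (Bg.π1 : Bg.T'' →+* L.T') hloc).toGaloisRepAdic := by
  classical
  have hNS' := twc_ft_hNS (Th := ∅) hNS (fun t ht => (hQ t ht).1) (by simp)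
  exact twc_hp_isType_map _ hloc (twc_fr_π1_surjective hNS' Bg) r''
    (twc_ft_isType_big hp hp2 hp𝒪 hpN hpS hNS hsq hQ hThN Smin hpSmin hcoverN hSminN Bg r'' h)

/-- **unipotent inertia at the hard primes at the unipotent level.** -/
theorem twc_ft_unip_level (hp : p.Prime) (hp𝒪 : (p : 𝒪) ∈ maximalIdeal 𝒪)
    (hpN : ¬ p ∣ N) (hpS : p ∈ S) (hNS : ∀ ℓ : ℕ, ℓ.Prime → ℓ ∣ N → ℓ ∈ S) (hsq : Squarefree N)
    (hQ : ∀ t ∈ Q, t.Prime ∧ t ∉ S) (hThN : ∀ ℓ ∈ ThP, (ℓ : ℕ) ∣ N)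
    (Bg : twe_Big L (ThP.image fun ℓ : Nat.Primes => (ℓ : ℕ)))
    (hloc : IsLocalHom (Bg.π1 : Bg.T'' →+* L.T'))
    (r'' : FramedRep Bg.T'') (h : Bg.H''.ρ.IsEquiv r''.toGaloisRepAdic)
    (ℓ : Nat.Primes) (hℓ : ℓ ∈ ThP) :
    (r''.map (Bg.π1 : Bg.T'' →+* L.T') hloc).toGaloisRepAdic.IsUnipotentOnInertiaAt (ℓ : ℕ) := by
  classical
  have hQp : ∀ t ∈ Q, t.Prime := fun t ht => (hQ t ht).1
  have hNS' := twc_ft_hNS (Th := ∅) hNS hQp (by simp)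
  have hℓN : (ℓ : ℕ) ∣ N := hThN ℓ hℓ
  have hℓp : (ℓ : ℕ) ≠ p := fun h' => hpN (h' ▸ hℓN)
  have hℓQ : (ℓ : ℕ) ∉ Q := fun h' => (hQ _ h').2 (hNS _ ℓ.2 hℓN)
  exact twc_fr_level_unip hp hp𝒪 hpS hNS' Bg hloc r'' h (ℓ : ℕ) ℓ.2 hℓp
    (dvd_trans hℓN (twc_fr_N_dvd_Nbal N Q ∅))
    (twc_ft_not_sq_dvd hsq hQp (by simp) ℓ.2 hℓQ (by simp))

/-- the same as an inertial type `ψ = 1`. -/
theorem twc_ft_hasType_one_level (hp : p.Prime) (hp𝒪 : (p : 𝒪) ∈ maximalIdeal 𝒪)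
    (hpN : ¬ p ∣ N) (hpS : p ∈ S) (hNS : ∀ ℓ : ℕ, ℓ.Prime → ℓ ∣ N → ℓ ∈ S) (hsq : Squarefree N)
    (hQ : ∀ t ∈ Q, t.Prime ∧ t ∉ S) (hThN : ∀ ℓ ∈ ThP, (ℓ : ℕ) ∣ N)
    (Bg : twe_Big L (ThP.image fun ℓ : Nat.Primes => (ℓ : ℕ)))
    (hloc : IsLocalHom (Bg.π1 : Bg.T'' →+* L.T'))
    (r'' : FramedRep Bg.T'') (h : Bg.H''.ρ.IsEquiv r''.toGaloisRepAdic)
    (ℓ : Nat.Primes) (hℓ : ℓ ∈ ThP) :
    twc_HasType (𝒪 := 𝒪) (r''.map (Bg.π1 : Bg.T'' →+* L.T') hloc).toGaloisRepAdic (ℓ : ℕ) 1 :=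
  (twc_hasType_one_iff _ _).2
    (twc_ft_unip_level hp hp𝒪 hpN hpS hNS hsq hQ hThN Bg hloc r'' h ℓ hℓ)

end types

end

end Fermat.Agent.TW
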