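import Fermat.Agent.TW.Def.PatchLvMain3
import Fermat.Agent.TW.LG.AsTW2
import Fermat.Agent.TW.LG.AsX

/-!
# Project ONE MACHINE: block [C] from block [E] WITHOUT the clauses at the unipotent level
(helper21)

`twlg_as_A4` never uses `L.IsLG2` (only `Bg.IsLG2`, through `twlg_as_tw2` and `twlg_as_x`), so
block [C] only needs, for every nonempty Taylor–Wiles set `Q` and every nonempty set `Th` of hard
primes `≡ 1 mod p`:  `∃ L : twe_Level B p Q, ∃ Bg : twe_Big L Th, Bg.IsLG2`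
(OLD-AT-`t` + NEW-AT-`t` for the BIG system only, at `t ∈ Q` and `t ∈ Th`).

* `twe_M2LG4_stmt` : this weakest target;  `twe_m2lg4_of_m2lg3`;
* `twc_pm_main4 : twe_M2LG4_stmt → twt_PatchLv_stmt`.
-/

set_option autoImplicit false
set_option linter.unusedSectionVars false
set_option linter.style.haveILetI false

open Polynomial CuspForm IsLocalRing ExtCitation
open Fermat.Agent.S53 Fermat.Agent.S56 Fermat.Agent.JT3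

namespace Fermat.Agent.TW

noncomputable section

local notation "GQ" => (AlgebraicClosure ℚ ≃ₐ[ℚ] AlgebraicClosure ℚ)
local notation "Qbar" => AlgebraicClosure ℚ

attribute [local instance] S53.dualNumberAlgebra

/-- **(M2) with the [E] → [A] seam, version 4**: only the big system carries the clauses. -/
def twe_M2LG4_stmt : Prop :=
  ∀ (p : ℕ) [Fact p.Prime], 5 ≤ p →
  ∀ (𝒪 : Type) [CommRing 𝒪] [IsDomain 𝒪] [IsDiscreteValuationRing 𝒪]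
    [IsAdicComplete (maximalIdeal 𝒪) 𝒪] [Finite (ResidueField 𝒪)] [CharZero 𝒪],
    (p : 𝒪) ∈ maximalIdeal 𝒪 →
  ∀ (N : ℕ) [NeZero N], Squarefree N → ¬ p ∣ N →
  ∀ (S : Finset ℕ), p ∈ S → (∀ ℓ : ℕ, ℓ.Prime → ℓ ∣ N → ℓ ∈ S) →
  ∀ (θ : heckeAlgebra N 2 (↑S : Set ℕ) →+* ResidueField 𝒪)
    (ρbar : ResidualGaloisRep (ResidueField 𝒪)),
    twt_Compat θ ρbar → ρbar.IsAbsolutelyIrreducible →
    ∃ B : twe_Base 𝒪 N S θ,
      ∀ (Q : Finset ℕ) [NeZero (twe_Nbal N Q ∅)], (∀ t ∈ Q, t ∉ S) → twe_IsTWSet θ p Q →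
        Q.Nonempty →
        ∀ (Th : Finset ℕ) [NeZero (twe_Nbal N Q Th)],
          (∀ ℓ ∈ Th, ℓ.Prime ∧ ℓ ∣ N ∧ ℓ ≠ 2 ∧ ℓ % p = 1) → Th.Nonempty →
          ∃ L : twe_Level B p Q, ∃ Bg : twe_Big L Th, Bg.IsLG2

theorem twe_m2lg4_of_m2lg3 (h : twe_M2LG3_stmt) : twe_M2LG4_stmt := by
  intro p _ hp5 𝒪 _ _ _ _ _ _ hp𝒪 N _ hsq hpN S hpS hNS θ ρbar hc hirr
  obtain ⟨B, hB⟩ := h p hp5 𝒪 hp𝒪 N hsq hpN S hpS hNS θ ρbar hc hirr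
  refine ⟨B, fun Q _ hQS hQ hQne Th _ hTh hThne => ?_⟩
  obtain ⟨L, -, Bg, hBg⟩ := hB Q hQS hQ hQne Th hTh hThne
  exact ⟨L, Bg, hBg⟩

/-- **[LevelAsm], version 4**: `twc_LevelAsm_stmt` with the block of [E] in the shape of
`twe_M2LG4_stmt`. -/
def twc_LevelAsm4_stmt : Prop :=
  ∀ (p : ℕ) [Fact p.Prime], 5 ≤ p →
  ∀ (𝒪 : Type) [CommRing 𝒪] [IsDomain 𝒪] [IsDiscreteValuationRing 𝒪]
    [IsAdicComplete (maximalIdeal 𝒪) 𝒪] [Finite (ResidueField 𝒪)] [CharZero 𝒪],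
    (p : 𝒪) ∈ maximalIdeal 𝒪 →
  ∀ (lam : 𝒪), maximalIdeal 𝒪 = Ideal.span {lam} →
  ∀ (ζ : 𝒪), IsPrimitiveRoot ζ p →
  ∀ (N : ℕ) [NeZero N], Squarefree N → 2 ∣ N → ¬ p ∣ N →
  ∀ (S : Finset ℕ), p ∈ S → (∀ ℓ : ℕ, ℓ.Prime → ℓ ∣ N → ℓ ∈ S) →
  ∀ (θ : heckeAlgebra N 2 (↑S : Set ℕ) →+* ResidueField 𝒪)
    (rb : FramedResidual (ResidueField 𝒪)),
    twt_Compat θ rb.toResidualGaloisRep → s56a_Hyp p rb.toResidualGaloisRep →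
    (∀ q : ℕ, q.Prime → q ≠ p →
      (q ∈ ({2, p} : Finset ℕ) ↔ ¬ rb.toResidualGaloisRep.IsUnramifiedAt q)) →
  ∀ (ThP : Finset Nat.Primes),
    (∀ ℓ ∈ ThP, (ℓ : ℕ) ∣ N ∧ (ℓ : ℕ) ≠ 2 ∧ (ℓ : ℕ) % p = 1 ∧
      twt_FrobScalar rb.toResidualGaloisRep ℓ) →
    (∀ ℓ : Nat.Primes, (ℓ : ℕ) ∣ N → (ℓ : ℕ) ≠ 2 → ℓ ∈ ThP) →
  ∀ (td : twc_TameData p ThP), twib_InertiaGen td →
  ∀ (a : Nat.Primes → 𝒪),
    (∀ ℓ ∈ ThP, rb (td.gφ ℓ) = Matrix.scalar (Fin 2) (residue 𝒪 (a ℓ))) →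
  ∀ (B : twe_Base 𝒪 N S θ),
    (∀ (Q : Finset ℕ) [NeZero (twe_Nbal N Q ∅)], (∀ t ∈ Q, t ∉ S) → twe_IsTWSet θ p Q →
      Q.Nonempty →
      ∀ (Th : Finset ℕ) [NeZero (twe_Nbal N Q Th)],
        (∀ ℓ ∈ Th, ℓ.Prime ∧ ℓ ∣ N ∧ ℓ ≠ 2 ∧ ℓ % p = 1) → Th.Nonempty →
        ∃ L : twe_Level B p Q, ∃ Bg : twe_Big L Th, Bg.IsLG2) →
  ∀ (r0 : FramedRep B.T), B.H.ρ.IsEquiv r0.toGaloisRepAdic →
    r0.IsLiftOf rb (ResidueField.map (algebraMap 𝒪 B.T)) →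
  ∀ (r : ℕ), 3 * ThP.card ≤ r →
  ∀ (m : ℕ) (qv : Fin r → ℕ), Function.Injective qv →
    (∀ i, (qv i).Prime ∧ qv i ∉ S ∧ p ^ (m + 1) ∣ qv i - 1) →
    (∀ i, ∀ P : ValuationSubring Qbar, P.LiesOverPrime (qv i) →
      ∀ φ : GQ, P.IsFrobeniusAt φ (qv i) → ∃ α β : ResidueField 𝒪, α ≠ β ∧
        LinearMap.charpoly (rb.toResidualGaloisRep.ρ φ) = (X - C α) * (X - C β)) →
    (∀ (H : twc_HPair 𝒪 rb),
      twc_IsType p {2, p} ThP (Finset.univ.image qv) H.r.toGaloisRepAdic →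
      ∀ (ι : Type) (z : ι → maximalIdeal H.T),
        (∀ φ : H.T →ₐ[𝒪] DualNumber (ResidueField 𝒪), (∀ i, φ (z i : H.T) = 0) →
          twc_LocNoEps td H φ) →
        Module.finrank (ResidueField H.T) (CotangentSpace H.T ⧸ twc_relW 𝒪 z) ≤
          r - 3 * ThP.card) →
  ∀ (q₀ : ↥ThP),
    Nonempty (twc_LvIn2 𝒪 lam r (B.d * 2 ^ r) (r - 3 * ThP.card)
      (↥ThP × Fin 2 × Fin 2 × Fin 2)
      (twb_r8_Junip 𝒪 (Fin (r - 3 * ThP.card) ⊕ Fin (r - 3 * ThP.card)) p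
        (fun ℓ : ↥ThP => a ℓ) (fun ℓ : ↥ThP => ((ℓ : Nat.Primes) : ℕ)))
      (twb_r8_Jhash 𝒪 (Fin (r - 3 * ThP.card)) p
        (fun ℓ : ↥ThP => a ℓ) (fun ℓ : ↥ThP => ((ℓ : Nat.Primes) : ℕ)))
      (twds_a 𝒪 r) (twds_b 𝒪 r (p ^ m)) (twds_b_le_a r (p ^ m)) B.T (twc_j B r)
      (fun i k => (q₀, 0, i, k)) (fun i k => (r0 (td.gσ q₀) - 1) i k))

/-- **C/LevelAsm, version 4.** -/
theorem twc_levelAsm4 : twc_LevelAsm4_stmt := by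
  classical
  intro p _ hp5 𝒪 _ _ _ _ _ _ hp𝒪 lam hlam ζ hζ N _ hsq h2N hpN S hpS hNS θ rb hcompat hyp hmin
    ThP hThP hThall td hgen a hφa B hB r0 hr0e hr0l r hr m qv inj hqv hfrob h4 q₀
  have hpp : p.Prime := Fact.out
  have hp2 : p ≠ 2 := by omega
  haveI : CharP (ResidueField 𝒪) p := s56a_charP p hp𝒪
  obtain ⟨hTW, hQS⟩ := twt_ts_isTWSet θ rb.toResidualGaloisRep hcompat qv hqv hfrob
  have hQmem : ∀ i, qv i ∈ Finset.univ.image qv := fun i =>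
    Finset.mem_image.2 ⟨i, Finset.mem_univ _, rfl⟩
  have hQonto : ∀ t ∈ Finset.univ.image qv, ∃ i, qv i = t := fun t ht => by
    obtain ⟨i, -, hi⟩ := Finset.mem_image.1 ht
    exact ⟨i, hi⟩
  have hQp : ∀ t ∈ Finset.univ.image qv, t.Prime := fun t ht => by
    obtain ⟨i, rfl⟩ := hQonto t ht
    exact (hqv i).1
  have hQ : ∀ t ∈ Finset.univ.image qv, t.Prime ∧ t ∉ S := fun t ht => ⟨hQp t ht, hQS t ht⟩
  have hThN : ∀ ℓ ∈ ThP, (ℓ : ℕ) ∣ N := fun ℓ hℓ => (hThP ℓ hℓ).1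
  have hTh := twc_ft_hTh (N := N) hThN
  haveI : NeZero (twe_Nbal N (Finset.univ.image qv) ∅) :=
    ⟨twc_la_nbal_ne (NeZero.ne N) (fun t ht => (hQp t ht).ne_zero) (by simp)⟩
  haveI : NeZero (twe_Nbal N (Finset.univ.image qv) (ThP.image fun ℓ : Nat.Primes => (ℓ : ℕ))) :=
    ⟨twc_la_nbal_ne (NeZero.ne N) (fun t ht => (hQp t ht).ne_zero)
      (fun ℓ hℓ => (hTh ℓ hℓ).1.ne_zero)⟩
  have hr0 : 0 < r := by
    have h1 : 0 < ThP.card := Finset.card_pos.2 ⟨q₀.1, q₀.2⟩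
    omega
  obtain ⟨L, Bg, hBg⟩ := hB (Finset.univ.image qv) hQS hTW
    ⟨qv ⟨0, hr0⟩, Finset.mem_image.2 ⟨⟨0, hr0⟩, Finset.mem_univ _, rfl⟩⟩
    (ThP.image fun ℓ : Nat.Primes => (ℓ : ℕ)) (fun ℓ hℓ => by
      obtain ⟨ℓ', hℓ', rfl⟩ := Finset.mem_image.1 hℓ
      exact ⟨ℓ'.2, (hThP ℓ' hℓ').1, (hThP ℓ' hℓ').2.1, (hThP ℓ' hℓ').2.2.1⟩)
    ⟨(q₀.1 : ℕ), Finset.mem_image.2 ⟨q₀.1, q₀.2, rfl⟩⟩
  -- the character
  obtain ⟨χ, -, hχprim, hχm, hχlam⟩ := twlg_cm_exists p hp𝒪 ζ hζ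
    (ThP.image fun ℓ : Nat.Primes => (ℓ : ℕ)) (fun ℓ hℓ => by
      obtain ⟨ℓ', hℓ', rfl⟩ := Finset.mem_image.1 hℓ
      exact ⟨ℓ'.2, (hThP ℓ' hℓ').2.2.1⟩)
  -- block [A]
  have hunr : ∀ ℓ : ℕ, ℓ.Prime → ℓ ≠ 2 → ℓ ≠ p → rb.toResidualGaloisRep.IsUnramifiedAt ℓ := by
    intro ℓ hℓ hℓ2 hℓp
    by_contra hcon
    have := (hmin ℓ hℓ hℓp).2 hcon
    simp only [Finset.mem_insert, Finset.mem_singleton] at this
    rcases this with h | h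
    · exact hℓ2 h
    · exact hℓp h
  have hfrobQ : ∀ t ∈ Finset.univ.image qv, ∀ P : ValuationSubring Qbar, P.LiesOverPrime t →
      ∀ φ : GQ, P.IsFrobeniusAt φ t → ∃ α β : ResidueField 𝒪, α ≠ β ∧
        LinearMap.charpoly (rb.toResidualGaloisRep.ρ φ) = (X - C α) * (X - C β) := by
    intro t ht
    obtain ⟨i, rfl⟩ := hQonto t ht
    exact hfrob i
  obtain ⟨u, hu_mem, hu_pow, hu_sub, hsub_u⟩ := twlg_as_tw2 hp5 hp𝒪 ζ hζ hpS hNS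
    rb.toResidualGaloisRep hcompat hunr hQS hTW hfrobQ hTh Bg hBg
  have hX : ∀ r1 : FramedRep Bg.T'', Bg.H''.ρ.IsEquiv r1.toGaloisRepAdic →
      ∀ ℓ : Nat.Primes, ℓ ∈ ThP → ∀ (i j : Fin 2) (y : Bg.Mb),
        (∑ k ∈ Finset.range p, r1 (td.gσ ℓ) ^ k) i j • y ∈
          twc_chiSub (G := twe_Delta p (Finset.univ.image qv)) (Mb := Bg.Mb) χ :=
    fun r1 hr1 ℓ hℓ => twlg_as_x hp5 hp𝒪 hsq hpS hNS rb.toResidualGaloisRep hcompat hunr hQS hTW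
      hTh td hgen (fun ℓ' hℓ' => ⟨Finset.mem_image_of_mem _ hℓ', (hThP ℓ' hℓ').2.1,
        (hThP ℓ' hℓ').2.2.1⟩) Bg hBg χ hχprim r1 hr1 ℓ hℓ
  -- the matrix actions
  have hord : ∀ i, p ^ m ∣ twe_ord p (qv i) := fun i =>
    twt_ts_pow_dvd_ord (hqv i).1.one_lt ((pow_dvd_pow p (Nat.le_succ m)).trans (hqv i).2.2)
  obtain ⟨act1, actχ, hcong, hact1u, hactχu, hmod, hzero⟩ :=
    twc_am_Act 𝒪 lam p hp𝒪 N S θ B (Finset.univ.image qv) L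
      (ThP.image fun ℓ : Nat.Primes => (ℓ : ℕ)) Bg r qv hQmem inj hQonto m hord u hu_pow hu_sub
      hsub_u χ (hχlam lam hlam)
  -- the frames
  have hNS' : ∀ ℓ : ℕ, ℓ.Prime → ℓ ∣ twe_Nbal N (Finset.univ.image qv) ∅ →
      ℓ ∈ S ∪ Finset.univ.image qv := twc_ft_hNS (Th := ∅) hNS hQp (by simp)
  have hNS'' : ∀ ℓ : ℕ, ℓ.Prime →
      ℓ ∣ twe_Nbal N (Finset.univ.image qv) (ThP.image fun ℓ : Nat.Primes => (ℓ : ℕ)) →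
      ℓ ∈ S ∪ Finset.univ.image qv := twc_ft_hNS hNS hQp hTh
  obtain ⟨r'', hloc, hr''e, hr''l, hr''0⟩ := twc_fr_big hNS hNS'' Bg rb hcompat r0 hr0e hr0l
  have hπ1s : Function.Surjective Bg.π1 := twc_fr_π1_surjective hNS' Bg
  have hloc1 : IsLocalHom (Bg.π1 : Bg.T'' →+* L.T') := twc_fr_π1_isLocalHom hNS' Bg
  -- the Hecke pairs
  set P2 : twc_HPair 𝒪 rb := twc_hp_ofFramed Bg.H'' hNS'' rb r'' hr''e hr''l with hP2
  set P1 : twc_HPair 𝒪 rb := twc_hp_push P2 L.T' Bg.π1 hπ1s with hP1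
  -- the types
  have hpSmin : p ∈ ({2, p} : Finset ℕ) := by simp
  have hcoverN : ∀ q : ℕ, q.Prime → q ∣ N →
      q ∈ ({2, p} : Finset ℕ) ∪ ThP.image (fun ℓ : Nat.Primes => (ℓ : ℕ)) := by
    intro q hq hqN
    by_cases hq2 : q = 2
    · subst hq2; simp
    · exact Finset.mem_union_right _
        (Finset.mem_image.2 ⟨⟨q, hq⟩, hThall ⟨q, hq⟩ hqN hq2, rfl⟩)
  have hSminN : ∀ q ∈ ({2, p} : Finset ℕ), q.Prime → q ≠ p →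
      q ∣ N ∧ q ∉ ThP.image (fun ℓ : Nat.Primes => (ℓ : ℕ)) := by
    intro q hq _ hqp
    simp only [Finset.mem_insert, Finset.mem_singleton] at hq
    rcases hq with rfl | rfl
    · refine ⟨h2N, fun h => ?_⟩
      obtain ⟨ℓ', hℓ', h2⟩ := Finset.mem_image.1 h
      exact (hThP ℓ' hℓ').2.1 h2
    · exact absurd rfl hqp
  have htype2 : twc_IsType p {2, p} ThP (Finset.univ.image qv) P2.r.toGaloisRepAdic :=
    twc_ft_isType_big hpp hp2 hp𝒪 hpN hpS hNS hsq hQ hThN {2, p} hpSmin hcoverN hSminN Bg r''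
      hr''e
  have htype1 : twc_IsType p {2, p} ThP (Finset.univ.image qv) P1.r.toGaloisRepAdic :=
    twc_ft_isType_level hpp hp2 hp𝒪 hpN hpS hNS hsq hQ hThN {2, p} hpSmin hcoverN hSminN Bg
      hloc1 r'' hr''e
  have hℓp : ∀ ℓ ∈ ThP, ((ℓ : Nat.Primes) : ℕ) ≠ p := fun ℓ hℓ h => hpN (h ▸ hThN ℓ hℓ)
  have hℓ1 : ∀ ℓ ∈ ThP, ((ℓ : Nat.Primes) : ℕ) % p = 1 := fun ℓ hℓ => (hThP ℓ hℓ).2.2.1
  have hThmin : ∀ ℓ ∈ ThP, ((ℓ : Nat.Primes) : ℕ) ∉ ({2, p} : Finset ℕ) := by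
    intro ℓ hℓ h
    simp only [Finset.mem_insert, Finset.mem_singleton] at h
    rcases h with h | h
    · exact (hThP ℓ hℓ).2.1 h
    · exact hℓp ℓ hℓ h
  have hrbI := twc_rb_unram rb p {2, p} hpSmin hmin ThP hThmin
  have hun : ∀ ℓ ∈ ThP, P1.r.toGaloisRepAdic.IsUnipotentOnInertiaAt ((ℓ : Nat.Primes) : ℕ) :=
    twc_ft_unip_level hpp hp𝒪 hpN hpS hNS hsq hQ hThN Bg hloc1 r'' hr''e
  -- the unipotent system
  have u_mem1 : ∀ i, Bg.π1 (u (qv i) (hQmem i)) - 1 ∈ maximalIdeal P1.T := fun i => by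
    have h2 : (Bg.π1 : Bg.T'' →+* L.T') (u (qv i) (hQmem i) - 1) ∈ maximalIdeal L.T' :=
      map_nonunit (Bg.π1 : Bg.T'' →+* L.T') _ (hu_mem (qv i) (hQmem i))
    rw [RingHom.coe_coe, map_sub, map_one] at h2
    exact h2
  have hact1u' : ∀ i, act1 (Bg.π1 (u (qv i) (hQmem i))) =
      Matrix.scalar (Fin (B.d * 2 ^ r))
        (1 + Ideal.Quotient.mk (twds_b 𝒪 r (p ^ m)) (MvPowerSeries.X i)) := fun i => by
    rw [hact1u i, map_add, map_one]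
  set s1 := twc_lm_sys1 hp2 td a P1 hrbI hφa hℓp htype1.1 hun
    (fun i => Ideal.Quotient.mk (twds_b 𝒪 r (p ^ m)) (MvPowerSeries.X i)) (h4 P1 htype1) act1
    (fun i => Bg.π1 (u (qv i) (hQmem i))) u_mem1 hact1u' with hs1
  have hlam_mem : lam ∈ maximalIdeal 𝒪 := by
    rw [hlam]; exact Ideal.subset_span rfl
  have hd : 0 < B.d * 2 ^ r := Nat.mul_pos B.d_pos (pow_pos (by norm_num) r)
  -- the `χ`-system
  have hχsys : ∃ (sχ : twc_LvSys 𝒪 r (B.d * 2 ^ r) (r - 3 * ThP.card)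
      (↥ThP × Fin 2 × Fin 2 × Fin 2) ((↥ThP × Fin 2 × Fin 2 × Fin 2) ⊕ Fin (r - 3 * ThP.card))
      Sum.inl (twb_r8_Jhash 𝒪 (Fin (r - 3 * ThP.card)) p
        (fun ℓ : ↥ThP => a ℓ) (fun ℓ : ↥ThP => ((ℓ : Nat.Primes) : ℕ)))
      (MvPowerSeries (Fin r) 𝒪 ⧸ twds_b 𝒪 r (p ^ m))
      (fun i => Ideal.Quotient.mk (twds_b 𝒪 r (p ^ m)) (MvPowerSeries.X i)))
      (πχ : P2.T →ₐ[𝒪] sχ.T), Function.Surjective πχ ∧
      (∀ c, (sχ.z c : sχ.T) = πχ (twc_lm_z td a P2 hrbI hφa c)) ∧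
      (∀ i, sχ.u i = πχ (u (qv i) (hQmem i))) ∧ ∀ x, sχ.act (πχ x) = actχ x := by
    have hgeom2 : ∀ ℓ ∈ ThP, ∀ i j,
        actχ ((∑ k ∈ Finset.range p, P2.r (td.gσ ℓ) ^ k) i j) = 0 := by
      intro ℓ hℓ i j
      refine hzero _ fun y => ?_
      exact hX r'' hr''e ℓ hℓ i j y
    haveI : Nontrivial (MvPowerSeries (Fin r) 𝒪 ⧸ twds_b 𝒪 r (p ^ m)) := by
      by_contra hcon
      rw [not_nontrivial_iff_subsingleton] at hcon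
      refine twc_la_hnt hlam_mem r (p ^ m) ?_
      rw [Ideal.eq_top_iff_one, Subsingleton.elim (1 : MvPowerSeries (Fin r) 𝒪 ⧸ _) 0]
      exact Ideal.zero_mem _
    have hactχu' : ∀ i, actχ (u (qv i) (hQmem i)) =
        Matrix.scalar (Fin (B.d * 2 ^ r))
          (1 + Ideal.Quotient.mk (twds_b 𝒪 r (p ^ m)) (MvPowerSeries.X i)) := fun i => by
      rw [hactχu i, map_add, map_one]
    exact twc_la_chiSys td a P2 hrbI hφa hℓp hℓ1 hd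
      (fun i => Ideal.Quotient.mk (twds_b 𝒪 r (p ^ m)) (MvPowerSeries.X i)) actχ hgeom2 htype2 h4
      (fun i => u (qv i) (hQmem i)) (fun i => hu_mem (qv i) (hQmem i)) hactχu'
  obtain ⟨sχ, πχ, hπχs, hzχ, huχ, hactχ⟩ := hχsys
  -- the assembly
  refine twc_lvin2_of_two hd (twc_la_hnt hlam_mem r (p ^ m)) (twc_la_hfin hlam p hp𝒪 r m) s1 sχ
    Bg.T'' (Bg.π1 : P2.T →ₐ[𝒪] P1.T) πχ hπ1s hπχs
    (fun c => (twc_lm_z td a P2 hrbI hφa c : P2.T)) ?_ hzχ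
    (fun i => u (qv i) (hQmem i)) ?_ huχ ?_ L.π0 ?_ ?_
  · intro c
    exact twc_lm_z_push td a P2 hrbI hφa L.T' Bg.π1 hπ1s c
  · intro i
    rfl
  · intro x
    have h := hcong x
    rw [← hactχ x] at h
    exact h
  · intro t
    exact hmod t
  · intro i k
    have h1 : r0 (td.gσ q₀) = (r'' (td.gσ q₀)).map
        ((L.π0.comp Bg.π1 : Bg.T'' →ₐ[𝒪] B.T) : Bg.T'' →+* B.T) := by
      rw [← hr''0, FramedRep.map_apply]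
    show L.π0 (((r'' (td.gσ q₀)).map Bg.π1 - 1) i k) = _
    rw [h1]
    by_cases hik : i = k
    · subst hik
      simp [Matrix.sub_apply, Matrix.map_apply]
    · simp [Matrix.sub_apply, Matrix.map_apply, Matrix.one_apply_ne hik]

/-- **block [C] from block [E] without the clauses at the unipotent level.** -/
theorem twc_pm_main4 (hE : twe_M2LG4_stmt) : twt_PatchLv_stmt := by
  classical
  intro p hpF hp5 k _ _ _ N q _ hNsq h2N hpN hq hq2 hqN S hpS hNS θ ρbar hcompat hnE habs hTW hram2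
    hunr hhard 𝒪 _ _ _ _ _ _ _ hp𝒪 hζ hquad
  obtain ⟨ζ, hζ⟩ := hζ
  have hpp : p.Prime := Fact.out
  have hp2 : p ≠ 2 := by omega
  have hN0 : N ≠ 0 := NeZero.ne N
  haveI : CharP (ResidueField 𝒪) p := s56a_charP p hp𝒪
  obtain ⟨rb, -, hyp, hcompat', hmin, hThS, hThmin, hThp, hscal⟩ :=
    twt_cinput hp2 hpN hNS θ ρbar hcompat habs hTW hram2 hunr hhard hquad
  -- a uniformiser
  obtain ⟨lam, hlam⟩ : ∃ lam : 𝒪, maximalIdeal 𝒪 = Ideal.span {lam} := by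
    obtain ⟨ϖ, hϖ⟩ := IsDiscreteValuationRing.exists_irreducible 𝒪
    exact ⟨ϖ, (IsDiscreteValuationRing.irreducible_iff_uniformizer ϖ).1 hϖ⟩
  -- the hard primes
  have hThN : ∀ ℓ ∈ twt_ci_Th N, ((ℓ : Nat.Primes) : ℕ) ∣ N ∧ ((ℓ : Nat.Primes) : ℕ) ≠ 2 :=
    fun ℓ hℓ => (twt_ci_mem_Th hN0 ℓ).1 hℓ
  have hThall : ∀ ℓ : Nat.Primes, (ℓ : ℕ) ∣ N → (ℓ : ℕ) ≠ 2 → ℓ ∈ twt_ci_Th N :=
    fun ℓ h1 h2 => (twt_ci_mem_Th hN0 ℓ).2 ⟨h1, h2⟩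
  have hThmod : ∀ ℓ ∈ twt_ci_Th N, ((ℓ : Nat.Primes) : ℕ) % p = 1 := fun ℓ hℓ =>
    (hhard ℓ ℓ.2 (hThN ℓ hℓ).1 (hThN ℓ hℓ).2).1
  have hscal' : ∀ ℓ ∈ twt_ci_Th N, ∀ σ ∈ (primeLocalPlace ℓ).decompositionSubgroup ℚ,
      ∃ c : ResidueField 𝒪, rb σ = Matrix.scalar (Fin 2) c := fun ℓ hℓ σ hσ =>
    hscal ℓ hℓ (primeLocalPlace ℓ) (s56ld_liesOver ℓ) σ hσ
  have hThP : ∀ ℓ ∈ twt_ci_Th N, ((ℓ : Nat.Primes) : ℕ) ∣ N ∧ ((ℓ : Nat.Primes) : ℕ) ≠ 2 ∧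
      ((ℓ : Nat.Primes) : ℕ) % p = 1 ∧ twt_FrobScalar rb.toResidualGaloisRep ℓ := by
    intro ℓ hℓ
    refine ⟨(hThN ℓ hℓ).1, (hThN ℓ hℓ).2, hThmod ℓ hℓ, fun A hA σ hσ => ?_⟩
    obtain ⟨c, hc⟩ := hscal ℓ hℓ A hA σ hσ.mem_decompositionSubgroup
    refine ⟨c, ?_⟩
    apply LinearMap.ext
    intro v
    have h1 : rb.toResidualGaloisRep.ρ σ v = (rb σ).mulVec v :=
      FramedResidual.toResidualGaloisRep_ρ_apply rb σ v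
    rw [h1, hc]
    funext i
    show (Matrix.scalar (Fin 2) c).mulVec v i = c • (v : Fin 2 → ResidueField 𝒪) i
    simp [Matrix.mulVec, dotProduct, Matrix.scalar_apply, Matrix.diagonal_apply]
  -- the tame data
  set td : twc_TameData p (twt_ci_Th N) := twib_td p (twt_ci_Th N) hThp with htd
  have hgen : twib_InertiaGen td := twib_td_inertiaGen p (twt_ci_Th N) hThp
  -- the Frobenius scalars
  have ha : ∀ ℓ : Nat.Primes, ∃ a : 𝒪, ℓ ∈ twt_ci_Th N →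
      rb (td.gφ ℓ) = Matrix.scalar (Fin 2) (residue 𝒪 a) := by
    intro ℓ
    by_cases hℓ : ℓ ∈ twt_ci_Th N
    · obtain ⟨c, hc⟩ := hscal' ℓ hℓ (td.gφ ℓ) (td.φ_mem ℓ hℓ)
      obtain ⟨a, rfl⟩ := residue_surjective c
      exact ⟨a, fun _ => hc⟩
    · exact ⟨0, fun h => absurd h hℓ⟩
  choose a ha using ha
  have hφa : ∀ ℓ ∈ twt_ci_Th N, rb (td.gφ ℓ) = Matrix.scalar (Fin 2) (residue 𝒪 (a ℓ)) :=
    fun ℓ hℓ => ha ℓ hℓ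
  have han : ∀ ℓ ∈ twt_ci_Th N, a ℓ ^ 2 - (((ℓ : Nat.Primes) : ℕ) : 𝒪) ∈ maximalIdeal 𝒪 := by
    intro ℓ hℓ
    rw [← residue_eq_zero_iff, map_sub, map_pow, map_natCast, sub_eq_zero]
    exact twc_pm_sq rb hyp.hdet ℓ.2 (hThp ℓ hℓ).1 (primeLocalPlace ℓ) (s56ld_liesOver ℓ)
      (td.gφ ℓ) (td.φ_frob ℓ hℓ) _ (hφa ℓ hℓ)
  -- block [E]
  obtain ⟨B, hB⟩ := hE p hp5 𝒪 hp𝒪 N hNsq hpN S hpS hNS
    ((algebraMap k (ResidueField 𝒪)).comp θ) rb.toResidualGaloisRep hcompat' hyp.habs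
  obtain ⟨r0, hr0e, hr0l⟩ := twc_hp_exists_framed B.H hNS rb hcompat'
  -- the Taylor-Wiles primes
  have hpSmin : p ∈ ({2, p} : Finset ℕ) := by simp
  have hSmin : ({2, p} : Finset ℕ) ⊆ S := by
    intro x hx
    simp only [Finset.mem_insert, Finset.mem_singleton] at hx
    rcases hx with rfl | rfl
    · exact hNS 2 Nat.prime_two h2N
    · exact hpS
  obtain ⟨r, hr, hqv⟩ := twc_finrank_le 𝒪 p hp2 hp𝒪 rb hyp S {2, p} hpSmin hSmin hmin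
    (twt_ci_Th N) hThS hThmin hscal' td
  have hq₀ : (⟨q, hq⟩ : Nat.Primes) ∈ twt_ci_Th N := hThall ⟨q, hq⟩ hqN hq2
  refine ⟨B.T, inferInstance, inferInstance, inferInstance, inferInstance, inferInstance,
    inferInstance, inferInstance, inferInstance, B.H, r0, lam, ↥(twt_ci_Th N), inferInstance,
    (fun ℓ => a ℓ), (fun ℓ => ((ℓ : Nat.Primes) : ℕ)), ⟨⟨q, hq⟩, hq₀⟩,
    r - 3 * (twt_ci_Th N).card, r, B.d * 2 ^ r, twc_j B r, hr0e, hlam, ?_, ?_, ?_, ?_, ?_, ?_, ?_⟩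
  · intro t
    exact hThmod t.1 t.2
  · intro t
    exact han t.1 t.2
  · exact hq.ne_zero
  · exact hq.ne_one
  · rw [Fintype.card_coe]
    omega
  · exact Nat.mul_pos B.d_pos (pow_pos (by norm_num) r)
  · intro m
    obtain ⟨qv, inj, hqv1, hfrob, h4⟩ := hqv m
    exact twc_levelAsm4 p hp5 𝒪 hp𝒪 lam hlam ζ hζ N hNsq h2N hpN S hpS hNS
      ((algebraMap k (ResidueField 𝒪)).comp θ) rb hcompat' hyp hmin (twt_ci_Th N) hThP hThall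
      td hgen a hφa B hB r0 hr0e hr0l r hr m qv inj hqv1 hfrob h4 ⟨⟨q, hq⟩, hq₀⟩

end

end Fermat.Agent.TW
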