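/-
Project ONE MACHINE (S43), block [C], cell [Act], CLOSED (helper26; prefix `twc_am_`).

`twc_am_mix : twc_am_Mix_stmt` (from helper18's `twc_sm_big_r`, `TW/Def/SigmaMix.lean`) and hence
**`twc_am_Act : twc_Act_stmt`** — the statement of `TW/Def/SigmaSeam.lean` AS STATED (no
surjectivity of `Bg.π1`).
-/
import Mathlib
import Fermat.Agent.TW.Def.SigmaActMain
import Fermat.Agent.TW.Def.SigmaMix

set_option autoImplicit false
set_option linter.unusedSectionVars false
set_option linter.unusedVariables false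

open Polynomial CuspForm IsLocalRing MonoidAlgebra

namespace Fermat.Agent.TW

/-- **(a) [Sigma/Mix]** in the shape consumed by `twc_am_act`. -/
theorem twc_am_mix : twc_am_Mix_stmt := by
  intro 𝒪 _ _ _ _ p _ hp𝒪 N _ S θ B Q _ L Th _ Bg r hr u hu1 hu2 hu3
  obtain ⟨ψ, b, h1, h2, h3, h4, h5, hA, hψ⟩ := twc_sm_big_r hp𝒪 Bg u hu1 hu3 r hr
  refine ⟨ψ, b, h1, h2, h3, hψ.1, hψ.2, ?_⟩
  intro a i i' hii'
  rw [h5 a i]
  congr 1
  exact Fin.ext hii'.symm

/-- **[Act]**: `twc_Act_stmt`, as stated. -/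
theorem twc_am_Act : twc_Act_stmt := twc_am_act twc_am_mix

end Fermat.Agent.TW
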