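import Fermat.Agent.TW.Def.AsmSeam
import Fermat.Agent.TW.Def.SigmaActClosed
import Fermat.Agent.TW.Def.FramesType
import Fermat.Agent.TW.LG.AsA4
import Fermat.Agent.TW.LG.AsChiMk
import Fermat.Agent.TW.Top.TWSet

/-!
# Project ONE MACHINE: C/LevelAsm = `twc_LevelAsm_stmt` (helper21)

The level input `twc_LvIn2` at ONE level `m`, from: block [E] (`twe_Level`, `twe_Big` with the
[E] → [A] clauses), block [A] (`twlg_as_A4`), the character `twlg_cm_exists`, the matrix actions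
`twc_am_Act`, the frames `twc_fr_big` with their types (`FramesType`), the systems
`twc_lm_sys1` / `twc_lm_sysχ`, and `twc_lvin2_of_two`.
-/

set_option autoImplicit false
set_option linter.unusedSectionVars false
set_option linter.style.haveILetI false

open Polynomial CuspForm IsLocalRing ExtCitation
open Fermat.Agent.S53 Fermat.Agent.S56

namespace Fermat.Agent.TW

noncomputable section

local notation "GQ" => (AlgebraicClosure ℚ ≃ₐ[ℚ] AlgebraicClosure ℚ)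
local notation "Qbar" => AlgebraicClosure ℚ

attribute [local instance] S53.dualNumberAlgebra

/-! ### the ring `(S ⧸ 𝔟_m) ⧸ λ` -/

section Bb

variable {𝒪 : Type} [CommRing 𝒪] [IsLocalRing 𝒪]

/-- `λ` does not generate the unit ideal of `S ⧸ 𝔟`. -/
theorem twc_la_hnt {lam : 𝒪} (hlam : lam ∈ maximalIdeal 𝒪) (r N : ℕ) :
    Ideal.span {Ideal.Quotient.mk (twds_b 𝒪 r N)
      (algebraMap 𝒪 (MvPowerSeries (Fin r) 𝒪) lam)} ≠ ⊤ := by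
  intro h
  rw [Ideal.eq_top_iff_one, Ideal.mem_span_singleton'] at h
  obtain ⟨y, hy⟩ := h
  obtain ⟨s, rfl⟩ := Ideal.Quotient.mk_surjective y
  rw [← map_mul, ← map_one (Ideal.Quotient.mk (twds_b 𝒪 r N)), Ideal.Quotient.eq] at hy
  have h1 := twds_b_le_a r N hy
  rw [twds_mem_a, map_sub, map_mul, map_one] at h1
  have h2 : MvPowerSeries.constantCoeff (algebraMap 𝒪 (MvPowerSeries (Fin r) 𝒪) lam) = lam := by
    simp [MvPowerSeries.algebraMap_apply]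
  rw [h2, sub_eq_zero] at h1
  have h3 : IsUnit lam := IsUnit.of_mul_eq_one_right _ h1
  exact hlam h3

/-- `(S ⧸ 𝔟_m) ⧸ λ` is finite. -/
theorem twc_la_hfin [IsAdicComplete (maximalIdeal 𝒪) 𝒪] [Finite (ResidueField 𝒪)] {lam : 𝒪}
    (hmax : maximalIdeal 𝒪 = Ideal.span {lam}) (p : ℕ) [Fact p.Prime]
    (hp : (p : 𝒪) ∈ maximalIdeal 𝒪) (r m : ℕ) :
    Finite ((MvPowerSeries (Fin r) 𝒪 ⧸ twds_b 𝒪 r (p ^ m)) ⧸
      Ideal.span {Ideal.Quotient.mk (twds_b 𝒪 r (p ^ m))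
        (algebraMap 𝒪 (MvPowerSeries (Fin r) 𝒪) lam)}) := by
  classical
  set Il : Ideal (MvPowerSeries (Fin r) 𝒪 ⧸ twds_b 𝒪 r (p ^ m)) :=
    Ideal.span {Ideal.Quotient.mk (twds_b 𝒪 r (p ^ m))
      (algebraMap 𝒪 (MvPowerSeries (Fin r) 𝒪) lam)} with hIl
  set e : (Fin r → Fin (p ^ m)) → MvPowerSeries (Fin r) 𝒪 ⧸ twds_b 𝒪 r (p ^ m) := fun κ =>
    ∏ i, (Ideal.Quotient.mk (twds_b 𝒪 r (p ^ m)) (1 + MvPowerSeries.X i)) ^ (κ i : ℕ) with he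
  have hsec : ∀ x : ResidueField 𝒪, ∃ a : 𝒪, residue 𝒪 a = x := residue_surjective
  choose sec hsec using hsec
  refine Finite.of_surjective (fun c : (Fin r → Fin (p ^ m)) → ResidueField 𝒪 =>
    Ideal.Quotient.mk Il (∑ κ, sec (c κ) • e κ)) ?_
  intro y
  obtain ⟨x, rfl⟩ := Ideal.Quotient.mk_surjective y
  obtain ⟨c, hc⟩ := twds_span_quot p hp m r x
  refine ⟨fun κ => residue 𝒪 (c κ), ?_⟩
  show Ideal.Quotient.mk Il _ = Ideal.Quotient.mk Il x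
  rw [Ideal.Quotient.eq, hc, ← Finset.sum_sub_distrib]
  refine Ideal.sum_mem _ fun κ _ => ?_
  rw [← sub_smul]
  have h1 : sec (residue 𝒪 (c κ)) - c κ ∈ maximalIdeal 𝒪 := by
    rw [← residue_eq_zero_iff, map_sub, hsec, sub_self]
  rw [hmax, Ideal.mem_span_singleton'] at h1
  obtain ⟨d, hd⟩ := h1
  rw [← hd]
  have h2 : (d * lam) • e κ = (d • e κ) *
      Ideal.Quotient.mk (twds_b 𝒪 r (p ^ m)) (algebraMap 𝒪 (MvPowerSeries (Fin r) 𝒪) lam) := by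
    have h3 : Ideal.Quotient.mk (twds_b 𝒪 r (p ^ m))
        (algebraMap 𝒪 (MvPowerSeries (Fin r) 𝒪) lam) =
        algebraMap 𝒪 (MvPowerSeries (Fin r) 𝒪 ⧸ twds_b 𝒪 r (p ^ m)) lam := rfl
    rw [h3, mul_comm ((d • e κ)), ← Algebra.smul_def, smul_smul, mul_comm]
  rw [h2]
  exact Ideal.mul_mem_left _ _ (Ideal.subset_span rfl)

end Bb

/-! ### the `χ`-system, generic form -/

/-- **the `χ`-system on the image of the Hecke ring in `End(M^χ)`**: generic form. -/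
theorem twc_la_chiSys {𝒪 : Type} [CommRing 𝒪] [IsLocalRing 𝒪]
    {rb : FramedResidual (ResidueField 𝒪)}
    {p : ℕ} [Fact p.Prime] {Th : Finset Nat.Primes} (td : twc_TameData p Th) (a : Nat.Primes → 𝒪)
    (P : twc_HPair 𝒪 rb)
    (hrbI : ∀ ℓ ∈ Th, ∀ τ ∈ (primeLocalPlace ℓ).inertiaSubgroupIn ℚ, rb τ = 1)
    (hφa : ∀ ℓ ∈ Th, rb (td.gφ ℓ) = Matrix.scalar (Fin 2) (residue 𝒪 (a ℓ)))
    (hℓp : ∀ ℓ ∈ Th, (ℓ : ℕ) ≠ p) (hℓ1 : ∀ ℓ ∈ Th, (ℓ : ℕ) % p = 1)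
    {r d g : ℕ} (hd : 0 < d) {B' : Type} [CommRing B'] [Algebra 𝒪 B'] [Nontrivial B']
    (yB : Fin r → B') (act : P.T →ₐ[𝒪] Matrix (Fin d) (Fin d) B')
    (hgeom : ∀ ℓ ∈ Th, ∀ i j, act ((∑ k ∈ Finset.range p, P.r (td.gσ ℓ) ^ k) i j) = 0)
    {Smin Q : Finset ℕ} (hType : twc_IsType p Smin Th Q P.r.toGaloisRepAdic)
    (hfin : ∀ (H : twc_HPair 𝒪 rb), twc_IsType p Smin Th Q H.r.toGaloisRepAdic →
      ∀ (ι : Type) (z : ι → maximalIdeal H.T),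
        (∀ φ : H.T →ₐ[𝒪] DualNumber (ResidueField 𝒪), (∀ i, φ (z i : H.T) = 0) →
          twc_LocNoEps td H φ) →
        Module.finrank (ResidueField H.T) (CotangentSpace H.T ⧸ twc_relW 𝒪 z) ≤ g)
    (u : Fin r → P.T) (u_mem : ∀ i, u i - 1 ∈ maximalIdeal P.T)
    (act_u : ∀ i, act (u i) = Matrix.scalar (Fin d) (1 + yB i)) :
    ∃ (sχ : twc_LvSys 𝒪 r d g (↥Th × Fin 2 × Fin 2 × Fin 2)
        ((↥Th × Fin 2 × Fin 2 × Fin 2) ⊕ Fin g) Sum.inl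
        (twb_r8_Jhash 𝒪 (Fin g) p (fun ℓ : ↥Th => a ℓ)
          (fun ℓ : ↥Th => ((ℓ : Nat.Primes) : ℕ))) B' yB)
      (πχ : P.T →ₐ[𝒪] sχ.T), Function.Surjective πχ ∧
      (∀ c, (sχ.z c : sχ.T) = πχ (twc_lm_z td a P hrbI hφa c)) ∧
      (∀ i, sχ.u i = πχ (u i)) ∧ ∀ x, sχ.act (πχ x) = act x := by
  classical
  -- the kernel of `act`
  set Kχ : Ideal P.T := RingHom.ker (act : P.T →+* Matrix (Fin d) (Fin d) B') with hKχdef
  have hKχ : Kχ ≠ ⊤ := by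
    intro h
    rw [Ideal.eq_top_iff_one, hKχdef, RingHom.mem_ker, map_one] at h
    have h1 := congrFun (congrFun h ⟨0, hd⟩) ⟨0, hd⟩
    rw [Matrix.one_apply_eq, Matrix.zero_apply] at h1
    exact one_ne_zero h1
  haveI hlocχ : IsLocalRing (P.T ⧸ Kχ) := twb_qi_isLocalRing hKχ
  haveI : IsAdicComplete (maximalIdeal (P.T ⧸ Kχ)) (P.T ⧸ Kχ) := twb_qi_isAdicComplete
  haveI : IsLocalHom (algebraMap 𝒪 (P.T ⧸ Kχ)) := twc_hp_quot_isLocalHom P Kχ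
  have hmks : Function.Surjective (Ideal.Quotient.mk Kχ) := Ideal.Quotient.mk_surjective
  set Pχ : twc_HPair 𝒪 rb := twc_hp_quot P Kχ hKχ with hPχ
  have htypeχ : twc_IsType p Smin Th Q Pχ.r.toGaloisRepAdic :=
    twc_ft_isType_map (A := P.T) (A' := P.T ⧸ Kχ) (Ideal.Quotient.mk Kχ) hmks P.r hType
  have hgeomχ : ∀ ℓ ∈ Th, ∑ k ∈ Finset.range p, Pχ.r (td.gσ ℓ) ^ k = 0 := by
    intro ℓ hℓ
    have h1 : ∀ k : ℕ, Pχ.r (td.gσ ℓ) ^ k =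
        (Ideal.Quotient.mk Kχ).mapMatrix (P.r (td.gσ ℓ) ^ k) := by
      intro k
      rw [map_pow]
      rfl
    ext i j
    have h3 : (∑ k ∈ Finset.range p, Pχ.r (td.gσ ℓ) ^ k) i j =
        Ideal.Quotient.mk Kχ ((∑ k ∈ Finset.range p, P.r (td.gσ ℓ) ^ k) i j) := by
      rw [Matrix.sum_apply, Matrix.sum_apply, map_sum]
      refine Finset.sum_congr rfl fun k _ => ?_
      rw [h1 k]
      rfl
    rw [h3, Matrix.zero_apply]
    refine (Ideal.Quotient.eq_zero_iff_mem (I := Kχ)).2 ?_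
    rw [hKχdef, RingHom.mem_ker]
    exact hgeom ℓ hℓ i j
  -- the action descends
  let actχ' : P.T ⧸ Kχ →ₐ[𝒪] Matrix (Fin d) (Fin d) B' :=
    Ideal.Quotient.liftₐ Kχ act (fun x hx => hx)
  have u_memχ : ∀ i, Ideal.Quotient.mk Kχ (u i) - 1 ∈ maximalIdeal (P.T ⧸ Kχ) := fun i => by
    haveI : IsLocalHom (Ideal.Quotient.mk Kχ) := IsLocalHom.of_surjective _ hmks
    have h2 : (Ideal.Quotient.mk Kχ) (u i - 1) ∈ maximalIdeal (P.T ⧸ Kχ) :=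
      map_nonunit (Ideal.Quotient.mk Kχ) _ (u_mem i)
    rw [map_sub, map_one] at h2
    exact h2
  have hactχu' : ∀ i, actχ' (Ideal.Quotient.mk Kχ (u i)) = Matrix.scalar (Fin d) (1 + yB i) :=
    fun i => act_u i
  refine ⟨twc_lm_sysχ td a Pχ hrbI hφa hℓp hℓ1 htypeχ.1 hgeomχ yB (hfin Pχ htypeχ) actχ'
    (fun i => Ideal.Quotient.mk Kχ (u i)) u_memχ hactχu',
    (Ideal.Quotient.mkₐ 𝒪 Kχ : P.T →ₐ[𝒪] P.T ⧸ Kχ), Ideal.Quotient.mkₐ_surjective 𝒪 Kχ, ?_, ?_, ?_⟩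
  · intro c
    exact twc_lm_z_push td a P hrbI hφa (P.T ⧸ Kχ) (Ideal.Quotient.mkₐ 𝒪 Kχ)
      (Ideal.Quotient.mkₐ_surjective 𝒪 Kχ) c
  · intro i
    rfl
  · intro x
    rfl

/-! ### the assembly -/

theorem twc_la_nbal_ne {N : ℕ} {Q Th : Finset ℕ} (hN : N ≠ 0) (hQ : ∀ t ∈ Q, t ≠ 0)
    (hTh : ∀ ℓ ∈ Th, ℓ ≠ 0) : twe_Nbal N Q Th ≠ 0 := by
  unfold twe_Nbal
  refine mul_ne_zero (mul_ne_zero hN ?_) ?_
  · exact Finset.prod_ne_zero_iff.2 fun t ht => pow_ne_zero _ (hQ t ht)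
  · exact Finset.prod_ne_zero_iff.2 hTh

/-- **C/LevelAsm**: the level input at ONE level `m`. -/
theorem twc_levelAsm : twc_LevelAsm_stmt := by
  classical
  intro p _ hp5 𝒪 _ _ _ _ _ _ hp𝒪 lam hlam ζ hζ N _ hsq h2N hpN S hpS hNS θ rb hcompat hyp hmin
    ThP hThP hThall td hgen a hφa B hB r0 hr0e hr0l r hr m qv inj hqv hfrob h4 q₀
  have hpp : p.Prime := Fact.out
  have hp2 : p ≠ 2 := by omega
  haveI : CharP (ResidueField 𝒪) p := s56a_charP p hp𝒪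
  obtain ⟨hTW, hQS⟩ := twt_ts_isTWSet θ rb.toResidualGaloisRep hcompat qv hqv hfrob
  have hQmem : ∀ i, qv i ∈ Finset.univ.image qv := fun i =>
    Finset.mem_image.2 ⟨i, Finset.mem_univ _, rfl⟩
  have hQonto : ∀ t ∈ Finset.univ.image qv, ∃ i, qv i = t := fun t ht => by
    obtain ⟨i, -, hi⟩ := Finset.mem_image.1 ht
    exact ⟨i, hi⟩
  have hQp : ∀ t ∈ Finset.univ.image qv, t.Prime := fun t ht => by
    obtain ⟨i, rfl⟩ := hQonto t ht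
    exact (hqv i).1
  have hQ : ∀ t ∈ Finset.univ.image qv, t.Prime ∧ t ∉ S := fun t ht => ⟨hQp t ht, hQS t ht⟩
  have hThN : ∀ ℓ ∈ ThP, (ℓ : ℕ) ∣ N := fun ℓ hℓ => (hThP ℓ hℓ).1
  have hTh := twc_ft_hTh (N := N) hThN
  haveI : NeZero (twe_Nbal N (Finset.univ.image qv) ∅) :=
    ⟨twc_la_nbal_ne (NeZero.ne N) (fun t ht => (hQp t ht).ne_zero) (by simp)⟩
  haveI : NeZero (twe_Nbal N (Finset.univ.image qv) (ThP.image fun ℓ : Nat.Primes => (ℓ : ℕ))) :=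
    ⟨twc_la_nbal_ne (NeZero.ne N) (fun t ht => (hQp t ht).ne_zero)
      (fun ℓ hℓ => (hTh ℓ hℓ).1.ne_zero)⟩
  obtain ⟨L, hL, hBg'⟩ := hB (Finset.univ.image qv) hQS hTW
  obtain ⟨Bg, hBg⟩ := hBg' (ThP.image fun ℓ : Nat.Primes => (ℓ : ℕ)) (fun ℓ hℓ => by
    obtain ⟨ℓ', hℓ', rfl⟩ := Finset.mem_image.1 hℓ
    exact ⟨ℓ'.2, (hThP ℓ' hℓ').1, (hThP ℓ' hℓ').2.1⟩)
  -- the character
  obtain ⟨χ, -, hχprim, hχm, hχlam⟩ := twlg_cm_exists p hp𝒪 ζ hζ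
    (ThP.image fun ℓ : Nat.Primes => (ℓ : ℕ)) (fun ℓ hℓ => by
      obtain ⟨ℓ', hℓ', rfl⟩ := Finset.mem_image.1 hℓ
      exact ⟨ℓ'.2, (hThP ℓ' hℓ').2.2.1⟩)
  -- block [A]
  have hunr : ∀ ℓ : ℕ, ℓ.Prime → ℓ ≠ 2 → ℓ ≠ p → rb.toResidualGaloisRep.IsUnramifiedAt ℓ := by
    intro ℓ hℓ hℓ2 hℓp
    by_contra hcon
    have := (hmin ℓ hℓ hℓp).2 hcon
    simp only [Finset.mem_insert, Finset.mem_singleton] at this
    rcases this with h | h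
    · exact hℓ2 h
    · exact hℓp h
  have hfrobQ : ∀ t ∈ Finset.univ.image qv, ∀ P : ValuationSubring Qbar, P.LiesOverPrime t →
      ∀ φ : GQ, P.IsFrobeniusAt φ t → ∃ α β : ResidueField 𝒪, α ≠ β ∧
        LinearMap.charpoly (rb.toResidualGaloisRep.ρ φ) = (X - C α) * (X - C β) := by
    intro t ht
    obtain ⟨i, rfl⟩ := hQonto t ht
    exact hfrob i
  obtain ⟨⟨u, hu_mem, hu_pow, hu_sub, hsub_u⟩, hX⟩ :=
    twlg_as_A4 p hp5 𝒪 hp𝒪 ζ hζ N hsq hpN S hpS hNS θ rb.toResidualGaloisRep hcompat hyp.1 hunr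
      B (Finset.univ.image qv) hQS hTW hfrobQ L hL ThP hThP td hgen Bg hBg χ hχprim
  -- the matrix actions
  have hord : ∀ i, p ^ m ∣ twe_ord p (qv i) := fun i =>
    twt_ts_pow_dvd_ord (hqv i).1.one_lt ((pow_dvd_pow p (Nat.le_succ m)).trans (hqv i).2.2)
  obtain ⟨act1, actχ, hcong, hact1u, hactχu, hmod, hzero⟩ :=
    twc_am_Act 𝒪 lam p hp𝒪 N S θ B (Finset.univ.image qv) L
      (ThP.image fun ℓ : Nat.Primes => (ℓ : ℕ)) Bg r qv hQmem inj hQonto m hord u hu_pow hu_sub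
      hsub_u χ (hχlam lam hlam)
  -- the frames
  have hNS' : ∀ ℓ : ℕ, ℓ.Prime → ℓ ∣ twe_Nbal N (Finset.univ.image qv) ∅ →
      ℓ ∈ S ∪ Finset.univ.image qv := twc_ft_hNS (Th := ∅) hNS hQp (by simp)
  have hNS'' : ∀ ℓ : ℕ, ℓ.Prime →
      ℓ ∣ twe_Nbal N (Finset.univ.image qv) (ThP.image fun ℓ : Nat.Primes => (ℓ : ℕ)) →
      ℓ ∈ S ∪ Finset.univ.image qv := twc_ft_hNS hNS hQp hTh
  obtain ⟨r'', hloc, hr''e, hr''l, hr''0⟩ := twc_fr_big hNS hNS'' Bg rb hcompat r0 hr0e hr0l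
  have hπ1s : Function.Surjective Bg.π1 := twc_fr_π1_surjective hNS' Bg
  have hloc1 : IsLocalHom (Bg.π1 : Bg.T'' →+* L.T') := twc_fr_π1_isLocalHom hNS' Bg
  -- the Hecke pairs
  set P2 : twc_HPair 𝒪 rb := twc_hp_ofFramed Bg.H'' hNS'' rb r'' hr''e hr''l with hP2
  set P1 : twc_HPair 𝒪 rb := twc_hp_push P2 L.T' Bg.π1 hπ1s with hP1
  -- the types
  have hpSmin : p ∈ ({2, p} : Finset ℕ) := by simp
  have hcoverN : ∀ q : ℕ, q.Prime → q ∣ N →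
      q ∈ ({2, p} : Finset ℕ) ∪ ThP.image (fun ℓ : Nat.Primes => (ℓ : ℕ)) := by
    intro q hq hqN
    by_cases hq2 : q = 2
    · subst hq2; simp
    · exact Finset.mem_union_right _
        (Finset.mem_image.2 ⟨⟨q, hq⟩, hThall ⟨q, hq⟩ hqN hq2, rfl⟩)
  have hSminN : ∀ q ∈ ({2, p} : Finset ℕ), q.Prime → q ≠ p →
      q ∣ N ∧ q ∉ ThP.image (fun ℓ : Nat.Primes => (ℓ : ℕ)) := by
    intro q hq _ hqp
    simp only [Finset.mem_insert, Finset.mem_singleton] at hq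
    rcases hq with rfl | rfl
    · refine ⟨h2N, fun h => ?_⟩
      obtain ⟨ℓ', hℓ', h2⟩ := Finset.mem_image.1 h
      exact (hThP ℓ' hℓ').2.1 h2
    · exact absurd rfl hqp
  have htype2 : twc_IsType p {2, p} ThP (Finset.univ.image qv) P2.r.toGaloisRepAdic :=
    twc_ft_isType_big hpp hp2 hp𝒪 hpN hpS hNS hsq hQ hThN {2, p} hpSmin hcoverN hSminN Bg r''
      hr''e
  have htype1 : twc_IsType p {2, p} ThP (Finset.univ.image qv) P1.r.toGaloisRepAdic :=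
    twc_ft_isType_level hpp hp2 hp𝒪 hpN hpS hNS hsq hQ hThN {2, p} hpSmin hcoverN hSminN Bg
      hloc1 r'' hr''e
  have hℓp : ∀ ℓ ∈ ThP, ((ℓ : Nat.Primes) : ℕ) ≠ p := fun ℓ hℓ h => hpN (h ▸ hThN ℓ hℓ)
  have hℓ1 : ∀ ℓ ∈ ThP, ((ℓ : Nat.Primes) : ℕ) % p = 1 := fun ℓ hℓ => (hThP ℓ hℓ).2.2.1
  have hThmin : ∀ ℓ ∈ ThP, ((ℓ : Nat.Primes) : ℕ) ∉ ({2, p} : Finset ℕ) := by
    intro ℓ hℓ h
    simp only [Finset.mem_insert, Finset.mem_singleton] at h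
    rcases h with h | h
    · exact (hThP ℓ hℓ).2.1 h
    · exact hℓp ℓ hℓ h
  have hrbI := twc_rb_unram rb p {2, p} hpSmin hmin ThP hThmin
  have hun : ∀ ℓ ∈ ThP, P1.r.toGaloisRepAdic.IsUnipotentOnInertiaAt ((ℓ : Nat.Primes) : ℕ) :=
    twc_ft_unip_level hpp hp𝒪 hpN hpS hNS hsq hQ hThN Bg hloc1 r'' hr''e
  -- the unipotent system
  have u_mem1 : ∀ i, Bg.π1 (u (qv i) (hQmem i)) - 1 ∈ maximalIdeal P1.T := fun i => by
    have h2 : (Bg.π1 : Bg.T'' →+* L.T') (u (qv i) (hQmem i) - 1) ∈ maximalIdeal L.T' :=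
      map_nonunit (Bg.π1 : Bg.T'' →+* L.T') _ (hu_mem (qv i) (hQmem i))
    rw [RingHom.coe_coe, map_sub, map_one] at h2
    exact h2
  have hact1u' : ∀ i, act1 (Bg.π1 (u (qv i) (hQmem i))) =
      Matrix.scalar (Fin (B.d * 2 ^ r))
        (1 + Ideal.Quotient.mk (twds_b 𝒪 r (p ^ m)) (MvPowerSeries.X i)) := fun i => by
    rw [hact1u i, map_add, map_one]
  set s1 := twc_lm_sys1 hp2 td a P1 hrbI hφa hℓp htype1.1 hun
    (fun i => Ideal.Quotient.mk (twds_b 𝒪 r (p ^ m)) (MvPowerSeries.X i)) (h4 P1 htype1) act1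
    (fun i => Bg.π1 (u (qv i) (hQmem i))) u_mem1 hact1u' with hs1
  have hlam_mem : lam ∈ maximalIdeal 𝒪 := by
    rw [hlam]; exact Ideal.subset_span rfl
  have hd : 0 < B.d * 2 ^ r := Nat.mul_pos B.d_pos (pow_pos (by norm_num) r)
  -- the `χ`-system
  have hχsys : ∃ (sχ : twc_LvSys 𝒪 r (B.d * 2 ^ r) (r - 3 * ThP.card)
      (↥ThP × Fin 2 × Fin 2 × Fin 2) ((↥ThP × Fin 2 × Fin 2 × Fin 2) ⊕ Fin (r - 3 * ThP.card))
      Sum.inl (twb_r8_Jhash 𝒪 (Fin (r - 3 * ThP.card)) p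
        (fun ℓ : ↥ThP => a ℓ) (fun ℓ : ↥ThP => ((ℓ : Nat.Primes) : ℕ)))
      (MvPowerSeries (Fin r) 𝒪 ⧸ twds_b 𝒪 r (p ^ m))
      (fun i => Ideal.Quotient.mk (twds_b 𝒪 r (p ^ m)) (MvPowerSeries.X i)))
      (πχ : P2.T →ₐ[𝒪] sχ.T), Function.Surjective πχ ∧
      (∀ c, (sχ.z c : sχ.T) = πχ (twc_lm_z td a P2 hrbI hφa c)) ∧
      (∀ i, sχ.u i = πχ (u (qv i) (hQmem i))) ∧ ∀ x, sχ.act (πχ x) = actχ x := by
    have hgeom2 : ∀ ℓ ∈ ThP, ∀ i j,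
        actχ ((∑ k ∈ Finset.range p, P2.r (td.gσ ℓ) ^ k) i j) = 0 := by
      intro ℓ hℓ i j
      refine hzero _ fun y => ?_
      exact hX r'' hr''e ℓ (Finset.mem_image.2 ⟨ℓ, hℓ, rfl⟩) i j y
    haveI : Nontrivial (MvPowerSeries (Fin r) 𝒪 ⧸ twds_b 𝒪 r (p ^ m)) := by
      by_contra hcon
      rw [not_nontrivial_iff_subsingleton] at hcon
      refine twc_la_hnt hlam_mem r (p ^ m) ?_
      rw [Ideal.eq_top_iff_one, Subsingleton.elim (1 : MvPowerSeries (Fin r) 𝒪 ⧸ _) 0]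
      exact Ideal.zero_mem _
    have hactχu' : ∀ i, actχ (u (qv i) (hQmem i)) =
        Matrix.scalar (Fin (B.d * 2 ^ r))
          (1 + Ideal.Quotient.mk (twds_b 𝒪 r (p ^ m)) (MvPowerSeries.X i)) := fun i => by
      rw [hactχu i, map_add, map_one]
    exact twc_la_chiSys td a P2 hrbI hφa hℓp hℓ1 hd
      (fun i => Ideal.Quotient.mk (twds_b 𝒪 r (p ^ m)) (MvPowerSeries.X i)) actχ hgeom2 htype2 h4
      (fun i => u (qv i) (hQmem i)) (fun i => hu_mem (qv i) (hQmem i)) hactχu'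
  obtain ⟨sχ, πχ, hπχs, hzχ, huχ, hactχ⟩ := hχsys
  -- the assembly
  refine twc_lvin2_of_two hd (twc_la_hnt hlam_mem r (p ^ m)) (twc_la_hfin hlam p hp𝒪 r m) s1 sχ
    Bg.T'' (Bg.π1 : P2.T →ₐ[𝒪] P1.T) πχ hπ1s hπχs
    (fun c => (twc_lm_z td a P2 hrbI hφa c : P2.T)) ?_ hzχ
    (fun i => u (qv i) (hQmem i)) ?_ huχ ?_ L.π0 ?_ ?_
  · intro c
    exact twc_lm_z_push td a P2 hrbI hφa L.T' Bg.π1 hπ1s c
  · intro i
    rfl
  · intro x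
    have h := hcong x
    rw [← hactχ x] at h
    exact h
  · intro t
    exact hmod t
  · intro i k
    have h1 : r0 (td.gσ q₀) = (r'' (td.gσ q₀)).map
        ((L.π0.comp Bg.π1 : Bg.T'' →ₐ[𝒪] B.T) : Bg.T'' →+* B.T) := by
      rw [← hr''0, FramedRep.map_apply]
    show L.π0 (((r'' (td.gσ q₀)).map Bg.π1 - 1) i k) = _
    rw [h1]
    by_cases hik : i = k
    · subst hik
      simp [Matrix.sub_apply, Matrix.map_apply]
    · simp [Matrix.sub_apply, Matrix.map_apply, Matrix.one_apply_ne hik]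

end

end Fermat.Agent.TW
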