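import Mathlib
import Fermat.Agent.TW.Def.Level2

/-!
# Project TW (S43), block [C] DEF: `twc_LvIn2` from two quotients of ONE ring (helper21)

`twc_lvin2_of_two`: two systems `s1`, `sχ : twc_LvSys` whose Hecke rings are quotients
`π1 : T2 ↠ s1.T`, `πχ : T2 ↠ sχ.T` of ONE ring `T2`, with coordinates `z` and diamonds `u` coming
from `T2`, and whose matrix actions are congruent modulo `λ` along `T2`, give the level input
`twc_LvIn2` with `Tb := s1.T ⧸ ker (act mod λ)` and `P = Pinv = 1`.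
-/

set_option autoImplicit false
set_option linter.unusedSectionVars false
set_option linter.style.haveILetI false

open IsLocalRing MvPowerSeries

namespace Fermat.Agent.TW

noncomputable section

variable {𝒪 : Type} [CommRing 𝒪] [IsLocalRing 𝒪] {lam : 𝒪} {r d g : ℕ} {ι : Type}
  {J1 : Ideal (MvPowerSeries (ι ⊕ (Fin g ⊕ Fin g)) 𝒪)}
  {Jχ : Ideal (MvPowerSeries (ι ⊕ Fin g) 𝒪)}
  {𝔞 𝔟 : Ideal (MvPowerSeries (Fin r) 𝒪)} {h𝔟𝔞 : 𝔟 ≤ 𝔞}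
  {T0 : Type} [CommRing T0] [Algebra 𝒪 T0]
  {j : T0 →+* Matrix (Fin d) (Fin d) (MvPowerSeries (Fin r) 𝒪 ⧸ 𝔞)}
  {c0 : Fin 2 → Fin 2 → ι} {β : Fin 2 → Fin 2 → T0}

/-- a quotient ring which injects (set-theoretically) into a finite type is finite. -/
theorem twc_two_finite {R X : Type*} [CommRing R] (hX : Finite X) (K : Ideal R) (g : R → X)
    (hg : ∀ a b, g a = g b → a - b ∈ K) : Finite (R ⧸ K) := by
  haveI := hX
  haveI : Finite (Set.range g) := Subtype.finite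
  have hch : ∀ x : Set.range g, ∃ a : R, g a = x := fun x => x.2
  choose sec hsec using hch
  refine Finite.of_surjective (fun x : Set.range g => Ideal.Quotient.mk K (sec x)) ?_
  intro y
  obtain ⟨a, rfl⟩ := Ideal.Quotient.mk_surjective y
  refine ⟨⟨g a, a, rfl⟩, ?_⟩
  rw [Ideal.Quotient.eq]
  exact hg _ _ (hsec ⟨g a, a, rfl⟩)

/-- **two quotients of one ring.** -/
theorem twc_lvin2_of_two (hd : 0 < d)
    (hnt : Ideal.span {Ideal.Quotient.mk 𝔟 (algebraMap 𝒪 (MvPowerSeries (Fin r) 𝒪) lam)} ≠ ⊤)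
    (hfin : Finite ((MvPowerSeries (Fin r) 𝒪 ⧸ 𝔟) ⧸
      Ideal.span {Ideal.Quotient.mk 𝔟 (algebraMap 𝒪 (MvPowerSeries (Fin r) 𝒪) lam)}))
    (s1 : twc_LvSys 𝒪 r d g ι (ι ⊕ (Fin g ⊕ Fin g)) Sum.inl J1
      (MvPowerSeries (Fin r) 𝒪 ⧸ 𝔟) (fun i => Ideal.Quotient.mk 𝔟 (X i)))
    (sχ : twc_LvSys 𝒪 r d g ι (ι ⊕ Fin g) Sum.inl Jχ
      (MvPowerSeries (Fin r) 𝒪 ⧸ 𝔟) (fun i => Ideal.Quotient.mk 𝔟 (X i)))
    (T2 : Type) [CommRing T2] [Algebra 𝒪 T2]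
    (π1 : T2 →ₐ[𝒪] s1.T) (πχ : T2 →ₐ[𝒪] sχ.T)
    (hπ1 : Function.Surjective π1) (hπχ : Function.Surjective πχ)
    (z : ι → T2) (hz1 : ∀ c, (s1.z c : s1.T) = π1 (z c)) (hzχ : ∀ c, (sχ.z c : sχ.T) = πχ (z c))
    (u : Fin r → T2) (hu1 : ∀ i, s1.u i = π1 (u i)) (huχ : ∀ i, sχ.u i = πχ (u i))
    (hcong : ∀ x : T2, twd_MatCong
      (Ideal.span {Ideal.Quotient.mk 𝔟 (algebraMap 𝒪 (MvPowerSeries (Fin r) 𝒪) lam)})
      (s1.act (π1 x)) (sχ.act (πχ x)))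
    (π0 : s1.T →ₐ[𝒪] T0)
    (hmod : ∀ t : s1.T, (s1.act t).map (Ideal.Quotient.factor h𝔟𝔞) = j (π0 t))
    (hβ : ∀ i k, π0 (s1.z (c0 i k) : s1.T) = β i k) :
    Nonempty (twc_LvIn2 𝒪 lam r d g ι J1 Jχ 𝔞 𝔟 h𝔟𝔞 T0 j c0 β) := by
  classical
  set Il : Ideal (MvPowerSeries (Fin r) 𝒪 ⧸ 𝔟) :=
    Ideal.span {Ideal.Quotient.mk 𝔟 (algebraMap 𝒪 (MvPowerSeries (Fin r) 𝒪) lam)} with hIldef
  -- the action modulo `λ`
  obtain ⟨ρb, hρb⟩ : ∃ ρb : s1.T →+* Matrix (Fin d) (Fin d) ((MvPowerSeries (Fin r) 𝒪 ⧸ 𝔟) ⧸ Il),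
      ∀ t : s1.T, ρb t = 0 ↔ ∀ i k, s1.act t i k ∈ Il := by
    refine ⟨(Ideal.Quotient.mk Il).mapMatrix.comp (s1.act : s1.T →+* _), fun t => ?_⟩
    constructor
    · intro h i k
      have := congrFun (congrFun h i) k
      exact Ideal.Quotient.eq_zero_iff_mem.1 this
    · intro h
      ext i k
      exact Ideal.Quotient.eq_zero_iff_mem.2 (h i k)
  set K : Ideal s1.T := RingHom.ker ρb with hK
  have hKtop : K ≠ ⊤ := by
    intro h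
    have h1 : (1 : s1.T) ∈ K := h ▸ Submodule.mem_top
    rw [hK, RingHom.mem_ker, map_one] at h1
    have h2 := congrFun (congrFun h1 ⟨0, hd⟩) ⟨0, hd⟩
    rw [Matrix.one_apply_eq, Matrix.zero_apply] at h2
    have h3 : (1 : MvPowerSeries (Fin r) 𝒪 ⧸ 𝔟) ∈ Il :=
      Ideal.Quotient.eq_zero_iff_mem.1 (by rw [map_one]; exact h2)
    exact hnt ((Ideal.eq_top_iff_one _).2 h3)
  haveI : Nontrivial (s1.T ⧸ K) := Ideal.Quotient.nontrivial_iff.mpr hKtop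
  have hfM : Finite (Matrix (Fin d) (Fin d) ((MvPowerSeries (Fin r) 𝒪 ⧸ 𝔟) ⧸ Il)) :=
    @Pi.finite _ _ _ (fun _ => @Pi.finite _ _ _ (fun _ => hfin))
  haveI : Finite (s1.T ⧸ K) := twc_two_finite hfM K (fun t => ρb t) (fun a b hab => by
    rw [hK, RingHom.mem_ker, map_sub, sub_eq_zero]
    exact hab)
  have hKmem : ∀ t : s1.T, t ∈ K ↔ ∀ i k, s1.act t i k ∈ Il := by
    intro t
    rw [hK, RingHom.mem_ker, hρb]
  -- the map `sχ.T → s1.T ⧸ K`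
  obtain ⟨πχb, hπχb⟩ : ∃ πχb : sχ.T →ₐ[𝒪] s1.T ⧸ K,
      ∀ x : T2, πχb (πχ x) = Ideal.Quotient.mk K (π1 x) := by
    have hker : ∀ x : T2, x ∈ RingHom.ker (πχ : T2 →+* sχ.T) →
        ((Ideal.Quotient.mkₐ 𝒪 K).comp π1 : T2 →ₐ[𝒪] s1.T ⧸ K) x = 0 := by
      intro x hx
      rw [RingHom.mem_ker] at hx
      show Ideal.Quotient.mk K (π1 x) = 0
      rw [Ideal.Quotient.eq_zero_iff_mem, hKmem]
      intro i k
      have h1 := hcong x i k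
      have h2 : πχ x = 0 := hx
      rw [h2, map_zero, Matrix.zero_apply, sub_zero] at h1
      exact h1
    let e : (T2 ⧸ RingHom.ker (πχ : T2 →+* sχ.T)) ≃ₐ[𝒪] sχ.T :=
      Ideal.quotientKerAlgEquivOfSurjective hπχ
    refine ⟨(Ideal.Quotient.liftₐ (RingHom.ker (πχ : T2 →+* sχ.T))
      ((Ideal.Quotient.mkₐ 𝒪 K).comp π1) hker).comp (e.symm : sχ.T →ₐ[𝒪] _), fun x => ?_⟩
    have h1 : e.symm (πχ x) = Ideal.Quotient.mk _ x := by
      rw [AlgEquiv.symm_apply_eq]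
      rfl
    show (Ideal.Quotient.liftₐ _ _ hker) (e.symm (πχ x)) = _
    rw [h1]
    rfl
  have hπχbs : Function.Surjective πχb := by
    intro y
    obtain ⟨t, rfl⟩ := Ideal.Quotient.mk_surjective y
    obtain ⟨x, rfl⟩ := hπ1 t
    exact ⟨πχ x, hπχb x⟩
  have hπz : ∀ c, (Ideal.Quotient.mkₐ 𝒪 K) (s1.z c : s1.T) = πχb (sχ.z c : sχ.T) := fun c => by
    rw [hz1, hzχ, hπχb]
    rfl
  have hπu : ∀ i, (Ideal.Quotient.mkₐ 𝒪 K) (s1.u i) = πχb (sχ.u i) := fun i => by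
    rw [hu1, huχ, hπχb]
    rfl
  have hP : twd_MatCong Il ((1 : Matrix (Fin d) (Fin d) (MvPowerSeries (Fin r) 𝒪 ⧸ 𝔟)) * 1) 1 :=
    fun i k => by
      rw [mul_one, sub_self]
      exact Ideal.zero_mem _
  have hint : ∀ (t1 : s1.T) (tχ : sχ.T), (Ideal.Quotient.mkₐ 𝒪 K) t1 = πχb tχ →
      twd_MatCong Il ((1 : Matrix (Fin d) (Fin d) (MvPowerSeries (Fin r) 𝒪 ⧸ 𝔟)) * s1.act t1)
        (sχ.act tχ * 1) := fun t1 tχ h => by
    obtain ⟨x, rfl⟩ := hπχ tχ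
    rw [hπχb] at h
    have h1 : t1 - π1 x ∈ K := by
      rw [← Ideal.Quotient.eq]
      exact h
    rw [hKmem] at h1
    intro i k
    rw [one_mul, mul_one]
    have h2 := h1 i k
    have h3 := hcong x i k
    have h4 : s1.act t1 i k - sχ.act (πχ x) i k =
        s1.act (t1 - π1 x) i k + (s1.act (π1 x) i k - sχ.act (πχ x) i k) := by
      rw [map_sub, Matrix.sub_apply]
      ring
    rw [h4]
    exact Ideal.add_mem _ h2 h3
  exact ⟨{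
    s1 := s1
    sχ := sχ
    Tb := s1.T ⧸ K
    π1 := Ideal.Quotient.mkₐ 𝒪 K
    πχ := πχb
    π1_surjective := Ideal.Quotient.mkₐ_surjective 𝒪 K
    πχ_surjective := hπχbs
    π_z := hπz
    π_u := hπu
    P := 1
    Pinv := 1
    P_mul_Pinv := hP
    Pinv_mul_P := hP
    intertwine := hint
    π0 := π0
    act_mod := hmod
    π0_z := hβ }⟩

end

end Fermat.Agent.TW
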