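import Mathlib
import Fermat.Agent.TW.Def.Level
import Fermat.Agent.TW.Def.LocRel8
import Fermat.Agent.TW.Def.Present
import Fermat.Agent.TW.Def.HPairPush

/-!
# Project TW (S43), block [C] DEF, cell (L1): the core fields of `twc_LvSys` from a Hecke pair
(helper25; prefix `twc_lm_`)

For a Hecke pair `P : twc_HPair 𝒪 rb`, tame data `td` at the hard primes `Th`, and `a : Nat.Primes → 𝒪`
(`rb(φ_ℓ) = ā_ℓ`), with `ι := ↥Th × Fin 2 × Fin 2 × Fin 2`: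

* `twc_lm_z` : the `8 |Th|` local coordinates `(ℓ, 0, i, j) ↦ (r(σ_ℓ) - 1) i j`,
  `(ℓ, 1, i, j) ↦ (r(φ_ℓ) - a_ℓ) i j` as a family in `𝔪_T` (= `twc_coord8`);
* `twc_lm_finrank_le` : the field `finrank_le` from the conclusion of `twc_finrank_le`;
* `twc_lm_det_sigma` : `det r(σ_ℓ) = 1` from the cyclotomic determinant;
* `twc_lm_rel_unip` : the field `rel` for `J¹ = twb_r8_Junip` (unipotent inertia at the hard primes);
* `twc_lm_rel_hash` : the field `rel` for `J^χ = twb_r8_Jhash` (from `∑_{k<p} r(σ_ℓ)^k = 0`);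
* `twc_lm_coord8_push`, `twc_lm_z_push` : the coordinates of a push-forward are the images of the
  coordinates;
* `twc_lm_sys`, `twc_lm_sys1`, `twc_lm_sysχ` : the systems, with `(act, u, u_mem, act_u)` as the only
  remaining arguments.
-/

set_option autoImplicit false
set_option linter.unusedSectionVars false
set_option linter.style.haveILetI false

open Polynomial IsLocalRing ExtCitation
open Fermat.Agent.S53 Fermat.Agent.S56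

namespace Fermat.Agent.TW

noncomputable section

local notation "GQ" => (AlgebraicClosure ℚ ≃ₐ[ℚ] AlgebraicClosure ℚ)
local notation "Qbar" => AlgebraicClosure ℚ

attribute [local instance] S53.dualNumberAlgebra

section Core

variable {𝒪 : Type} [CommRing 𝒪] [IsLocalRing 𝒪] {rb : FramedResidual (ResidueField 𝒪)}

/-- the `8 |Th|` local coordinates of a Hecke pair, as a family in the maximal ideal. -/
def twc_lm_z {p : ℕ} {Th : Finset Nat.Primes} (td : twc_TameData p Th) (a : Nat.Primes → 𝒪)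
    (P : twc_HPair 𝒪 rb)
    (hrbI : ∀ ℓ ∈ Th, ∀ τ ∈ (primeLocalPlace ℓ).inertiaSubgroupIn ℚ, rb τ = 1)
    (hφa : ∀ ℓ ∈ Th, rb (td.gφ ℓ) = Matrix.scalar (Fin 2) (residue 𝒪 (a ℓ))) :
    ↥Th × Fin 2 × Fin 2 × Fin 2 → maximalIdeal P.T :=
  fun x => ⟨twc_coord8 td a P x,
    twc_coord8_mem td a P (fun ℓ hℓ => hrbI ℓ hℓ _ (td.σ_mem ℓ hℓ)) hφa x⟩

@[simp] theorem twc_lm_z_coe {p : ℕ} {Th : Finset Nat.Primes} (td : twc_TameData p Th)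
    (a : Nat.Primes → 𝒪) (P : twc_HPair 𝒪 rb)
    (hrbI : ∀ ℓ ∈ Th, ∀ τ ∈ (primeLocalPlace ℓ).inertiaSubgroupIn ℚ, rb τ = 1)
    (hφa : ∀ ℓ ∈ Th, rb (td.gφ ℓ) = Matrix.scalar (Fin 2) (residue 𝒪 (a ℓ)))
    (x : ↥Th × Fin 2 × Fin 2 × Fin 2) :
    (twc_lm_z td a P hrbI hφa x : P.T) = twc_coord8 td a P x := rfl

theorem twc_lm_z_sigma {p : ℕ} {Th : Finset Nat.Primes} (td : twc_TameData p Th)
    (a : Nat.Primes → 𝒪) (P : twc_HPair 𝒪 rb)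
    (hrbI : ∀ ℓ ∈ Th, ∀ τ ∈ (primeLocalPlace ℓ).inertiaSubgroupIn ℚ, rb τ = 1)
    (hφa : ∀ ℓ ∈ Th, rb (td.gφ ℓ) = Matrix.scalar (Fin 2) (residue 𝒪 (a ℓ)))
    (ℓ : ↥Th) (i j : Fin 2) :
    (twc_lm_z td a P hrbI hφa (ℓ, 0, i, j) : P.T) = (P.r (td.gσ ℓ) - 1) i j := rfl

theorem twc_lm_z_phi {p : ℕ} {Th : Finset Nat.Primes} (td : twc_TameData p Th)
    (a : Nat.Primes → 𝒪) (P : twc_HPair 𝒪 rb)
    (hrbI : ∀ ℓ ∈ Th, ∀ τ ∈ (primeLocalPlace ℓ).inertiaSubgroupIn ℚ, rb τ = 1)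
    (hφa : ∀ ℓ ∈ Th, rb (td.gφ ℓ) = Matrix.scalar (Fin 2) (residue 𝒪 (a ℓ)))
    (ℓ : ↥Th) (i j : Fin 2) :
    (twc_lm_z td a P hrbI hφa (ℓ, 1, i, j) : P.T) =
      (P.r (td.gφ ℓ) - Matrix.scalar (Fin 2) (algebraMap 𝒪 P.T (a ℓ))) i j := rfl

/-- **the field `finrank_le`** from the conclusion of `twc_finrank_le` (already specialised to the
Hecke pair `P`). -/
theorem twc_lm_finrank_le {p : ℕ} {Th : Finset Nat.Primes} (td : twc_TameData p Th)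
    (a : Nat.Primes → 𝒪) (P : twc_HPair 𝒪 rb)
    (hrbI : ∀ ℓ ∈ Th, ∀ τ ∈ (primeLocalPlace ℓ).inertiaSubgroupIn ℚ, rb τ = 1)
    (hφa : ∀ ℓ ∈ Th, rb (td.gφ ℓ) = Matrix.scalar (Fin 2) (residue 𝒪 (a ℓ))) {g : ℕ}
    (h4 : ∀ (ι : Type) (z : ι → maximalIdeal P.T),
      (∀ φ : P.T →ₐ[𝒪] DualNumber (ResidueField 𝒪), (∀ i, φ (z i : P.T) = 0) →
        twc_LocNoEps td P φ) →
      Module.finrank (ResidueField P.T) (CotangentSpace P.T ⧸ twc_relW 𝒪 z) ≤ g) :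
    Module.finrank (ResidueField P.T)
      (CotangentSpace P.T ⧸ twc_relW 𝒪 (twc_lm_z td a P hrbI hφa)) ≤ g :=
  h4 _ _ fun φ hφ =>
    twc_locNoEps_of_locTriv td a P φ (twc_locTriv_of_coord8 td a P φ hφ)

/-- a lift of `rb` is residually trivial where `rb` is trivial. -/
theorem twc_lm_hres (P : twc_HPair 𝒪 rb) {τ : GQ} (h : rb τ = 1) :
    twc_lr_In (maximalIdeal P.T) (P.r τ - 1) := by
  intro i j
  have h5 := P.lift τ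
  rw [h] at h5
  have h6 := congrFun (congrFun h5 i) j
  rw [Matrix.map_apply, Matrix.map_apply] at h6
  rw [← IsLocalRing.residue_eq_zero_iff, Matrix.sub_apply, map_sub, h6]
  by_cases hij : i = j
  · subst hij; simp
  · simp [Matrix.one_apply_ne hij]

end Core

section Det

variable {A : Type} [CommRing A] [IsLocalRing A] [IsNoetherianRing A]

/-- **`det r(σ) = 1`** on the inertia groups at `ℓ ≠ p`, from the cyclotomic determinant. -/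
theorem twc_lm_det_inertia {p : ℕ} [Fact p.Prime] (r : FramedRep A) (ℓ : Nat.Primes)
    (hℓp : (ℓ : ℕ) ≠ p) (hdet : r.toGaloisRepAdic.DetIsCyclotomic p) {σ : GQ}
    (hσ : σ ∈ (primeLocalPlace ℓ).inertiaSubgroupIn ℚ) :
    (r σ).det = 1 := by
  have hpp : p.Prime := Fact.out
  obtain ⟨hpA, hcyc⟩ := hdet
  rw [← sub_eq_zero]
  refine twc_lr_eq_zero_of_forall_mem fun n => ?_
  haveI : NeZero (p ^ n) := ⟨pow_ne_zero _ hpp.ne_zero⟩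
  have hℓn : ¬ (ℓ : ℕ) ∣ p ^ n := fun h =>
    hℓp ((Nat.prime_dvd_prime_iff_eq ℓ.2 hpp).1 (ℓ.2.dvd_of_dvd_pow h))
  have h1 := hcyc n σ 1 fun μ hμ => by
    rw [pow_one]
    exact Fermat.Agent.DS.dspk_cyc_inertia_root (p ^ n) ℓ.2 hℓn (primeLocalPlace ℓ)
      (s56ld_liesOver ℓ) hσ hμ
  have h2 : LinearMap.det (r.toGaloisRepAdic.ρ σ) = (r σ).det :=
    LinearMap.det_toLin' (r σ)
  rw [h2, Nat.cast_one] at h1
  have h3 : Ideal.span {((p ^ n : ℕ) : A)} ≤ maximalIdeal A ^ n := by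
    rw [Ideal.span_singleton_le_iff_mem]
    push_cast
    exact Ideal.pow_mem_pow hpA n
  exact h3 h1

theorem twc_lm_det_sigma {p : ℕ} [Fact p.Prime] {Th : Finset Nat.Primes}
    (td : twc_TameData p Th) (r : FramedRep A) (ℓ : Nat.Primes) (hℓ : ℓ ∈ Th)
    (hℓp : (ℓ : ℕ) ≠ p) (hdet : r.toGaloisRepAdic.DetIsCyclotomic p) :
    (r (td.gσ ℓ)).det = 1 :=
  twc_lm_det_inertia r ℓ hℓp hdet (td.σ_mem ℓ hℓ)

end Det

section Rel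

variable {𝒪 : Type} [CommRing 𝒪] [IsLocalRing 𝒪] {rb : FramedResidual (ResidueField 𝒪)}

/-- **the field `rel` of the unipotent system**: every presentation hitting the local
coordinates kills `J¹`. -/
theorem twc_lm_rel_unip {p : ℕ} [Fact p.Prime] (hp2 : p ≠ 2) {Th : Finset Nat.Primes}
    (td : twc_TameData p Th) (a : Nat.Primes → 𝒪) (P : twc_HPair 𝒪 rb)
    (hrbI : ∀ ℓ ∈ Th, ∀ τ ∈ (primeLocalPlace ℓ).inertiaSubgroupIn ℚ, rb τ = 1)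
    (hφa : ∀ ℓ ∈ Th, rb (td.gφ ℓ) = Matrix.scalar (Fin 2) (residue 𝒪 (a ℓ)))
    (hℓp : ∀ ℓ ∈ Th, (ℓ : ℕ) ≠ p)
    (hdet : P.r.toGaloisRepAdic.DetIsCyclotomic p)
    (hun : ∀ ℓ ∈ Th, P.r.toGaloisRepAdic.IsUnipotentOnInertiaAt (ℓ : ℕ))
    {κ : Type} (γ : MvPowerSeries ((↥Th × Fin 2 × Fin 2 × Fin 2) ⊕ κ) 𝒪 →ₐ[𝒪] P.T)
    (hγ : ∀ c, γ (MvPowerSeries.X (Sum.inl c)) = (twc_lm_z td a P hrbI hφa c : P.T)) :
    twb_r8_Junip 𝒪 κ p (fun ℓ : ↥Th => a ℓ) (fun ℓ : ↥Th => ((ℓ : Nat.Primes) : ℕ)) ≤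
      RingHom.ker (γ : MvPowerSeries ((↥Th × Fin 2 × Fin 2 × Fin 2) ⊕ κ) 𝒪 →+* P.T) :=
  twc_l8_Junip_le_ker hp2 td P.r hℓp
    (fun ℓ hℓ τ hτ => twc_lm_hres P (hrbI ℓ hℓ τ hτ)) hdet hun a γ
    (fun ℓ i j => hγ (ℓ, 0, i, j)) (fun ℓ i j => hγ (ℓ, 1, i, j))

/-- **the field `rel` of the `χ`-system**: every presentation hitting the local coordinates kills
`J^χ`, as soon as `∑_{k<p} r(σ_ℓ)^k = 0` at the hard primes. -/
theorem twc_lm_rel_hash {p : ℕ} [Fact p.Prime] {Th : Finset Nat.Primes}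
    (td : twc_TameData p Th) (a : Nat.Primes → 𝒪) (P : twc_HPair 𝒪 rb)
    (hrbI : ∀ ℓ ∈ Th, ∀ τ ∈ (primeLocalPlace ℓ).inertiaSubgroupIn ℚ, rb τ = 1)
    (hφa : ∀ ℓ ∈ Th, rb (td.gφ ℓ) = Matrix.scalar (Fin 2) (residue 𝒪 (a ℓ)))
    (hℓp : ∀ ℓ ∈ Th, (ℓ : ℕ) ≠ p) (hℓ1 : ∀ ℓ ∈ Th, (ℓ : ℕ) % p = 1)
    (hdet : P.r.toGaloisRepAdic.DetIsCyclotomic p)
    (hgeom : ∀ ℓ ∈ Th, ∑ k ∈ Finset.range p, P.r (td.gσ ℓ) ^ k = 0)
    {κ : Type} (γ : MvPowerSeries ((↥Th × Fin 2 × Fin 2 × Fin 2) ⊕ κ) 𝒪 →ₐ[𝒪] P.T)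
    (hγ : ∀ c, γ (MvPowerSeries.X (Sum.inl c)) = (twc_lm_z td a P hrbI hφa c : P.T)) :
    twb_r8_Jhash 𝒪 κ p (fun ℓ : ↥Th => a ℓ) (fun ℓ : ↥Th => ((ℓ : Nat.Primes) : ℕ)) ≤
      RingHom.ker (γ : MvPowerSeries ((↥Th × Fin 2 × Fin 2 × Fin 2) ⊕ κ) 𝒪 →+* P.T) :=
  twc_l8_Jhash_le_ker td P.r hℓp hℓ1
    (fun ℓ hℓ τ hτ => twc_lm_hres P (hrbI ℓ hℓ τ hτ)) hdet hgeom
    (fun ℓ hℓ => twc_lm_det_sigma td P.r ℓ hℓ (hℓp ℓ hℓ) hdet) a γ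
    (fun ℓ i j => hγ (ℓ, 0, i, j)) (fun ℓ i j => hγ (ℓ, 1, i, j))

end Rel

section Push

variable {𝒪 : Type} [CommRing 𝒪] [IsLocalRing 𝒪] {rb : FramedResidual (ResidueField 𝒪)}

/-- **the coordinates of a push-forward are the images of the coordinates.** -/
theorem twc_lm_coord8_push {p : ℕ} {Th : Finset Nat.Primes} (td : twc_TameData p Th)
    (a : Nat.Primes → 𝒪) (P : twc_HPair 𝒪 rb)
    (T' : Type) [CommRing T'] [IsLocalRing T'] [IsNoetherianRing T']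
    [IsAdicComplete (maximalIdeal T') T'] [Algebra 𝒪 T'] [IsLocalHom (algebraMap 𝒪 T')]
    (q : P.T →ₐ[𝒪] T') (hq : Function.Surjective q) (x : ↥Th × Fin 2 × Fin 2 × Fin 2) :
    twc_coord8 td a (twc_hp_push P T' q hq) x = q (twc_coord8 td a P x) := by
  obtain ⟨ℓ, c, i, j⟩ := x
  fin_cases c
  · change ((P.r (td.gσ ℓ)).map q - (1 : Matrix (Fin 2) (Fin 2) T')) i j =
      q ((P.r (td.gσ ℓ) - 1) i j)
    rw [Matrix.sub_apply, Matrix.sub_apply, map_sub, Matrix.map_apply]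
    by_cases hij : i = j
    · subst hij; simp
    · simp [Matrix.one_apply_ne hij]
  · change ((P.r (td.gφ ℓ)).map q -
        (Matrix.scalar (Fin 2) (algebraMap 𝒪 T' (a ℓ)) : Matrix (Fin 2) (Fin 2) T')) i j =
      q ((P.r (td.gφ ℓ) - Matrix.scalar (Fin 2) (algebraMap 𝒪 P.T (a ℓ))) i j)
    rw [Matrix.sub_apply, Matrix.sub_apply, map_sub, Matrix.map_apply]
    by_cases hij : i = j
    · subst hij; simp
    · simp [Matrix.scalar_apply, Matrix.diagonal_apply_ne _ hij]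

theorem twc_lm_z_push {p : ℕ} {Th : Finset Nat.Primes} (td : twc_TameData p Th)
    (a : Nat.Primes → 𝒪) (P : twc_HPair 𝒪 rb)
    (hrbI : ∀ ℓ ∈ Th, ∀ τ ∈ (primeLocalPlace ℓ).inertiaSubgroupIn ℚ, rb τ = 1)
    (hφa : ∀ ℓ ∈ Th, rb (td.gφ ℓ) = Matrix.scalar (Fin 2) (residue 𝒪 (a ℓ)))
    (T' : Type) [CommRing T'] [IsLocalRing T'] [IsNoetherianRing T']
    [IsAdicComplete (maximalIdeal T') T'] [Algebra 𝒪 T'] [IsLocalHom (algebraMap 𝒪 T')]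
    (q : P.T →ₐ[𝒪] T') (hq : Function.Surjective q) (x : ↥Th × Fin 2 × Fin 2 × Fin 2) :
    ((twc_lm_z td a (twc_hp_push P T' q hq) hrbI hφa x).1 : (twc_hp_push P T' q hq).T) =
      q (twc_lm_z td a P hrbI hφa x : P.T) :=
  twc_lm_coord8_push td a P T' q hq x

end Push

section Sys

variable {𝒪 : Type} [CommRing 𝒪] [IsLocalRing 𝒪] {rb : FramedResidual (ResidueField 𝒪)}

/-- **a system from a Hecke pair** (general relation ideal `J`). -/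
def twc_lm_sys {p : ℕ} {Th : Finset Nat.Primes} (td : twc_TameData p Th) (a : Nat.Primes → 𝒪)
    (P : twc_HPair 𝒪 rb)
    (hrbI : ∀ ℓ ∈ Th, ∀ τ ∈ (primeLocalPlace ℓ).inertiaSubgroupIn ℚ, rb τ = 1)
    (hφa : ∀ ℓ ∈ Th, rb (td.gφ ℓ) = Matrix.scalar (Fin 2) (residue 𝒪 (a ℓ)))
    {r d g : ℕ} {κ : Type}
    (J : Ideal (MvPowerSeries ((↥Th × Fin 2 × Fin 2 × Fin 2) ⊕ κ) 𝒪))
    {B : Type} [CommRing B] [Algebra 𝒪 B] (yB : Fin r → B)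
    (hfin : Module.finrank (ResidueField P.T)
      (CotangentSpace P.T ⧸ twc_relW 𝒪 (twc_lm_z td a P hrbI hφa)) ≤ g)
    (hrel : ∀ γ : MvPowerSeries ((↥Th × Fin 2 × Fin 2 × Fin 2) ⊕ κ) 𝒪 →ₐ[𝒪] P.T,
      (∀ c, γ (MvPowerSeries.X (Sum.inl c)) = (twc_lm_z td a P hrbI hφa c : P.T)) →
      J ≤ RingHom.ker (γ : MvPowerSeries ((↥Th × Fin 2 × Fin 2 × Fin 2) ⊕ κ) 𝒪 →+* P.T))
    (act : P.T →ₐ[𝒪] Matrix (Fin d) (Fin d) B) (u : Fin r → P.T)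
    (u_mem : ∀ i, u i - 1 ∈ maximalIdeal P.T)
    (act_u : ∀ i, act (u i) = Matrix.scalar (Fin d) (1 + yB i)) :
    twc_LvSys 𝒪 r d g (↥Th × Fin 2 × Fin 2 × Fin 2) ((↥Th × Fin 2 × Fin 2 × Fin 2) ⊕ κ)
      Sum.inl J B yB where
  T := P.T
  residue_surjective := P.residue_surjective
  z := twc_lm_z td a P hrbI hφa
  finrank_le := hfin
  rel := hrel
  act := act
  u := u
  u_mem := u_mem
  act_u := act_u

/-- **the unipotent system** (`J = J¹ = twb_r8_Junip`, free variables `Fin g ⊕ Fin g`). -/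
def twc_lm_sys1 {p : ℕ} [Fact p.Prime] (hp2 : p ≠ 2) {Th : Finset Nat.Primes}
    (td : twc_TameData p Th) (a : Nat.Primes → 𝒪) (P : twc_HPair 𝒪 rb)
    (hrbI : ∀ ℓ ∈ Th, ∀ τ ∈ (primeLocalPlace ℓ).inertiaSubgroupIn ℚ, rb τ = 1)
    (hφa : ∀ ℓ ∈ Th, rb (td.gφ ℓ) = Matrix.scalar (Fin 2) (residue 𝒪 (a ℓ)))
    (hℓp : ∀ ℓ ∈ Th, (ℓ : ℕ) ≠ p)
    (hdet : P.r.toGaloisRepAdic.DetIsCyclotomic p)
    (hun : ∀ ℓ ∈ Th, P.r.toGaloisRepAdic.IsUnipotentOnInertiaAt (ℓ : ℕ))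
    {r d g : ℕ} {B : Type} [CommRing B] [Algebra 𝒪 B] (yB : Fin r → B)
    (h4 : ∀ (ι : Type) (z : ι → maximalIdeal P.T),
      (∀ φ : P.T →ₐ[𝒪] DualNumber (ResidueField 𝒪), (∀ i, φ (z i : P.T) = 0) →
        twc_LocNoEps td P φ) →
      Module.finrank (ResidueField P.T) (CotangentSpace P.T ⧸ twc_relW 𝒪 z) ≤ g)
    (act : P.T →ₐ[𝒪] Matrix (Fin d) (Fin d) B) (u : Fin r → P.T)
    (u_mem : ∀ i, u i - 1 ∈ maximalIdeal P.T)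
    (act_u : ∀ i, act (u i) = Matrix.scalar (Fin d) (1 + yB i)) :
    twc_LvSys 𝒪 r d g (↥Th × Fin 2 × Fin 2 × Fin 2)
      ((↥Th × Fin 2 × Fin 2 × Fin 2) ⊕ (Fin g ⊕ Fin g)) Sum.inl
      (twb_r8_Junip 𝒪 (Fin g ⊕ Fin g) p (fun ℓ : ↥Th => a ℓ)
        (fun ℓ : ↥Th => ((ℓ : Nat.Primes) : ℕ))) B yB :=
  twc_lm_sys td a P hrbI hφa _ yB (twc_lm_finrank_le td a P hrbI hφa h4)
    (fun γ hγ => twc_lm_rel_unip hp2 td a P hrbI hφa hℓp hdet hun γ hγ) act u u_mem act_u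

/-- **the `χ`-system** (`J = J^χ = twb_r8_Jhash`, free variables `Fin g`). -/
def twc_lm_sysχ {p : ℕ} [Fact p.Prime] {Th : Finset Nat.Primes}
    (td : twc_TameData p Th) (a : Nat.Primes → 𝒪) (P : twc_HPair 𝒪 rb)
    (hrbI : ∀ ℓ ∈ Th, ∀ τ ∈ (primeLocalPlace ℓ).inertiaSubgroupIn ℚ, rb τ = 1)
    (hφa : ∀ ℓ ∈ Th, rb (td.gφ ℓ) = Matrix.scalar (Fin 2) (residue 𝒪 (a ℓ)))
    (hℓp : ∀ ℓ ∈ Th, (ℓ : ℕ) ≠ p) (hℓ1 : ∀ ℓ ∈ Th, (ℓ : ℕ) % p = 1)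
    (hdet : P.r.toGaloisRepAdic.DetIsCyclotomic p)
    (hgeom : ∀ ℓ ∈ Th, ∑ k ∈ Finset.range p, P.r (td.gσ ℓ) ^ k = 0)
    {r d g : ℕ} {B : Type} [CommRing B] [Algebra 𝒪 B] (yB : Fin r → B)
    (h4 : ∀ (ι : Type) (z : ι → maximalIdeal P.T),
      (∀ φ : P.T →ₐ[𝒪] DualNumber (ResidueField 𝒪), (∀ i, φ (z i : P.T) = 0) →
        twc_LocNoEps td P φ) →
      Module.finrank (ResidueField P.T) (CotangentSpace P.T ⧸ twc_relW 𝒪 z) ≤ g)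
    (act : P.T →ₐ[𝒪] Matrix (Fin d) (Fin d) B) (u : Fin r → P.T)
    (u_mem : ∀ i, u i - 1 ∈ maximalIdeal P.T)
    (act_u : ∀ i, act (u i) = Matrix.scalar (Fin d) (1 + yB i)) :
    twc_LvSys 𝒪 r d g (↥Th × Fin 2 × Fin 2 × Fin 2)
      ((↥Th × Fin 2 × Fin 2 × Fin 2) ⊕ Fin g) Sum.inl
      (twb_r8_Jhash 𝒪 (Fin g) p (fun ℓ : ↥Th => a ℓ)
        (fun ℓ : ↥Th => ((ℓ : Nat.Primes) : ℕ))) B yB :=
  twc_lm_sys td a P hrbI hφa _ yB (twc_lm_finrank_le td a P hrbI hφa h4)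
    (fun γ hγ => twc_lm_rel_hash td a P hrbI hφa hℓp hℓ1 hdet hgeom γ hγ) act u u_mem act_u

end Sys

end

end Fermat.Agent.TW
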