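import Fermat.Agent.TW.Def.SigmaSeam
import Fermat.Agent.TW.Def.LevelTwo
import Fermat.Agent.TW.Def.LvSysMk
import Fermat.Agent.TW.Aut.SeamsLG2
import Fermat.Agent.TW.Patch.InertiaBridge
import Fermat.Agent.TW.Loc.Rel8

/-!
# Project ONE MACHINE: the final assembly of [C], the seam between C/Pre and C/LevelAsm (helper21)

`twc_LevelAsm_stmt` **[LevelAsm]**: ONE level `m`.  From the level-independent data
(`rb`, `ThP`, `td`, `a`, the base `B` of block [E] with its levels, the fixed framing `r0` of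
`B.H.ρ`) and the output of `twc_finrank_le` at level `m` (the Taylor–Wiles primes `qv` with the
count), the level input `twc_LvIn2` in EXACTLY the shape of `twt_PatchLv_stmt`
(`Th := ↥ThP`, `a := fun ℓ => a ℓ`, `n := fun ℓ => ℓ`, `g := r - 3 |ThP|`, `d := B.d * 2 ^ r`,
`j := twc_j B r`, `β := r0 (σ_{q₀}) - 1`).

* C/Pre (helper13): `twc_LevelAsm_stmt → twe_M2LG2_stmt → twt_PatchLv_stmt`;
* C/LevelAsm (helper21): `twc_LevelAsm_stmt` from `twlg_as_A4`, `twc_am_Act`, Frames, `twc_lm_sys1/χ`,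
  `twc_lvin2_of_two`.
-/

set_option autoImplicit false
set_option linter.unusedSectionVars false

open Polynomial CuspForm IsLocalRing
open Fermat.Agent.S53 Fermat.Agent.S56

namespace Fermat.Agent.TW

noncomputable section

local notation "GQ" => (AlgebraicClosure ℚ ≃ₐ[ℚ] AlgebraicClosure ℚ)
local notation "Qbar" => AlgebraicClosure ℚ

attribute [local instance] S53.dualNumberAlgebra

/-- **[LevelAsm]**: the level input at ONE level `m`. -/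
def twc_LevelAsm_stmt : Prop :=
  ∀ (p : ℕ) [Fact p.Prime], 5 ≤ p →
  ∀ (𝒪 : Type) [CommRing 𝒪] [IsDomain 𝒪] [IsDiscreteValuationRing 𝒪]
    [IsAdicComplete (maximalIdeal 𝒪) 𝒪] [Finite (ResidueField 𝒪)] [CharZero 𝒪],
    (p : 𝒪) ∈ maximalIdeal 𝒪 →
  ∀ (lam : 𝒪), maximalIdeal 𝒪 = Ideal.span {lam} →
  ∀ (ζ : 𝒪), IsPrimitiveRoot ζ p →
  ∀ (N : ℕ) [NeZero N], Squarefree N → 2 ∣ N → ¬ p ∣ N →
  ∀ (S : Finset ℕ), p ∈ S → (∀ ℓ : ℕ, ℓ.Prime → ℓ ∣ N → ℓ ∈ S) →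
  ∀ (θ : heckeAlgebra N 2 (↑S : Set ℕ) →+* ResidueField 𝒪)
    (rb : FramedResidual (ResidueField 𝒪)),
    twt_Compat θ rb.toResidualGaloisRep → s56a_Hyp p rb.toResidualGaloisRep →
    (∀ q : ℕ, q.Prime → q ≠ p →
      (q ∈ ({2, p} : Finset ℕ) ↔ ¬ rb.toResidualGaloisRep.IsUnramifiedAt q)) →
  ∀ (ThP : Finset Nat.Primes),
    (∀ ℓ ∈ ThP, (ℓ : ℕ) ∣ N ∧ (ℓ : ℕ) ≠ 2 ∧ (ℓ : ℕ) % p = 1 ∧
      twt_FrobScalar rb.toResidualGaloisRep ℓ) →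
    (∀ ℓ : Nat.Primes, (ℓ : ℕ) ∣ N → (ℓ : ℕ) ≠ 2 → ℓ ∈ ThP) →
  ∀ (td : twc_TameData p ThP), twib_InertiaGen td →
  ∀ (a : Nat.Primes → 𝒪),
    (∀ ℓ ∈ ThP, rb (td.gφ ℓ) = Matrix.scalar (Fin 2) (residue 𝒪 (a ℓ))) →
  ∀ (B : twe_Base 𝒪 N S θ),
    (∀ (Q : Finset ℕ) [NeZero (twe_Nbal N Q ∅)], (∀ t ∈ Q, t ∉ S) → twe_IsTWSet θ p Q →
      ∃ L : twe_Level B p Q, L.IsLG2 ∧
        ∀ (Th : Finset ℕ) [NeZero (twe_Nbal N Q Th)],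
          (∀ ℓ ∈ Th, ℓ.Prime ∧ ℓ ∣ N ∧ ℓ ≠ 2) → ∃ Bg : twe_Big L Th, Bg.IsLG2) →
  ∀ (r0 : FramedRep B.T), B.H.ρ.IsEquiv r0.toGaloisRepAdic →
    r0.IsLiftOf rb (ResidueField.map (algebraMap 𝒪 B.T)) →
  ∀ (r : ℕ), 3 * ThP.card ≤ r →
  ∀ (m : ℕ) (qv : Fin r → ℕ), Function.Injective qv →
    (∀ i, (qv i).Prime ∧ qv i ∉ S ∧ p ^ (m + 1) ∣ qv i - 1) →
    (∀ i, ∀ P : ValuationSubring Qbar, P.LiesOverPrime (qv i) →
      ∀ φ : GQ, P.IsFrobeniusAt φ (qv i) → ∃ α β : ResidueField 𝒪, α ≠ β ∧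
        LinearMap.charpoly (rb.toResidualGaloisRep.ρ φ) = (X - C α) * (X - C β)) →
    (∀ (H : twc_HPair 𝒪 rb),
      twc_IsType p {2, p} ThP (Finset.univ.image qv) H.r.toGaloisRepAdic →
      ∀ (ι : Type) (z : ι → maximalIdeal H.T),
        (∀ φ : H.T →ₐ[𝒪] DualNumber (ResidueField 𝒪), (∀ i, φ (z i : H.T) = 0) →
          twc_LocNoEps td H φ) →
        Module.finrank (ResidueField H.T) (CotangentSpace H.T ⧸ twc_relW 𝒪 z) ≤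
          r - 3 * ThP.card) →
  ∀ (q₀ : ↥ThP),
    Nonempty (twc_LvIn2 𝒪 lam r (B.d * 2 ^ r) (r - 3 * ThP.card)
      (↥ThP × Fin 2 × Fin 2 × Fin 2)
      (twb_r8_Junip 𝒪 (Fin (r - 3 * ThP.card) ⊕ Fin (r - 3 * ThP.card)) p
        (fun ℓ : ↥ThP => a ℓ) (fun ℓ : ↥ThP => ((ℓ : Nat.Primes) : ℕ)))
      (twb_r8_Jhash 𝒪 (Fin (r - 3 * ThP.card)) p
        (fun ℓ : ↥ThP => a ℓ) (fun ℓ : ↥ThP => ((ℓ : Nat.Primes) : ℕ)))
      (twds_a 𝒪 r) (twds_b 𝒪 r (p ^ m)) (twds_b_le_a r (p ^ m)) B.T (twc_j B r)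
      (fun i k => (q₀, 0, i, k)) (fun i k => (r0 (td.gσ q₀) - 1) i k))

end

end Fermat.Agent.TW
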