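/-
Project ONE MACHINE, block [C] DEF, cell C/ChiSys (helper29).  Prefix `twc_cs_`.

* `twc_cs_geom` : the ONLY place where (A-X) of `twc_ALG` and clause (4) of `twc_Act_stmt` meet:
  the matrix action `actχ` of `T''` on `M^χ` kills the entries of `∑_{k<p} r''(σ_ℓ)^k`.
* `twc_cs_main` : the GENERIC quotient system.  A Hecke pair `P` with a matrix action `act` of `P.T`
  killing the entries of `∑_{k<p} P.r(σ_ℓ)^k` (`ℓ ∈ Th`) gives the `χ`-system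
  `sχ : twc_LvSys … (twb_r8_Jhash …)` on `sχ.T = P.T ⧸ ker act`, with the surjection
  `πχ : P.T ↠ sχ.T`, `z`, `u` pushed forward and `sχ.act ∘ πχ = act` — the `χ`-inputs of
  `twc_lvin2_of_two` with `T2 := P.T`.
-/
import Mathlib
import Fermat.Agent.TW.Def.LvSysMk
import Fermat.Agent.TW.Def.HPairPush
import Fermat.Agent.TW.Def.SeamA
import Fermat.Agent.TW.Def.SigmaSeam

set_option autoImplicit false
set_option linter.unusedSectionVars false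
set_option linter.style.haveILetI false

open Polynomial CuspForm IsLocalRing ExtCitation
open Fermat.Agent.S53 Fermat.Agent.S56

namespace Fermat.Agent.TW

noncomputable section

local notation "GQ" => (AlgebraicClosure ℚ ≃ₐ[ℚ] AlgebraicClosure ℚ)
local notation "Qbar" => AlgebraicClosure ℚ

attribute [local instance] S53.dualNumberAlgebra

section geom

variable {𝒪 : Type} [CommRing 𝒪] [IsDomain 𝒪] [IsDiscreteValuationRing 𝒪]
  [IsAdicComplete (maximalIdeal 𝒪) 𝒪]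
  {N : ℕ} [NeZero N] {S : Finset ℕ} {θ : heckeAlgebra N 2 (↑S : Set ℕ) →+* ResidueField 𝒪}
  {B : twe_Base 𝒪 N S θ} {p : ℕ} {Q : Finset ℕ} [NeZero (twe_Nbal N Q ∅)]
  {L : twe_Level B p Q} {Th : Finset ℕ} [NeZero (twe_Nbal N Q Th)]

/-- **(A-X) + clause (4) of [Act]**: `actχ` kills the entries of `∑_{k<p} r''(σ_ℓ)^k`. -/
theorem twc_cs_geom (Bg : twe_Big L Th) (χ : twe_Delta p Th →* 𝒪ˣ) (gσ : Nat.Primes → GQ)
    (hX : ∀ r : FramedRep Bg.T'', Bg.H''.ρ.IsEquiv r.toGaloisRepAdic →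
      ∀ ℓ : Nat.Primes, (ℓ : ℕ) ∈ Th → ∀ (i j : Fin 2) (m : Bg.Mb),
        (∑ k ∈ Finset.range p, r (gσ ℓ) ^ k) i j • m ∈
          twc_chiSub (G := twe_Delta p Q) (Mb := Bg.Mb) χ)
    (r'' : FramedRep Bg.T'') (hr : Bg.H''.ρ.IsEquiv r''.toGaloisRepAdic)
    {d : ℕ} {B' : Type} [CommRing B'] [Algebra 𝒪 B']
    (actχ : Bg.T'' →ₐ[𝒪] Matrix (Fin d) (Fin d) B')
    (h4 : ∀ x : Bg.T'',
      (∀ y : Bg.Mb, x • y ∈ twc_chiSub (G := twe_Delta p Q) (Mb := Bg.Mb) χ) → actχ x = 0)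
    (ℓ : Nat.Primes) (hℓ : (ℓ : ℕ) ∈ Th) (i j : Fin 2) :
    actχ ((∑ k ∈ Finset.range p, r'' (gσ ℓ) ^ k) i j) = 0 :=
  h4 _ fun y => hX r'' hr ℓ hℓ i j y

/-- the same from `twc_ALG`. -/
theorem twc_cs_geom_of_ALG (Bg : twe_Big L Th) (χ : twe_Delta p Th →* 𝒪ˣ) (gσ : Nat.Primes → GQ)
    (hALG : twc_ALG Bg χ gσ)
    (r'' : FramedRep Bg.T'') (hr : Bg.H''.ρ.IsEquiv r''.toGaloisRepAdic)
    {d : ℕ} {B' : Type} [CommRing B'] [Algebra 𝒪 B']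
    (actχ : Bg.T'' →ₐ[𝒪] Matrix (Fin d) (Fin d) B')
    (h4 : ∀ x : Bg.T'',
      (∀ y : Bg.Mb, x • y ∈ twc_chiSub (G := twe_Delta p Q) (Mb := Bg.Mb) χ) → actχ x = 0)
    (ℓ : Nat.Primes) (hℓ : (ℓ : ℕ) ∈ Th) (i j : Fin 2) :
    actχ ((∑ k ∈ Finset.range p, r'' (gσ ℓ) ^ k) i j) = 0 :=
  twc_cs_geom Bg χ gσ hALG.2 r'' hr actχ h4 ℓ hℓ i j

end geom

section main

variable {𝒪 : Type} [CommRing 𝒪] [IsLocalRing 𝒪] {rb : FramedResidual (ResidueField 𝒪)}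

/-- the kernel of a matrix action on a nonzero free module over a nontrivial ring is proper. -/
theorem twc_cs_ker_ne_top {A : Type} [CommRing A] [Algebra 𝒪 A] {d : ℕ} (hd : 0 < d)
    {B' : Type} [CommRing B'] [Algebra 𝒪 B'] [Nontrivial B']
    (act : A →ₐ[𝒪] Matrix (Fin d) (Fin d) B') :
    RingHom.ker (act : A →+* Matrix (Fin d) (Fin d) B') ≠ ⊤ := by
  intro h
  have h1 : (1 : A) ∈ RingHom.ker (act : A →+* Matrix (Fin d) (Fin d) B') :=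
    h ▸ Submodule.mem_top
  rw [RingHom.mem_ker] at h1
  have h2 : (act : A →+* Matrix (Fin d) (Fin d) B') 1 = 1 := map_one _
  rw [h2] at h1
  have h3 := congrFun (congrFun h1 ⟨0, hd⟩) ⟨0, hd⟩
  rw [Matrix.one_apply_eq, Matrix.zero_apply] at h3
  exact one_ne_zero h3

/-- **C/ChiSys, generic form.** -/
theorem twc_cs_main {p : ℕ} [Fact p.Prime] {Th : Finset Nat.Primes}
    (td : twc_TameData p Th) (a : Nat.Primes → 𝒪) (P : twc_HPair 𝒪 rb)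
    (hrbI : ∀ ℓ ∈ Th, ∀ τ ∈ (primeLocalPlace ℓ).inertiaSubgroupIn ℚ, rb τ = 1)
    (hφa : ∀ ℓ ∈ Th, rb (td.gφ ℓ) = Matrix.scalar (Fin 2) (residue 𝒪 (a ℓ)))
    (hℓp : ∀ ℓ ∈ Th, (ℓ : ℕ) ≠ p) (hℓ1 : ∀ ℓ ∈ Th, (ℓ : ℕ) % p = 1)
    {r d g : ℕ} (hd : 0 < d) {B' : Type} [CommRing B'] [Algebra 𝒪 B'] [Nontrivial B']
    (yB : Fin r → B')
    (act : P.T →ₐ[𝒪] Matrix (Fin d) (Fin d) B')
    (hgeom : ∀ ℓ ∈ Th, ∀ i j : Fin 2,
      act ((∑ k ∈ Finset.range p, P.r (td.gσ ℓ) ^ k) i j) = 0)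
    {Smin Q : Finset ℕ} (hType : twc_IsType p Smin Th Q P.r.toGaloisRepAdic)
    (hfin : ∀ (H : twc_HPair 𝒪 rb), twc_IsType p Smin Th Q H.r.toGaloisRepAdic →
      ∀ (ι : Type) (z : ι → maximalIdeal H.T),
        (∀ φ : H.T →ₐ[𝒪] DualNumber (ResidueField 𝒪), (∀ i, φ (z i : H.T) = 0) →
          twc_LocNoEps td H φ) →
        Module.finrank (ResidueField H.T) (CotangentSpace H.T ⧸ twc_relW 𝒪 z) ≤ g)
    (u : Fin r → P.T) (u_mem : ∀ i, u i - 1 ∈ maximalIdeal P.T)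
    (act_u : ∀ i, act (u i) = Matrix.scalar (Fin d) (1 + yB i)) :
    ∃ (sχ : twc_LvSys 𝒪 r d g (↥Th × Fin 2 × Fin 2 × Fin 2)
          ((↥Th × Fin 2 × Fin 2 × Fin 2) ⊕ Fin g) Sum.inl
          (twb_r8_Jhash 𝒪 (Fin g) p (fun ℓ : ↥Th => a ℓ)
            (fun ℓ : ↥Th => ((ℓ : Nat.Primes) : ℕ))) B' yB)
      (πχ : P.T →ₐ[𝒪] sχ.T), Function.Surjective πχ ∧
      (∀ c, (sχ.z c : sχ.T) = πχ (twc_lm_z td a P hrbI hφa c : P.T)) ∧
      (∀ i, sχ.u i = πχ (u i)) ∧ ∀ x, sχ.act (πχ x) = act x := by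
  classical
  have hItop := twc_cs_ker_ne_top (𝒪 := 𝒪) hd act
  set I : Ideal P.T := RingHom.ker (act : P.T →+* Matrix (Fin d) (Fin d) B') with hI
  let Pχ : twc_HPair 𝒪 rb := twc_hp_quot P I hItop
  let q : P.T →ₐ[𝒪] Pχ.T := Ideal.Quotient.mkₐ 𝒪 I
  have hq : Function.Surjective q := Ideal.Quotient.mkₐ_surjective 𝒪 I
  have hqloc : IsLocalHom (q : P.T →+* Pχ.T) := IsLocalHom.of_surjective _ hq
  -- the induced action
  let actχ : Pχ.T →ₐ[𝒪] Matrix (Fin d) (Fin d) B' :=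
    Ideal.Quotient.liftₐ I act (fun x hx => hx)
  have hactχ : ∀ x : P.T, actχ (q x) = act x := fun x => rfl
  -- the type
  have hType' : twc_IsType p Smin Th Q Pχ.r.toGaloisRepAdic :=
    twc_hp_isType_map (q : P.T →+* Pχ.T) hqloc hq P.r hType
  -- the geometric sums
  have hgeom' : ∀ ℓ ∈ Th, ∑ k ∈ Finset.range p, Pχ.r (td.gσ ℓ) ^ k = 0 := by
    intro ℓ hℓ
    have h1 : ∀ k : ℕ, Pχ.r (td.gσ ℓ) ^ k =
        (q : P.T →+* Pχ.T).mapMatrix (P.r (td.gσ ℓ) ^ k) := by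
      intro k
      rw [map_pow]
      rfl
    simp only [h1]
    rw [← map_sum]
    ext i j
    rw [RingHom.mapMatrix_apply, Matrix.map_apply, Matrix.zero_apply]
    exact Ideal.Quotient.eq_zero_iff_mem.2 (by rw [hI, RingHom.mem_ker]; exact hgeom ℓ hℓ i j)
  -- the diamonds
  have hu_mem' : ∀ i, q (u i) - 1 ∈ maximalIdeal Pχ.T := by
    intro i
    have h1 : q (u i) - 1 = q (u i - 1) := by rw [map_sub, map_one]
    rw [h1]
    haveI := hqloc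
    exact map_nonunit (q : P.T →+* Pχ.T) _ (u_mem i)
  refine ⟨twc_lm_sysχ td a Pχ hrbI hφa hℓp hℓ1 hType'.1 hgeom' yB (hfin Pχ hType') actχ
    (fun i => q (u i)) hu_mem' (fun i => by rw [hactχ]; exact act_u i), q, hq, ?_, ?_, ?_⟩
  · intro c
    exact twc_lm_z_push td a P hrbI hφa Pχ.T q hq c
  · intro i; rfl
  · intro x; rfl

end main

end

end Fermat.Agent.TW
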