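import Mathlib
import Fermat.Agent.TW.Def.LocRel

/-!
# Project TW (S43), cell C/LocRel, `χ`-side from the inertial type (prefix `twc_lc_`)

If the `χ`-system is specified by `twc_HasType ρ ℓ ψ` with `ψ = twc_psi ℓ χ₀`, `χ₀` a character of
`(ℤ/ℓ)ˣ` of exact order `p`, then `ζ := ψ(σ_ℓ)` is a primitive `p`-th root of unity
(`td.σ_cyclo`: `σ_ℓ` is not a `p`-th power under the mod `ℓ` cyclotomic character), and
`Σ := r(σ_ℓ)` satisfies `∑_{k<p} Σ^k = 0`, `det Σ = 1` — the hypotheses `hgeom`, `hdσ` of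
`twc_l8_Jhash_le_ker`.
-/

set_option autoImplicit false
set_option linter.unusedSectionVars false
set_option linter.style.haveILetI false

open Polynomial IsLocalRing ExtCitation
open Fermat.Agent.S53 Fermat.Agent.S56

namespace Fermat.Agent.TW

noncomputable section

local notation "GQ" => (AlgebraicClosure ℚ ≃ₐ[ℚ] AlgebraicClosure ℚ)
local notation "Qbar" => AlgebraicClosure ℚ

section poly

variable {𝒪 : Type*} [CommRing 𝒪]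

/-- two roots with regular difference: the product of the linear factors divides. -/
theorem twc_lc_dvd_of_roots (f : 𝒪[X]) (z w : 𝒪) (hz : f.IsRoot z) (hw : f.IsRoot w)
    (hreg : z - w ∈ nonZeroDivisors 𝒪) : (X - C z) * (X - C w) ∣ f := by
  obtain ⟨g, hg⟩ := dvd_iff_isRoot.2 hz
  have h1 : (w - z) * g.eval w = 0 := by
    have := hw
    rw [IsRoot.def, hg, eval_mul, eval_sub, eval_X, eval_C] at this
    exact this
  have h2 : g.eval w = 0 := by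
    have h3 : (z - w) * g.eval w = 0 := by
      have : (z - w) * g.eval w = -((w - z) * g.eval w) := by ring
      rw [this, h1, neg_zero]
    exact (mul_left_mem_nonZeroDivisors_eq_zero_iff hreg).1 h3
  obtain ⟨h, hh⟩ := dvd_iff_isRoot.2 (show g.IsRoot w from h2)
  exact ⟨h, by rw [hg, hh, mul_assoc]⟩

/-- a matrix whose characteristic polynomial is `(X - z)(X - w)`, `z, w` roots of `f` with regular
difference in the coefficient ring, is killed by `f`. -/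
theorem twc_lc_aeval_eq_zero {A : Type*} [CommRing A] [Algebra 𝒪 A] {n : Type*} [Fintype n]
    [DecidableEq n] (f : 𝒪[X]) (z w : 𝒪) (hz : f.IsRoot z) (hw : f.IsRoot w)
    (hreg : z - w ∈ nonZeroDivisors 𝒪) (M : Matrix n n A)
    (hM : M.charpoly = (X - C (algebraMap 𝒪 A z)) * (X - C (algebraMap 𝒪 A w))) :
    aeval M f = 0 := by
  obtain ⟨h, hh⟩ := twc_lc_dvd_of_roots f z w hz hw hreg
  have h1 : f.map (algebraMap 𝒪 A) = M.charpoly * h.map (algebraMap 𝒪 A) := by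
    rw [hh, hM]
    simp [Polynomial.map_mul]
  have h2 : aeval M f = aeval M (f.map (algebraMap 𝒪 A)) := by
    rw [aeval_map_algebraMap]
  rw [h2, h1, map_mul, Matrix.aeval_self_charpoly, zero_mul]

/-- the geometric sum polynomial evaluated at a matrix. -/
theorem twc_lc_aeval_geom {A : Type*} [CommRing A] [Algebra 𝒪 A] {n : Type*} [Fintype n]
    [DecidableEq n] (p : ℕ) (M : Matrix n n A) :
    aeval M (∑ k ∈ Finset.range p, (X : 𝒪[X]) ^ k) = ∑ k ∈ Finset.range p, M ^ k := by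
  simp [map_sum]

end poly

section root

/-- in a domain, a unit `ζ ≠ 1` with `ζ^p = 1` is a root of `∑_{k<p} X^k`. -/
theorem twc_lc_isRoot_geom {𝒪 : Type*} [CommRing 𝒪] [IsDomain 𝒪] (p : ℕ) (ζ : 𝒪)
    (h1 : ζ ≠ 1) (hp : ζ ^ p = 1) : (∑ k ∈ Finset.range p, (X : 𝒪[X]) ^ k).IsRoot ζ := by
  rw [IsRoot.def, eval_finsetSum]
  simp only [eval_pow, eval_X]
  have h := geom_sum_mul ζ p
  rw [hp, sub_self] at h
  rcases mul_eq_zero.1 h with h | h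
  · exact h
  · exact absurd (sub_eq_zero.1 h) h1

/-- `ζ ≠ ζ⁻¹` for a unit `ζ ≠ 1` with `ζ^p = 1`, `p` odd. -/
theorem twc_lc_ne_inv {𝒪 : Type*} [CommRing 𝒪] (p : ℕ) (hodd : Odd p) (ζ : 𝒪ˣ)
    (h1 : ζ ≠ 1) (hp : ζ ^ p = 1) : ζ ≠ ζ⁻¹ := by
  intro h
  have h2 : ζ ^ 2 = 1 := by
    rw [pow_two]
    nth_rw 2 [h]
    exact mul_inv_cancel ζ
  obtain ⟨m, hm⟩ := hodd
  apply h1
  have h3 : ζ ^ p = ζ := by
    rw [hm, pow_succ, pow_mul, h2, one_pow, one_mul]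
  rw [← h3, hp]

/-- a character `χ₀` of exact order `p` of the cyclic group `(ℤ/ℓ)ˣ` does not kill a non-`p`-th
power. -/
theorem twc_lc_chi_ne_one {G M : Type*} [Group G] [IsCyclic G] [Monoid M] {p : ℕ}
    (hp : p.Prime) (χ₀ : G →* Mˣ) (hχp : ∀ u, χ₀ u ^ p = 1) (hχ1 : χ₀ ≠ 1) (x : G)
    (hx : ∀ u : G, x ≠ u ^ p) : χ₀ x ≠ 1 := by
  obtain ⟨g, hg⟩ := IsCyclic.exists_generator (α := G)
  have hζ1 : χ₀ g ≠ 1 := by
    intro h
    apply hχ1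
    ext u
    obtain ⟨k, rfl⟩ := Subgroup.mem_zpowers_iff.1 (hg u)
    rw [map_zpow, h, one_zpow, MonoidHom.one_apply]
  have hord : orderOf (χ₀ g) = p := by
    have hd : orderOf (χ₀ g) ∣ p := orderOf_dvd_of_pow_eq_one (hχp g)
    rcases (Nat.dvd_prime hp).1 hd with h | h
    · exact absurd (orderOf_eq_one_iff.1 h) hζ1
    · exact h
  intro hx1
  obtain ⟨k, hk⟩ := Subgroup.mem_zpowers_iff.1 (hg x)
  rw [← hk, map_zpow] at hx1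
  have hdvd : (p : ℤ) ∣ k := by
    rw [← hord]
    exact orderOf_dvd_iff_zpow_eq_one.2 hx1
  obtain ⟨m, rfl⟩ := hdvd
  apply hx (g ^ m)
  rw [← hk, mul_comm, zpow_mul, zpow_natCast]

end root

section type

variable {A : Type} [CommRing A] [IsLocalRing A] [IsNoetherianRing A]

/-- **`hgeom`, `hdσ` from the inertial type**: if `r` has type `ψ` at `ℓ` and `ζ = ψ(σ_ℓ) ≠ 1`,
`ζ^p = 1` (`p` odd, `𝒪` a domain), then `∑_{k<p} Σ^k = 0` and `det Σ = 1`. -/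
theorem twc_lc_geom_of_type {𝒪 : Type} [CommRing 𝒪] [IsDomain 𝒪] [Algebra 𝒪 A] {p : ℕ}
    (hodd : Odd p) {Th : Finset Nat.Primes} (td : twc_TameData p Th) (r : FramedRep A)
    (ℓ : Nat.Primes) (hℓ : ℓ ∈ Th) (ψ : GQ →* 𝒪ˣ)
    (hT : twc_HasType (𝒪 := 𝒪) r.toGaloisRepAdic (ℓ : ℕ) ψ)
    (hζ1 : ψ (td.gσ ℓ) ≠ 1) (hζp : ψ (td.gσ ℓ) ^ p = 1) :
    ∑ k ∈ Finset.range p, r (td.gσ ℓ) ^ k = 0 ∧ (r (td.gσ ℓ)).det = 1 := by
  refine ⟨?_, (twc_lr_det_trace_sigma td r ℓ hℓ ψ hT).1⟩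
  set ζ : 𝒪ˣ := ψ (td.gσ ℓ) with hζ
  have hcp := twc_lr_charpoly td r ℓ hℓ ψ hT
  have hz1 : (ζ : 𝒪) ≠ 1 := fun h => hζ1 (Units.ext h)
  have hzp : (ζ : 𝒪) ^ p = 1 := by rw [← Units.val_pow_eq_pow_val, hζp, Units.val_one]
  have hi1 : ((ζ⁻¹ : 𝒪ˣ) : 𝒪) ≠ 1 := fun h => hζ1 (by
    have : ζ⁻¹ = 1 := Units.ext h
    rwa [inv_eq_one] at this)
  have hip : ((ζ⁻¹ : 𝒪ˣ) : 𝒪) ^ p = 1 := by
    rw [← Units.val_pow_eq_pow_val, inv_pow, hζp, inv_one, Units.val_one]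
  have hne : (ζ : 𝒪) - ((ζ⁻¹ : 𝒪ˣ) : 𝒪) ≠ 0 := by
    intro h
    exact twc_lc_ne_inv p hodd ζ hζ1 hζp (Units.ext (sub_eq_zero.1 h))
  have h := twc_lc_aeval_eq_zero (A := A) (∑ k ∈ Finset.range p, (X : 𝒪[X]) ^ k) (ζ : 𝒪)
    ((ζ⁻¹ : 𝒪ˣ) : 𝒪) (twc_lc_isRoot_geom p _ hz1 hzp) (twc_lc_isRoot_geom p _ hi1 hip)
    (mem_nonZeroDivisors_of_ne_zero hne) (r (td.gσ ℓ)) hcp
  rwa [twc_lc_aeval_geom] at h

/-- the same for `ψ = χ₀ ∘ cycloChar ℓ`, `χ₀` of exact order `p`: `ψ(σ_ℓ) ≠ 1` by `td.σ_cyclo`. -/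
theorem twc_lc_geom_of_psi {𝒪 : Type} [CommRing 𝒪] [IsDomain 𝒪] [Algebra 𝒪 A] {p : ℕ}
    (hp : p.Prime) (hp2 : p ≠ 2) {Th : Finset Nat.Primes} (td : twc_TameData p Th)
    (r : FramedRep A) (ℓ : Nat.Primes) (hℓ : ℓ ∈ Th) [hℓF : Fact (ℓ : ℕ).Prime]
    (χ₀ : (ZMod (ℓ : ℕ))ˣ →* 𝒪ˣ) (hχp : ∀ u, χ₀ u ^ p = 1) (hχ1 : χ₀ ≠ 1)
    (hT : twc_HasType (𝒪 := 𝒪) r.toGaloisRepAdic (ℓ : ℕ) (twc_psi (ℓ : ℕ) χ₀)) :
    ∑ k ∈ Finset.range p, r (td.gσ ℓ) ^ k = 0 ∧ (r (td.gσ ℓ)).det = 1 := by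
  have hodd : Odd p := hp.odd_of_ne_two hp2
  refine twc_lc_geom_of_type hodd td r ℓ hℓ _ hT ?_ ?_
  · show χ₀ (cycloChar (ℓ : ℕ) (td.gσ ℓ)) ≠ 1
    exact twc_lc_chi_ne_one hp χ₀ hχp hχ1 _ (td.σ_cyclo ℓ hℓ hℓF)
  · show χ₀ (cycloChar (ℓ : ℕ) (td.gσ ℓ)) ^ p = 1
    exact hχp _

end type

end

end Fermat.Agent.TW
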