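import Fermat.Agent.TW.Def.LevelAsm
import Fermat.Agent.TW.Top.PatchOfLv
import Fermat.Agent.TW.Top.CInput
import Fermat.Agent.TW.Patch.InertiaBridge

/-!
# Project ONE MACHINE: C/Pre = `twe_M2LG2_stmt → twt_PatchLv_stmt` (helper21)

The final assembly of block [C]: from the hypotheses of `twt_PatchLv_stmt` and block [E]
(`twe_M2LG2_stmt`) to the level inputs `twc_LvIn2` for every `m`, through `twc_levelAsm`.

* `twc_pm_sq` : `c² = ℓ` in the residue field for the scalar `c` of a Frobenius at `ℓ ≠ p`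
  (cyclotomic determinant);
* `twc_pm_main : twe_M2LG2_stmt → twt_PatchLv_stmt`.
-/

set_option autoImplicit false
set_option linter.unusedSectionVars false
set_option linter.style.haveILetI false

open Polynomial CuspForm IsLocalRing ExtCitation
open Fermat.Agent.S53 Fermat.Agent.S56 Fermat.Agent.JT3

namespace Fermat.Agent.TW

noncomputable section

local notation "GQ" => (AlgebraicClosure ℚ ≃ₐ[ℚ] AlgebraicClosure ℚ)
local notation "Qbar" => AlgebraicClosure ℚ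

attribute [local instance] S53.dualNumberAlgebra

/-- the square of the scalar of a Frobenius at `ℓ ≠ p` is `ℓ` (cyclotomic determinant). -/
theorem twc_pm_sq {p : ℕ} [Fact p.Prime] {κ : Type} [Field κ] [CharP κ p]
    (rb : FramedResidual κ)
    (hdet : (GaloisRepAdic.ofResidualGaloisRep rb.toResidualGaloisRep).DetIsCyclotomic p)
    {ℓ : ℕ} (hℓ : ℓ.Prime) (hℓp : ℓ ≠ p) (A : ValuationSubring Qbar) (hA : A.LiesOverPrime ℓ)
    (φ : GQ) (hφ : A.IsFrobeniusAt φ ℓ) (c : κ) (hc : rb φ = Matrix.scalar (Fin 2) c) :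
    c ^ 2 = (ℓ : κ) := by
  have h1 := hdet.2 1 φ ℓ fun μ hμ => cya_frob_rootsOfUnity p hℓ hℓp A hA φ hφ 1 hμ
  have h2 : ((p ^ 1 : ℕ) : κ) = 0 := by
    rw [pow_one]; exact CharP.cast_eq_zero κ p
  rw [h2, Ideal.span_singleton_eq_bot.2 rfl, Ideal.mem_bot, sub_eq_zero] at h1
  have h3 : LinearMap.det ((GaloisRepAdic.ofResidualGaloisRep rb.toResidualGaloisRep).ρ φ) =
      (rb φ).det := LinearMap.det_toLin' (rb φ)
  rw [h3, hc] at h1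
  rw [← h1]
  simp [Matrix.det_fin_two, pow_two]

/-- **C/Pre + C/LevelAsm = the whole of block [C]**: `twt_PatchLv_stmt` from block [E]. -/
theorem twc_pm_main (hE : twe_M2LG2_stmt) : twt_PatchLv_stmt := by
  classical
  intro p hpF hp5 k _ _ _ N q _ hNsq h2N hpN hq hq2 hqN S hpS hNS θ ρbar hcompat hnE habs hTW hram2
    hunr hhard 𝒪 _ _ _ _ _ _ _ hp𝒪 hζ hquad
  obtain ⟨ζ, hζ⟩ := hζ
  have hpp : p.Prime := Fact.out
  have hp2 : p ≠ 2 := by omega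
  have hN0 : N ≠ 0 := NeZero.ne N
  haveI : CharP (ResidueField 𝒪) p := s56a_charP p hp𝒪
  obtain ⟨rb, -, hyp, hcompat', hmin, hThS, hThmin, hThp, hscal⟩ :=
    twt_cinput hp2 hpN hNS θ ρbar hcompat habs hTW hram2 hunr hhard hquad
  -- a uniformiser
  obtain ⟨lam, hlam⟩ : ∃ lam : 𝒪, maximalIdeal 𝒪 = Ideal.span {lam} := by
    obtain ⟨ϖ, hϖ⟩ := IsDiscreteValuationRing.exists_irreducible 𝒪
    exact ⟨ϖ, (IsDiscreteValuationRing.irreducible_iff_uniformizer ϖ).1 hϖ⟩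
  -- the hard primes
  have hThN : ∀ ℓ ∈ twt_ci_Th N, ((ℓ : Nat.Primes) : ℕ) ∣ N ∧ ((ℓ : Nat.Primes) : ℕ) ≠ 2 :=
    fun ℓ hℓ => (twt_ci_mem_Th hN0 ℓ).1 hℓ
  have hThall : ∀ ℓ : Nat.Primes, (ℓ : ℕ) ∣ N → (ℓ : ℕ) ≠ 2 → ℓ ∈ twt_ci_Th N :=
    fun ℓ h1 h2 => (twt_ci_mem_Th hN0 ℓ).2 ⟨h1, h2⟩
  have hThmod : ∀ ℓ ∈ twt_ci_Th N, ((ℓ : Nat.Primes) : ℕ) % p = 1 := fun ℓ hℓ =>
    (hhard ℓ ℓ.2 (hThN ℓ hℓ).1 (hThN ℓ hℓ).2).1
  have hscal' : ∀ ℓ ∈ twt_ci_Th N, ∀ σ ∈ (primeLocalPlace ℓ).decompositionSubgroup ℚ,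
      ∃ c : ResidueField 𝒪, rb σ = Matrix.scalar (Fin 2) c := fun ℓ hℓ σ hσ =>
    hscal ℓ hℓ (primeLocalPlace ℓ) (s56ld_liesOver ℓ) σ hσ
  have hThP : ∀ ℓ ∈ twt_ci_Th N, ((ℓ : Nat.Primes) : ℕ) ∣ N ∧ ((ℓ : Nat.Primes) : ℕ) ≠ 2 ∧
      ((ℓ : Nat.Primes) : ℕ) % p = 1 ∧ twt_FrobScalar rb.toResidualGaloisRep ℓ := by
    intro ℓ hℓ
    refine ⟨(hThN ℓ hℓ).1, (hThN ℓ hℓ).2, hThmod ℓ hℓ, fun A hA σ hσ => ?_⟩
    obtain ⟨c, hc⟩ := hscal ℓ hℓ A hA σ hσ.mem_decompositionSubgroup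
    refine ⟨c, ?_⟩
    apply LinearMap.ext
    intro v
    have h1 : rb.toResidualGaloisRep.ρ σ v = (rb σ).mulVec v :=
      FramedResidual.toResidualGaloisRep_ρ_apply rb σ v
    rw [h1, hc]
    funext i
    show (Matrix.scalar (Fin 2) c).mulVec v i = c • (v : Fin 2 → ResidueField 𝒪) i
    simp [Matrix.mulVec, dotProduct, Matrix.scalar_apply, Matrix.diagonal_apply]
  -- the tame data
  set td : twc_TameData p (twt_ci_Th N) := twib_td p (twt_ci_Th N) hThp with htd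
  have hgen : twib_InertiaGen td := twib_td_inertiaGen p (twt_ci_Th N) hThp
  -- the Frobenius scalars
  have ha : ∀ ℓ : Nat.Primes, ∃ a : 𝒪, ℓ ∈ twt_ci_Th N →
      rb (td.gφ ℓ) = Matrix.scalar (Fin 2) (residue 𝒪 a) := by
    intro ℓ
    by_cases hℓ : ℓ ∈ twt_ci_Th N
    · obtain ⟨c, hc⟩ := hscal' ℓ hℓ (td.gφ ℓ) (td.φ_mem ℓ hℓ)
      obtain ⟨a, rfl⟩ := residue_surjective c
      exact ⟨a, fun _ => hc⟩
    · exact ⟨0, fun h => absurd h hℓ⟩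
  choose a ha using ha
  have hφa : ∀ ℓ ∈ twt_ci_Th N, rb (td.gφ ℓ) = Matrix.scalar (Fin 2) (residue 𝒪 (a ℓ)) :=
    fun ℓ hℓ => ha ℓ hℓ
  have han : ∀ ℓ ∈ twt_ci_Th N, a ℓ ^ 2 - (((ℓ : Nat.Primes) : ℕ) : 𝒪) ∈ maximalIdeal 𝒪 := by
    intro ℓ hℓ
    rw [← residue_eq_zero_iff, map_sub, map_pow, map_natCast, sub_eq_zero]
    exact twc_pm_sq rb hyp.hdet ℓ.2 (hThp ℓ hℓ).1 (primeLocalPlace ℓ) (s56ld_liesOver ℓ)
      (td.gφ ℓ) (td.φ_frob ℓ hℓ) _ (hφa ℓ hℓ)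
  -- block [E]
  obtain ⟨B, hB⟩ := hE p hp5 𝒪 hp𝒪 N hNsq hpN S hpS hNS
    ((algebraMap k (ResidueField 𝒪)).comp θ) rb.toResidualGaloisRep hcompat' hyp.habs
  obtain ⟨r0, hr0e, hr0l⟩ := twc_hp_exists_framed B.H hNS rb hcompat'
  -- the Taylor-Wiles primes
  have hpSmin : p ∈ ({2, p} : Finset ℕ) := by simp
  have hSmin : ({2, p} : Finset ℕ) ⊆ S := by
    intro x hx
    simp only [Finset.mem_insert, Finset.mem_singleton] at hx
    rcases hx with rfl | rfl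
    · exact hNS 2 Nat.prime_two h2N
    · exact hpS
  obtain ⟨r, hr, hqv⟩ := twc_finrank_le 𝒪 p hp2 hp𝒪 rb hyp S {2, p} hpSmin hSmin hmin
    (twt_ci_Th N) hThS hThmin hscal' td
  have hq₀ : (⟨q, hq⟩ : Nat.Primes) ∈ twt_ci_Th N := hThall ⟨q, hq⟩ hqN hq2
  refine ⟨B.T, inferInstance, inferInstance, inferInstance, inferInstance, inferInstance,
    inferInstance, inferInstance, inferInstance, B.H, r0, lam, ↥(twt_ci_Th N), inferInstance,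
    (fun ℓ => a ℓ), (fun ℓ => ((ℓ : Nat.Primes) : ℕ)), ⟨⟨q, hq⟩, hq₀⟩,
    r - 3 * (twt_ci_Th N).card, r, B.d * 2 ^ r, twc_j B r, hr0e, hlam, ?_, ?_, ?_, ?_, ?_, ?_, ?_⟩
  · intro t
    exact hThmod t.1 t.2
  · intro t
    exact han t.1 t.2
  · exact hq.ne_zero
  · exact hq.ne_one
  · rw [Fintype.card_coe]
    omega
  · exact Nat.mul_pos B.d_pos (pow_pos (by norm_num) r)
  · intro m
    obtain ⟨qv, inj, hqv1, hfrob, h4⟩ := hqv m
    exact twc_levelAsm p hp5 𝒪 hp𝒪 lam hlam ζ hζ N hNsq h2N hpN S hpS hNS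
      ((algebraMap k (ResidueField 𝒪)).comp θ) rb hcompat' hyp hmin (twt_ci_Th N) hThP hThall
      td hgen a hφa B hB r0 hr0e hr0l r hr m qv inj hqv1 hfrob h4 ⟨⟨q, hq⟩, hq₀⟩

end

end Fermat.Agent.TW
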